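import Mathlib
import Fermat.Agent.Lib.FrobeniusExists

/-!
# S37, leaf L1 (FROB∃): Frobenius elements at every valuation subring of `ℚ̄` over `ℓ`

* `FA_S37_FR_inertia` : two Frobenius elements at `A` differ by an element of the inertia group.
* `FA_S37_FR_exists` : for EVERY valuation subring `A` of `ℚ̄` over a prime `ℓ` there is a
  Frobenius element at `A` (`Lib/FrobeniusExists.lean` has it for SOME `A`).
-/

set_option autoImplicit false
set_option linter.unusedSectionVars false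
set_option linter.style.haveILetI false

open scoped Pointwise

namespace Fermat.Agent.S37

noncomputable section

open Fermat.Agent.Lib

section Inertia

variable {K L : Type*} [Field K] [Field L] [Algebra K L]

/-- Two Frobenius elements at `A` differ by an element of the inertia group. -/
theorem FA_S37_FR_inertia {A : ValuationSubring L} {σ σ₀ : L ≃ₐ[K] L} {q : ℕ}
    (h : A.IsFrobeniusAt σ q) (h₀ : A.IsFrobeniusAt σ₀ q) :
    σ₀⁻¹ * σ ∈ A.inertiaSubgroupIn K := by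
  obtain ⟨hσ, hσx⟩ := h
  obtain ⟨hσ₀, hσ₀x⟩ := h₀
  refine ⟨(⟨σ₀, hσ₀⟩ : A.decompositionSubgroup K)⁻¹ * ⟨σ, hσ⟩, ?_, rfl⟩
  show _ ∈ MonoidHom.ker _
  rw [MonoidHom.mem_ker]
  ext x
  show ((⟨σ₀, hσ₀⟩ : A.decompositionSubgroup K)⁻¹ * ⟨σ, hσ⟩) • x = x
  rw [mul_smul, hσx, ← hσ₀x, inv_smul_smul]

/-- An element of the decomposition group acting trivially on the residue field is in the
inertia group. -/
theorem FA_S37_FR_mem_inertia {A : ValuationSubring L} {τ : L ≃ₐ[K] L}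
    (hτ : τ ∈ A.decompositionSubgroup K)
    (h : ∀ x : IsLocalRing.ResidueField A, (⟨τ, hτ⟩ : A.decompositionSubgroup K) • x = x) :
    τ ∈ A.inertiaSubgroupIn K := by
  refine ⟨⟨τ, hτ⟩, ?_, rfl⟩
  show _ ∈ MonoidHom.ker _
  rw [MonoidHom.mem_ker]
  ext x
  exact h x

/-- Elements of the inertia group lie in the decomposition group and act trivially on the
residue field. -/
theorem FA_S37_FR_inertia_iff {A : ValuationSubring L} {τ : L ≃ₐ[K] L} :
    τ ∈ A.inertiaSubgroupIn K ↔ ∃ hτ : τ ∈ A.decompositionSubgroup K,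
      ∀ x : IsLocalRing.ResidueField A, (⟨τ, hτ⟩ : A.decompositionSubgroup K) • x = x := by
  constructor
  · rintro ⟨⟨τ', hτ'⟩, hmem, rfl⟩
    refine ⟨hτ', fun x => ?_⟩
    have h1 : MulSemiringAction.toRingAut (A.decompositionSubgroup K)
        (IsLocalRing.ResidueField A) ⟨τ', hτ'⟩ = 1 := MonoidHom.mem_ker.mp hmem
    exact congrArg (fun f : RingAut (IsLocalRing.ResidueField A) => f x) h1
  · rintro ⟨hτ, h⟩
    exact FA_S37_FR_mem_inertia hτ h

/-- A Frobenius element times an inertia element is a Frobenius element. -/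
theorem FA_S37_FR_frob_mul {A : ValuationSubring L} {σ₀ τ : L ≃ₐ[K] L} {q : ℕ}
    (h₀ : A.IsFrobeniusAt σ₀ q) (hτ : τ ∈ A.inertiaSubgroupIn K) :
    A.IsFrobeniusAt (σ₀ * τ) q := by
  obtain ⟨hσ₀, hσ₀x⟩ := h₀
  obtain ⟨hτD, hτx⟩ := FA_S37_FR_inertia_iff.mp hτ
  refine ⟨(A.decompositionSubgroup K).mul_mem hσ₀ hτD, fun x => ?_⟩
  show ((⟨σ₀, hσ₀⟩ : A.decompositionSubgroup K) * ⟨τ, hτD⟩) • x = x ^ q
  rw [mul_smul, hτx, hσ₀x]

end Inertia

section Exists

local notation "Qb" => AlgebraicClosure ℚ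
local notation "Γ" => (AlgebraicClosure ℚ ≃ₐ[ℚ] AlgebraicClosure ℚ)
local notation "Zb" => integralClosure ℤ (AlgebraicClosure ℚ)

attribute [local instance] FA_isAlgebraic_Qb FA_isAlgClosure_Qb FA_isInvariant_Zb FA_topZb
  FA_discZb FA_contSMul_Zb

set_option synthInstance.maxHeartbeats 400000 in
/-- A Frobenius lift stabilising a GIVEN maximal ideal `Q` of `ℤ̄` over `ℓ`. -/
theorem FA_S37_FR_frob_Zb (ℓ : ℕ) (hℓ : ℓ.Prime) (Q : Ideal Zb) (hQmax : Q.IsMaximal)
    (hℓQ : (ℓ : Zb) ∈ Q) :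
    ∃ g : Γ, g • Q = Q ∧ ∀ b : Zb, g • b - b ^ ℓ ∈ Q := by
  classical
  have : Fact ℓ.Prime := Fact.mk hℓ
  let P : Ideal ℤ := Ideal.span {(ℓ : ℤ)}
  have hPmax : P.IsMaximal :=
    PrincipalIdealRing.isMaximal_of_irreducible
      (Int.prime_iff_natAbs_prime.mpr (by simpa using hℓ)).irreducible
  have hQP : Q.comap (algebraMap ℤ Zb) = P := by
    symm
    apply hPmax.eq_of_le (Ideal.comap_ne_top _ hQmax.ne_top)
    rw [Ideal.span_le, Set.singleton_subset_iff]
    show algebraMap ℤ Zb (ℓ : ℤ) ∈ Q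
    simpa using hℓQ
  have : Q.IsMaximal := hQmax
  have : Q.LiesOver P := ⟨hQP.symm⟩
  let _ : Field (ℤ ⧸ P) := Ideal.Quotient.field P
  let _ : Field (Zb ⧸ Q) := Ideal.Quotient.field Q
  have : CharP (Zb ⧸ Q) ℓ := by
    apply (CharP.charP_iff_prime_eq_zero hℓ).mpr
    have : ((ℓ : Zb ⧸ Q)) = Ideal.Quotient.mk Q (ℓ : Zb) := by simp
    rw [this, Ideal.Quotient.eq_zero_iff_mem]
    exact hℓQ
  have : ExpChar (Zb ⧸ Q) ℓ := ExpChar.prime hℓ
  -- Frobenius as an algebra hom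
  let F : (Zb ⧸ Q) →ₐ[ℤ ⧸ P] (Zb ⧸ Q) :=
    { toRingHom := frobenius (Zb ⧸ Q) ℓ
      commutes' := by
        intro a
        obtain ⟨n, rfl⟩ := Ideal.Quotient.mk_surjective a
        change (algebraMap (ℤ ⧸ P) (Zb ⧸ Q) (Ideal.Quotient.mk P n)) ^ ℓ = _
        rw [← map_pow]
        congr 1
        rw [← map_pow, Ideal.Quotient.eq, Ideal.mem_span_singleton]
        have h := ZMod.pow_card (n : ZMod ℓ)
        have h2 : ((n ^ ℓ - n : ℤ) : ZMod ℓ) = 0 := by push_cast; rw [h]; ring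
        exact (ZMod.intCast_zmod_eq_zero_iff_dvd _ _).mp h2 }
  have hFinj : Function.Injective F := (frobenius (Zb ⧸ Q) ℓ).injective
  have hFsurj : Function.Surjective F := by
    have : Finite (ℤ ⧸ P) := Finite.of_equiv _ (Int.quotientSpanNatEquivZMod ℓ).symm.toEquiv
    have : PerfectField (ℤ ⧸ P) := PerfectField.ofFinite
    have : Algebra.IsAlgebraic (ℤ ⧸ P) (Zb ⧸ Q) := inferInstance
    have : PerfectField (Zb ⧸ Q) := Algebra.IsAlgebraic.perfectField (K := ℤ ⧸ P)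
    have : PerfectRing (Zb ⧸ Q) ℓ := PerfectField.toPerfectRing ℓ
    exact surjective_frobenius (Zb ⧸ Q) ℓ
  let σ : (Zb ⧸ Q) ≃ₐ[ℤ ⧸ P] (Zb ⧸ Q) := AlgEquiv.ofBijective F ⟨hFinj, hFsurj⟩
  obtain ⟨⟨g, hg⟩, hgσ⟩ := Ideal.Quotient.stabilizerHom_surjective_of_profinite P Q (G := Γ) σ
  refine ⟨g, hg, fun b => ?_⟩
  have h1 := congrArg (fun τ => τ (Ideal.Quotient.mk Q b)) hgσ
  simp only [Ideal.Quotient.stabilizerHom_apply] at h1
  have h2 : σ (Ideal.Quotient.mk Q b) = (Ideal.Quotient.mk Q b) ^ ℓ := rfl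
  rw [h2, ← map_pow] at h1
  exact Ideal.Quotient.eq.mp h1

/-- A Frobenius lift at `Q` is a Frobenius element at the valuation subring of `Q`. -/
theorem FA_S37_FR_isFrob_valSubring (ℓ : ℕ) (hℓ : ℓ.Prime) (Q : Ideal Zb) [Q.IsPrime]
    (hℓQ : (ℓ : Zb) ∈ Q) (g : Γ) (hgQ : g • Q = Q) (hfrob : ∀ b : Zb, g • b - b ^ ℓ ∈ Q) :
    (FA_valSubring Q ℓ hℓ.ne_zero hℓQ).IsFrobeniusAt g ℓ := by
  have hg'Q : g⁻¹ • Q = Q := by
    conv_lhs => rw [← hgQ]
    rw [inv_smul_smul]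
  have hgA : g ∈ (FA_valSubring Q ℓ hℓ.ne_zero hℓQ).decompositionSubgroup ℚ := by
    rw [MulAction.mem_stabilizer_iff]
    apply le_antisymm
    · intro x hx
      rw [ValuationSubring.mem_pointwise_smul_iff_inv_smul_mem] at hx
      have := FA_smul_mem_valSubring g hgQ hx
      simpa using this
    · intro x hx
      rw [ValuationSubring.mem_pointwise_smul_iff_inv_smul_mem]
      exact FA_smul_mem_valSubring g⁻¹ hg'Q hx
  refine ⟨hgA, fun x => ?_⟩
  obtain ⟨a, rfl⟩ := IsLocalRing.residue_surjective x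
  rw [← IsLocalRing.ResidueField.residue_smul, ← map_pow]
  rw [← sub_eq_zero, ← map_sub, IsLocalRing.residue_eq_zero_iff,
    ← ValuationSubring.coe_mem_nonunits_iff]
  obtain ⟨b, s, hs, has⟩ := a.2
  have hgs : g • s ∉ Q := fun hmem => hs (by
    rw [← hgQ] at hmem
    exact (Ideal.smul_mem_pointwise_smul_iff).mp hmem)
  refine FA_mem_nonunits_valSubring ((g • b - b ^ ℓ) * s ^ ℓ - b ^ ℓ * (g • s - s ^ ℓ))
    ((g • s) * s ^ ℓ) ?_ ?_ ?_
  · exact Q.sub_mem (Q.mul_mem_right _ (hfrob b)) (Q.mul_mem_left _ (hfrob s))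
  · intro hmem
    rcases Ideal.IsPrime.mem_or_mem inferInstance hmem with h4 | h4
    · exact hgs h4
    · exact hs (Ideal.IsPrime.mem_of_pow_mem inferInstance _ h4)
  · have hga : ((⟨g, hgA⟩ : (FA_valSubring Q ℓ hℓ.ne_zero hℓQ).decompositionSubgroup ℚ) • a :
        (FA_valSubring Q ℓ hℓ.ne_zero hℓQ)) = g • (a : Qb) := rfl
    have h1 : g • ((a : Qb) * (s : Qb)) = g • (b : Qb) := congrArg (fun z => g • z) has
    rw [smul_mul'] at h1
    push_cast
    rw [hga]
    have e1 : (((g • s : Zb)) : Qb) = g • (s : Qb) := rfl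
    have e2 : (((g • b : Zb)) : Qb) = g • (b : Qb) := rfl
    rw [e1, e2, ← h1, ← has]
    ring

/-- Algebraic integers lie in every valuation subring. -/
theorem FA_S37_FR_Zb_le (A : ValuationSubring Qb) (b : Zb) : (b : Qb) ∈ A := by
  have h1 : IsIntegral ℤ (b : Qb) := b.2
  have h2 : IsIntegral A (b : Qb) := h1.tower_top
  obtain ⟨y, hy⟩ := IsIntegrallyClosed.isIntegral_iff.mp h2
  rw [← hy]
  exact y.2

/-- The prime of `ℤ̄` cut out by a valuation subring. -/
def FA_S37_FR_prime (A : ValuationSubring Qb) : Ideal Zb where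
  carrier := {b | (b : Qb) ∈ A.nonunits}
  zero_mem' := by
    show ((0 : Zb) : Qb) ∈ A.nonunits
    rw [ValuationSubring.mem_nonunits_iff_or]
    exact Or.inl rfl
  add_mem' := by
    intro a b ha hb
    have ha' : (⟨(a : Qb), FA_S37_FR_Zb_le A a⟩ : A) ∈ IsLocalRing.maximalIdeal A :=
      (ValuationSubring.coe_mem_nonunits_iff).mp ha
    have hb' : (⟨(b : Qb), FA_S37_FR_Zb_le A b⟩ : A) ∈ IsLocalRing.maximalIdeal A :=
      (ValuationSubring.coe_mem_nonunits_iff).mp hb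
    have := (IsLocalRing.maximalIdeal A).add_mem ha' hb'
    exact (ValuationSubring.coe_mem_nonunits_iff).mpr this
  smul_mem' := by
    intro c b hb
    have hb' : (⟨(b : Qb), FA_S37_FR_Zb_le A b⟩ : A) ∈ IsLocalRing.maximalIdeal A :=
      (ValuationSubring.coe_mem_nonunits_iff).mp hb
    have := (IsLocalRing.maximalIdeal A).mul_mem_left
      (⟨(c : Qb), FA_S37_FR_Zb_le A c⟩ : A) hb'
    exact (ValuationSubring.coe_mem_nonunits_iff).mpr this

theorem FA_S37_FR_mem_prime {A : ValuationSubring Qb} {b : Zb} :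
    b ∈ FA_S37_FR_prime A ↔ (b : Qb) ∈ A.nonunits := Iff.rfl

theorem FA_S37_FR_prime_ne_top (A : ValuationSubring Qb) : FA_S37_FR_prime A ≠ ⊤ := by
  intro h
  have h1 : (1 : Zb) ∈ FA_S37_FR_prime A := by rw [h]; trivial
  rw [FA_S37_FR_mem_prime] at h1
  have h2 : ((1 : Zb) : Qb) = 1 := rfl
  rw [h2] at h1
  rcases A.mem_nonunits_iff_or.mp h1 with h0 | h0
  · exact one_ne_zero h0
  · exact h0 (by rw [inv_one]; exact A.one_mem)

instance FA_S37_FR_prime_isPrime (A : ValuationSubring Qb) : (FA_S37_FR_prime A).IsPrime := by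
  refine ⟨FA_S37_FR_prime_ne_top A, ?_⟩
  intro a b hab
  rw [FA_S37_FR_mem_prime] at hab
  by_contra hcon
  rw [not_or] at hcon
  obtain ⟨ha, hb⟩ := hcon
  -- `a`, `b` are units of `A`
  have ha' : (⟨(a : Qb), FA_S37_FR_Zb_le A a⟩ : A) ∉ IsLocalRing.maximalIdeal A := fun h =>
    ha ((ValuationSubring.coe_mem_nonunits_iff).mpr h)
  have hb' : (⟨(b : Qb), FA_S37_FR_Zb_le A b⟩ : A) ∉ IsLocalRing.maximalIdeal A := fun h =>
    hb ((ValuationSubring.coe_mem_nonunits_iff).mpr h)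
  have hab' : (⟨(a : Qb), FA_S37_FR_Zb_le A a⟩ : A) * ⟨(b : Qb), FA_S37_FR_Zb_le A b⟩
      ∈ IsLocalRing.maximalIdeal A := (ValuationSubring.coe_mem_nonunits_iff).mp hab
  rcases (IsLocalRing.maximalIdeal.isMaximal A).isPrime.mem_or_mem hab' with h | h
  · exact ha' h
  · exact hb' h

theorem FA_S37_FR_nat_mem_prime (A : ValuationSubring Qb) (ℓ : ℕ) (hA : A.LiesOverPrime ℓ) :
    (ℓ : Zb) ∈ FA_S37_FR_prime A := by
  rw [FA_S37_FR_mem_prime]
  have : ((ℓ : Zb) : Qb) = (ℓ : Qb) := by simp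
  rw [this]
  exact hA

theorem FA_S37_FR_prime_isMaximal (A : ValuationSubring Qb) (ℓ : ℕ) (hℓ : ℓ.Prime)
    (hA : A.LiesOverPrime ℓ) : (FA_S37_FR_prime A).IsMaximal := by
  let P : Ideal ℤ := Ideal.span {(ℓ : ℤ)}
  have hPmax : P.IsMaximal :=
    PrincipalIdealRing.isMaximal_of_irreducible
      (Int.prime_iff_natAbs_prime.mpr (by simpa using hℓ)).irreducible
  have hQP : (FA_S37_FR_prime A).comap (algebraMap ℤ Zb) = P := by
    symm
    apply hPmax.eq_of_le (Ideal.comap_ne_top _ (FA_S37_FR_prime_ne_top A))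
    rw [Ideal.span_le, Set.singleton_subset_iff]
    show algebraMap ℤ Zb (ℓ : ℤ) ∈ FA_S37_FR_prime A
    simpa using FA_S37_FR_nat_mem_prime A ℓ hA
  apply Ideal.isMaximal_of_isIntegral_of_isMaximal_comap (R := ℤ) (FA_S37_FR_prime A)
  rw [hQP]
  exact hPmax

/-- A valuation subring of `ℚ̄` over `ℓ` is the valuation subring of its prime. -/
theorem FA_S37_FR_eq_valSubring (A : ValuationSubring Qb) (ℓ : ℕ) (hℓ : ℓ.Prime)
    (hA : A.LiesOverPrime ℓ) :
    A = FA_valSubring (FA_S37_FR_prime A) ℓ hℓ.ne_zero (FA_S37_FR_nat_mem_prime A ℓ hA) := by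
  ext x
  rw [FA_mem_valSubring]
  constructor
  · intro hx
    rcases FA_locSubring_mem_or_inv_mem (FA_S37_FR_prime A) ℓ hℓ.ne_zero
      (FA_S37_FR_nat_mem_prime A ℓ hA) x with h | h
    · exact h
    · obtain ⟨b, s, hs, hbs⟩ := h
      by_cases hx0 : x = 0
      · exact ⟨0, 1, (Ideal.ne_top_iff_one _).mp (FA_S37_FR_prime_ne_top A), by
          rw [hx0, zero_mul]; rfl⟩
      by_cases hb : b ∈ FA_S37_FR_prime A
      · exfalso
        -- `x⁻¹ = b / s` is a nonunit of `A`, but `x ∈ A`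
        rw [FA_S37_FR_mem_prime] at hb
        have hsA : (s : Qb) ∈ A := FA_S37_FR_Zb_le A s
        have hs0 : (s : Qb) ≠ 0 := by
          intro h0
          apply hs
          have : s = 0 := Subtype.ext h0
          rw [this]
          exact Ideal.zero_mem _
        have hsu : (s : Qb)⁻¹ ∈ A := by
          by_contra hcon
          apply hs
          rw [FA_S37_FR_mem_prime, ValuationSubring.mem_nonunits_iff_or]
          exact Or.inr hcon
        -- `1 = x * x⁻¹ = x * b * s⁻¹`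
        have h1 : (1 : Qb) = (b : Qb) * (x * (s : Qb)⁻¹) := by
          rw [← hbs]
          field_simp
        have h2 : (b : Qb) * (x * (s : Qb)⁻¹) ∈ A.nonunits := by
          have hb' : (⟨(b : Qb), FA_S37_FR_Zb_le A b⟩ : A) ∈ IsLocalRing.maximalIdeal A :=
            (ValuationSubring.coe_mem_nonunits_iff).mp hb
          have := (IsLocalRing.maximalIdeal A).mul_mem_right
            (⟨x * (s : Qb)⁻¹, A.mul_mem _ _ hx hsu⟩ : A) hb'
          exact (ValuationSubring.coe_mem_nonunits_iff).mpr this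
        rw [← h1] at h2
        rcases A.mem_nonunits_iff_or.mp h2 with h0 | h0
        · exact one_ne_zero h0
        · exact h0 (by rw [inv_one]; exact A.one_mem)
      · refine ⟨s, b, hb, ?_⟩
        rw [← hbs]
        field_simp
  · rintro ⟨b, s, hs, hbs⟩
    have hs0 : (s : Qb) ≠ 0 := by
      intro h0
      apply hs
      have : s = 0 := Subtype.ext h0
      rw [this]
      exact Ideal.zero_mem _
    have hsu : (s : Qb)⁻¹ ∈ A := by
      by_contra hcon
      apply hs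
      rw [FA_S37_FR_mem_prime, ValuationSubring.mem_nonunits_iff_or]
      exact Or.inr hcon
    have : x = (b : Qb) * (s : Qb)⁻¹ := by
      rw [← hbs]
      field_simp
    rw [this]
    exact A.mul_mem _ _ (FA_S37_FR_Zb_le A b) hsu

/-- **L1 (FROB∃)**: at every valuation subring of `ℚ̄` over a prime `ℓ` there is a Frobenius
element. -/
theorem FA_S37_FR_exists (A : ValuationSubring Qb) (ℓ : ℕ) (hℓ : ℓ.Prime)
    (hA : A.LiesOverPrime ℓ) : ∃ σ₀ : Γ, A.IsFrobeniusAt σ₀ ℓ := by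
  obtain ⟨g, hgQ, hfrob⟩ := FA_S37_FR_frob_Zb ℓ hℓ (FA_S37_FR_prime A)
    (FA_S37_FR_prime_isMaximal A ℓ hℓ hA) (FA_S37_FR_nat_mem_prime A ℓ hA)
  refine ⟨g, ?_⟩
  have h := FA_S37_FR_isFrob_valSubring ℓ hℓ (FA_S37_FR_prime A)
    (FA_S37_FR_nat_mem_prime A ℓ hA) g hgQ hfrob
  rw [← FA_S37_FR_eq_valSubring A ℓ hℓ hA] at h
  exact h

end Exists

end

end Fermat.Agent.S37
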