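import Mathlib
import Fermat.Prelude.Def_HeckeGalois_EichlerShimura
import Fermat.Agent.S37.Frob

/-!
# S37, leaf L0 (ASSEMBLE): the specialization from four facts about a reduction map

`J` a `HeckeAlg`-module with a commuting action of `Gal(L/K)`, `red : J →+ W` any additive map,
`σ₀` a Frobenius element at `A`.  With `Ker' := {x | ∀ t : HeckeAlg, red (t • x) = 0}`,
`J' := J ⧸ Ker'`, `sp := mk`, `F :=` the map induced by `σ₀`:

* (K2) `red (τ • x) = red x` for `τ` in the inertia group,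
* (K3) `red x = 0 → red (σ₀ • x) = 0`,
* (K4) `red` is injective on `p`-power torsion,
* (K5) `red (σ₀ • σ₀ • x - T_ℓ • (σ₀ • x) + ℓ • x) = 0`

imply `IsSpecialization p J J' A ℓ sp F ∧ SpecialFibreRelation J' ℓ hℓ F`
(`FA_S37_L0_assemble`).
-/

set_option autoImplicit false
set_option linter.unusedSectionVars false
set_option linter.style.haveILetI false

namespace Fermat.Agent.S37

noncomputable section

open ModularCurve

variable {K L : Type*} [Field K] [Field L] [Algebra K L]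
variable (J : Type) [AddCommGroup J] [Module HeckeAlg J]
  [DistribMulAction (L ≃ₐ[K] L) J] [SMulCommClass (L ≃ₐ[K] L) HeckeAlg J]
variable {W : Type*} [AddCommGroup W] (red : J →+ W)

/-- The largest `HeckeAlg`-submodule of `J` contained in the kernel of `red`. -/
def FA_S37_L0_ker : Submodule HeckeAlg J where
  carrier := {x | ∀ t : HeckeAlg, red (t • x) = 0}
  zero_mem' := fun t => by rw [smul_zero, map_zero]
  add_mem' := fun {a b} ha hb t => by rw [smul_add, map_add, ha t, hb t, add_zero]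
  smul_mem' := fun c x hx t => by rw [smul_smul]; exact hx (t * c)

variable {J red}

theorem FA_S37_L0_mem_ker {x : J} :
    x ∈ FA_S37_L0_ker J red ↔ ∀ t : HeckeAlg, red (t • x) = 0 := Iff.rfl

theorem FA_S37_L0_red_of_mem {x : J} (hx : x ∈ FA_S37_L0_ker J red) : red x = 0 := by
  have := hx 1
  rwa [one_smul] at this

/-- A Galois element preserving `ker red` preserves `Ker'`. -/
theorem FA_S37_L0_smul_mem (σ : L ≃ₐ[K] L) (h3 : ∀ x : J, red x = 0 → red (σ • x) = 0)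
    {x : J} (hx : x ∈ FA_S37_L0_ker J red) : σ • x ∈ FA_S37_L0_ker J red := by
  intro t
  rw [← smul_comm σ t x]
  exact h3 _ (hx t)

variable (J red)

/-- The Galois element `σ` as a `HeckeAlg`-linear endomorphism of `J`. -/
def FA_S37_L0_gal (σ : L ≃ₐ[K] L) : J →ₗ[HeckeAlg] J where
  toFun x := σ • x
  map_add' x y := smul_add σ x y
  map_smul' t x := by
    rw [RingHom.id_apply]
    exact smul_comm σ t x

/-- The endomorphism `F` of `J ⧸ Ker'` induced by `σ`. -/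
def FA_S37_L0_F (σ : L ≃ₐ[K] L) (h3 : ∀ x : J, red x = 0 → red (σ • x) = 0) :
    (J ⧸ FA_S37_L0_ker J red) →+ (J ⧸ FA_S37_L0_ker J red) :=
  ((FA_S37_L0_ker J red).mapQ (FA_S37_L0_ker J red) (FA_S37_L0_gal J σ)
    (fun _ hx => FA_S37_L0_smul_mem σ h3 hx)).toAddMonoidHom

theorem FA_S37_L0_F_mk (σ : L ≃ₐ[K] L) (h3 : ∀ x : J, red x = 0 → red (σ • x) = 0) (x : J) :
    FA_S37_L0_F J red σ h3 ((FA_S37_L0_ker J red).mkQ x) = (FA_S37_L0_ker J red).mkQ (σ • x) :=
  rfl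

/-- **L0 (ASSEMBLE)**. -/
theorem FA_S37_L0_assemble (p : ℕ) (A : ValuationSubring L) (ℓ : ℕ) (hℓ : ℓ.Prime)
    (σ₀ : L ≃ₐ[K] L) (hσ₀ : A.IsFrobeniusAt σ₀ ℓ)
    (h2 : ∀ τ ∈ A.inertiaSubgroupIn K, ∀ x : J, red (τ • x) = red x)
    (h3 : ∀ x : J, red x = 0 → red (σ₀ • x) = 0)
    (h4 : ∀ x : J, (∃ n : ℕ, p ^ n • x = 0) → red x = 0 → x = 0)
    (h5 : ∀ x : J, red (σ₀ • σ₀ • x - heckeGen ⟨ℓ, hℓ⟩ • (σ₀ • x) + ℓ • x) = 0) :
    ∃ (J' : Type) (_ : AddCommGroup J') (_ : Module HeckeAlg J') (sp : J →+ J')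
      (F : J' →+ J'),
      IsSpecialization (K := K) p J J' A ℓ sp F ∧ SpecialFibreRelation J' ℓ hℓ F := by
  refine ⟨J ⧸ FA_S37_L0_ker J red, inferInstance, inferInstance,
    (FA_S37_L0_ker J red).mkQ.toAddMonoidHom, FA_S37_L0_F J red σ₀ h3, ⟨?_, ?_, ?_, ?_⟩, ?_⟩
  · -- hecke_comm
    intro T x
    exact (FA_S37_L0_ker J red).mkQ.map_smul T x
  · -- inertia_comm
    intro τ hτ x
    show (FA_S37_L0_ker J red).mkQ (τ • x) = (FA_S37_L0_ker J red).mkQ x
    rw [← sub_eq_zero, ← map_sub, Submodule.mkQ_apply, Submodule.Quotient.mk_eq_zero]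
    intro t
    rw [smul_sub, map_sub, ← smul_comm τ t x, h2 τ hτ, sub_self]
  · -- frobenius_comm
    intro σ hσ x
    show (FA_S37_L0_ker J red).mkQ (σ • x) = (FA_S37_L0_ker J red).mkQ (σ₀ • x)
    rw [← sub_eq_zero, ← map_sub, Submodule.mkQ_apply, Submodule.Quotient.mk_eq_zero]
    have hτ := FA_S37_FR_inertia hσ hσ₀
    have e : σ • x - σ₀ • x = σ₀ • ((σ₀⁻¹ * σ) • x - x) := by
      rw [smul_sub, smul_smul, mul_inv_cancel_left]
    rw [e]
    apply FA_S37_L0_smul_mem σ₀ h3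
    intro t
    rw [smul_sub, map_sub, ← smul_comm (σ₀⁻¹ * σ) t x, h2 _ hτ, sub_self]
  · -- injective_torsion
    intro x hx hsp
    have hmem : x ∈ FA_S37_L0_ker J red := by
      have : (FA_S37_L0_ker J red).mkQ x = 0 := hsp
      rwa [Submodule.mkQ_apply, Submodule.Quotient.mk_eq_zero] at this
    exact h4 x hx (FA_S37_L0_red_of_mem hmem)
  · -- the special fibre relation
    intro y
    obtain ⟨x, rfl⟩ := (FA_S37_L0_ker J red).mkQ_surjective y
    rw [FA_S37_L0_F_mk, FA_S37_L0_F_mk, ← map_smul, ← map_nsmul, ← map_sub, ← map_add,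
      Submodule.mkQ_apply, Submodule.Quotient.mk_eq_zero]
    intro t
    have e : t • (σ₀ • σ₀ • x - heckeGen ⟨ℓ, hℓ⟩ • (σ₀ • x) + ℓ • x)
        = σ₀ • σ₀ • (t • x) - heckeGen ⟨ℓ, hℓ⟩ • (σ₀ • (t • x)) + ℓ • (t • x) := by
      rw [smul_add, smul_sub, smul_comm t (heckeGen ⟨ℓ, hℓ⟩) (σ₀ • x),
        ← smul_comm σ₀ t (σ₀ • x), ← smul_comm σ₀ t x, smul_comm t ℓ x]
    rw [e]
    exact h5 (t • x)

end

end Fermat.Agent.S37
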