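import Mathlib
import Fermat.Prelude.Def_ModularCurve_HeckeModule
import Fermat.Prelude.Def_ModularCurve_ArithmeticGalois
import Fermat.Agent.S37.Assemble

/-!
# S37, leaf L0 (ASSEMBLE), concrete form

`FA_S37_L0_final` : S37 from a reduction map `red : JZero N →+ W` with the four facts
(K2)–(K5), where (K5) is stated with `heckeOperatorBar N ℓ` (no `HeckeAlg`-module instance in
the hypotheses).
-/

set_option autoImplicit false
set_option linter.unusedSectionVars false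
set_option linter.style.haveILetI false

namespace Fermat.Agent.S37

noncomputable section

open ModularCurve

/-- **S37 from a reduction map with (K2)–(K5).** -/
theorem FA_S37_L0_final (N p : ℕ) [NeZero N] (hcomm : HeckeOperatorsCommuteBar N)
    (hred : ∀ ℓ : ℕ, (hℓ : ℓ.Prime) → ¬ ℓ ∣ N * p →
      ∀ A : ValuationSubring (AlgebraicClosure ℚ), A.LiesOverPrime ℓ →
      ∀ σ₀ : AlgebraicClosure ℚ ≃ₐ[ℚ] AlgebraicClosure ℚ, A.IsFrobeniusAt σ₀ ℓ →
        ∃ (W : Type) (_ : AddCommGroup W) (red : JZero N →+ W),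
          (∀ τ ∈ A.inertiaSubgroupIn ℚ, ∀ x : JZero N, red (τ • x) = red x) ∧
          (∀ x : JZero N, red x = 0 → red (σ₀ • x) = 0) ∧
          (∀ x : JZero N, (∃ n : ℕ, p ^ n • x = 0) → red x = 0 → x = 0) ∧
          (∀ x : JZero N,
            red (σ₀ • σ₀ • x - heckeOperatorBar N ⟨ℓ, hℓ⟩ (σ₀ • x) + ℓ • x) = 0)) :
    letI := heckeModuleBar N
    ∀ (_ : SMulCommClass (AlgebraicClosure ℚ ≃ₐ[ℚ] AlgebraicClosure ℚ) HeckeAlg (JZero N)),
      SpecializationExists (K := ℚ) (L := AlgebraicClosure ℚ) N p (JZero N) := by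
  letI := heckeModuleBar N
  intro _ ℓ hℓ hℓNp A hA
  obtain ⟨σ₀, hσ₀⟩ := FA_S37_FR_exists A ℓ hℓ hA
  obtain ⟨W, _, red, h2, h3, h4, h5⟩ := hred ℓ hℓ hℓNp A hA σ₀ hσ₀
  refine FA_S37_L0_assemble (K := ℚ) (L := AlgebraicClosure ℚ) (JZero N) red p A ℓ hℓ σ₀ hσ₀
    h2 h3 h4 ?_
  intro x
  have e : (heckeGen ⟨ℓ, hℓ⟩ : HeckeAlg) • (σ₀ • x) = heckeOperatorBar N ⟨ℓ, hℓ⟩ (σ₀ • x) :=
    heckeModuleBar_heckeGen_smul hcomm ⟨ℓ, hℓ⟩ (σ₀ • x)
  rw [e]
  exact h5 x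

end

end Fermat.Agent.S37
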