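import Fermat.Agent.S18.C0Gen

/-!
# S37, leaf BD: additive maps on divisors that kill principal divisors and are bounded on places

`K` algebraically closed of characteristic zero, `F / K` a function field (`FA_RR_IsFF K F`).
If `Ψ : Div F →+ (Y →₀ ℤ)` kills the principal divisors and the coefficients of `Ψ (single P 1)`
are bounded by `C` (uniformly in the place `P`), then `Ψ` vanishes on all divisors of degree `0`.

Reason (Riemann): every divisor of degree `0` is `E - g • P₀ - div f` with `E ≥ 0` of degree `g`,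
so the coefficients of `Ψ D` are bounded by `2 g C` for ALL `D` of degree `0`; apply this to the
multiples of `D`.  No divisibility of `Pic⁰` is used.
-/

set_option autoImplicit false
set_option linter.unusedSectionVars false
set_option linter.style.haveILetI false

noncomputable section

namespace Fermat.Agent.S37

open AlgebraicCurve FA_RR FA_RR.WPB FA_S18

variable {K F : Type*} [Field K] [Field F] [Algebra K F] [IsAlgClosed K] [CharZero K]

/-- Riemann's inequality in existence form: `L(E) ≠ 0` as soon as `deg E ≥ g`. -/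
theorem FA_S37_BD_riemann (hF : FA_RR_IsFF K F) (E : Divisor K F)
    (hE : (genusFF K F : ℤ) ≤ Divisor.degree E) :
    ∃ f : F, f ≠ 0 ∧ f ∈ riemannRochSpace E := by
  haveI := FA_RR.Main.hasCanonicalDivisor hF
  obtain ⟨x, hx, -⟩ := id hF
  have hω : KaehlerDifferential.D K F x ≠ 0 := FA_RR.D_ne_zero' hF x hx
  have hrr := FA_RR.Main.riemann_roch hF hω E
  have hpos : 0 < Module.finrank K (riemannRochSpace E) := by
    have h0 : (0 : ℤ) ≤ (Module.finrank K (riemannRochSpace (canonicalDivisorOf hω - E)) : ℤ) :=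
      Int.natCast_nonneg _
    have : (0 : ℤ) < (Module.finrank K (riemannRochSpace E) : ℤ) := by omega
    exact_mod_cast this
  have hne : riemannRochSpace E ≠ ⊥ := by
    intro h
    rw [h, finrank_bot] at hpos
    exact lt_irrefl _ hpos
  obtain ⟨f, hf, hf0⟩ := (Submodule.ne_bot_iff _).mp hne
  exact ⟨f, hf0, hf⟩

/-- Every divisor of degree `0` is `E - g • P₀ - div f` with `E` effective of degree `g`. -/
theorem FA_S37_BD_repr (hF : FA_RR_IsFF K F) (P₀ : Place K F) (D : Divisor K F)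
    (hD : Divisor.degree D = 0) :
    ∃ E Df : Divisor K F, 0 ≤ E ∧ Divisor.degree E = (genusFF K F : ℤ) ∧
      Df ∈ Divisor.principal (K := K) (F := F) ∧
      D = E - Finsupp.single P₀ (genusFF K F : ℤ) - Df := by
  haveI := hasPrincipalDivisors hF
  have hdegE : Divisor.degree (D + Finsupp.single P₀ (genusFF K F : ℤ)) = (genusFF K F : ℤ) := by
    rw [map_add, hD, Divisor.degree_single, FA_RR.deg_eq_one hF P₀]
    simp
  obtain ⟨f, hf0, hf⟩ := FA_S37_BD_riemann hF (D + Finsupp.single P₀ (genusFF K F : ℤ))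
    (le_of_eq hdegE.symm)
  obtain ⟨Df, hDf, hdeg⟩ := HasPrincipalDivisors.exists_divisor (K := K) f hf0
  refine ⟨D + Finsupp.single P₀ (genusFF K F : ℤ) + Df, Df, ?_, ?_, ⟨f, hf0, hDf⟩, ?_⟩
  · rw [Finsupp.le_def]
    intro w
    rw [Finsupp.zero_apply, Finsupp.add_apply, hDf w]
    rcases (mem_riemannRochSpace_iff.mp hf) w with h | h
    · exact absurd h hf0
    · omega
  · rw [map_add, hdegE, hdeg, add_zero]
  · abel

/-- Bound on effective divisors. -/
theorem FA_S37_BD_bound_eff (hF : FA_RR_IsFF K F) {Y : Type*} (Ψ : Divisor K F →+ (Y →₀ ℤ))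
    (C : ℤ) (hbd : ∀ (P : Place K F) (Q : Y), |Ψ (Finsupp.single P 1) Q| ≤ C) (Q : Y) :
    ∀ E : Divisor K F, 0 ≤ E → |Ψ E Q| ≤ Divisor.degree E * C := by
  intro E hE
  refine divisor_induction (p := fun E' : Divisor K F => |Ψ E' Q| ≤ Divisor.degree E' * C)
    (0 : Divisor K F) ?_ ?_ E hE
  · simp
  · intro D' P _ hD'
    show |Ψ (D' + Finsupp.single P 1) Q| ≤ Divisor.degree (D' + Finsupp.single P 1) * C
    rw [map_add, Finsupp.add_apply, map_add, Divisor.degree_single, FA_RR.deg_eq_one hF P]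
    have h1 := abs_add_le (Ψ D' Q) (Ψ (Finsupp.single P 1) Q)
    have h2 := hbd P Q
    have h3 : |Ψ D' Q| ≤ Divisor.degree D' * C := hD'
    have : (Divisor.degree D' + 1 * ((1 : ℕ) : ℤ)) * C = Divisor.degree D' * C + C := by
      push_cast; ring
    rw [this]
    linarith

/-- Bound for all divisors of degree zero. -/
theorem FA_S37_BD_bound_deg0 (hF : FA_RR_IsFF K F) {Y : Type*} (Ψ : Divisor K F →+ (Y →₀ ℤ))
    (hprin : ∀ D ∈ Divisor.principal (K := K) (F := F), Ψ D = 0)
    (C : ℤ) (hbd : ∀ (P : Place K F) (Q : Y), |Ψ (Finsupp.single P 1) Q| ≤ C) (Q : Y)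
    (D : Divisor K F) (hD : Divisor.degree D = 0) :
    |Ψ D Q| ≤ 2 * ((genusFF K F : ℤ) * C) := by
  obtain ⟨P₀⟩ := FA_RR.WPE.exists_place hF
  obtain ⟨E, Df, hE0, hEdeg, hDf, hrepr⟩ := FA_S37_BD_repr hF P₀ D hD
  have h1 := FA_S37_BD_bound_eff hF Ψ C hbd Q E hE0
  rw [hEdeg] at h1
  have h2 := FA_S37_BD_bound_eff hF Ψ C hbd Q (Finsupp.single P₀ (genusFF K F : ℤ))
    (by
      classical
      rw [Finsupp.le_def]
      intro w
      rw [Finsupp.zero_apply, Finsupp.single_apply]
      split_ifs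
      · exact Int.natCast_nonneg _
      · exact le_refl _)
  rw [Divisor.degree_single, FA_RR.deg_eq_one hF P₀] at h2
  have h3 : Ψ Df = 0 := hprin Df hDf
  have h4 : Ψ D Q = Ψ E Q - Ψ (Finsupp.single P₀ (genusFF K F : ℤ)) Q := by
    rw [hrepr, map_sub, map_sub, h3, sub_zero, Finsupp.sub_apply]
  rw [h4]
  have h5 := abs_sub (Ψ E Q) (Ψ (Finsupp.single P₀ (genusFF K F : ℤ)) Q)
  have h6 : ((genusFF K F : ℤ) * ((1 : ℕ) : ℤ)) * C = (genusFF K F : ℤ) * C := by
    push_cast; ring
  rw [h6] at h2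
  linarith

/-- **Boundedness lemma.**  An additive map on divisors which kills principal divisors and is
bounded on single places vanishes on the divisors of degree zero. -/
theorem FA_S37_BD_vanish (hF : FA_RR_IsFF K F) {Y : Type*} (Ψ : Divisor K F →+ (Y →₀ ℤ))
    (hprin : ∀ D ∈ Divisor.principal (K := K) (F := F), Ψ D = 0)
    (C : ℤ) (hbd : ∀ (P : Place K F) (Q : Y), |Ψ (Finsupp.single P 1) Q| ≤ C)
    (D : Divisor K F) (hD : Divisor.degree D = 0) : Ψ D = 0 := by
  ext Q
  rw [Finsupp.zero_apply]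
  set B : ℤ := 2 * ((genusFF K F : ℤ) * C) with hB
  have key : ∀ n : ℕ, |(n : ℤ) * Ψ D Q| ≤ B := by
    intro n
    have hdeg : Divisor.degree (n • D) = 0 := by rw [map_nsmul, hD, smul_zero]
    have := FA_S37_BD_bound_deg0 hF Ψ hprin C hbd Q (n • D) hdeg
    rwa [map_nsmul, Finsupp.smul_apply, nsmul_eq_mul] at this
  by_contra hne
  have hpos : 1 ≤ |Ψ D Q| := Int.one_le_abs hne
  have hB0 : 0 ≤ B := le_trans (abs_nonneg _) (key 0)
  have h := key (B.toNat + 1)
  rw [abs_mul] at h
  have hn : |((B.toNat + 1 : ℕ) : ℤ)| = B + 1 := by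
    rw [abs_of_nonneg (Int.natCast_nonneg _)]
    push_cast
    rw [Int.toNat_of_nonneg hB0]
  rw [hn] at h
  nlinarith

end Fermat.Agent.S37
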