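import Mathlib
import Fermat.Prelude.Def_ModularCurve_ReductionModL
import Fermat.Agent.S37.Bounded
import Fermat.Agent.S37.Frob
import Fermat.Agent.S18.StageA0

/-!
# S37, leaf B (Galois equivariance of the reduction), part 1: the semilinear automorphisms

* `FA_S37_GB_coeffMap_mem` : coefficientwise ring homomorphisms of `k` preserve
  `modularFunctionFieldFullC k N`.
* `FA_S37_GB_barAut τ : SemilinearAut k F̄` : the coefficientwise action of `τ : k ≃+* k` on
  `F̄ = modularFunctionFieldFullC k N`.
* `FA_S37_GB_resA`, `FA_S37_GB_resk` : the action of an element of the decomposition group on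
  `A` and on the residue field.
-/

set_option autoImplicit false
set_option linter.unusedSectionVars false
set_option linter.style.haveILetI false

noncomputable section

namespace Fermat.Agent.S37

open AlgebraicCurve ModularCurve

section Bar

variable {k : Type*} [Field k] (N : ℕ) [NeZero N]

theorem FA_S37_GB_coeffMap_gen (τ : k →+* k) {x : LaurentSeries k}
    (hx : x ∈ divisorExpansionsC k N) : coeffMap τ x = x := by
  obtain ⟨d, hd, -, rfl⟩ := hx
  rw [coeffMap_qExpand, coeffMap_jqModC]

/-- Coefficientwise ring homomorphisms preserve `modularFunctionFieldFullC k N`. -/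
theorem FA_S37_GB_coeffMap_mem (τ : k →+* k) {x : LaurentSeries k}
    (hx : x ∈ modularFunctionFieldFullC k N) :
    coeffMap τ x ∈ modularFunctionFieldFullC k N := by
  have h : (modularFunctionFieldFullC k N).toSubfield
      ≤ (modularFunctionFieldFullC k N).toSubfield.comap (coeffMap τ) := by
    apply IntermediateField.adjoin_le_subfield
    · rintro _ ⟨a, rfl⟩
      show coeffMap τ (algebraMap k (LaurentSeries k) a) ∈ modularFunctionFieldFullC k N
      rw [coeffMap_algebraMap]
      exact (modularFunctionFieldFullC k N).algebraMap_mem _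
    · intro s hs
      show coeffMap τ s ∈ modularFunctionFieldFullC k N
      rw [FA_S37_GB_coeffMap_gen N τ hs]
      exact IntermediateField.subset_adjoin k _ hs
  exact h hx

/-- The coefficientwise action of `τ : k ≃+* k` on `F̄`, as a ring automorphism. -/
def FA_S37_GB_barRingAut (τ : k ≃+* k) :
    ↥(modularFunctionFieldFullC k N) ≃+* ↥(modularFunctionFieldFullC k N) where
  toFun x := ⟨coeffMap (τ : k →+* k) (x : LaurentSeries k), FA_S37_GB_coeffMap_mem N _ x.2⟩
  invFun x := ⟨coeffMap (τ.symm : k →+* k) (x : LaurentSeries k),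
    FA_S37_GB_coeffMap_mem N _ x.2⟩
  left_inv x := Subtype.ext <| by
    show coeffMap (τ.symm : k →+* k) (coeffMap (τ : k →+* k) (x : LaurentSeries k))
      = (x : LaurentSeries k)
    rw [coeffMap_coeffMap,
      coeffMap_congr (g := RingHom.id k) (RingHom.ext fun a => τ.symm_apply_apply a)
        (x : LaurentSeries k),
      coeffMap_id]
  right_inv x := Subtype.ext <| by
    show coeffMap (τ : k →+* k) (coeffMap (τ.symm : k →+* k) (x : LaurentSeries k))
      = (x : LaurentSeries k)
    rw [coeffMap_coeffMap,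
      coeffMap_congr (g := RingHom.id k) (RingHom.ext fun a => τ.apply_symm_apply a)
        (x : LaurentSeries k),
      coeffMap_id]
  map_mul' x y :=
    Subtype.ext (map_mul (coeffMap (τ : k →+* k)) (x : LaurentSeries k) (y : LaurentSeries k))
  map_add' x y :=
    Subtype.ext (map_add (coeffMap (τ : k →+* k)) (x : LaurentSeries k) (y : LaurentSeries k))

theorem FA_S37_GB_barRingAut_coe (τ : k ≃+* k) (x : ↥(modularFunctionFieldFullC k N)) :
    ((FA_S37_GB_barRingAut N τ x : ↥(modularFunctionFieldFullC k N)) : LaurentSeries k)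
      = coeffMap (τ : k →+* k) (x : LaurentSeries k) := rfl

/-- The coefficientwise action of `τ : k ≃+* k` on `F̄`, as a semilinear automorphism. -/
def FA_S37_GB_barAut (τ : k ≃+* k) : SemilinearAut k ↥(modularFunctionFieldFullC k N) :=
  ⟨(FA_S37_GB_barRingAut N τ, τ), fun a => Subtype.ext (coeffMap_algebraMap (τ : k →+* k) a)⟩

theorem FA_S37_GB_barAut_smul_coe (τ : k ≃+* k) (x : ↥(modularFunctionFieldFullC k N)) :
    ((FA_S37_GB_barAut N τ • x : ↥(modularFunctionFieldFullC k N)) : LaurentSeries k)
      = coeffMap (τ : k →+* k) (x : LaurentSeries k) := rfl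

theorem FA_S37_GB_barAut_one :
    FA_S37_GB_barAut N (RingEquiv.refl k) = 1 := by
  refine Subtype.ext (Prod.ext (RingEquiv.ext fun x => Subtype.ext ?_) rfl)
  show coeffMap ((RingEquiv.refl k : k ≃+* k) : k →+* k) (x : LaurentSeries k)
    = (x : LaurentSeries k)
  rw [show ((RingEquiv.refl k : k ≃+* k) : k →+* k) = RingHom.id k from rfl, coeffMap_id]

end Bar

section Decomp

variable {K L : Type*} [Field K] [Field L] [Algebra K L] (A : ValuationSubring L)

/-- The action of an element of the decomposition group on `A`. -/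
def FA_S37_GB_resA (σ : L ≃ₐ[K] L) (hσ : σ ∈ A.decompositionSubgroup K) : ↥A →+* ↥A :=
  MulSemiringAction.toRingHom (A.decompositionSubgroup K) ↥A ⟨σ, hσ⟩

theorem FA_S37_GB_resA_coe (σ : L ≃ₐ[K] L) (hσ : σ ∈ A.decompositionSubgroup K) (a : ↥A) :
    ((FA_S37_GB_resA A σ hσ a : ↥A) : L) = σ (a : L) := rfl

/-- The action of an element of the decomposition group on the residue field. -/
def FA_S37_GB_resk (σ : L ≃ₐ[K] L) (hσ : σ ∈ A.decompositionSubgroup K) :
    IsLocalRing.ResidueField ↥A ≃+* IsLocalRing.ResidueField ↥A :=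
  MulSemiringAction.toRingEquiv (A.decompositionSubgroup K) (IsLocalRing.ResidueField ↥A)
    ⟨σ, hσ⟩

theorem FA_S37_GB_resk_apply (σ : L ≃ₐ[K] L) (hσ : σ ∈ A.decompositionSubgroup K)
    (x : IsLocalRing.ResidueField ↥A) :
    FA_S37_GB_resk A σ hσ x = (⟨σ, hσ⟩ : A.decompositionSubgroup K) • x := rfl

theorem FA_S37_GB_resk_residue (σ : L ≃ₐ[K] L) (hσ : σ ∈ A.decompositionSubgroup K) (a : ↥A) :
    FA_S37_GB_resk A σ hσ (IsLocalRing.residue ↥A a)
      = IsLocalRing.residue ↥A (FA_S37_GB_resA A σ hσ a) := rfl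

/-- compatibility of the three coefficient maps: `A ↪ L` -/
theorem FA_S37_GB_subtype_comp (σ : L ≃ₐ[K] L) (hσ : σ ∈ A.decompositionSubgroup K) :
    A.subtype.comp (FA_S37_GB_resA A σ hσ) = ((σ : L ≃+* L) : L →+* L).comp A.subtype :=
  RingHom.ext fun _ => rfl

/-- compatibility of the three coefficient maps: `A ↠ k` -/
theorem FA_S37_GB_residue_comp (σ : L ≃ₐ[K] L) (hσ : σ ∈ A.decompositionSubgroup K) :
    (IsLocalRing.residue ↥A).comp (FA_S37_GB_resA A σ hσ)
      = ((FA_S37_GB_resk A σ hσ : _ ≃+* _) : _ →+* _).comp (IsLocalRing.residue ↥A) :=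
  RingHom.ext fun _ => rfl

/-- inertia elements act trivially on the residue field -/
theorem FA_S37_GB_resk_inertia (τ : L ≃ₐ[K] L) (hτ : τ ∈ A.inertiaSubgroupIn K)
    (hτD : τ ∈ A.decompositionSubgroup K) :
    FA_S37_GB_resk A τ hτD = RingEquiv.refl _ := by
  obtain ⟨hτ', h⟩ := FA_S37_FR_inertia_iff.mp hτ
  ext x
  exact h x

end Decomp

end Fermat.Agent.S37
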