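import Mathlib
import Fermat.Agent.S37.GalRed

/-!
# S37, leaf B (Galois equivariance of the reduction), part 2: the main theorem

`A` a valuation subring of `ℚ̄`, `k` its residue field, `r` a place reduction at level `N`
(`IsPlaceReductionAlong`), `σ` in the decomposition group of `A`, `σ̄` the induced automorphism of
`k`.  Then on divisors of degree `0`
`r_* (σ • D) = σ̄ • r_* D`  (`FA_S37_GB_divisor`)
and on `Pic⁰`:  `red (σ • x) = σ̄ • red x`  (`FA_S37_GB_pic0`).

Proof: the difference `Ψ = r_* ∘ σ - σ̄ ∘ r_*` kills the divisors of integral functions (both `σ`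
and the reduction are coefficientwise), hence all principal divisors, and is bounded by `1` on
places; apply the boundedness lemma `FA_S37_BD_vanish`.
-/

set_option autoImplicit false
set_option linter.unusedSectionVars false
set_option linter.style.haveILetI false
set_option synthInstance.maxHeartbeats 400000
set_option maxHeartbeats 1000000

noncomputable section

namespace Fermat.Agent.S37

open AlgebraicCurve ModularCurve FA_S18 Fermat.Agent.S18

variable (A : ValuationSubring (AlgebraicClosure ℚ)) (N : ℕ) [NeZero N]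

/-- The semilinear automorphism of `F_N` over `ℚ̄` attached to `σ`. -/
abbrev FA_S37_GB_g (σ : AlgebraicClosure ℚ ≃ₐ[ℚ] AlgebraicClosure ℚ) :
    SemilinearAut (AlgebraicClosure ℚ) ↥(modularFunctionFieldBar N) :=
  arithmeticGalois (modularFunctionFieldFull N) σ

/-- The semilinear automorphism of `F̄_N` over `k` attached to `σ` in the decomposition group. -/
abbrev FA_S37_GB_gbar (σ : AlgebraicClosure ℚ ≃ₐ[ℚ] AlgebraicClosure ℚ)
    (hσ : σ ∈ A.decompositionSubgroup ℚ) :
    SemilinearAut (IsLocalRing.ResidueField ↥A)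
      ↥(modularFunctionFieldFullC (IsLocalRing.ResidueField ↥A) N) :=
  FA_S37_GB_barAut N (FA_S37_GB_resk A σ hσ)

variable {A N}

/-- `ι (σ_A y) = σ (ι y)` -/
theorem FA_S37_GB_iota (σ : AlgebraicClosure ℚ ≃ₐ[ℚ] AlgebraicClosure ℚ)
    (hσ : σ ∈ A.decompositionSubgroup ℚ) (y : LaurentSeries ↥A) :
    coeffMap A.subtype (coeffMap (FA_S37_GB_resA A σ hσ) y)
      = coeffMap (σ : AlgebraicClosure ℚ →+* AlgebraicClosure ℚ) (coeffMap A.subtype y) := by
  rw [coeffMap_coeffMap, coeffMap_coeffMap]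
  exact coeffMap_congr (RingHom.ext fun _ => rfl) y

/-- `ρ (σ_A y) = σ̄ (ρ y)` -/
theorem FA_S37_GB_rho (σ : AlgebraicClosure ℚ ≃ₐ[ℚ] AlgebraicClosure ℚ)
    (hσ : σ ∈ A.decompositionSubgroup ℚ) (y : LaurentSeries ↥A) :
    coeffMap (IsLocalRing.residue ↥A) (coeffMap (FA_S37_GB_resA A σ hσ) y)
      = coeffMap ((FA_S37_GB_resk A σ hσ : _ ≃+* _) : _ →+* _)
          (coeffMap (IsLocalRing.residue ↥A) y) := by
  rw [coeffMap_coeffMap, coeffMap_coeffMap]
  exact coeffMap_congr (RingHom.ext fun _ => rfl) y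

/-- The divisor of `g • f` is `g • div f`. -/
theorem FA_S37_GB_smul_div {K F : Type*} [Field K] [Field F] [Algebra K F]
    (g : SemilinearAut K F) (f : F) (D : Divisor K F) (hD : ∀ P, D P = P.ord f)
    (P : Place K F) : (g • D) P = P.ord (g • f) := by
  rw [SemilinearAut.divisor_smul_apply, hD]
  have h := SemilinearAut.ord_smul g (g⁻¹ • P) f
  rw [smul_inv_smul] at h
  exact h.symm

variable {r : Place (AlgebraicClosure ℚ) ↥(modularFunctionFieldBar N) →
  Place (IsLocalRing.ResidueField ↥A)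
    ↥(modularFunctionFieldFullC (IsLocalRing.ResidueField ↥A) N)}

/-- The difference `Ψ = r_* ∘ σ - σ̄ ∘ r_*`. -/
def FA_S37_GB_Psi (r : Place (AlgebraicClosure ℚ) ↥(modularFunctionFieldBar N) →
      Place (IsLocalRing.ResidueField ↥A)
        ↥(modularFunctionFieldFullC (IsLocalRing.ResidueField ↥A) N))
    (σ : AlgebraicClosure ℚ ≃ₐ[ℚ] AlgebraicClosure ℚ)
    (hσ : σ ∈ A.decompositionSubgroup ℚ) :
    Divisor (AlgebraicClosure ℚ) ↥(modularFunctionFieldBar N) →+
      Divisor (IsLocalRing.ResidueField ↥A)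
        ↥(modularFunctionFieldFullC (IsLocalRing.ResidueField ↥A) N) :=
  (Finsupp.mapDomain.addMonoidHom r).comp
      (DistribSMul.toAddMonoidHom (Divisor (AlgebraicClosure ℚ) ↥(modularFunctionFieldBar N))
        (FA_S37_GB_g N σ))
    - (DistribSMul.toAddMonoidHom (Divisor (IsLocalRing.ResidueField ↥A)
        ↥(modularFunctionFieldFullC (IsLocalRing.ResidueField ↥A) N))
        (FA_S37_GB_gbar A N σ hσ)).comp (Finsupp.mapDomain.addMonoidHom r)

theorem FA_S37_GB_Psi_apply (σ : AlgebraicClosure ℚ ≃ₐ[ℚ] AlgebraicClosure ℚ)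
    (hσ : σ ∈ A.decompositionSubgroup ℚ)
    (D : Divisor (AlgebraicClosure ℚ) ↥(modularFunctionFieldBar N)) :
    FA_S37_GB_Psi r σ hσ D
      = Finsupp.mapDomain r (FA_S37_GB_g N σ • D)
        - FA_S37_GB_gbar A N σ hσ • Finsupp.mapDomain r D := rfl

/-- `Ψ` kills the divisors of integral functions. -/
theorem FA_S37_GB_Psi_integral (hr : IsPlaceReductionModL A N r)
    (σ : AlgebraicClosure ℚ ≃ₐ[ℚ] AlgebraicClosure ℚ)
    (hσ : σ ∈ A.decompositionSubgroup ℚ)
    (E : Divisor (AlgebraicClosure ℚ) ↥(modularFunctionFieldBar N))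
    (hE : E ∈ integralPrincipalDivisors A (IsLocalRing.residue ↥A) N) :
    FA_S37_GB_Psi r σ hσ E = 0 := by
  obtain ⟨y, hy, hyk, hne, hEy⟩ := hE
  rw [FA_S37_GB_Psi_apply, sub_eq_zero]
  -- the transformed function
  have hy' : coeffMap A.subtype (coeffMap (FA_S37_GB_resA A σ hσ) y)
      ∈ laurentBaseChange (AlgebraicClosure ℚ) (modularFunctionFieldFull N) := by
    rw [FA_S37_GB_iota]
    exact coeffMap_mem_laurentBaseChange σ hy
  have hyk' : coeffMap (IsLocalRing.residue ↥A) (coeffMap (FA_S37_GB_resA A σ hσ) y)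
      ∈ modularFunctionFieldFullC (IsLocalRing.ResidueField ↥A) N := by
    rw [FA_S37_GB_rho]
    exact FA_S37_GB_coeffMap_mem N _ hyk
  have hne' : coeffMap (IsLocalRing.residue ↥A) (coeffMap (FA_S37_GB_resA A σ hσ) y) ≠ 0 := by
    rw [FA_S37_GB_rho]
    intro h0
    apply hne
    have h1 : (FA_S37_GB_gbar A N σ hσ) •
        (⟨coeffMap (IsLocalRing.residue ↥A) y, hyk⟩ :
          ↥(modularFunctionFieldFullC (IsLocalRing.ResidueField ↥A) N)) = 0 :=
      Subtype.ext h0
    have h2 := (smul_eq_zero_iff_eq (FA_S37_GB_gbar A N σ hσ)).mp h1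
    exact congrArg Subtype.val h2
  ext Q
  -- left side
  have hL := hr.2 (coeffMap (FA_S37_GB_resA A σ hσ) y) hy' hyk' hne' (FA_S37_GB_g N σ • E)
    (fun P => by
      rw [FA_S37_GB_smul_div (FA_S37_GB_g N σ) _ E hEy P]
      exact congrArg P.ord (Subtype.ext (FA_S37_GB_iota σ hσ y).symm)) Q
  rw [hL]
  -- right side
  have hR : ∀ Q', Finsupp.mapDomain r E Q'
      = Q'.ord (⟨coeffMap (IsLocalRing.residue ↥A) y, hyk⟩ :
          ↥(modularFunctionFieldFullC (IsLocalRing.ResidueField ↥A) N)) :=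
    fun Q' => hr.2 y hy hyk hne E hEy Q'
  rw [FA_S37_GB_smul_div (FA_S37_GB_gbar A N σ hσ) _ (Finsupp.mapDomain r E) hR Q]
  exact congrArg Q.ord (Subtype.ext (FA_S37_GB_rho σ hσ y))

/-- `Ψ` kills the principal divisors. -/
theorem FA_S37_GB_Psi_principal (hr : IsPlaceReductionModL A N r)
    (hgen : PrincipalGeneratedByIntegral A (IsLocalRing.residue ↥A) N)
    (σ : AlgebraicClosure ℚ ≃ₐ[ℚ] AlgebraicClosure ℚ)
    (hσ : σ ∈ A.decompositionSubgroup ℚ)
    (D : Divisor (AlgebraicClosure ℚ) ↥(modularFunctionFieldBar N))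
    (hD : D ∈ Divisor.principal (K := AlgebraicClosure ℚ) (F := ↥(modularFunctionFieldBar N))) :
    FA_S37_GB_Psi r σ hσ D = 0 := by
  have hD' := hgen hD
  clear hD
  induction hD' using AddSubgroup.closure_induction with
  | mem E hE => exact FA_S37_GB_Psi_integral hr σ hσ E hE
  | zero => exact map_zero _
  | add E E' _ _ hE hE' => rw [map_add, hE, hE', add_zero]
  | neg E _ hE => rw [map_neg, hE, neg_zero]

/-- `Ψ` is bounded by `1` on places. -/
theorem FA_S37_GB_Psi_bound (σ : AlgebraicClosure ℚ ≃ₐ[ℚ] AlgebraicClosure ℚ)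
    (hσ : σ ∈ A.decompositionSubgroup ℚ)
    (P : Place (AlgebraicClosure ℚ) ↥(modularFunctionFieldBar N))
    (Q : Place (IsLocalRing.ResidueField ↥A)
      ↥(modularFunctionFieldFullC (IsLocalRing.ResidueField ↥A) N)) :
    |FA_S37_GB_Psi r σ hσ (Finsupp.single P 1) Q| ≤ 1 := by
  classical
  rw [FA_S37_GB_Psi_apply, SemilinearAut.smul_single, Finsupp.mapDomain_single,
    Finsupp.mapDomain_single, SemilinearAut.smul_single, Finsupp.sub_apply,
    Finsupp.single_apply, Finsupp.single_apply]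
  split_ifs <;> simp

/-- **Leaf B, divisor form**: `r_* (σ • D) = σ̄ • r_* D` for `D` of degree `0`. -/
theorem FA_S37_GB_divisor (hr : IsPlaceReductionModL A N r)
    (hgen : PrincipalGeneratedByIntegral A (IsLocalRing.residue ↥A) N)
    (σ : AlgebraicClosure ℚ ≃ₐ[ℚ] AlgebraicClosure ℚ)
    (hσ : σ ∈ A.decompositionSubgroup ℚ)
    (D : Divisor (AlgebraicClosure ℚ) ↥(modularFunctionFieldBar N))
    (hD : Divisor.degree D = 0) :
    Finsupp.mapDomain r (FA_S37_GB_g N σ • D)
      = FA_S37_GB_gbar A N σ hσ • Finsupp.mapDomain r D := by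
  have h := FA_S37_BD_vanish (FA_S18_A_isFF N) (FA_S37_GB_Psi r σ hσ)
    (FA_S37_GB_Psi_principal hr hgen σ hσ) 1 (FA_S37_GB_Psi_bound σ hσ) D hD
  rw [FA_S37_GB_Psi_apply, sub_eq_zero] at h
  exact h

/-- **Leaf B, `Pic⁰` form**: `red (σ • x) = σ̄ • red x`. -/
theorem FA_S37_GB_pic0 (hr : IsPlaceReductionModL A N r)
    (hgen : PrincipalGeneratedByIntegral A (IsLocalRing.residue ↥A) N)
    (σ : AlgebraicClosure ℚ ≃ₐ[ℚ] AlgebraicClosure ℚ)
    (hσ : σ ∈ A.decompositionSubgroup ℚ) (x : JZero N) :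
    reductionPic0Along r hr hgen (σ • x)
      = FA_S37_GB_gbar A N σ hσ • reductionPic0Along r hr hgen x := by
  obtain ⟨D, rfl⟩ := Pic0.mk_surjective x
  rw [galois_smul_pic0_def, SemilinearAut.pic0_smul_mk, reductionPic0Along_mk,
    reductionPic0Along_mk, SemilinearAut.pic0_smul_mk]
  congr 1
  apply Subtype.ext
  exact FA_S37_GB_divisor hr hgen σ hσ (D : Divisor _ _) (Divisor.mem_degZero.mp D.2)

/-- (K2) for the reduction attached to `r`. -/
theorem FA_S37_GB_inertia (hr : IsPlaceReductionModL A N r)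
    (hgen : PrincipalGeneratedByIntegral A (IsLocalRing.residue ↥A) N)
    (τ : AlgebraicClosure ℚ ≃ₐ[ℚ] AlgebraicClosure ℚ) (hτ : τ ∈ A.inertiaSubgroupIn ℚ)
    (x : JZero N) :
    reductionPic0Along r hr hgen (τ • x) = reductionPic0Along r hr hgen x := by
  obtain ⟨hτD, -⟩ := FA_S37_FR_inertia_iff.mp hτ
  have e : FA_S37_GB_gbar A N τ hτD = 1 := by
    unfold FA_S37_GB_gbar
    rw [FA_S37_GB_resk_inertia A τ hτ hτD, FA_S37_GB_barAut_one]
  rw [FA_S37_GB_pic0 hr hgen τ hτD, e, one_smul]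

end Fermat.Agent.S37
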