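import Mathlib
import Fermat.Agent.S37.GalRedB

/-!
# S37, leaf B (Galois equivariance of the reduction), part 3: the prelude's `reductionModL`

For `h : ReductionInputsModL A N` and `σ` in the decomposition group of `A`:
* `FA_S37_GB_modL` : `reductionModL A N (σ • x) = σ̄ • reductionModL A N x`;
* `FA_S37_GB_modL_inertia` : (K2) `reductionModL A N (τ • x) = reductionModL A N x` for `τ` in the
  inertia group;
* `FA_S37_GB_Phi` : the automorphism `Φ_σ = σ̄ • ·` of `JZeroC k N` (as an `AddEquiv`);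
  `FA_S37_GB_modL_Phi` : `reductionModL A N (σ • x) = Φ_σ (reductionModL A N x)`.
(The statements hold trivially if `ReductionInputsModL A N` fails, since then the map is `0`.)
-/

set_option autoImplicit false
set_option linter.unusedSectionVars false
set_option linter.style.haveILetI false
set_option synthInstance.maxHeartbeats 400000
set_option maxHeartbeats 1000000

noncomputable section

namespace Fermat.Agent.S37

open AlgebraicCurve ModularCurve

variable (A : ValuationSubring (AlgebraicClosure ℚ)) (N : ℕ) [NeZero N]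

/-- **Leaf B for `reductionModL`.** -/
theorem FA_S37_GB_modL (σ : AlgebraicClosure ℚ ≃ₐ[ℚ] AlgebraicClosure ℚ)
    (hσ : σ ∈ A.decompositionSubgroup ℚ) (x : JZero N) :
    reductionModL A N (σ • x) = FA_S37_GB_gbar A N σ hσ • reductionModL A N x := by
  by_cases h : ReductionInputsModL A N
  · rw [show reductionModL A N = reductionPic0Along h.choose h.choose_spec.1 h.choose_spec.2
      from reductionAlong_eq h]
    exact FA_S37_GB_pic0 h.choose_spec.1 h.choose_spec.2 σ hσ x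
  · rw [reductionModL_of_not h]
    exact (smul_zero (A := JZeroC (IsLocalRing.ResidueField ↥A) N)
      (FA_S37_GB_gbar A N σ hσ)).symm

/-- **(K2) for `reductionModL`.** -/
theorem FA_S37_GB_modL_inertia (τ : AlgebraicClosure ℚ ≃ₐ[ℚ] AlgebraicClosure ℚ)
    (hτ : τ ∈ A.inertiaSubgroupIn ℚ) (x : JZero N) :
    reductionModL A N (τ • x) = reductionModL A N x := by
  obtain ⟨hτD, -⟩ := FA_S37_FR_inertia_iff.mp hτ
  have e : FA_S37_GB_gbar A N τ hτD = 1 := by
    unfold FA_S37_GB_gbar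
    rw [FA_S37_GB_resk_inertia A τ hτ hτD, FA_S37_GB_barAut_one]
  rw [FA_S37_GB_modL A N τ hτD, e, one_smul]

/-- The automorphism `Φ_σ = σ̄ • ·` of `Pic⁰` of the special fibre. -/
def FA_S37_GB_Phi (σ : AlgebraicClosure ℚ ≃ₐ[ℚ] AlgebraicClosure ℚ)
    (hσ : σ ∈ A.decompositionSubgroup ℚ) :
    JZeroC (IsLocalRing.ResidueField ↥A) N ≃+ JZeroC (IsLocalRing.ResidueField ↥A) N :=
  DistribMulAction.toAddEquiv (JZeroC (IsLocalRing.ResidueField ↥A) N)
    (FA_S37_GB_gbar A N σ hσ)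

theorem FA_S37_GB_Phi_apply (σ : AlgebraicClosure ℚ ≃ₐ[ℚ] AlgebraicClosure ℚ)
    (hσ : σ ∈ A.decompositionSubgroup ℚ) (y : JZeroC (IsLocalRing.ResidueField ↥A) N) :
    FA_S37_GB_Phi A N σ hσ y = FA_S37_GB_gbar A N σ hσ • y := rfl

theorem FA_S37_GB_Phi_symm_apply (σ : AlgebraicClosure ℚ ≃ₐ[ℚ] AlgebraicClosure ℚ)
    (hσ : σ ∈ A.decompositionSubgroup ℚ) (y : JZeroC (IsLocalRing.ResidueField ↥A) N) :
    (FA_S37_GB_Phi A N σ hσ).symm y = (FA_S37_GB_gbar A N σ hσ)⁻¹ • y := rfl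

/-- **(K3) for `reductionModL`**, in `Φ`-form. -/
theorem FA_S37_GB_modL_Phi (σ : AlgebraicClosure ℚ ≃ₐ[ℚ] AlgebraicClosure ℚ)
    (hσ : σ ∈ A.decompositionSubgroup ℚ) (x : JZero N) :
    reductionModL A N (σ • x) = FA_S37_GB_Phi A N σ hσ (reductionModL A N x) :=
  FA_S37_GB_modL A N σ hσ x

/-- **(K3) for `reductionModL`**, kernel form. -/
theorem FA_S37_GB_modL_ker (σ : AlgebraicClosure ℚ ≃ₐ[ℚ] AlgebraicClosure ℚ)
    (hσ : σ ∈ A.decompositionSubgroup ℚ) (x : JZero N) (hx : reductionModL A N x = 0) :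
    reductionModL A N (σ • x) = 0 := by
  rw [FA_S37_GB_modL A N σ hσ, hx]
  exact smul_zero (A := JZeroC (IsLocalRing.ResidueField ↥A) N) (FA_S37_GB_gbar A N σ hσ)

end Fermat.Agent.S37
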