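import Mathlib
import Fermat.Agent.Lib.RR.Main
import Fermat.Prelude.Def_AlgebraicCurve_Correspondence

/-!
# S37, leaf L4 (Hecke inputs), part 1: the fundamental identity `Σ e_w = [F' : F]`

`K` algebraically closed of characteristic `0`, `F ⊂ F'` function fields in one variable over
`K` (`FA_RR_IsFF`), `F' / F` algebraic.

* `FA_S37_HI_exists_unique_zero` : every place `v` of `F` is the unique zero of some
  transcendental `y ∈ F` (Riemann's inequality);
* `FA_S37_HI_finrank_tower` : `[F' : K(y)] = [F' : F] · [F : K(y)]`;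
* `FA_S37_HI_fundamentalIdentity` : `FundamentalIdentity K F F'`.
-/

set_option autoImplicit false
set_option linter.unusedSectionVars false
set_option linter.style.haveILetI false

noncomputable section

namespace Fermat.Agent.S37

open AlgebraicCurve IntermediateField FA_RR

variable {K F : Type*} [Field K] [Field F] [Algebra K F] [IsAlgClosed K] [CharZero K]

/-- Every place is the unique zero of a transcendental function. -/
theorem FA_S37_HI_exists_unique_zero (hF : FA_RR_IsFF K F) (v : Place K F) :
    ∃ y : F, Transcendental K y ∧ 0 < v.ord y ∧ ∀ u : Place K F, 0 < u.ord y → u = v := by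
  classical
  set D : Divisor K F := Finsupp.single v ((genusFF K F : ℤ) + 1) with hD
  have hdeg : Divisor.degree D = (genusFF K F : ℤ) + 1 := by
    rw [hD, Divisor.degree_single, deg_eq_one hF v]
    simp
  have h1 := FA_RR.WPC.riemann_ineq hF D
  rw [hdeg] at h1
  haveI := FA_RR.WPB.finiteL hF D
  haveI := (FA_RR.WPB.L_zero_finite hF).1
  have hex : ∃ f ∈ riemannRochSpace D, f ∉ riemannRochSpace (0 : Divisor K F) := by
    by_contra hcon
    push Not at hcon
    have hle : riemannRochSpace D ≤ riemannRochSpace (0 : Divisor K F) := hcon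
    have h2 := Submodule.finrank_mono hle
    rw [(FA_RR.WPB.L_zero_finite hF).2] at h2
    have h3 : (Module.finrank K (riemannRochSpace D) : ℤ) ≤ 1 := by exact_mod_cast h2
    omega
  obtain ⟨f, hfD, hf0⟩ := hex
  rw [mem_riemannRochSpace_iff] at hfD hf0
  push Not at hf0
  obtain ⟨u₀, hfne, hu₀⟩ := hf0
  rw [Finsupp.zero_apply, neg_zero] at hu₀
  have hreg : ∀ u : Place K F, u ≠ v → 0 ≤ u.ord f := by
    intro u hu
    rcases hfD u with h | h
    · exact absurd h hfne
    · rw [hD, Finsupp.single_eq_of_ne hu, neg_zero] at h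
      exact h
  have hu₀v : u₀ = v := by
    by_contra h
    have := hreg u₀ h
    omega
  subst hu₀v
  have htr : Transcendental K f := by
    intro halg
    obtain ⟨c, hc⟩ := exists_const_of_isAlgebraic halg
    rw [← hc, FA_RR.ord_algebraMap] at hu₀
    exact lt_irrefl _ hu₀
  refine ⟨f⁻¹, transcendental_inv htr, ?_, ?_⟩
  · rw [Place.ord_inv]
    omega
  · intro u hu
    rw [Place.ord_inv] at hu
    by_contra h
    have := hreg u h
    omega

section Tower

variable {F' : Type*} [Field F'] [Algebra K F'] [Algebra F F'] [IsScalarTower K F F']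

/-- `[F' : K(y)] = [F' : F] · [F : K(y)]`. -/
theorem FA_S37_HI_finrank_tower (y : F) :
    Module.finrank K⟮algebraMap F F' y⟯ F'
      = Module.finrank K⟮y⟯ F * Module.finrank F F' := by
  rw [Module.finrank_mul_finrank]
  set f : F →ₐ[K] F' := IsScalarTower.toAlgHom K F F' with hf
  have hmap : (K⟮y⟯).map f = K⟮algebraMap F F' y⟯ := by
    rw [IntermediateField.adjoin_map, Set.image_singleton]
    rfl
  let e1 : ↥(K⟮y⟯) ≃ₐ[K] ↥((K⟮y⟯).map f) := IntermediateField.equivMap K⟮y⟯ f
  let e2 : ↥((K⟮y⟯).map f) ≃ₐ[K] ↥(K⟮algebraMap F F' y⟯) := IntermediateField.equivOfEq hmap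
  let e : ↥(K⟮y⟯) ≃+* ↥(K⟮algebraMap F F' y⟯) := (e1.trans e2).toRingEquiv
  symm
  refine Algebra.finrank_eq_of_equiv_equiv e (RingEquiv.refl F') ?_
  ext a
  rfl

end Tower

section FI

variable {F' : Type*} [Field F'] [Algebra K F'] [Algebra F F'] [IsScalarTower K F F']
  [Algebra.IsIntegral F F'] [HasPrincipalDivisors K F']

/-- **The fundamental identity** `Σ_{w | v} e(w | v) = [F' : F]`, ramification-index form. -/
theorem FA_S37_HI_sum_ramificationIndex (hF : FA_RR_IsFF K F) (hF' : FA_RR_IsFF K F')
    (v : Place K F) :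
    ∑ w ∈ v.fiber F', (w.ramificationIndex F : ℤ) = (Module.finrank F F' : ℤ) := by
  classical
  obtain ⟨y, hy, hvy, huniq⟩ := FA_S37_HI_exists_unique_zero hF v
  have hy' : Transcendental K (algebraMap F F' y) :=
    (transcendental_algebraMap_iff (algebraMap F F').injective).mpr hy
  obtain ⟨Z, hZ, hZdeg⟩ := sumZeros hF y hy
  obtain ⟨Z', hZ', hZ'deg⟩ := sumZeros hF' (algebraMap F F' y) hy'
  -- `Z = a • v`
  have hZeq : Z = Finsupp.single v (v.ord y) := by
    ext u
    rw [hZ u]
    by_cases hu : u = v
    · subst hu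
      rw [Finsupp.single_eq_same]
      exact max_eq_left hvy.le
    · rw [Finsupp.single_eq_of_ne hu]
      apply max_eq_right
      by_contra h
      push Not at h
      exact hu (huniq u h)
  -- `Z' = pullback Z`
  have hZ'eq : Z' = Divisor.pullback F' (Finsupp.single v (v.ord y)) := by
    ext w
    rw [hZ' w, Divisor.pullback_apply, Place.ord_restrict]
    have hepos : (0 : ℤ) < (w.ramificationIndex F : ℤ) := by
      exact_mod_cast w.ramificationIndex_pos (F := F)
    by_cases hw : w.restrict F = v
    · rw [hw, Finsupp.single_eq_same]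
      exact max_eq_left (mul_nonneg hepos.le hvy.le)
    · rw [Finsupp.single_eq_of_ne hw, mul_zero]
      apply max_eq_right
      have hle : (w.restrict F).ord y ≤ 0 := by
        by_contra h
        push Not at h
        exact hw (huniq _ h)
      exact mul_nonpos_of_nonneg_of_nonpos hepos.le hle
  have h1 : Divisor.degree Z = v.ord y := by
    rw [hZeq, Divisor.degree_single, deg_eq_one hF v]
    simp
  have h2 : Divisor.degree Z' = v.ord y * ∑ w ∈ v.fiber F', (w.ramificationIndex F : ℤ) := by
    rw [hZ'eq, Divisor.pullback_single, map_sum, Finset.mul_sum]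
    refine Finset.sum_congr rfl fun w _ => ?_
    rw [Divisor.degree_single, deg_eq_one hF' w]
    simp
  rw [h1] at hZdeg
  rw [h2, FA_S37_HI_finrank_tower (K := K) (F' := F') y] at hZ'deg
  push_cast at hZ'deg
  rw [← hZdeg] at hZ'deg
  exact mul_left_cancel₀ (ne_of_gt hvy) hZ'deg

/-- **The fundamental identity**. -/
theorem FA_S37_HI_fundamentalIdentity (hF : FA_RR_IsFF K F) (hF' : FA_RR_IsFF K F') :
    FundamentalIdentity K F F' where
  sum_ramificationIndex_mul_deg v := by
    rw [deg_eq_one hF v, ← FA_S37_HI_sum_ramificationIndex hF hF' v]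
    rw [Finset.sum_mul]
    refine Finset.sum_congr rfl fun w _ => ?_
    rw [deg_eq_one hF' w]

end FI

end Fermat.Agent.S37
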