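import Mathlib
import Fermat.Agent.S37.HeckeInFI

/-!
# S37, leaf L4 (Hecke inputs), part 2: integrality over `O_v` on the fibre of `v`

* `FA_S37_HI_exists_place` : a valuation subring `V ≠ ⊤` of a function field `F / K` that
  contains `K` is the valuation ring of a place;
* `FA_S37_HI_isIntegralElem_of_fiber` : an element of `F'` without poles on the fibre of `v` is
  integral over `O_v` (as an `IsIntegralElem` statement for `O_v → F → F'`).
-/

set_option autoImplicit false
set_option linter.unusedSectionVars false
set_option linter.style.haveILetI false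

noncomputable section

namespace Fermat.Agent.S37

open AlgebraicCurve IntermediateField FA_RR IsDedekindDomain
open scoped IntermediateField.algebraAdjoinAdjoin

variable {K F : Type*} [Field K] [Field F] [Algebra K F] [IsAlgClosed K] [CharZero K]

/-- A valuation subring of `F` containing `K[x]` contains the chart ring at `x`. -/
theorem FA_S37_HI_chartRing_le (V : ValuationSubring F) (hK : ∀ a : K, algebraMap K F a ∈ V)
    {x : F} (hx : x ∈ V) (r : chartRing K x) : (r : F) ∈ V := by
  have hr : IsIntegral (Algebra.adjoin K {x}) (r : F) := r.2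
  obtain ⟨p, hp, hpr⟩ := hr
  let VA : Subalgebra K F := { V.toSubring with algebraMap_mem' := hK }
  have hle : Algebra.adjoin K {x} ≤ VA :=
    Algebra.adjoin_le (by
      intro y hy
      rw [Set.mem_singleton_iff] at hy
      subst hy
      exact hx)
  let ι : (Algebra.adjoin K {x}) →+* V :=
    { toFun := fun a => ⟨(a : F), hle a.2⟩
      map_one' := rfl
      map_mul' := fun _ _ => rfl
      map_zero' := rfl
      map_add' := fun _ _ => rfl }
  have hint : IsIntegral V (r : F) := by
    refine ⟨p.map ι, hp.map ι, ?_⟩
    rw [Polynomial.eval₂_map]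
    exact hpr
  obtain ⟨y, hy⟩ := IsIntegrallyClosed.isIntegral_iff.mp hint
  rw [← hy]
  exact y.2

section Abstract

variable {R : Type*} [CommRing R] [IsDedekindDomain R] [Algebra R F] [IsFractionRing R F]
  [Algebra K R] [IsScalarTower K R F]

/-- A valuation subring `V ≠ ⊤` containing a Dedekind domain `R` with fraction field `F` is the
valuation ring of a height one prime of `R`. -/
theorem FA_S37_HI_exists_ofHeightOneSpectrum (V : ValuationSubring F) (hV : V ≠ ⊤)
    (hv : ∀ r : R, algebraMap R F r ∈ V) :
    ∃ w : HeightOneSpectrum R,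
      (Place.ofHeightOneSpectrum (K := K) (F := F) w).toValuationSubring = V := by
  let φ : R →+* V := (algebraMap R F).codRestrict V.toSubring hv
  let p : Ideal R := (IsLocalRing.maximalIdeal V).comap φ
  have hp : p.IsPrime := Ideal.comap_isPrime φ _
  have hφ : ∀ r : R, ((φ r : V) : F) = algebraMap R F r := fun r => rfl
  have hinv : ∀ s : R, s ∉ p → (algebraMap R F s)⁻¹ ∈ V := by
    intro s hsp
    have hunit : IsUnit (φ s) := by
      by_contra hnu
      exact hsp ((IsLocalRing.mem_maximalIdeal _).mpr hnu)
    obtain ⟨u, hu⟩ := hunit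
    have : (algebraMap R F s)⁻¹ = (((u⁻¹ : Vˣ) : V) : F) := by
      have h1 : ((u : V) : F) = algebraMap R F s := by rw [hu, hφ]
      have h2 : ((u : V) : F) * (((u⁻¹ : Vˣ) : V) : F) = 1 :=
        congrArg Subtype.val u.mul_inv
      rw [h1] at h2
      exact (eq_inv_of_mul_eq_one_right h2).symm
    rw [this]
    exact Subtype.mem _
  have hp0 : p ≠ ⊥ := by
    intro hbot
    apply hV
    rw [eq_top_iff]
    intro f _
    obtain ⟨a, s, hs, rfl⟩ := IsFractionRing.div_surjective (A := R) f
    have hs0 : s ≠ 0 := nonZeroDivisors.ne_zero hs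
    have hsp : s ∉ p := by rw [hbot]; simpa using hs0
    rw [div_eq_mul_inv]
    exact mul_mem (hv a) (hinv s hsp)
  let w : HeightOneSpectrum R := ⟨p, hp, hp0⟩
  refine ⟨w, ?_⟩
  rw [Place.ofHeightOneSpectrum_toValuationSubring,
    ← HeightOneSpectrum.valuationSubringAtPrime_eq_valuationSubring]
  refine ValuationSubring.eq_of_le_of_ne_top _ ?_ hV
  intro f hf
  have hf' : f ∈ (HeightOneSpectrum.valuationSubringAtPrime F w).toSubring := hf
  rw [HeightOneSpectrum.valuationSubringAtPrime_toSubring] at hf'
  obtain ⟨a, s, hs, rfl⟩ := hf'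
  exact mul_mem (hv a) (hinv s hs)

end Abstract

/-- **A valuation subring `V ≠ ⊤` of a function field containing the constants is the valuation
ring of a place.** -/
theorem FA_S37_HI_exists_place (hF : FA_RR_IsFF K F) (V : ValuationSubring F)
    (hK : ∀ a : K, algebraMap K F a ∈ V) (hV : V ≠ ⊤) :
    ∃ w : Place K F, w.toValuationSubring = V := by
  obtain ⟨x, hx, -⟩ := id hF
  obtain ⟨y, hy, hyV⟩ : ∃ y : F, Transcendental K y ∧ y ∈ V := by
    rcases V.mem_or_inv_mem x with h | h
    · exact ⟨x, hx, h⟩
    · exact ⟨x⁻¹, transcendental_inv hx, h⟩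
  haveI := finiteDimensional_adjoin hF hy
  haveI := isDedekindDomain_chartRing hy
  haveI := isFractionRing_chartRing (K := K) y
  obtain ⟨w, hw⟩ := FA_S37_HI_exists_ofHeightOneSpectrum (K := K) (R := chartRing K y) V hV
    (fun r => FA_S37_HI_chartRing_le V hK hyV r)
  exact ⟨_, hw⟩

section Fiber

variable {F' : Type*} [Field F'] [Algebra K F'] [Algebra F F'] [IsScalarTower K F F']
  [Algebra.IsIntegral F F']

/-- The structure map `O_v → F → F'`. -/
def FA_S37_HI_psi (F' : Type*) [Field F'] [Algebra F F'] (v : Place K F) :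
    ↥v.toValuationSubring →+* F' :=
  (algebraMap F F').comp v.toValuationSubring.subtype

theorem FA_S37_HI_psi_apply (v : Place K F) (a : ↥v.toValuationSubring) :
    FA_S37_HI_psi F' v a = algebraMap F F' (a : F) := rfl

/-- A place of `F'` whose valuation ring contains the image of `O_v` lies over `v`. -/
theorem FA_S37_HI_restrict_eq (v : Place K F) (w : Place K F')
    (h : ∀ a : ↥v.toValuationSubring, algebraMap F F' (a : F) ∈ w.toValuationSubring) :
    w.restrict F = v := by
  apply Place.ext
  symm
  refine ValuationSubring.eq_of_le_of_ne_top _ ?_ (w.restrict F).ne_top'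
  intro a ha
  exact h ⟨a, ha⟩

/-- **An element of `F'` without poles on the fibre of `v` is integral over `O_v`.** -/
theorem FA_S37_HI_isIntegralElem_of_fiber (hF' : FA_RR_IsFF K F') (v : Place K F) (h : F')
    (hh : ∀ w : Place K F', w.restrict F = v → h ∈ w.toValuationSubring) :
    (FA_S37_HI_psi F' v).IsIntegralElem h := by
  set ψ := FA_S37_HI_psi F' v with hψ
  -- `h` lies in every valuation subring containing the range of `ψ`
  have hmem : h ∈ (⨅ V : {V : ValuationSubring F' // (Set.range ψ) ⊆ V.toSubring},
      V.1.toSubring) := by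
    rw [Subring.mem_iInf]
    rintro ⟨V, hV⟩
    show h ∈ V
    by_cases htop : V = ⊤
    · rw [htop]
      trivial
    · have hK : ∀ a : K, algebraMap K F' a ∈ V := by
        intro a
        apply hV
        refine ⟨⟨algebraMap K F a, v.algebraMap_mem' a⟩, ?_⟩
        rw [hψ, FA_S37_HI_psi_apply, ← IsScalarTower.algebraMap_apply]
      obtain ⟨w, hw⟩ := FA_S37_HI_exists_place hF' V hK htop
      have hres : w.restrict F = v := by
        apply FA_S37_HI_restrict_eq
        intro a
        rw [hw]
        exact hV ⟨a, rfl⟩
      have := hh w hres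
      rw [hw] at this
      exact this
  rw [iInf_valuationSubring_superset] at hmem
  have hint : IsIntegral (Subring.closure (Set.range ψ)) h := hmem
  have hcl : Subring.closure (Set.range ψ) = ψ.range := by
    rw [← RingHom.coe_range]
    exact Subring.closure_eq _
  obtain ⟨p, hp, hpe⟩ := hint
  -- lift the polynomial to `O_v`
  have hlift : p.map (Subring.closure (Set.range ψ)).subtype ∈ Polynomial.lifts ψ := by
    rw [Polynomial.lifts_iff_coeff_lifts]
    intro n
    rw [Polynomial.coeff_map]
    have : ((p.coeff n : ↥(Subring.closure (Set.range ψ))) : F') ∈ ψ.range := by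
      rw [← hcl]
      exact (p.coeff n).2
    exact this
  obtain ⟨q, hq, -, hqm⟩ := Polynomial.lifts_and_degree_eq_and_monic hlift (hp.map _)
  refine ⟨q, hqm, ?_⟩
  rw [← Polynomial.eval_map, hq, Polynomial.eval_map]
  exact hpe

end Fiber

end Fermat.Agent.S37
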