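import Mathlib
import Fermat.Agent.S37.HeckeInNormA

/-!
# S37, leaf L4 (Hecke inputs), part 3: norms of elements integral over `O_v`

* `FA_S37_HI_norm_mem` : the norm of an element integral over `O_v` lies in `O_v`;
* `FA_S37_HI_norm_dvd` : `N(h) = h · s` with `s` integral over `O_v`;
* `FA_S37_HI_ord_norm_nonneg`, `FA_S37_HI_ord_norm_pos` : the corresponding statements for
  the orders at `v` and at the places over `v`.
-/

set_option autoImplicit false
set_option linter.unusedSectionVars false
set_option linter.style.haveILetI false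

noncomputable section

namespace Fermat.Agent.S37

open AlgebraicCurve IntermediateField FA_RR IsDedekindDomain

variable {K F : Type*} [Field K] [Field F] [Algebra K F] [IsAlgClosed K] [CharZero K]
variable {F' : Type*} [Field F'] [Algebra K F'] [Algebra F F'] [IsScalarTower K F F']
  [FiniteDimensional F F']

/-- The norm of an element integral over `O_v` lies in `O_v`. -/
theorem FA_S37_HI_norm_mem (v : Place K F) (h : F')
    (hh : (FA_S37_HI_psi F' v).IsIntegralElem h) :
    Algebra.norm F h ∈ v.toValuationSubring := by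
  letI : Algebra ↥v.toValuationSubring F' := (FA_S37_HI_psi F' v).toAlgebra
  haveI : IsScalarTower ↥v.toValuationSubring F F' :=
    IsScalarTower.of_algebraMap_eq (fun a => rfl)
  have hint : IsIntegral ↥v.toValuationSubring h := hh
  have hN : IsIntegral ↥v.toValuationSubring (Algebra.norm F h) :=
    Algebra.isIntegral_norm F hint
  obtain ⟨y, hy⟩ := IsIntegrallyClosed.isIntegral_iff.mp hN
  rw [← hy]
  exact y.2

/-- `N(h) = h · s` with `s` integral over `O_v`. -/
theorem FA_S37_HI_norm_dvd (v : Place K F) (h : F')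
    (hh : (FA_S37_HI_psi F' v).IsIntegralElem h) :
    ∃ s : F', (FA_S37_HI_psi F' v).IsIntegralElem s ∧
      algebraMap F F' (Algebra.norm F h) = h * s := by
  classical
  rcases eq_or_ne h 0 with rfl | h0
  · exact ⟨0, (FA_S37_HI_psi F' v).isIntegralElem_zero, by simp⟩
  haveI : CharZero F := charZero_of_injective_algebraMap (algebraMap K F).injective
  letI : Algebra ↥v.toValuationSubring F' := (FA_S37_HI_psi F' v).toAlgebra
  haveI : IsScalarTower ↥v.toValuationSubring F F' :=
    IsScalarTower.of_algebraMap_eq (fun a => rfl)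
  have hint : IsIntegral ↥v.toValuationSubring h := hh
  let Ω := AlgebraicClosure F'
  haveI : IsScalarTower ↥v.toValuationSubring F Ω :=
    IsScalarTower.of_algebraMap_eq (fun a => by
      rw [IsScalarTower.algebraMap_apply ↥v.toValuationSubring F' Ω,
        IsScalarTower.algebraMap_apply F F' Ω]
      rfl)
  have hprod := Algebra.norm_eq_prod_embeddings F Ω h
  let σ₀ : F' →ₐ[F] Ω := IsScalarTower.toAlgHom F F' Ω
  rw [← Finset.mul_prod_erase Finset.univ (fun σ : F' →ₐ[F] Ω => σ h) (Finset.mem_univ σ₀)]
    at hprod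
  set s' : Ω := ∏ σ ∈ Finset.univ.erase σ₀, σ h with hs'
  have hs'int : IsIntegral ↥v.toValuationSubring s' := by
    apply IsIntegral.prod
    intro σ _
    exact hint.map (σ.restrictScalars ↥v.toValuationSubring)
  have hσ₀ : σ₀ h = algebraMap F' Ω h := rfl
  refine ⟨algebraMap F F' (Algebra.norm F h) / h, ?_, by field_simp⟩
  have hmap : algebraMap F' Ω (algebraMap F F' (Algebra.norm F h) / h) = s' := by
    rw [map_div₀, ← IsScalarTower.algebraMap_apply, hprod, hσ₀]
    have : algebraMap F' Ω h ≠ 0 := by simpa using h0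
    exact mul_div_cancel_left₀ _ this
  have := (isIntegral_algebraMap_iff (R := ↥v.toValuationSubring)
    (algebraMap F' Ω).injective (x := algebraMap F F' (Algebra.norm F h) / h)).mp
    (by rw [hmap]; exact hs'int)
  exact this

section Ord

variable [Algebra.IsIntegral F F']

/-- An element integral over `O_v` has no pole at the places over `v`. -/
theorem FA_S37_HI_mem_of_isIntegralElem (v : Place K F) (s : F')
    (hs : (FA_S37_HI_psi F' v).IsIntegralElem s) (w : Place K F') (hw : w.restrict F = v) :
    s ∈ w.toValuationSubring := by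
  obtain ⟨q, hq, hqs⟩ := hs
  have hmem : ∀ a : ↥v.toValuationSubring, algebraMap F F' (a : F) ∈ w.toValuationSubring := by
    intro a
    have : (a : F) ∈ (w.restrict F).toValuationSubring := by
      rw [hw]
      exact a.2
    exact this
  let ι : ↥v.toValuationSubring →+* ↥w.toValuationSubring :=
    { toFun := fun a => ⟨algebraMap F F' (a : F), hmem a⟩
      map_one' := Subtype.ext (by simp)
      map_mul' := fun _ _ => Subtype.ext (by simp)
      map_zero' := Subtype.ext (by simp)
      map_add' := fun _ _ => Subtype.ext (by simp) }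
  have hint : IsIntegral ↥w.toValuationSubring s := by
    refine ⟨q.map ι, hq.map ι, ?_⟩
    rw [Polynomial.eval₂_map]
    exact hqs
  obtain ⟨y, hy⟩ := IsIntegrallyClosed.isIntegral_iff.mp hint
  rw [← hy]
  exact y.2

/-- If `h ≠ 0` has no pole on the fibre of `v`, then `N(h)` has no pole at `v`. -/
theorem FA_S37_HI_ord_norm_nonneg (hF' : FA_RR_IsFF K F') (v : Place K F) {h : F'}
    (h0 : h ≠ 0) (hh : ∀ w : Place K F', w.restrict F = v → 0 ≤ w.ord h) :
    0 ≤ v.ord (Algebra.norm F h) := by
  have hint := FA_S37_HI_isIntegralElem_of_fiber hF' v h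
    (fun w hw => (FA_RR.mem_iff_ord w).mpr (Or.inr (hh w hw)))
  have hmem := FA_S37_HI_norm_mem v h hint
  rcases (FA_RR.mem_iff_ord v).mp hmem with h1 | h1
  · exact absurd (Algebra.norm_eq_zero_iff.mp h1) h0
  · exact h1

/-- If moreover `h` vanishes at some place over `v`, then `N(h)` vanishes at `v`. -/
theorem FA_S37_HI_ord_norm_pos (hF' : FA_RR_IsFF K F') (v : Place K F) {h : F'}
    (h0 : h ≠ 0) (hh : ∀ w : Place K F', w.restrict F = v → 0 ≤ w.ord h)
    (w₁ : Place K F') (hw₁ : w₁.restrict F = v) (hpos : 0 < w₁.ord h) :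
    0 < v.ord (Algebra.norm F h) := by
  have hint := FA_S37_HI_isIntegralElem_of_fiber hF' v h
    (fun w hw => (FA_RR.mem_iff_ord w).mpr (Or.inr (hh w hw)))
  obtain ⟨s, hs, hNs⟩ := FA_S37_HI_norm_dvd v h hint
  have hN0 : Algebra.norm F h ≠ 0 := fun h1 => h0 (Algebra.norm_eq_zero_iff.mp h1)
  have hs0 : s ≠ 0 := by
    rintro rfl
    rw [mul_zero] at hNs
    exact hN0 ((map_eq_zero (algebraMap F F')).mp hNs)
  have hsmem := FA_S37_HI_mem_of_isIntegralElem v s hs w₁ hw₁
  have hsord : 0 ≤ w₁.ord s := by
    rcases (FA_RR.mem_iff_ord w₁).mp hsmem with h1 | h1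
    · exact absurd h1 hs0
    · exact h1
  have h1 : w₁.ord (algebraMap F F' (Algebra.norm F h)) = w₁.ord h + w₁.ord s := by
    rw [hNs, w₁.ord_mul h0 hs0]
  rw [Place.ord_restrict, hw₁] at h1
  have hepos : (0 : ℤ) < (w₁.ramificationIndex F : ℤ) := by
    exact_mod_cast w₁.ramificationIndex_pos (F := F)
  by_contra hcon
  push Not at hcon
  have : (w₁.ramificationIndex F : ℤ) * v.ord (Algebra.norm F h) ≤ 0 :=
    mul_nonpos_of_nonneg_of_nonpos hepos.le hcon
  omega

end Ord

end Fermat.Agent.S37
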