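import Mathlib
import Fermat.Agent.S37.HeckeInNormB

/-!
# S37, leaf L4 (Hecke inputs), part 4: weak approximation and the norm formula

* `FA_S37_HI_finrank_L` : `ℓ(D) = deg D + 1 - g` for `deg D` large;
* `FA_S37_HI_approx` : weak approximation at a finite set of places (via Riemann);
* `FA_S37_HI_ord_norm` : `ord_v (N_{F'/F} f) = Σ_{w | v} ord_w f`;
* `FA_S37_HI_pushforwardNormFormula` : `Divisor.PushforwardNormFormula K F F'`.
-/

set_option autoImplicit false
set_option linter.unusedSectionVars false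
set_option linter.style.haveILetI false

noncomputable section

namespace Fermat.Agent.S37

open AlgebraicCurve IntermediateField FA_RR IsDedekindDomain

variable {K F : Type*} [Field K] [Field F] [Algebra K F] [IsAlgClosed K] [CharZero K]

/-- `ℓ(D) = deg D + 1 - g` for `deg D` large. -/
theorem FA_S37_HI_finrank_L (hF : FA_RR_IsFF K F) :
    ∃ c : ℤ, ∀ D : Divisor K F, c ≤ Divisor.degree D →
      (Module.finrank K (riemannRochSpace D) : ℤ) = Divisor.degree D + 1 - (genusFF K F : ℤ) := by
  obtain ⟨c, hc⟩ := FA_RR.WPC.exists_degree_SD_eq_top hF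
  refine ⟨c, fun D hD => ?_⟩
  have h1 := FA_RR.WPB.euler hF D
  have h2 : Module.finrank K (H1 D) = 0 := by
    have : Subsingleton (H1 D) := by
      show Subsingleton (↥(repartitions K F) ⧸ FA_RR.WPB.SD D)
      rw [hc D hD]
      infer_instance
    exact Module.finrank_zero_of_subsingleton
  rw [h2] at h1
  simpa using h1

/-- A transcendental function has a zero. -/
theorem FA_S37_HI_exists_zero (hF : FA_RR_IsFF K F) {y : F} (hy : Transcendental K y) :
    ∃ w : Place K F, 0 < w.ord y := by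
  obtain ⟨Z, hZ, hdeg⟩ := sumZeros hF y hy
  haveI := finiteDimensional_adjoin hF hy
  have hpos : 0 < Module.finrank K⟮y⟯ F := Module.finrank_pos
  by_contra hcon
  push Not at hcon
  have hZ0 : Z = 0 := by
    ext v
    rw [hZ v, Finsupp.zero_apply]
    exact max_eq_right (hcon v)
  rw [hZ0, map_zero] at hdeg
  omega

/-- **Weak approximation**: a function with a simple zero at `w₁` and neither zero nor pole at
the other places of a finite set `T`. -/
theorem FA_S37_HI_approx (hF : FA_RR_IsFF K F) (T : Finset (Place K F)) (w₀ : Place K F)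
    (hw₀ : w₀ ∉ T) (w₁ : Place K F) (hw₁ : w₁ ∈ T) :
    ∃ π : F, π ≠ 0 ∧ w₁.ord π = 1 ∧ ∀ w ∈ T, w ≠ w₁ → w.ord π = 0 := by
  classical
  obtain ⟨c, hc⟩ := FA_S37_HI_finrank_L hF
  set m : ℤ := max c 0 + 2 with hm
  set D₁ : Divisor K F := Finsupp.single w₀ m - Finsupp.single w₁ 1 with hD₁
  have hdeg₁ : Divisor.degree D₁ = m - 1 := by
    rw [hD₁, map_sub, Divisor.degree_single, Divisor.degree_single, deg_eq_one hF,
      deg_eq_one hF]
    simp
  have hdegw : ∀ w : Place K F, Divisor.degree (D₁ - Finsupp.single w 1) = m - 2 := by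
    intro w
    rw [map_sub, hdeg₁, Divisor.degree_single, deg_eq_one hF]
    simp
    ring
  have hl₁ := hc D₁ (by rw [hdeg₁, hm]; have := le_max_left c 0; omega)
  have hlw : ∀ w : Place K F, (Module.finrank K (riemannRochSpace (D₁ - Finsupp.single w 1)) : ℤ)
      = (Module.finrank K (riemannRochSpace D₁) : ℤ) - 1 := by
    intro w
    rw [hl₁, hc _ (by rw [hdegw, hm]; have := le_max_left c 0; omega), hdegw, hdeg₁]
    ring
  haveI := FA_RR.WPB.finiteL hF D₁
  haveI : Infinite K := IsAlgClosed.instInfinite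
  let p : ↥T → Submodule K ↥(riemannRochSpace D₁) := fun w =>
    (riemannRochSpace (D₁ - Finsupp.single (w : Place K F) 1)).comap (riemannRochSpace D₁).subtype
  have hp : ∀ w : ↥T, p w ≠ ⊤ := by
    intro w htop
    have hle : riemannRochSpace D₁ ≤ riemannRochSpace (D₁ - Finsupp.single (w : Place K F) 1) := by
      intro f hf
      have : (⟨f, hf⟩ : ↥(riemannRochSpace D₁)) ∈ p w := by rw [htop]; trivial
      exact this
    haveI := FA_RR.WPB.finiteL hF (D₁ - Finsupp.single (w : Place K F) 1)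
    have h1 := Submodule.finrank_mono hle
    have h2 := hlw w
    omega
  obtain ⟨⟨π, hπ⟩, hπp⟩ := Submodule.exists_forall_notMem_of_forall_ne_top p hp
  have hπ0 : π ≠ 0 := by
    rintro rfl
    exact hπp ⟨w₁, hw₁⟩ (Submodule.zero_mem _)
  rw [mem_riemannRochSpace_iff] at hπ
  have hord : ∀ u : Place K F, -D₁ u ≤ u.ord π := fun u => (hπ u).resolve_left hπ0
  have key : ∀ w ∈ T, w.ord π = -D₁ w := by
    intro w hw
    have h1 : π ∉ riemannRochSpace (D₁ - Finsupp.single w 1) := hπp ⟨w, hw⟩
    rw [mem_riemannRochSpace_iff] at h1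
    push Not at h1
    obtain ⟨u, -, hu⟩ := h1
    have hu' := hord u
    rw [Finsupp.sub_apply] at hu
    by_cases huw : u = w
    · subst huw
      rw [Finsupp.single_eq_same] at hu
      omega
    · rw [Finsupp.single_eq_of_ne huw] at hu
      omega
  have hD₁w : ∀ w ∈ T, D₁ w = -(if w = w₁ then 1 else 0) := by
    intro w hw
    have hne : w ≠ w₀ := fun h => hw₀ (h ▸ hw)
    rw [hD₁, Finsupp.sub_apply, Finsupp.single_eq_of_ne hne, zero_sub]
    by_cases h : w = w₁
    · rw [if_pos h, h, Finsupp.single_eq_same]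
    · rw [if_neg h, Finsupp.single_eq_of_ne h]
  refine ⟨π, hπ0, ?_, ?_⟩
  · rw [key w₁ hw₁, hD₁w w₁ hw₁, if_pos rfl, neg_neg]
  · intro w hw hne
    rw [key w hw, hD₁w w hw, if_neg hne, neg_zero, neg_zero]

/-- The order of a finite product. -/
theorem FA_S37_HI_ord_prod {ι : Type*} (w : Place K F) (s : Finset ι) (g : ι → F)
    (hg : ∀ i ∈ s, g i ≠ 0) : w.ord (∏ i ∈ s, g i) = ∑ i ∈ s, w.ord (g i) := by
  classical
  induction s using Finset.induction_on with
  | empty => simp [Place.ord_one]
  | insert a s ha ih =>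
    rw [Finset.prod_insert ha, Finset.sum_insert ha,
      w.ord_mul (hg a (Finset.mem_insert_self a s))
        (Finset.prod_ne_zero_iff.mpr fun i hi => hg i (Finset.mem_insert_of_mem hi)),
      ih fun i hi => hg i (Finset.mem_insert_of_mem hi)]

/-- Uniformizers exist. -/
theorem FA_S37_HI_exists_uniformizer (v : Place K F) : ∃ t : F, t ≠ 0 ∧ v.ord t = 1 := by
  obtain ⟨π, hπ⟩ := IsDiscreteValuationRing.exists_irreducible ↥v.toValuationSubring
  refine ⟨(π : F), ?_, v.ord_coe_irreducible hπ⟩
  simpa [ne_eq, ZeroMemClass.coe_eq_zero] using hπ.ne_zero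

section Norm

variable {F' : Type*} [Field F'] [Algebra K F'] [Algebra F F'] [IsScalarTower K F F']
  [FiniteDimensional F F'] [HasPrincipalDivisors K F']

/-- Units on the fibre have unit norm. -/
theorem FA_S37_HI_ord_norm_unit (hF' : FA_RR_IsFF K F') (v : Place K F) {h : F'} (h0 : h ≠ 0)
    (hh : ∀ w : Place K F', w.restrict F = v → w.ord h = 0) :
    v.ord (Algebra.norm F h) = 0 := by
  have h1 := FA_S37_HI_ord_norm_nonneg hF' v h0 (fun w hw => (hh w hw).ge)
  have h2 := FA_S37_HI_ord_norm_nonneg hF' v (inv_ne_zero h0)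
    (fun w hw => by rw [Place.ord_inv, hh w hw, neg_zero])
  rw [Algebra.norm_inv, Place.ord_inv] at h2
  omega

/-- **The norm formula**, local form. -/
theorem FA_S37_HI_ord_norm (hF : FA_RR_IsFF K F) (hF' : FA_RR_IsFF K F') (v : Place K F)
    {f : F'} (hf : f ≠ 0) :
    v.ord (Algebra.norm F f) = ∑ w ∈ v.fiber F', w.ord f := by
  classical
  set T := v.fiber F' with hT
  -- a place outside the fibre
  obtain ⟨y, hy, hvy, huniq⟩ := FA_S37_HI_exists_unique_zero hF v
  have hy' : Transcendental K (algebraMap F F' y) :=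
    (transcendental_algebraMap_iff (algebraMap F F').injective).mpr hy
  obtain ⟨w₀, hw₀⟩ := FA_S37_HI_exists_zero hF' (transcendental_inv hy')
  have hw₀T : w₀ ∉ T := by
    intro h
    rw [hT, Place.mem_fiber] at h
    rw [Place.ord_inv, Place.ord_restrict, h] at hw₀
    have hepos : (0 : ℤ) < (w₀.ramificationIndex F : ℤ) := by
      exact_mod_cast w₀.ramificationIndex_pos (F := F)
    have := mul_pos hepos hvy
    omega
  -- approximating elements
  have hex : ∀ w : ↥T, ∃ π : F', π ≠ 0 ∧ (w : Place K F').ord π = 1 ∧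
      ∀ w' ∈ T, w' ≠ (w : Place K F') → w'.ord π = 0 :=
    fun w => FA_S37_HI_approx hF' T w₀ hw₀T w w.2
  choose π hπ0 hπ1 hπ2 using hex
  let P : Place K F' → F' := fun w => if hw : w ∈ T then π ⟨w, hw⟩ else 1
  have hP0 : ∀ w, P w ≠ 0 := by
    intro w
    by_cases hw : w ∈ T
    · simp only [P, dif_pos hw]; exact hπ0 _
    · simp only [P, dif_neg hw]; exact one_ne_zero
  have hPord : ∀ w ∈ T, ∀ w' ∈ T, w'.ord (P w) = if w' = w then 1 else 0 := by
    intro w hw w' hw'
    simp only [P, dif_pos hw]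
    by_cases h : w' = w
    · rw [if_pos h, h]; exact hπ1 ⟨w, hw⟩
    · rw [if_neg h]; exact hπ2 ⟨w, hw⟩ w' hw' h
  have hfib : ∀ w : Place K F', w.restrict F = v ↔ w ∈ T := fun w => by
    rw [hT, Place.mem_fiber]
  -- the norms of the approximating elements
  set ν : Place K F' → ℤ := fun w => v.ord (Algebra.norm F (P w)) with hν
  have hν1 : ∀ w ∈ T, 1 ≤ ν w := by
    intro w hw
    have := FA_S37_HI_ord_norm_pos hF' v (hP0 w)
      (fun w' hw' => by rw [hPord w hw w' ((hfib w').mp hw')]; split_ifs <;> norm_num)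
      w ((hfib w).mpr hw) (by rw [hPord w hw w hw, if_pos rfl]; norm_num)
    exact this
  -- the general formula with the weights `ν`
  have hgen : ∀ g : F', g ≠ 0 → v.ord (Algebra.norm F g) = ∑ w ∈ T, w.ord g * ν w := by
    intro g hg
    set u : F' := g * ∏ w ∈ T, (P w) ^ (-(w.ord g)) with hu
    have hprod0 : ∀ w ∈ T, (P w) ^ (-(w.ord g)) ≠ 0 := fun w _ => zpow_ne_zero _ (hP0 w)
    have hu0 : u ≠ 0 := mul_ne_zero hg (Finset.prod_ne_zero_iff.mpr hprod0)
    have huord : ∀ w' : Place K F', w'.restrict F = v → w'.ord u = 0 := by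
      intro w' hw'
      have hw'T := (hfib w').mp hw'
      rw [hu, w'.ord_mul hg (Finset.prod_ne_zero_iff.mpr hprod0),
        FA_S37_HI_ord_prod w' T _ hprod0]
      have : ∀ w ∈ T, w'.ord ((P w) ^ (-(w.ord g))) = if w' = w then -(w.ord g) else 0 := by
        intro w hw
        rw [Place.ord_zpow, hPord w hw w' hw'T]
        split_ifs <;> simp
      rw [Finset.sum_congr rfl this, Finset.sum_ite_eq T w', if_pos hw'T]
      ring
    have h1 := FA_S37_HI_ord_norm_unit hF' v hu0 huord
    rw [hu, map_mul, map_prod] at h1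
    have hN0 : ∀ w ∈ T, Algebra.norm F ((P w) ^ (-(w.ord g))) ≠ 0 := fun w hw =>
      fun h => hprod0 w hw (Algebra.norm_eq_zero_iff.mp h)
    rw [v.ord_mul (fun h => hg (Algebra.norm_eq_zero_iff.mp h))
      (Finset.prod_ne_zero_iff.mpr hN0), FA_S37_HI_ord_prod v T _ hN0] at h1
    have h2 : ∀ w ∈ T, v.ord (Algebra.norm F ((P w) ^ (-(w.ord g)))) = -(w.ord g) * ν w := by
      intro w _
      rw [Algebra.norm_zpow, Place.ord_zpow]
    rw [Finset.sum_congr rfl h2] at h1
    have h3 : ∑ w ∈ T, -(w.ord g) * ν w = -∑ w ∈ T, w.ord g * ν w := by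
      rw [← Finset.sum_neg_distrib]
      exact Finset.sum_congr rfl fun w _ => by ring
    rw [h3] at h1
    omega
  -- the weights are `1`
  haveI : Algebra.IsIntegral F F' := Algebra.IsIntegral.of_finite F F'
  obtain ⟨t, ht0, ht1⟩ := FA_S37_HI_exists_uniformizer v
  have ht := hgen (algebraMap F F' t) (by simpa using ht0)
  rw [Algebra.norm_algebraMap, ← zpow_natCast, Place.ord_zpow] at ht
  have hte : ∀ w ∈ T, w.ord (algebraMap F F' t) = (w.ramificationIndex F : ℤ) := by
    intro w hw
    rw [Place.ord_restrict, (hfib w).mpr hw, ht1, mul_one]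
  have hsum := FA_S37_HI_sum_ramificationIndex hF hF' v
  rw [ht1, mul_one] at ht
  have hzero : ∑ w ∈ T, (w.ramificationIndex F : ℤ) * (ν w - 1) = 0 := by
    have h1 : ∑ w ∈ T, (w.ramificationIndex F : ℤ) * (ν w - 1)
        = ∑ w ∈ T, w.ord (algebraMap F F' t) * ν w - ∑ w ∈ T, (w.ramificationIndex F : ℤ) := by
      rw [← Finset.sum_sub_distrib]
      refine Finset.sum_congr rfl fun w hw => ?_
      rw [hte w hw]
      ring
    rw [h1, ← ht, hsum]
    ring
  have hν : ∀ w ∈ T, ν w = 1 := by
    intro w hw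
    have hnn : ∀ w ∈ T, 0 ≤ (w.ramificationIndex F : ℤ) * (ν w - 1) := by
      intro w hw
      have hepos : (0 : ℤ) ≤ (w.ramificationIndex F : ℤ) := by positivity
      have := hν1 w hw
      exact mul_nonneg hepos (by omega)
    have h0 := (Finset.sum_eq_zero_iff_of_nonneg hnn).mp hzero w hw
    have hepos : (0 : ℤ) < (w.ramificationIndex F : ℤ) := by
      exact_mod_cast w.ramificationIndex_pos (F := F)
    rcases mul_eq_zero.mp h0 with h | h
    · omega
    · omega
  rw [hgen f hf]
  refine Finset.sum_congr rfl fun w hw => ?_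
  rw [hν w hw, mul_one]

/-- **The norm formula** `N_* (div f) = div (N f)`. -/
theorem FA_S37_HI_pushforwardNormFormula (hF : FA_RR_IsFF K F) (hF' : FA_RR_IsFF K F') :
    Divisor.PushforwardNormFormula K F F' := by
  classical
  haveI : Algebra.IsIntegral F F' := Algebra.IsIntegral.of_finite F F'
  intro f hf D hD v
  rw [FA_S37_HI_ord_norm hF hF' v hf, Divisor.pushforward_apply]
  have hin : ∀ w : Place K F', w.inertiaDeg F = 1 := by
    intro w
    have h := w.deg_restrict_mul_inertiaDeg (F := F)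
    rw [deg_eq_one hF, deg_eq_one hF', one_mul] at h
    exact h
  have h1 : ∀ w ∈ D.support, (if w.restrict F = v then D w * (w.inertiaDeg F : ℤ) else 0)
      = if w ∈ v.fiber F' then w.ord f else 0 := by
    intro w _
    rw [hin w, hD w]
    by_cases hw : w.restrict F = v
    · rw [if_pos hw, if_pos (Place.mem_fiber.mpr hw)]
      simp
    · rw [if_neg hw, if_neg (fun h => hw (Place.mem_fiber.mp h))]
  rw [Finset.sum_congr rfl h1, ← Finset.sum_filter, ← Finset.sum_filter_ne_zero (s := v.fiber F')]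
  refine Finset.sum_congr ?_ fun _ _ => rfl
  ext w
  simp only [Finset.mem_filter, Finsupp.mem_support_iff, hD w]
  tauto

end Norm

end Fermat.Agent.S37
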