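import Mathlib
import Fermat.Agent.S37.HeckeInNormC
import Fermat.Agent.S18.StageA0
import Fermat.Prelude.Def_ModularCurve_HeckeOperatorTotal

/-!
# S37, leaf L4: the Hecke inputs `HeckeInputsAlong ℚ̄ N m`

Generic part (`K` algebraically closed of characteristic `0`, `φ : F →ₐ[K] F'` a `K`-embedding
of function fields in one variable):

* `FA_S37_HI_finiteAlong`, `FA_S37_HI_isIntegralAlong` : `F'` is finite over `φ F`;
* `FA_S37_HI_fundamentalIdentityAlong` : `Σ e_w = [F' : φ F]`;
* `FA_S37_HI_normFormulaAlong` : `φ_* div f = div (N f)`.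

Modular part (every `N`, `m ≠ 0`):

* `FA_S37_HI_alphaIntegral`, `FA_S37_HI_betaIntegral`, `FA_S37_HI_alphaFinite`,
  `FA_S37_HI_betaFinite`, `FA_S37_HI_alphaFI`, `FA_S37_HI_betaFI`, `FA_S37_HI_alphaNorm`,
  `FA_S37_HI_betaNorm`;
* `FA_S37_HI_heckeInputsAlong : HeckeInputsAlong ℚ̄ N m`.
-/

set_option autoImplicit false
set_option linter.unusedSectionVars false
set_option linter.style.haveILetI false

noncomputable section

namespace Fermat.Agent.S37

open AlgebraicCurve IntermediateField FA_RR ModularCurve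

section Generic

variable {K F F' : Type*} [Field K] [Field F] [Field F'] [Algebra K F] [Algebra K F']
  [IsAlgClosed K] [CharZero K]

/-- `F'` is finite over `φ F`. -/
theorem FA_S37_HI_finiteAlong (hF : FA_RR_IsFF K F) (hF' : FA_RR_IsFF K F') (φ : F →ₐ[K] F') :
    FiniteAlong K φ := by
  letI := algebraAlong φ
  haveI := isScalarTower_along φ
  show Module.Finite F F'
  obtain ⟨x, hx, hfin⟩ := id hF
  have hx' : Transcendental K (algebraMap F F' x) :=
    (transcendental_algebraMap_iff (algebraMap F F').injective).mpr hx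
  haveI := finiteDimensional_adjoin hF' hx'
  have h1 := FA_S37_HI_finrank_tower (K := K) (F := F) (F' := F') x
  have hpos : 0 < Module.finrank K⟮algebraMap F F' x⟯ F' := Module.finrank_pos
  rw [h1] at hpos
  exact Module.finite_of_finrank_pos (Nat.pos_of_mul_pos_left hpos)

/-- `F'` is integral over `φ F`. -/
theorem FA_S37_HI_isIntegralAlong (hF : FA_RR_IsFF K F) (hF' : FA_RR_IsFF K F')
    (φ : F →ₐ[K] F') : φ.toRingHom.IsIntegral := by
  letI := algebraAlong φ
  haveI : Module.Finite F F' := FA_S37_HI_finiteAlong hF hF' φ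
  intro z
  exact Algebra.IsIntegral.isIntegral (R := F) z

/-- The fundamental identity along `φ`. -/
theorem FA_S37_HI_fundamentalIdentityAlong (hF : FA_RR_IsFF K F) (hF' : FA_RR_IsFF K F')
    [HasPrincipalDivisors K F'] (φ : F →ₐ[K] F') (hφ : φ.toRingHom.IsIntegral) :
    FundamentalIdentityAlong K φ hφ := by
  letI := algebraAlong φ
  haveI := isScalarTower_along φ
  haveI := isIntegral_along φ hφ
  exact FA_S37_HI_fundamentalIdentity hF hF'

/-- The norm formula along `φ`. -/
theorem FA_S37_HI_normFormulaAlong (hF : FA_RR_IsFF K F) (hF' : FA_RR_IsFF K F')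
    (φ : F →ₐ[K] F') (hfin : FiniteAlong K φ) :
    NormFormulaAlong K φ hfin := by
  letI := algebraAlong φ
  haveI := isScalarTower_along φ
  haveI : Module.Finite F F' := hfin
  haveI := hasPrincipalDivisors hF'
  exact FA_S37_HI_pushforwardNormFormula hF hF'

end Generic

section Modular

local notation "Qb" => AlgebraicClosure ℚ

variable (N m : ℕ) [NeZero N] [NeZero m]

theorem FA_S37_HI_isFF_mul : FA_RR_IsFF Qb ↥(modularFunctionFieldBar (N * m)) :=
  Fermat.Agent.S18.FA_S18_A_isFF (N * m)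

theorem FA_S37_HI_alphaIntegral : HeckeAlphaBarIntegral Qb N m :=
  FA_S37_HI_isIntegralAlong (Fermat.Agent.S18.FA_S18_A_isFF N) (FA_S37_HI_isFF_mul N m) _

theorem FA_S37_HI_betaIntegral : HeckeBetaBarIntegral Qb N m :=
  FA_S37_HI_isIntegralAlong (Fermat.Agent.S18.FA_S18_A_isFF N) (FA_S37_HI_isFF_mul N m) _

theorem FA_S37_HI_alphaFinite : FiniteAlong Qb (heckeAlphaBar Qb N m) :=
  FA_S37_HI_finiteAlong (Fermat.Agent.S18.FA_S18_A_isFF N) (FA_S37_HI_isFF_mul N m) _

theorem FA_S37_HI_betaFinite : FiniteAlong Qb (heckeBetaBar Qb N m) :=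
  FA_S37_HI_finiteAlong (Fermat.Agent.S18.FA_S18_A_isFF N) (FA_S37_HI_isFF_mul N m) _

theorem FA_S37_HI_hasPrincipalDivisors :
    HasPrincipalDivisors Qb ↥(laurentBaseChange Qb (modularFunctionFieldFull (N * m))) :=
  hasPrincipalDivisors (FA_S37_HI_isFF_mul N m)

theorem FA_S37_HI_alphaFI
    [HasPrincipalDivisors Qb ↥(laurentBaseChange Qb (modularFunctionFieldFull (N * m)))]
    (hα : HeckeAlphaBarIntegral Qb N m) :
    FundamentalIdentityAlong Qb (heckeAlphaBar Qb N m) hα :=
  FA_S37_HI_fundamentalIdentityAlong (Fermat.Agent.S18.FA_S18_A_isFF N) (FA_S37_HI_isFF_mul N m)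
    _ hα

theorem FA_S37_HI_betaFI
    [HasPrincipalDivisors Qb ↥(laurentBaseChange Qb (modularFunctionFieldFull (N * m)))]
    (hβ : HeckeBetaBarIntegral Qb N m) :
    FundamentalIdentityAlong Qb (heckeBetaBar Qb N m) hβ :=
  FA_S37_HI_fundamentalIdentityAlong (Fermat.Agent.S18.FA_S18_A_isFF N) (FA_S37_HI_isFF_mul N m)
    _ hβ

theorem FA_S37_HI_alphaNorm (hfin : FiniteAlong Qb (heckeAlphaBar Qb N m)) :
    NormFormulaAlong Qb (heckeAlphaBar Qb N m) hfin :=
  FA_S37_HI_normFormulaAlong (Fermat.Agent.S18.FA_S18_A_isFF N) (FA_S37_HI_isFF_mul N m) _ hfin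

theorem FA_S37_HI_betaNorm (hfin : FiniteAlong Qb (heckeBetaBar Qb N m)) :
    NormFormulaAlong Qb (heckeBetaBar Qb N m) hfin :=
  FA_S37_HI_normFormulaAlong (Fermat.Agent.S18.FA_S18_A_isFF N) (FA_S37_HI_isFF_mul N m) _ hfin

/-- **L4: the Hecke inputs hold** for every level `N` and every `m ≠ 0`. -/
theorem FA_S37_HI_heckeInputsAlong : HeckeInputsAlong Qb N m :=
  haveI := FA_S37_HI_hasPrincipalDivisors N m
  heckeInputsAlong_intro (FA_S37_HI_alphaIntegral N m) (FA_S37_HI_betaIntegral N m)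
    (FA_S37_HI_betaFI N m _) (FA_S37_HI_alphaFinite N m) (FA_S37_HI_alphaNorm N m _)

/-- The Hecke operator is the genuine correspondence. -/
theorem FA_S37_HI_heckeOperatorAlong_eq :
    haveI := FA_S37_HI_hasPrincipalDivisors N m
    heckeOperatorAlong Qb N m
      = heckePic0Bar (FA_S37_HI_alphaIntegral N m) (FA_S37_HI_betaIntegral N m)
          (FA_S37_HI_betaFI N m _) (FA_S37_HI_alphaFinite N m) (FA_S37_HI_alphaNorm N m _) := by
  haveI := FA_S37_HI_hasPrincipalDivisors N m
  exact heckeOperatorAlong_eq _ _ _ _ _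

end Modular

end Fermat.Agent.S37
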