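import Mathlib
import Fermat.Prelude.Def_AlgebraicCurve_Correspondence
import Fermat.Prelude.Def_AlgebraicCurve_BaseChangeGalois

/-!
# S37, leaf SG (part 1, generic): pullback of degree-zero divisor classes along `φ : F →ₐ[K] F'`

* `FA_S37_SG_pullDeg`, `FA_S37_SG_pullPic` : the maps `degZero F →+ degZero F'`, `Pic0 K F →+ Pic0 K F'`
  induced by `Divisor.pullbackAlong φ hφ` (needs `FundamentalIdentityAlong`);
* `FA_S37_SG_pullbackAlong_smul` : `φ^* (g • D) = g' • φ^* D` when `g' ∘ φ = φ ∘ g`
  (`SemilinearAut.IntertwinesAlong`);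
* `FA_S37_SG_pullPic_smul` : the same on `Pic0`.
-/

set_option autoImplicit false
set_option linter.unusedSectionVars false
set_option linter.style.haveILetI false

namespace Fermat.Agent.S37

noncomputable section

open AlgebraicCurve

variable {K F F' : Type*} [Field K] [Field F] [Field F'] [Algebra K F] [Algebra K F']
variable [HasPrincipalDivisors K F']
variable (φ : F →ₐ[K] F') (hφ : φ.toRingHom.IsIntegral)

/-- value of the pull-back divisor at a place. -/
theorem FA_S37_SG_pullbackAlong_apply (D : Divisor K F) (w : Place K F') :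
    Divisor.pullbackAlong φ hφ D w
      = (Place.ramificationIndexAlong φ w : ℤ) * D (Place.restrictAlong φ hφ w) :=
  Divisor.pullbackAlong_apply φ hφ D w

/-- the pull-back of the divisor of `f` is the divisor of `φ f`. -/
theorem FA_S37_SG_pullbackAlong_eq_ord {f : F} {D : Divisor K F}
    (hD : ∀ v : Place K F, D v = v.ord f) (w : Place K F') :
    Divisor.pullbackAlong φ hφ D w = w.ord (φ f) := by
  letI := algebraAlong φ
  haveI := isScalarTower_along φ
  haveI := isIntegral_along φ hφ
  exact Divisor.pullback_apply_eq_ord (F' := F') hD w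

/-- pull-back on degree-zero divisors. -/
def FA_S37_SG_pullDeg (hFI : FundamentalIdentityAlong K φ hφ) :
    Divisor.degZero (K := K) (F := F) →+ Divisor.degZero (K := K) (F := F') :=
  ((Divisor.pullbackAlong φ hφ).comp (Divisor.degZero (K := K) (F := F)).subtype).codRestrict _
    fun D => Divisor.pullbackAlong_mem_degZero φ hφ hFI D.2

@[simp]
theorem FA_S37_SG_coe_pullDeg (hFI : FundamentalIdentityAlong K φ hφ)
    (D : Divisor.degZero (K := K) (F := F)) :
    (FA_S37_SG_pullDeg φ hφ hFI D : Divisor K F') = Divisor.pullbackAlong φ hφ (D : Divisor K F) :=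
  rfl

/-- pull-back on `Pic0`. -/
def FA_S37_SG_pullPic (hFI : FundamentalIdentityAlong K φ hφ) : Pic0 K F →+ Pic0 K F' :=
  QuotientAddGroup.map _ _ (FA_S37_SG_pullDeg φ hφ hFI) (by
    rintro ⟨D, hD0⟩ hD
    simp only [AddSubgroup.mem_addSubgroupOf] at hD ⊢
    exact Divisor.isPrincipal_pullbackAlong φ hφ hD)

theorem FA_S37_SG_pullPic_mk (hFI : FundamentalIdentityAlong K φ hφ)
    (D : Divisor.degZero (K := K) (F := F)) :
    FA_S37_SG_pullPic φ hφ hFI (Pic0.mk D) = Pic0.mk (FA_S37_SG_pullDeg φ hφ hFI D) :=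
  rfl

section Equivariance

variable {φ}
variable {g : SemilinearAut K F} {g' : SemilinearAut K F'}

theorem FA_S37_SG_restrict_smul (h : SemilinearAut.IntertwinesAlong φ.toRingHom g g')
    (w : Place K F') :
    Place.restrictAlong φ hφ (g' • w) = g • Place.restrictAlong φ hφ w := by
  letI := algebraAlong φ
  haveI := isScalarTower_along φ
  haveI := isIntegral_along φ hφ
  apply Place.ext
  ext x
  show algebraMap F F' x ∈ (g' • w).toValuationSubring ↔ x ∈ (g • (Place.restrict F w)).toValuationSubring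
  rw [SemilinearAut.smul_toValuationSubring, SemilinearAut.smul_toValuationSubring,
    ValuationSubring.mem_pointwise_smul_iff_inv_smul_mem,
    ValuationSubring.mem_pointwise_smul_iff_inv_smul_mem]
  have e : g'⁻¹ • (algebraMap F F' x) = algebraMap F F' (g⁻¹ • x) := h.inv x
  rw [e]
  rfl

theorem FA_S37_SG_ord_smul (h : SemilinearAut.IntertwinesAlong φ.toRingHom g g')
    (w : Place K F') (f : F) :
    (g' • w).ord (φ (g • f)) = w.ord (φ f) := by
  have e : φ (g • f) = g' • (φ f) := (h f).symm
  rw [e, SemilinearAut.ord_smul]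

theorem FA_S37_SG_ram_smul (h : SemilinearAut.IntertwinesAlong φ.toRingHom g g')
    (w : Place K F') :
    Place.ramificationIndexAlong φ (g' • w) = Place.ramificationIndexAlong φ w := by
  letI := algebraAlong φ
  show Place.ramificationIndex (g' • w) F = Place.ramificationIndex w F
  unfold Place.ramificationIndex
  congr 1
  ext n
  simp only [Set.mem_ofPred_eq]
  constructor
  · rintro ⟨hn, f, hf, hfn⟩
    refine ⟨hn, g⁻¹ • f, by simpa using hf, ?_⟩
    rw [← hfn]
    have := FA_S37_SG_ord_smul h w (g⁻¹ • f)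
    rw [smul_inv_smul] at this
    exact this.symm
  · rintro ⟨hn, f, hf, hfn⟩
    refine ⟨hn, g • f, by simpa using hf, ?_⟩
    rw [← hfn]
    exact FA_S37_SG_ord_smul h w f

/-- **Equivariance of the pull-back of divisors.** -/
theorem FA_S37_SG_pullbackAlong_smul (h : SemilinearAut.IntertwinesAlong φ.toRingHom g g')
    (D : Divisor K F) :
    Divisor.pullbackAlong φ hφ (g • D) = g' • Divisor.pullbackAlong φ hφ D := by
  ext w
  rw [SemilinearAut.divisor_smul_apply, FA_S37_SG_pullbackAlong_apply,
    FA_S37_SG_pullbackAlong_apply, SemilinearAut.divisor_smul_apply,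
    FA_S37_SG_restrict_smul hφ h.inv, FA_S37_SG_ram_smul h.inv]

/-- **Equivariance of the pull-back on `Pic0`.** -/
theorem FA_S37_SG_pullPic_smul (hFI : FundamentalIdentityAlong K φ hφ)
    (h : SemilinearAut.IntertwinesAlong φ.toRingHom g g') (x : Pic0 K F) :
    FA_S37_SG_pullPic φ hφ hFI (g • x) = g' • FA_S37_SG_pullPic φ hφ hFI x := by
  obtain ⟨D, rfl⟩ := Pic0.mk_surjective x
  rw [SemilinearAut.pic0_smul_mk, FA_S37_SG_pullPic_mk, FA_S37_SG_pullPic_mk,
    SemilinearAut.pic0_smul_mk]
  refine congrArg Pic0.mk (Subtype.ext ?_)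
  rw [FA_S37_SG_coe_pullDeg, SemilinearAut.coe_degZeroSMulHom, SemilinearAut.coe_degZeroSMulHom,
    FA_S37_SG_coe_pullDeg]
  exact FA_S37_SG_pullbackAlong_smul hφ h D

end Equivariance

end

end Fermat.Agent.S37
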