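import Mathlib
import Fermat.Agent.S37.Sigma
import Fermat.Agent.S18.DescentMain
import Fermat.Agent.S18.StageA0
import Fermat.Agent.Lib.RR.RiemannL
import Fermat.Prelude.Def_ModularCurve_HeckeOperator
import Fermat.Prelude.Def_ModularCurve_ArithmeticGalois

/-!
# S37, leaf SG (part 2): `s^* : J₀(N) → J₀(N·M)` for `s = qExpand M` (`= heckeBetaBar ℚ̄ N M`)

* `FA_S37_SG_pull` : the pull-back `JZero N →+ JZero (N * M)`;
* `FA_S37_SG_pull_smul` : `s^* (τ • x) = τ • s^* x` for `τ ∈ Gal(ℚ̄/ℚ)`;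
* `FA_S37_SG_pull_inj` : for `M = r²`, `r` prime, `s^*` is injective on torsion
  (leaf G of S18, `FA_S18_G_main`).
-/

set_option autoImplicit false
set_option linter.unusedSectionVars false
set_option linter.style.haveILetI false
set_option synthInstance.maxHeartbeats 400000
set_option maxHeartbeats 1000000

namespace Fermat.Agent.S37

noncomputable section

open AlgebraicCurve ModularCurve Fermat.Agent.S18

variable (N M : ℕ) [NeZero N] [NeZero M]

/-- principal divisors exist at level `N * M`. -/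
theorem FA_S37_SG_hasPD :
    HasPrincipalDivisors (AlgebraicClosure ℚ) ↥(modularFunctionFieldBar (N * M)) :=
  FA_S18_A_hasPrincipalDivisors (N * M)

/-- The pull-back `s^* : J₀(N) → J₀(N·M)`, `s = qExpand M`. -/
def FA_S37_SG_pull (hs : HeckeBetaBarIntegral (AlgebraicClosure ℚ) N M)
    (hFI : haveI := FA_S37_SG_hasPD N M
      FundamentalIdentityAlong (AlgebraicClosure ℚ) (heckeBetaBar (AlgebraicClosure ℚ) N M) hs) :
    JZero N →+ JZero (N * M) :=
  haveI := FA_S37_SG_hasPD N M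
  FA_S37_SG_pullPic (heckeBetaBar (AlgebraicClosure ℚ) N M) hs hFI

theorem FA_S37_SG_intertwines (τ : AlgebraicClosure ℚ ≃ₐ[ℚ] AlgebraicClosure ℚ) :
    SemilinearAut.IntertwinesAlong (heckeBetaBar (AlgebraicClosure ℚ) N M).toRingHom
      (arithmeticGalois (modularFunctionFieldFull N) τ)
      (arithmeticGalois (modularFunctionFieldFull (N * M)) τ) := by
  intro x
  apply Subtype.ext
  show coeffMap (τ : AlgebraicClosure ℚ →+* AlgebraicClosure ℚ)
      (qExpand (AlgebraicClosure ℚ) M (x : LaurentSeries (AlgebraicClosure ℚ)))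
    = qExpand (AlgebraicClosure ℚ) M
      (coeffMap (τ : AlgebraicClosure ℚ →+* AlgebraicClosure ℚ) (x : LaurentSeries (AlgebraicClosure ℚ)))
  exact coeffMap_qExpand _ M _

/-- **`s^*` commutes with the Galois action.** -/
theorem FA_S37_SG_pull_smul (hs : HeckeBetaBarIntegral (AlgebraicClosure ℚ) N M)
    (hFI : haveI := FA_S37_SG_hasPD N M
      FundamentalIdentityAlong (AlgebraicClosure ℚ) (heckeBetaBar (AlgebraicClosure ℚ) N M) hs)
    (τ : AlgebraicClosure ℚ ≃ₐ[ℚ] AlgebraicClosure ℚ) (x : JZero N) :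
    FA_S37_SG_pull N M hs hFI (τ • x) = τ • FA_S37_SG_pull N M hs hFI x := by
  haveI := FA_S37_SG_hasPD N M
  rw [galois_smul_pic0_def, galois_smul_pic0_def]
  exact FA_S37_SG_pullPic_smul hs hFI (FA_S37_SG_intertwines N M τ) x

variable {N M}

/-- `s^*` is injective on `p`-torsion, `p` prime (`M = r²`). -/
theorem FA_S37_SG_pull_inj_prime (r : ℕ) (hr : r.Prime) (hM : M = r * r)
    (hs : HeckeBetaBarIntegral (AlgebraicClosure ℚ) N M)
    (hFI : haveI := FA_S37_SG_hasPD N M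
      FundamentalIdentityAlong (AlgebraicClosure ℚ) (heckeBetaBar (AlgebraicClosure ℚ) N M) hs)
    (p : ℕ) (hp : p ≠ 0) (x : JZero N) (hpx : p • x = 0)
    (hx : FA_S37_SG_pull N M hs hFI x = 0) : x = 0 := by
  haveI := FA_S37_SG_hasPD N M
  obtain ⟨⟨D, hD0⟩, rfl⟩ := Pic0.mk_surjective x
  -- `p • D` is principal
  have h1 : (p • D) ∈ Divisor.principal (K := AlgebraicClosure ℚ)
      (F := ↥(modularFunctionFieldBar N)) := by
    have h2 : p • (Pic0.mk (⟨D, hD0⟩ : Divisor.degZero (K := AlgebraicClosure ℚ)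
        (F := ↥(modularFunctionFieldBar N)))) = Pic0.mk (p • ⟨D, hD0⟩) := rfl
    rw [h2] at hpx
    have h3 := (QuotientAddGroup.eq_zero_iff _).mp hpx
    simpa [AddSubgroup.mem_addSubgroupOf] using h3
  obtain ⟨f₀, hf₀ne, hf₀⟩ := h1
  -- `s^* D` is principal
  have h4 : Divisor.pullbackAlong (heckeBetaBar (AlgebraicClosure ℚ) N M) hs D
      ∈ Divisor.principal (K := AlgebraicClosure ℚ) (F := ↥(modularFunctionFieldBar (N * M))) := by
    have h3 := (QuotientAddGroup.eq_zero_iff _).mp hx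
    rw [AddSubgroup.mem_addSubgroupOf] at h3
    exact h3
  obtain ⟨g, hgne, hg⟩ := h4
  -- all orders of `f₀` are divisible by `p`
  have hdiv : ∀ w : Place (AlgebraicClosure ℚ) ↥(modularFunctionFieldBar N),
      (p : ℤ) ∣ w.ord f₀ := by
    intro w
    rw [← hf₀ w, Finsupp.smul_apply, nsmul_eq_mul]
    exact Dvd.intro _ rfl
  -- `g ^ p` and `s f₀` have the same divisor
  have hsf₀ne : heckeBetaBar (AlgebraicClosure ℚ) N M f₀ ≠ 0 := by
    rw [Ne, map_eq_zero]; exact hf₀ne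
  have hsame : ∀ w : Place (AlgebraicClosure ℚ) ↥(modularFunctionFieldBar (N * M)),
      w.ord (g ^ p / heckeBetaBar (AlgebraicClosure ℚ) N M f₀) = 0 := by
    intro w
    rw [div_eq_mul_inv, w.ord_mul (pow_ne_zero _ hgne) (inv_ne_zero hsf₀ne), w.ord_inv,
      ← zpow_natCast, w.ord_zpow, ← hg w,
      ← FA_S37_SG_pullbackAlong_eq_ord (heckeBetaBar (AlgebraicClosure ℚ) N M) hs hf₀ w,
      map_nsmul, Finsupp.smul_apply, nsmul_eq_mul]
    ring
  have hL : g ^ p / heckeBetaBar (AlgebraicClosure ℚ) N M f₀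
      ∈ riemannRochSpace (0 : Divisor (AlgebraicClosure ℚ) ↥(modularFunctionFieldBar (N * M))) := by
    rw [mem_riemannRochSpace_iff]
    intro w
    right
    rw [hsame w]
    simp
  obtain ⟨c, hc⟩ := FA_RR.WPB.L_zero (FA_S18_A_isFF (N * M)) hL
  have hc0 : c ≠ 0 := by
    rintro rfl
    rw [map_zero] at hc
    exact div_ne_zero (pow_ne_zero _ hgne) hsf₀ne hc.symm
  have hpow : (g : LaurentSeries (AlgebraicClosure ℚ)) ^ p
      = algebraMap (AlgebraicClosure ℚ) (LaurentSeries (AlgebraicClosure ℚ)) c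
        * qExpand (AlgebraicClosure ℚ) M (f₀ : LaurentSeries (AlgebraicClosure ℚ)) := by
    have e : g ^ p = algebraMap (AlgebraicClosure ℚ) ↥(modularFunctionFieldBar (N * M)) c
        * heckeBetaBar (AlgebraicClosure ℚ) N M f₀ := by
      rw [hc, div_mul_cancel₀ _ hsf₀ne]
    have e' := congrArg (Subtype.val) e
    simpa using e'
  obtain ⟨g₀, hg₀, hg₀p⟩ := FA_S18_G_main r hr M hM N (N * M) rfl p hp
    (f₀ : LaurentSeries (AlgebraicClosure ℚ)) f₀.2
    (fun h => hf₀ne (Subtype.ext h)) hdiv (g : LaurentSeries (AlgebraicClosure ℚ)) g.2 c hc0 hpow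
  -- `D = div g₀`
  have hg₀ne : (⟨g₀, hg₀⟩ : ↥(modularFunctionFieldBar N)) ≠ 0 := by
    intro h0
    have h0' : g₀ = 0 := congrArg Subtype.val h0
    rw [h0', zero_pow hp] at hg₀p
    have : algebraMap (AlgebraicClosure ℚ) (LaurentSeries (AlgebraicClosure ℚ)) c
        * (f₀ : LaurentSeries (AlgebraicClosure ℚ)) ≠ 0 :=
      mul_ne_zero (by rw [Ne, map_eq_zero]; exact hc0) (fun h => hf₀ne (Subtype.ext h))
    exact this hg₀p.symm
  have hDg₀ : ∀ w : Place (AlgebraicClosure ℚ) ↥(modularFunctionFieldBar N),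
      D w = w.ord (⟨g₀, hg₀⟩ : ↥(modularFunctionFieldBar N)) := by
    intro w
    have e : (⟨g₀, hg₀⟩ : ↥(modularFunctionFieldBar N)) ^ p
        = algebraMap (AlgebraicClosure ℚ) ↥(modularFunctionFieldBar N) c * f₀ :=
      Subtype.ext (by simpa using hg₀p)
    have e1 : w.ord ((⟨g₀, hg₀⟩ : ↥(modularFunctionFieldBar N)) ^ p)
        = (p : ℤ) * w.ord (⟨g₀, hg₀⟩ : ↥(modularFunctionFieldBar N)) := by
      rw [← zpow_natCast, w.ord_zpow]
    have hcne : algebraMap (AlgebraicClosure ℚ) ↥(modularFunctionFieldBar N) c ≠ 0 := by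
      rw [Ne, map_eq_zero]; exact hc0
    have e2 : w.ord (algebraMap (AlgebraicClosure ℚ) ↥(modularFunctionFieldBar N) c * f₀)
        = w.ord f₀ := by
      rw [w.ord_mul hcne hf₀ne, FA_RR.ord_algebraMap, zero_add]
    have e3 : (p : ℤ) * D w = (p : ℤ) * w.ord (⟨g₀, hg₀⟩ : ↥(modularFunctionFieldBar N)) := by
      rw [← e1, e, e2, ← hf₀ w, Finsupp.smul_apply, nsmul_eq_mul]
    exact mul_left_cancel₀ (Int.natCast_ne_zero.mpr hp) e3
  refine (QuotientAddGroup.eq_zero_iff _).mpr ?_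
  rw [AddSubgroup.mem_addSubgroupOf]
  exact ⟨⟨g₀, hg₀⟩, hg₀ne, hDg₀⟩

/-- **`s^*` is injective on torsion** (`M = r²`, `r` prime). -/
theorem FA_S37_SG_pull_inj (r : ℕ) (hr : r.Prime) (hM : M = r * r)
    (hs : HeckeBetaBarIntegral (AlgebraicClosure ℚ) N M)
    (hFI : haveI := FA_S37_SG_hasPD N M
      FundamentalIdentityAlong (AlgebraicClosure ℚ) (heckeBetaBar (AlgebraicClosure ℚ) N M) hs)
    (k : ℕ) (hk : k ≠ 0) (x : JZero N) (hkx : k • x = 0)
    (hx : FA_S37_SG_pull N M hs hFI x = 0) : x = 0 :=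
  FA_S37_SG_pull_inj_prime r hr hM hs hFI k hk x hkx hx

end

end Fermat.Agent.S37
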