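import Mathlib
import Fermat.Agent.S37.SigmaInj
import Fermat.Agent.S37.HeckeIn
import Fermat.Agent.S18
import Fermat.Prelude.Def_ModularCurve_ReductionModL

/-!
# S37, leaf SG (part 3): the reduction map `red = red_n ∘ s^*` and (K4)

`M = 4` (`ℓ ≠ 2`) or `9` (`ℓ = 2`), `n = N * M`, `s = qExpand M`.

* `FA_S37_SG_M ℓ`, with `FA_S37_SG_M_sq`, `FA_S37_SG_M_not_dvd`;
* `FA_S37_SG_pullM N M : JZero N →+ JZero (N * M)` (`s^*` with the inputs of leaf L4);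
* `FA_S37_SG_red A N M : JZero N →+ JZeroC k (N * M)`, `red = reductionModL A (N * M) ∘ s^*`;
* `FA_S37_SG_pullM_smul` : `s^*` is Galois-equivariant;
* `FA_S37_SG_K4` : `red` is injective on torsion prime to `ℓ` (given `ReductionInputsModL A (N*M)`).
-/

set_option autoImplicit false
set_option linter.unusedSectionVars false
set_option linter.style.haveILetI false
set_option synthInstance.maxHeartbeats 400000
set_option maxHeartbeats 1000000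

namespace Fermat.Agent.S37

noncomputable section

open AlgebraicCurve ModularCurve

/-- the auxiliary level multiplier: `9` for `ℓ = 2`, `4` otherwise. -/
def FA_S37_SG_M (ℓ : ℕ) : ℕ := if ℓ = 2 then 9 else 4

instance FA_S37_SG_M_neZero (ℓ : ℕ) : NeZero (FA_S37_SG_M ℓ) := by
  refine ⟨?_⟩
  unfold FA_S37_SG_M
  split_ifs <;> norm_num

theorem FA_S37_SG_M_cases (ℓ : ℕ) :
    (FA_S37_SG_M ℓ = 4 ∧ ℓ ≠ 2) ∨ (FA_S37_SG_M ℓ = 9 ∧ ℓ = 2) := by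
  unfold FA_S37_SG_M
  by_cases h : ℓ = 2
  · right; exact ⟨if_pos h, h⟩
  · left; exact ⟨if_neg h, h⟩

theorem FA_S37_SG_M_sq (ℓ : ℕ) : ∃ r : ℕ, r.Prime ∧ FA_S37_SG_M ℓ = r * r := by
  rcases FA_S37_SG_M_cases ℓ with ⟨h, -⟩ | ⟨h, -⟩
  · exact ⟨2, Nat.prime_two, by rw [h]⟩
  · exact ⟨3, Nat.prime_three, by rw [h]⟩

theorem FA_S37_SG_M_not_dvd {ℓ : ℕ} (hℓ : ℓ.Prime) : ¬ ℓ ∣ FA_S37_SG_M ℓ := by
  rcases FA_S37_SG_M_cases ℓ with ⟨h, h2⟩ | ⟨h, h2⟩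
  · rw [h]
    intro hd
    have h4 : (4 : ℕ) = 2 ^ 2 := by norm_num
    rw [h4] at hd
    have := (Nat.prime_dvd_prime_iff_eq hℓ Nat.prime_two).mp (hℓ.dvd_of_dvd_pow hd)
    exact h2 this
  · rw [h, h2]
    norm_num

theorem FA_S37_SG_not_dvd_mul {ℓ N : ℕ} (hℓ : ℓ.Prime) (hℓN : ¬ ℓ ∣ N) :
    ¬ ℓ ∣ N * FA_S37_SG_M ℓ := by
  intro h
  rcases (Nat.Prime.dvd_mul hℓ).mp h with h1 | h1
  · exact hℓN h1
  · exact FA_S37_SG_M_not_dvd hℓ h1

variable (N M : ℕ) [NeZero N] [NeZero M]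

/-- `s^* : J₀(N) → J₀(N·M)` with the inputs of leaf L4. -/
def FA_S37_SG_pullM : JZero N →+ JZero (N * M) :=
  FA_S37_SG_pull N M (FA_S37_HI_betaIntegral N M)
    (haveI := FA_S37_SG_hasPD N M; FA_S37_HI_betaFI N M _)

/-- `s^*` on classes of divisors. -/
theorem FA_S37_SG_pullM_mk
    (D : Divisor.degZero (K := AlgebraicClosure ℚ) (F := ↥(modularFunctionFieldBar N))) :
    haveI := FA_S37_SG_hasPD N M
    FA_S37_SG_pullM N M (Pic0.mk D)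
      = Pic0.mk (FA_S37_SG_pullDeg (heckeBetaBar (AlgebraicClosure ℚ) N M)
          (FA_S37_HI_betaIntegral N M) (FA_S37_HI_betaFI N M _) D) :=
  rfl

/-- `s^*` commutes with the Galois action. -/
theorem FA_S37_SG_pullM_smul (τ : AlgebraicClosure ℚ ≃ₐ[ℚ] AlgebraicClosure ℚ) (x : JZero N) :
    FA_S37_SG_pullM N M (τ • x) = τ • FA_S37_SG_pullM N M x :=
  FA_S37_SG_pull_smul N M _ _ τ x

/-- `s^*` is injective on torsion (`M = r²`). -/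
theorem FA_S37_SG_pullM_inj (r : ℕ) (hr : r.Prime) (hM : M = r * r)
    (k : ℕ) (hk : k ≠ 0) (x : JZero N) (hkx : k • x = 0)
    (hx : FA_S37_SG_pullM N M x = 0) : x = 0 :=
  FA_S37_SG_pull_inj r hr hM _ _ k hk x hkx hx

/-- The reduction map `red = red_n ∘ s^*`. -/
def FA_S37_SG_red (A : ValuationSubring (AlgebraicClosure ℚ)) :
    JZero N →+ JZeroC (IsLocalRing.ResidueField A) (N * M) :=
  (reductionModL A (N * M)).comp (FA_S37_SG_pullM N M)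

theorem FA_S37_SG_red_apply (A : ValuationSubring (AlgebraicClosure ℚ)) (x : JZero N) :
    FA_S37_SG_red N M A x = reductionModL A (N * M) (FA_S37_SG_pullM N M x) := rfl

/-- **(K4)**: `red` is injective on torsion of order prime to `ℓ`. -/
theorem FA_S37_SG_K4_gen {ℓ : ℕ} (hℓ : ℓ.Prime) (hℓN : ¬ ℓ ∣ N)
    (A : ValuationSubring (AlgebraicClosure ℚ)) (hA : A.LiesOverPrime ℓ)
    (r : ℕ) (hr : r.Prime) (hM : M = r * r) (hℓM : ¬ ℓ ∣ M)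
    (h : ReductionInputsModL A (N * M))
    (k : ℕ) (hk : ¬ ℓ ∣ k) (x : JZero N) (hkx : k • x = 0)
    (hx : FA_S37_SG_red N M A x = 0) : x = 0 := by
  haveI : Fact ℓ.Prime := ⟨hℓ⟩
  have hk0 : k ≠ 0 := by
    rintro rfl
    exact hk (dvd_zero ℓ)
  have hℓn : ¬ ℓ ∣ N * M := by
    intro hd
    rcases (Nat.Prime.dvd_mul hℓ).mp hd with h1 | h1
    · exact hℓN h1
    · exact hℓM h1
  have hz : FA_S37_SG_pullM N M x = 0 := by
    refine Fermat.Agent.S18.result (N * M) hℓn A hA h k hk (FA_S37_SG_pullM N M x) ?_ hx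
    rw [← map_nsmul, hkx, map_zero]
  exact FA_S37_SG_pullM_inj N M r hr hM k hk0 x hkx hz

/-- **(K4)** in the form of `FA_S37_L0_final`. -/
theorem FA_S37_SG_K4 {ℓ : ℕ} (hℓ : ℓ.Prime) (p : ℕ) (hℓNp : ¬ ℓ ∣ N * p)
    (A : ValuationSubring (AlgebraicClosure ℚ)) (hA : A.LiesOverPrime ℓ)
    (h : ReductionInputsModL A (N * FA_S37_SG_M ℓ))
    (x : JZero N) (hx : ∃ m : ℕ, p ^ m • x = 0)
    (hred : FA_S37_SG_red N (FA_S37_SG_M ℓ) A x = 0) : x = 0 := by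
  obtain ⟨m, hm⟩ := hx
  obtain ⟨r, hr, hM⟩ := FA_S37_SG_M_sq ℓ
  have hℓN : ¬ ℓ ∣ N := fun hd => hℓNp (Dvd.dvd.mul_right hd p)
  have hℓp : ¬ ℓ ∣ p ^ m := fun hd => hℓNp (Dvd.dvd.mul_left (hℓ.dvd_of_dvd_pow hd) N)
  exact FA_S37_SG_K4_gen N (FA_S37_SG_M ℓ) hℓ hℓN A hA r hr hM (FA_S37_SG_M_not_dvd hℓ) h
    (p ^ m) hℓp x hm hred

end

end Fermat.Agent.S37
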