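import Mathlib
import Fermat.Agent.S37.AssembleB
import Fermat.Agent.S37.SigmaK4
import Fermat.Agent.S37.GalRedC

/-!
# S37: final wiring

`FA_S37_FIN_main` : S37 from the two remaining inputs

* (RED) `ReductionInputsModL A (N * M)` for `M = FA_S37_SG_M ℓ`, `ℓ ∤ N`, `A` over `ℓ`;
* (K5)  the Eichler–Shimura relation for `red = FA_S37_SG_red N M A = reductionModL A (N*M) ∘ s^*`.

(K2), (K3) come from leaf GAL (`FA_S37_GB_modL_inertia`, `FA_S37_GB_modL_ker`) and the Galois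
equivariance of `s^*` (`FA_S37_SG_pullM_smul`); (K4) is `FA_S37_SG_K4`.
-/

set_option autoImplicit false
set_option linter.unusedSectionVars false
set_option linter.style.haveILetI false
set_option synthInstance.maxHeartbeats 400000
set_option maxHeartbeats 1000000

namespace Fermat.Agent.S37

noncomputable section

open AlgebraicCurve ModularCurve

/-- (K2) for `red = red_n ∘ s^*`. -/
theorem FA_S37_FIN_K2 (N M : ℕ) [NeZero N] [NeZero M]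
    (A : ValuationSubring (AlgebraicClosure ℚ))
    (τ : AlgebraicClosure ℚ ≃ₐ[ℚ] AlgebraicClosure ℚ) (hτ : τ ∈ A.inertiaSubgroupIn ℚ)
    (x : JZero N) : FA_S37_SG_red N M A (τ • x) = FA_S37_SG_red N M A x := by
  rw [FA_S37_SG_red_apply, FA_S37_SG_red_apply, FA_S37_SG_pullM_smul]
  exact FA_S37_GB_modL_inertia A (N * M) τ hτ _

/-- (K3) for `red = red_n ∘ s^*`, kernel form. -/
theorem FA_S37_FIN_K3 (N M : ℕ) [NeZero N] [NeZero M]
    (A : ValuationSubring (AlgebraicClosure ℚ))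
    (σ : AlgebraicClosure ℚ ≃ₐ[ℚ] AlgebraicClosure ℚ) (hσ : σ ∈ A.decompositionSubgroup ℚ)
    (x : JZero N) (hx : FA_S37_SG_red N M A x = 0) : FA_S37_SG_red N M A (σ • x) = 0 := by
  rw [FA_S37_SG_red_apply] at hx ⊢
  rw [FA_S37_SG_pullM_smul]
  exact FA_S37_GB_modL_ker A (N * M) σ hσ _ hx

/-- (K3) for `red = red_n ∘ s^*`, `Φ`-form. -/
theorem FA_S37_FIN_K3_Phi (N M : ℕ) [NeZero N] [NeZero M]
    (A : ValuationSubring (AlgebraicClosure ℚ))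
    (σ : AlgebraicClosure ℚ ≃ₐ[ℚ] AlgebraicClosure ℚ) (hσ : σ ∈ A.decompositionSubgroup ℚ)
    (x : JZero N) :
    FA_S37_SG_red N M A (σ • x) = FA_S37_GB_Phi A (N * M) σ hσ (FA_S37_SG_red N M A x) := by
  rw [FA_S37_SG_red_apply, FA_S37_SG_red_apply, FA_S37_SG_pullM_smul]
  exact FA_S37_GB_modL_Phi A (N * M) σ hσ _

/-- **S37 from (RED) and (K5).** -/
theorem FA_S37_FIN_main (N p : ℕ) [NeZero N] (hcomm : HeckeOperatorsCommuteBar N)
    (hRED : ∀ ℓ : ℕ, ℓ.Prime → ¬ ℓ ∣ N →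
      ∀ A : ValuationSubring (AlgebraicClosure ℚ), A.LiesOverPrime ℓ →
        ReductionInputsModL A (N * FA_S37_SG_M ℓ))
    (hK5 : ∀ ℓ : ℕ, (hℓ : ℓ.Prime) → ¬ ℓ ∣ N →
      ∀ A : ValuationSubring (AlgebraicClosure ℚ), A.LiesOverPrime ℓ →
      ReductionInputsModL A (N * FA_S37_SG_M ℓ) →
      ∀ σ₀ : AlgebraicClosure ℚ ≃ₐ[ℚ] AlgebraicClosure ℚ, A.IsFrobeniusAt σ₀ ℓ →
        ∀ x : JZero N,
          FA_S37_SG_red N (FA_S37_SG_M ℓ) A
            (σ₀ • σ₀ • x - heckeOperatorBar N ⟨ℓ, hℓ⟩ (σ₀ • x) + ℓ • x) = 0) :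
    letI := heckeModuleBar N
    ∀ (_ : SMulCommClass (AlgebraicClosure ℚ ≃ₐ[ℚ] AlgebraicClosure ℚ) HeckeAlg (JZero N)),
      SpecializationExists (K := ℚ) (L := AlgebraicClosure ℚ) N p (JZero N) := by
  refine FA_S37_L0_final N p hcomm ?_
  intro ℓ hℓ hℓNp A hA σ₀ hσ₀
  have hℓN : ¬ ℓ ∣ N := fun hd => hℓNp (Dvd.dvd.mul_right hd p)
  have h := hRED ℓ hℓ hℓN A hA
  obtain ⟨hσD, -⟩ := id hσ₀
  refine ⟨_, inferInstance, FA_S37_SG_red N (FA_S37_SG_M ℓ) A, ?_, ?_, ?_, ?_⟩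
  · exact fun τ hτ x => FA_S37_FIN_K2 N _ A τ hτ x
  · exact fun x hx => FA_S37_FIN_K3 N _ A σ₀ hσD x hx
  · exact fun x hx hred => FA_S37_SG_K4 N hℓ p hℓNp A hA h x hx hred
  · exact hK5 ℓ hℓ hℓN A hA h σ₀ hσ₀

end

end Fermat.Agent.S37
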