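import Mathlib
import Fermat.Agent.S37.AssembleB

/-!
# S37, leaf L0 (ASSEMBLE), `Φ`-form

`FA_S37_L0_final_phi` : S37 from a reduction map `red : JZero N →+ W` and an automorphism `Φ` of
`W` (the Frobenius of the special fibre) with
* `red (τ • x) = red x` for `τ` in the inertia group,
* `red (σ₀ • x) = Φ (red x)` for the Frobenius element `σ₀`,
* `red` injective on `p`-power torsion,
* the Eichler–Shimura congruence `red (T_ℓ x) = Φ (red x) + ℓ • Φ⁻¹ (red x)`.
-/

set_option autoImplicit false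
set_option linter.unusedSectionVars false
set_option linter.style.haveILetI false

namespace Fermat.Agent.S37

noncomputable section

open ModularCurve

/-- (K5) from the congruence relation. -/
theorem FA_S37_L0_K5 {J W : Type*} [AddCommGroup J] [AddCommGroup W] (red : J →+ W)
    (Φ : W ≃+ W) (S T : J →+ J) (ℓ : ℕ)
    (hS : ∀ x : J, red (S x) = Φ (red x))
    (hT : ∀ x : J, red (T x) = Φ (red x) + ℓ • Φ.symm (red x)) (x : J) :
    red (S (S x) - T (S x) + ℓ • x) = 0 := by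
  rw [map_add, map_sub, map_nsmul, hT, hS, hS, AddEquiv.symm_apply_apply]
  abel

/-- **S37 from a reduction map with Frobenius `Φ` on its target.** -/
theorem FA_S37_L0_final_phi (N p : ℕ) [NeZero N] (hcomm : HeckeOperatorsCommuteBar N)
    (hred : ∀ ℓ : ℕ, (hℓ : ℓ.Prime) → ¬ ℓ ∣ N * p →
      ∀ A : ValuationSubring (AlgebraicClosure ℚ), A.LiesOverPrime ℓ →
      ∀ σ₀ : AlgebraicClosure ℚ ≃ₐ[ℚ] AlgebraicClosure ℚ, A.IsFrobeniusAt σ₀ ℓ →
        ∃ (W : Type) (_ : AddCommGroup W) (red : JZero N →+ W) (Φ : W ≃+ W),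
          (∀ τ ∈ A.inertiaSubgroupIn ℚ, ∀ x : JZero N, red (τ • x) = red x) ∧
          (∀ x : JZero N, red (σ₀ • x) = Φ (red x)) ∧
          (∀ x : JZero N, (∃ n : ℕ, p ^ n • x = 0) → red x = 0 → x = 0) ∧
          (∀ x : JZero N,
            red (heckeOperatorBar N ⟨ℓ, hℓ⟩ x) = Φ (red x) + ℓ • Φ.symm (red x))) :
    letI := heckeModuleBar N
    ∀ (_ : SMulCommClass (AlgebraicClosure ℚ ≃ₐ[ℚ] AlgebraicClosure ℚ) HeckeAlg (JZero N)),
      SpecializationExists (K := ℚ) (L := AlgebraicClosure ℚ) N p (JZero N) := by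
  apply FA_S37_L0_final N p hcomm
  intro ℓ hℓ hℓNp A hA σ₀ hσ₀
  obtain ⟨W, _, red, Φ, h2, h3, h4, h5⟩ := hred ℓ hℓ hℓNp A hA σ₀ hσ₀
  refine ⟨W, inferInstance, red, h2, ?_, h4, ?_⟩
  · intro x hx
    rw [h3, hx, map_zero]
  · intro x
    exact FA_S37_L0_K5 red Φ (DistribSMul.toAddMonoidHom (JZero N) σ₀)
      ((heckeOperatorBar N ⟨ℓ, hℓ⟩ : Module.End ℤ (JZero N)) : JZero N →+ JZero N) ℓ h3 h5 x

end

end Fermat.Agent.S37
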