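import Fermat.Agent.S37.K5Cong
import Fermat.Agent.S37.Final
import Fermat.Agent.S37.AssembleC

/-!
# S37, leaf K5 (part 4): the Eichler–Shimura relation on `J₀(N)` for `red = red_n ∘ s^*`

* `FA_S37_K5_red_mk` : `red [D] = [r_* s^* D]`;
* `FA_S37_K5_hecke` : `red (T_ℓ x) = Φ (red x) + ℓ • Φ⁻¹ (red x)`;
* `FA_S37_K5_main` : (K5), exactly the hypothesis `hK5` of `FA_S37_FIN_main`.
-/

set_option autoImplicit false
set_option linter.unusedSectionVars false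
set_option linter.style.haveILetI false
set_option maxHeartbeats 1000000
set_option synthInstance.maxHeartbeats 400000

noncomputable section

namespace Fermat.Agent.S37

open AlgebraicCurve ModularCurve

/-- `red` on classes of divisors. -/
theorem FA_S37_K5_red_mk (N M : ℕ) [NeZero N] [NeZero M]
    [HasPrincipalDivisors (AlgebraicClosure ℚ) ↥(modularFunctionFieldBar (N * M))]
    (A : ValuationSubring (AlgebraicClosure ℚ)) (h : ReductionInputsModL A (N * M))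
    (D : Divisor.degZero (K := AlgebraicClosure ℚ) (F := ↥(modularFunctionFieldBar N))) :
    ∃ hmem : FA_S37_K5_rho A N M (FA_S37_HI_betaIntegral N M) (placeReductionModL h)
        (D : Divisor (AlgebraicClosure ℚ) ↥(modularFunctionFieldBar N))
          ∈ Divisor.degZero (K := IsLocalRing.ResidueField A)
              (F := ↥(modularFunctionFieldFullC (IsLocalRing.ResidueField A) (N * M))),
      FA_S37_SG_red N M A (Pic0.mk D)
        = Pic0.mk ⟨FA_S37_K5_rho A N M (FA_S37_HI_betaIntegral N M) (placeReductionModL h)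
            (D : Divisor (AlgebraicClosure ℚ) ↥(modularFunctionFieldBar N)), hmem⟩ := by
  refine ⟨(reductionDegZeroAlong (placeReductionModL h)
      (isPlaceReductionModL_placeReductionModL h).1
      (FA_S37_SG_pullDeg (heckeBetaBar (AlgebraicClosure ℚ) N M)
          (FA_S37_HI_betaIntegral N M) (FA_S37_HI_betaFI N M _) D)).2, ?_⟩
  rw [FA_S37_SG_red_apply, FA_S37_SG_pullM_mk, reductionModL_mk h]
  rfl

/-- **The Eichler–Shimura congruence on `J₀(N)`.** -/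
theorem FA_S37_K5_hecke (N M : ℕ) [NeZero N] [NeZero M] {ℓ : ℕ} (hℓ : ℓ.Prime) (hℓN : ¬ ℓ ∣ N)
    (A : ValuationSubring (AlgebraicClosure ℚ)) (hA : A.LiesOverPrime ℓ)
    (h : ReductionInputsModL A (N * M))
    (σ₀ : AlgebraicClosure ℚ ≃ₐ[ℚ] AlgebraicClosure ℚ) (hσ₀ : A.IsFrobeniusAt σ₀ ℓ)
    (x : JZero N) :
    FA_S37_SG_red N M A (heckeOperatorBar N ⟨ℓ, hℓ⟩ x)
      = FA_S37_GB_Phi A (N * M) σ₀ hσ₀.mem_decompositionSubgroup (FA_S37_SG_red N M A x)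
        + ℓ • (FA_S37_GB_Phi A (N * M) σ₀ hσ₀.mem_decompositionSubgroup).symm
            (FA_S37_SG_red N M A x) := by
  haveI : NeZero ℓ := ⟨hℓ.ne_zero⟩
  haveI hPDℓ := FA_S37_HI_hasPrincipalDivisors N ℓ
  haveI hPDM := FA_S37_HI_hasPrincipalDivisors N M
  obtain ⟨D, rfl⟩ := Pic0.mk_surjective x
  have hT : heckeOperatorBar N ⟨ℓ, hℓ⟩ (Pic0.mk D)
      = Pic0.mk (Pic0.degZeroCorrespondence (heckeBetaBar (AlgebraicClosure ℚ) N ℓ)
          (heckeAlphaBar (AlgebraicClosure ℚ) N ℓ) (FA_S37_HI_betaIntegral N ℓ)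
          (FA_S37_HI_alphaIntegral N ℓ) (FA_S37_HI_betaFI N ℓ _) D) := by
    rw [heckeOperatorBar_apply]
    show heckeOperatorAlong (AlgebraicClosure ℚ) N ℓ (Pic0.mk D) = _
    rw [FA_S37_HI_heckeOperatorAlong_eq N ℓ]
    rfl
  obtain ⟨hm1, e1⟩ := FA_S37_K5_red_mk N M A h D
  obtain ⟨hm2, e2⟩ := FA_S37_K5_red_mk N M A h
    (Pic0.degZeroCorrespondence (heckeBetaBar (AlgebraicClosure ℚ) N ℓ)
          (heckeAlphaBar (AlgebraicClosure ℚ) N ℓ) (FA_S37_HI_betaIntegral N ℓ)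
          (FA_S37_HI_alphaIntegral N ℓ) (FA_S37_HI_betaFI N ℓ _) D)
  rw [hT, e1, e2, FA_S37_GB_Phi_apply, FA_S37_GB_Phi_symm_apply, SemilinearAut.pic0_smul_mk,
    SemilinearAut.pic0_smul_mk]
  have hθ : ∀ x, FA_S37_GB_resk A σ₀ hσ₀.mem_decompositionSubgroup x = x ^ ℓ :=
    fun x => hσ₀.smul_residue_eq x
  have key := FA_S37_K5_div_frob A N M ℓ hℓ hA hℓN (FA_S37_HI_betaIntegral N M)
    (isPlaceReductionModL_placeReductionModL h) (FA_S37_HI_alphaIntegral N ℓ)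
    (FA_S37_HI_betaIntegral N ℓ) (FA_S37_GB_resk A σ₀ hσ₀.mem_decompositionSubgroup) hθ
    (D : Divisor (AlgebraicClosure ℚ) ↥(modularFunctionFieldBar N)) (Divisor.mem_degZero.mp D.2)
  refine Eq.trans ?_ (Pic0.mk_add _ _)
  exact congrArg Pic0.mk (Subtype.ext key)

/-- **(K5)**: exactly the hypothesis `hK5` of `FA_S37_FIN_main`. -/
theorem FA_S37_K5_main (N : ℕ) [NeZero N] (ℓ : ℕ) (hℓ : ℓ.Prime) (hℓN : ¬ ℓ ∣ N)
    (A : ValuationSubring (AlgebraicClosure ℚ)) (hA : A.LiesOverPrime ℓ)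
    (h : ReductionInputsModL A (N * FA_S37_SG_M ℓ))
    (σ₀ : AlgebraicClosure ℚ ≃ₐ[ℚ] AlgebraicClosure ℚ) (hσ₀ : A.IsFrobeniusAt σ₀ ℓ)
    (x : JZero N) :
    FA_S37_SG_red N (FA_S37_SG_M ℓ) A
      (σ₀ • σ₀ • x - heckeOperatorBar N ⟨ℓ, hℓ⟩ (σ₀ • x) + ℓ • x) = 0 :=
  FA_S37_L0_K5 (FA_S37_SG_red N (FA_S37_SG_M ℓ) A)
    (FA_S37_GB_Phi A (N * FA_S37_SG_M ℓ) σ₀ hσ₀.mem_decompositionSubgroup)
    (DistribSMul.toAddMonoidHom (JZero N) σ₀)
    ((heckeOperatorBar N ⟨ℓ, hℓ⟩ : Module.End ℤ (JZero N)) : JZero N →+ JZero N) ℓ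
    (fun y => FA_S37_FIN_K3_Phi N _ A σ₀ hσ₀.mem_decompositionSubgroup y)
    (fun y => FA_S37_K5_hecke N (FA_S37_SG_M ℓ) hℓ hℓN A hA h σ₀ hσ₀ y) x

end Fermat.Agent.S37
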