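import Fermat.Agent.S18.GaussInst
import Fermat.Agent.S18.InstDefs

/-!
# S37, leaf A2 (file MultInstB): the hypothesis `hscale` of `FA_S37_MU_FI1` at level `n`

`FA_S37_MU_hscale` : every nonzero `f ∈ F_n` is a constant times a unit of the Gauss ring
(`FA_S18_B_scale_inst`), for any valuation subring `O` of `F_n` with the elements of
`FA_S18_I_O A n`.
-/

set_option autoImplicit false
set_option linter.unusedSectionVars false
set_option linter.unusedVariables false

noncomputable section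

namespace Fermat.Agent.S37

open ModularCurve Fermat.Agent.S18 FA_S18

variable (A : ValuationSubring (AlgebraicClosure ℚ)) (n : ℕ) [NeZero n]

/-- `hscale` at level `n`. -/
theorem FA_S37_MU_hscale {ℓ : ℕ} (hℓ : ℓ.Prime) (hA : A.LiesOverPrime ℓ) (hn : ¬ ℓ ∣ n)
    (O : ValuationSubring ↥(modularFunctionFieldBar n))
    (hO : ∀ y : ↥(modularFunctionFieldBar n), y ∈ O ↔ y ∈ FA_S18_I_O A n) :
    ∀ f : ↥(modularFunctionFieldBar n), f ≠ 0 → ∃ c : AlgebraicClosure ℚ, c ≠ 0 ∧
      algebraMap (AlgebraicClosure ℚ) ↥(modularFunctionFieldBar n) c * f ∈ O ∧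
      (algebraMap (AlgebraicClosure ℚ) ↥(modularFunctionFieldBar n) c * f)⁻¹ ∈ O := by
  intro f hf
  have hf' : (f : LaurentSeries (AlgebraicClosure ℚ)) ≠ 0 := fun h => hf (Subtype.ext h)
  obtain ⟨c, hc0, hint, hred⟩ := FA_S18_B_scale_inst A n ℓ hℓ hA hn
    (f : LaurentSeries (AlgebraicClosure ℚ)) f.2 hf'
  refine ⟨c, hc0, (hO _).mpr ?_, (hO _).mpr ?_⟩
  · exact hint
  · exact (FA_S18_B_isInt_inv hint hred).1

end Fermat.Agent.S37

end
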