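import Fermat.Agent.S37.RedCore
import Fermat.Agent.S18.FinAmbInst
import Fermat.Agent.S18.FinSep
import Fermat.Agent.S18.GaussInst
import Fermat.Agent.S18.StageA0
import Fermat.Agent.S18.InstB
import Fermat.Agent.S18.BaseLift
import Fermat.Agent.S18.RRpChart
import Fermat.Agent.S18.RRpConst

/-!
# S37, leaf CI (definitions): the two charts of `F_n` and of `F̄_n` as types

Level `n` prime to `ℓ`, `K₀ = ℚ̄ ⊃ A` over `ℓ`, `k` the residue field, `F = F_n`, `Fb = F̄_n`.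

* `FA_S37_RI_O A n hℓ hA hn : ValuationSubring F` : the Gauss valuation ring (carrier
  `FA_S18_I_O A n`);
* `FA_S37_RI_red A n hℓ hA hn h : O →+* Fb` : the reduction (`= FA_S18_I_red A n h`);
* the charts are the TYPES
  `FA_RR.chartRing ℚ̄ j`, `FA_RR.chartRing ℚ̄ j⁻¹` (`j = FA_S18_A_jbar n`) and
  `FA_RR.chartRing k j̄`, `FA_RR.chartRing k j̄⁻¹` (`j̄ = FA_S18_BASE_jb A n h = red j`);
  `FA_S37_RI_dd_fin / _dd_inf / _ddb_fin / _ddb_inf` : they are Dedekind domains,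
  `FA_RR.isFractionRing_chartRing` : with fraction fields `F`, `Fb`.
-/

set_option autoImplicit false
set_option linter.unusedSectionVars false
set_option linter.style.haveILetI false
set_option synthInstance.maxHeartbeats 400000
set_option maxHeartbeats 1000000

noncomputable section

namespace Fermat.Agent.S37

open ModularCurve AlgebraicCurve IntermediateField FA_RR FA_S18 Fermat.Agent.S18

variable (A : ValuationSubring (AlgebraicClosure ℚ)) (n : ℕ) [NeZero n]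

/-- The range hypothesis of S18 holds at level `n`. -/
theorem FA_S37_RI_range {ℓ : ℕ} (hℓ : ℓ.Prime) (hA : A.LiesOverPrime ℓ) (hn : ¬ ℓ ∣ n) :
    FA_S18_I_Range A n :=
  FA_S18_I_range_of_target A n hℓ hA hn (FA_S18_B_range_inst A n ℓ)

/-- The Gauss ring is a valuation ring of `F_n`. -/
theorem FA_S37_RI_mem_or_inv {ℓ : ℕ} (hℓ : ℓ.Prime) (hA : A.LiesOverPrime ℓ) (hn : ¬ ℓ ∣ n)
    (y : ↥(modularFunctionFieldBar n)) : y ∈ FA_S18_I_O A n ∨ y⁻¹ ∈ FA_S18_I_O A n := by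
  obtain ⟨D, -, -⟩ := FA_S18_B_datum_inst A n ℓ hℓ hA hn
  exact FA_S18_B_isInt_or_inv D y.2

/-- **The Gauss valuation ring** of `F_n`. -/
def FA_S37_RI_O {ℓ : ℕ} (hℓ : ℓ.Prime) (hA : A.LiesOverPrime ℓ) (hn : ¬ ℓ ∣ n) :
    ValuationSubring ↥(modularFunctionFieldBar n) :=
  { (FA_S18_I_O A n).toSubring with
    mem_or_inv_mem' := FA_S37_RI_mem_or_inv A n hℓ hA hn }

theorem FA_S37_RI_mem_O {ℓ : ℕ} (hℓ : ℓ.Prime) (hA : A.LiesOverPrime ℓ) (hn : ¬ ℓ ∣ n)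
    {y : ↥(modularFunctionFieldBar n)} :
    y ∈ FA_S37_RI_O A n hℓ hA hn ↔ y ∈ FA_S18_I_O A n := Iff.rfl

theorem FA_S37_RI_mem_O_iff {ℓ : ℕ} (hℓ : ℓ.Prime) (hA : A.LiesOverPrime ℓ) (hn : ¬ ℓ ∣ n)
    {y : ↥(modularFunctionFieldBar n)} :
    y ∈ FA_S37_RI_O A n hℓ hA hn ↔
      FA_S18_B_IsInt A (FA_S18_pi A) (y : LaurentSeries (AlgebraicClosure ℚ)) := Iff.rfl

/-- The identification `O → FA_S18_I_O A n`. -/
def FA_S37_RI_toI {ℓ : ℕ} (hℓ : ℓ.Prime) (hA : A.LiesOverPrime ℓ) (hn : ¬ ℓ ∣ n) :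
    ↥(FA_S37_RI_O A n hℓ hA hn) →+* ↥(FA_S18_I_O A n) where
  toFun y := ⟨y.1, y.2⟩
  map_one' := rfl
  map_mul' _ _ := rfl
  map_zero' := rfl
  map_add' _ _ := rfl

/-- **The reduction** `O →+* F̄_n`. -/
def FA_S37_RI_red {ℓ : ℕ} (hℓ : ℓ.Prime) (hA : A.LiesOverPrime ℓ) (hn : ¬ ℓ ∣ n)
    (h : FA_S18_I_Range A n) :
    ↥(FA_S37_RI_O A n hℓ hA hn) →+*
      ↥(modularFunctionFieldFullC (IsLocalRing.ResidueField ↥A) n) :=
  (FA_S18_I_red A n h).comp (FA_S37_RI_toI A n hℓ hA hn)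

theorem FA_S37_RI_red_apply {ℓ : ℕ} (hℓ : ℓ.Prime) (hA : A.LiesOverPrime ℓ) (hn : ¬ ℓ ∣ n)
    (h : FA_S18_I_Range A n) (y : ↥(modularFunctionFieldBar n))
    (hy : y ∈ FA_S37_RI_O A n hℓ hA hn) :
    FA_S37_RI_red A n hℓ hA hn h ⟨y, hy⟩ = FA_S18_I_red A n h ⟨y, hy⟩ := rfl

theorem FA_S37_RI_red_coe {ℓ : ℕ} (hℓ : ℓ.Prime) (hA : A.LiesOverPrime ℓ) (hn : ¬ ℓ ∣ n)
    (h : FA_S18_I_Range A n) (y : ↥(FA_S37_RI_O A n hℓ hA hn)) :
    ((FA_S37_RI_red A n hℓ hA hn h y :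
        ↥(modularFunctionFieldFullC (IsLocalRing.ResidueField ↥A) n)) :
        LaurentSeries (IsLocalRing.ResidueField ↥A))
      = FA_S18_B_red A (FA_S18_pi A) ((y : ↥(modularFunctionFieldBar n)) :
          LaurentSeries (AlgebraicClosure ℚ)) := rfl

/-! ### The charts are Dedekind domains -/

/-- `j⁻¹` is transcendental. -/
theorem FA_S37_RI_transc_inv : Transcendental (AlgebraicClosure ℚ) (FA_S18_A_jbar n)⁻¹ :=
  transcendental_inv (FA_S18_A_jbar_spec n).1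

theorem FA_S37_RI_fd_fin :
    FiniteDimensional (AlgebraicClosure ℚ)⟮FA_S18_A_jbar n⟯ ↥(modularFunctionFieldBar n) :=
  (FA_S18_A_jbar_spec n).2.1

theorem FA_S37_RI_fd_inf :
    FiniteDimensional (AlgebraicClosure ℚ)⟮(FA_S18_A_jbar n)⁻¹⟯ ↥(modularFunctionFieldBar n) :=
  haveI := FA_S37_RI_fd_fin n
  FA_S18_C.sep_finiteDimensional_congr (adjoin_inv_eq (FA_S18_A_jbar n))

/-- The finite chart of `F_n` is a Dedekind domain. -/
theorem FA_S37_RI_dd_fin :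
    IsDedekindDomain ↥(chartRing (AlgebraicClosure ℚ) (FA_S18_A_jbar n)) :=
  haveI := FA_S37_RI_fd_fin n
  isDedekindDomain_chartRing (FA_S18_A_jbar_spec n).1

/-- The chart at infinity of `F_n` is a Dedekind domain. -/
theorem FA_S37_RI_dd_inf :
    IsDedekindDomain ↥(chartRing (AlgebraicClosure ℚ) (FA_S18_A_jbar n)⁻¹) :=
  haveI := FA_S37_RI_fd_inf n
  isDedekindDomain_chartRing (FA_S37_RI_transc_inv n)

theorem FA_S37_RI_transcb_inv (h : FA_S18_I_Range A n) :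
    Transcendental (IsLocalRing.ResidueField ↥A) (FA_S18_BASE_jb A n h)⁻¹ :=
  transcendental_inv (FA_S18_BASE_jb_transc A n h)

theorem FA_S37_RI_fdb_inf {ℓ : ℕ} (hℓ : ℓ.Prime) (hA : A.LiesOverPrime ℓ) (hn : ¬ ℓ ∣ n)
    (h : FA_S18_I_Range A n) :
    FiniteDimensional (IsLocalRing.ResidueField ↥A)⟮(FA_S18_BASE_jb A n h)⁻¹⟯
      ↥(modularFunctionFieldFullC (IsLocalRing.ResidueField ↥A) n) :=
  haveI := FA_S18_FINA_finite_inst A n hℓ hA hn h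
  FA_S18_C.sep_finiteDimensional_congr (adjoin_inv_eq (FA_S18_BASE_jb A n h))

theorem FA_S37_RI_sepb_inf {ℓ : ℕ} (hℓ : ℓ.Prime) (hA : A.LiesOverPrime ℓ) (hn : ¬ ℓ ∣ n)
    (h : FA_S18_I_Range A n) :
    Algebra.IsSeparable (IsLocalRing.ResidueField ↥A)⟮(FA_S18_BASE_jb A n h)⁻¹⟯
      ↥(modularFunctionFieldFullC (IsLocalRing.ResidueField ↥A) n) :=
  haveI := FA_S18_FINA_sep_inst A n hℓ hA hn h
  FA_S18_C.sep_isSeparable_congr (adjoin_inv_eq (FA_S18_BASE_jb A n h))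

/-- The finite chart of `F̄_n` is a Dedekind domain. -/
theorem FA_S37_RI_ddb_fin {ℓ : ℕ} (hℓ : ℓ.Prime) (hA : A.LiesOverPrime ℓ) (hn : ¬ ℓ ∣ n)
    (h : FA_S18_I_Range A n) :
    IsDedekindDomain ↥(chartRing (IsLocalRing.ResidueField ↥A) (FA_S18_BASE_jb A n h)) :=
  haveI := FA_S18_FINA_finite_inst A n hℓ hA hn h
  haveI := FA_S18_FINA_sep_inst A n hℓ hA hn h
  FA_S18_C.sep_isDedekindDomain_chartRing (FA_S18_BASE_jb_transc A n h)

/-- The chart at infinity of `F̄_n` is a Dedekind domain. -/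
theorem FA_S37_RI_ddb_inf {ℓ : ℕ} (hℓ : ℓ.Prime) (hA : A.LiesOverPrime ℓ) (hn : ¬ ℓ ∣ n)
    (h : FA_S18_I_Range A n) :
    IsDedekindDomain ↥(chartRing (IsLocalRing.ResidueField ↥A) (FA_S18_BASE_jb A n h)⁻¹) :=
  haveI := FA_S37_RI_fdb_inf A n hℓ hA hn h
  haveI := FA_S37_RI_sepb_inf A n hℓ hA hn h
  FA_S18_C.sep_isDedekindDomain_chartRing (FA_S37_RI_transcb_inv A n h)

theorem FA_S37_RI_fr_fin :
    IsFractionRing ↥(chartRing (AlgebraicClosure ℚ) (FA_S18_A_jbar n))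
      ↥(modularFunctionFieldBar n) :=
  haveI := FA_S37_RI_fd_fin n
  isFractionRing_chartRing (K := AlgebraicClosure ℚ) (FA_S18_A_jbar n)

theorem FA_S37_RI_fr_inf :
    IsFractionRing ↥(chartRing (AlgebraicClosure ℚ) (FA_S18_A_jbar n)⁻¹)
      ↥(modularFunctionFieldBar n) :=
  haveI := FA_S37_RI_fd_inf n
  isFractionRing_chartRing (K := AlgebraicClosure ℚ) (FA_S18_A_jbar n)⁻¹

theorem FA_S37_RI_frb_fin {ℓ : ℕ} (hℓ : ℓ.Prime) (hA : A.LiesOverPrime ℓ) (hn : ¬ ℓ ∣ n)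
    (h : FA_S18_I_Range A n) :
    IsFractionRing ↥(chartRing (IsLocalRing.ResidueField ↥A) (FA_S18_BASE_jb A n h))
      ↥(modularFunctionFieldFullC (IsLocalRing.ResidueField ↥A) n) :=
  haveI := FA_S18_FINA_finite_inst A n hℓ hA hn h
  isFractionRing_chartRing (K := IsLocalRing.ResidueField ↥A) (FA_S18_BASE_jb A n h)

theorem FA_S37_RI_frb_inf {ℓ : ℕ} (hℓ : ℓ.Prime) (hA : A.LiesOverPrime ℓ) (hn : ¬ ℓ ∣ n)
    (h : FA_S18_I_Range A n) :
    IsFractionRing ↥(chartRing (IsLocalRing.ResidueField ↥A) (FA_S18_BASE_jb A n h)⁻¹)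
      ↥(modularFunctionFieldFullC (IsLocalRing.ResidueField ↥A) n) :=
  haveI := FA_S37_RI_fdb_inf A n hℓ hA hn h
  isFractionRing_chartRing (K := IsLocalRing.ResidueField ↥A) (FA_S18_BASE_jb A n h)⁻¹

end Fermat.Agent.S37
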