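import Fermat.Agent.S37.MultInst
import Fermat.Agent.S37.MultInstB
import Fermat.Agent.S37.RedInstDefs

/-!
# S37, leaf A2 (file MultFinal): `FA_S37_RED_FI1` and `FA_S37_RED_Unif` at level `n`, both charts

For the charts of `RedInstDefs` (`O = FA_S37_RI_O`, `red = FA_S37_RI_red`,
`B = chartRing ℚ̄ x`, `Bb = chartRing k x̄`, `x = j` or `j⁻¹`): given the chart hypotheses
`FA_S37_RED_Hyp`, the simple-zero form `FA_S37_RED_FI1` of the fibre inequality holds, hence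
`FA_S37_RED_Unif` (the input of the multiplicity formula `FA_S37_RED_mult`).
-/

set_option autoImplicit false
set_option linter.unusedSectionVars false
set_option linter.unusedVariables false
set_option linter.style.haveILetI false
set_option synthInstance.maxHeartbeats 400000
set_option maxHeartbeats 1000000

noncomputable section

namespace Fermat.Agent.S37

open ModularCurve AlgebraicCurve IntermediateField FA_RR FA_S18 Fermat.Agent.S18

variable (A : ValuationSubring (AlgebraicClosure ℚ)) (n : ℕ) [NeZero n]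

/-- `FI₁` at level `n`, finite chart. -/
theorem FA_S37_MU_FI1_fin {ℓ : ℕ} (hℓ : ℓ.Prime) (hA : A.LiesOverPrime ℓ) (hn : ¬ ℓ ∣ n)
    (h : FA_S18_I_Range A n) {π : A →+* IsLocalRing.ResidueField ↥A} :
    haveI := FA_S37_RI_dd_fin n
    haveI := FA_S37_RI_fr_fin n
    haveI := FA_S37_RI_ddb_fin A n hℓ hA hn h
    haveI := FA_S37_RI_frb_fin A n hℓ hA hn h
    FA_S37_RED_Hyp A π (FA_S37_RI_O A n hℓ hA hn) (FA_S37_RI_red A n hℓ hA hn h)
        ↥(chartRing (AlgebraicClosure ℚ) (FA_S18_A_jbar n))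
        ↥(chartRing (IsLocalRing.ResidueField ↥A) (FA_S18_BASE_jb A n h)) →
      FA_S37_RED_FI1 (FA_S37_RI_O A n hℓ hA hn) (FA_S37_RI_red A n hℓ hA hn h)
        ↥(chartRing (AlgebraicClosure ℚ) (FA_S18_A_jbar n))
        ↥(chartRing (IsLocalRing.ResidueField ↥A) (FA_S18_BASE_jb A n h)) := by
  haveI := FA_S37_RI_dd_fin n
  haveI := FA_S37_RI_fr_fin n
  haveI := FA_S37_RI_ddb_fin A n hℓ hA hn h
  haveI := FA_S37_RI_frb_fin A n hℓ hA hn h
  intro H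
  exact FA_S37_MU_FI1 H (FA_S37_MU_hscale A n hℓ hA hn _ (fun _ => Iff.rfl))
    (FA_S37_MU_hfg_fin A n hℓ hA hn h _ (fun _ => Iff.rfl))

/-- `FI₁` at level `n`, chart at infinity. -/
theorem FA_S37_MU_FI1_inf {ℓ : ℕ} (hℓ : ℓ.Prime) (hA : A.LiesOverPrime ℓ) (hn : ¬ ℓ ∣ n)
    (h : FA_S18_I_Range A n) {π : A →+* IsLocalRing.ResidueField ↥A} :
    haveI := FA_S37_RI_dd_inf n
    haveI := FA_S37_RI_fr_inf n
    haveI := FA_S37_RI_ddb_inf A n hℓ hA hn h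
    haveI := FA_S37_RI_frb_inf A n hℓ hA hn h
    FA_S37_RED_Hyp A π (FA_S37_RI_O A n hℓ hA hn) (FA_S37_RI_red A n hℓ hA hn h)
        ↥(chartRing (AlgebraicClosure ℚ) (FA_S18_A_jbar n)⁻¹)
        ↥(chartRing (IsLocalRing.ResidueField ↥A) (FA_S18_BASE_jb A n h)⁻¹) →
      FA_S37_RED_FI1 (FA_S37_RI_O A n hℓ hA hn) (FA_S37_RI_red A n hℓ hA hn h)
        ↥(chartRing (AlgebraicClosure ℚ) (FA_S18_A_jbar n)⁻¹)
        ↥(chartRing (IsLocalRing.ResidueField ↥A) (FA_S18_BASE_jb A n h)⁻¹) := by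
  haveI := FA_S37_RI_dd_inf n
  haveI := FA_S37_RI_fr_inf n
  haveI := FA_S37_RI_ddb_inf A n hℓ hA hn h
  haveI := FA_S37_RI_frb_inf A n hℓ hA hn h
  intro H
  exact FA_S37_MU_FI1 H (FA_S37_MU_hscale A n hℓ hA hn _ (fun _ => Iff.rfl))
    (FA_S37_MU_hfg_inf A n hℓ hA hn h _ (fun _ => Iff.rfl))

/-- `Unif` at level `n`, finite chart. -/
theorem FA_S37_MU_unif_fin {ℓ : ℕ} (hℓ : ℓ.Prime) (hA : A.LiesOverPrime ℓ) (hn : ¬ ℓ ∣ n)
    (h : FA_S18_I_Range A n) {π : A →+* IsLocalRing.ResidueField ↥A} :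
    haveI := FA_S37_RI_dd_fin n
    haveI := FA_S37_RI_fr_fin n
    haveI := FA_S37_RI_ddb_fin A n hℓ hA hn h
    haveI := FA_S37_RI_frb_fin A n hℓ hA hn h
    FA_S37_RED_Hyp A π (FA_S37_RI_O A n hℓ hA hn) (FA_S37_RI_red A n hℓ hA hn h)
        ↥(chartRing (AlgebraicClosure ℚ) (FA_S18_A_jbar n))
        ↥(chartRing (IsLocalRing.ResidueField ↥A) (FA_S18_BASE_jb A n h)) →
      FA_S37_RED_Unif (FA_S37_RI_O A n hℓ hA hn) (FA_S37_RI_red A n hℓ hA hn h)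
        ↥(chartRing (AlgebraicClosure ℚ) (FA_S18_A_jbar n))
        ↥(chartRing (IsLocalRing.ResidueField ↥A) (FA_S18_BASE_jb A n h)) := by
  haveI := FA_S37_RI_dd_fin n
  haveI := FA_S37_RI_fr_fin n
  haveI := FA_S37_RI_ddb_fin A n hℓ hA hn h
  haveI := FA_S37_RI_frb_fin A n hℓ hA hn h
  intro H
  exact FA_S37_RED_unif_of_FI1 H (FA_S37_MU_FI1_fin A n hℓ hA hn h H)

/-- `Unif` at level `n`, chart at infinity. -/
theorem FA_S37_MU_unif_inf {ℓ : ℕ} (hℓ : ℓ.Prime) (hA : A.LiesOverPrime ℓ) (hn : ¬ ℓ ∣ n)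
    (h : FA_S18_I_Range A n) {π : A →+* IsLocalRing.ResidueField ↥A} :
    haveI := FA_S37_RI_dd_inf n
    haveI := FA_S37_RI_fr_inf n
    haveI := FA_S37_RI_ddb_inf A n hℓ hA hn h
    haveI := FA_S37_RI_frb_inf A n hℓ hA hn h
    FA_S37_RED_Hyp A π (FA_S37_RI_O A n hℓ hA hn) (FA_S37_RI_red A n hℓ hA hn h)
        ↥(chartRing (AlgebraicClosure ℚ) (FA_S18_A_jbar n)⁻¹)
        ↥(chartRing (IsLocalRing.ResidueField ↥A) (FA_S18_BASE_jb A n h)⁻¹) →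
      FA_S37_RED_Unif (FA_S37_RI_O A n hℓ hA hn) (FA_S37_RI_red A n hℓ hA hn h)
        ↥(chartRing (AlgebraicClosure ℚ) (FA_S18_A_jbar n)⁻¹)
        ↥(chartRing (IsLocalRing.ResidueField ↥A) (FA_S18_BASE_jb A n h)⁻¹) := by
  haveI := FA_S37_RI_dd_inf n
  haveI := FA_S37_RI_fr_inf n
  haveI := FA_S37_RI_ddb_inf A n hℓ hA hn h
  haveI := FA_S37_RI_frb_inf A n hℓ hA hn h
  intro H
  exact FA_S37_RED_unif_of_FI1 H (FA_S37_MU_FI1_inf A n hℓ hA hn h H)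

end Fermat.Agent.S37

end
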