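import Fermat.Agent.S37.RedInstDefs

/-!
# S37, leaf RED: the charts cover the places (fields `hcov₁`, `hcov₂`, `hcovb₁`, `hcovb₂` of
`FA_S37_RED_Two`)

A place `P` of `F/K` whose valuation ring contains `x` is `Place.ofHeightOneSpectrum w` for a
height one prime `w` of the chart ring `chartRing K x` (generic: `FA_S37_COV_chart`), and the four
instances at level `n`: `x = j`, `x = j⁻¹` over `ℚ̄` and `x = j̄`, `x = j̄⁻¹` over `k`.
-/

set_option autoImplicit false
set_option linter.unusedSectionVars false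
set_option linter.style.haveILetI false
set_option synthInstance.maxHeartbeats 400000
set_option maxHeartbeats 1000000

noncomputable section

namespace Fermat.Agent.S37

open ModularCurve AlgebraicCurve IntermediateField FA_RR FA_S18 Fermat.Agent.S18
open IsDedekindDomain

/-- **Cover, generic**: a place whose valuation ring contains `x` comes from a height one prime
of the chart ring at `x` (for ANY instances making the chart ring a Dedekind domain with fraction
field `F`). -/
theorem FA_S37_COV_chart {K F : Type*} [Field K] [Field F] [Algebra K F] (x : F)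
    [IsDedekindDomain ↥(chartRing K x)] [IsFractionRing ↥(chartRing K x) F]
    (P : Place K F) (hx : x ∈ P.toValuationSubring) :
    ∃ w : HeightOneSpectrum ↥(chartRing K x),
      Place.ofHeightOneSpectrum (K := K) (F := F) w = P :=
  exists_ofHeightOneSpectrum_eq P (chartRing_le P hx)

/-- Conversely the place of a prime of the chart ring contains `x`. -/
theorem FA_S37_COV_chart_mem {K F : Type*} [Field K] [Field F] [Algebra K F] (x : F)
    [IsDedekindDomain ↥(chartRing K x)] [IsFractionRing ↥(chartRing K x) F]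
    (w : HeightOneSpectrum ↥(chartRing K x)) :
    x ∈ (Place.ofHeightOneSpectrum (K := K) (F := F) w).toValuationSubring := by
  show w.valuation F x ≤ 1
  exact w.valuation_le_one (⟨x, x_mem_chartRing x⟩ : chartRing K x)

variable (A : ValuationSubring (AlgebraicClosure ℚ)) (n : ℕ) [NeZero n]

/-- `hcov₁` at level `n`. -/
theorem FA_S37_COV_fin :
    haveI := FA_S37_RI_dd_fin n
    haveI := FA_S37_RI_fr_fin n
    ∀ P : Place (AlgebraicClosure ℚ) ↥(modularFunctionFieldBar n),
      FA_S18_A_jbar n ∈ P.toValuationSubring →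
      ∃ w : HeightOneSpectrum ↥(chartRing (AlgebraicClosure ℚ) (FA_S18_A_jbar n)),
        Place.ofHeightOneSpectrum (K := AlgebraicClosure ℚ)
          (F := ↥(modularFunctionFieldBar n)) w = P := by
  haveI := FA_S37_RI_dd_fin n
  haveI := FA_S37_RI_fr_fin n
  exact fun P hP => FA_S37_COV_chart _ P hP

/-- `hcov₂` at level `n`. -/
theorem FA_S37_COV_inf :
    haveI := FA_S37_RI_dd_inf n
    haveI := FA_S37_RI_fr_inf n
    ∀ P : Place (AlgebraicClosure ℚ) ↥(modularFunctionFieldBar n),
      (FA_S18_A_jbar n)⁻¹ ∈ P.toValuationSubring →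
      ∃ w : HeightOneSpectrum ↥(chartRing (AlgebraicClosure ℚ) (FA_S18_A_jbar n)⁻¹),
        Place.ofHeightOneSpectrum (K := AlgebraicClosure ℚ)
          (F := ↥(modularFunctionFieldBar n)) w = P := by
  haveI := FA_S37_RI_dd_inf n
  haveI := FA_S37_RI_fr_inf n
  exact fun P hP => FA_S37_COV_chart _ P hP

/-- `hcovb₁` at level `n`. -/
theorem FA_S37_COV_finb {ℓ : ℕ} (hℓ : ℓ.Prime) (hA : A.LiesOverPrime ℓ) (hn : ¬ ℓ ∣ n)
    (h : FA_S18_I_Range A n) :
    haveI := FA_S37_RI_ddb_fin A n hℓ hA hn h
    haveI := FA_S37_RI_frb_fin A n hℓ hA hn h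
    ∀ Q : Place (IsLocalRing.ResidueField ↥A)
        ↥(modularFunctionFieldFullC (IsLocalRing.ResidueField ↥A) n),
      FA_S18_BASE_jb A n h ∈ Q.toValuationSubring →
      ∃ w : HeightOneSpectrum ↥(chartRing (IsLocalRing.ResidueField ↥A) (FA_S18_BASE_jb A n h)),
        Place.ofHeightOneSpectrum (K := IsLocalRing.ResidueField ↥A)
          (F := ↥(modularFunctionFieldFullC (IsLocalRing.ResidueField ↥A) n)) w = Q := by
  haveI := FA_S37_RI_ddb_fin A n hℓ hA hn h
  haveI := FA_S37_RI_frb_fin A n hℓ hA hn h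
  exact fun Q hQ => FA_S37_COV_chart _ Q hQ

/-- `hcovb₂` at level `n`. -/
theorem FA_S37_COV_infb {ℓ : ℕ} (hℓ : ℓ.Prime) (hA : A.LiesOverPrime ℓ) (hn : ¬ ℓ ∣ n)
    (h : FA_S18_I_Range A n) :
    haveI := FA_S37_RI_ddb_inf A n hℓ hA hn h
    haveI := FA_S37_RI_frb_inf A n hℓ hA hn h
    ∀ Q : Place (IsLocalRing.ResidueField ↥A)
        ↥(modularFunctionFieldFullC (IsLocalRing.ResidueField ↥A) n),
      (FA_S18_BASE_jb A n h)⁻¹ ∈ Q.toValuationSubring →
      ∃ w : HeightOneSpectrum
          ↥(chartRing (IsLocalRing.ResidueField ↥A) (FA_S18_BASE_jb A n h)⁻¹),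
        Place.ofHeightOneSpectrum (K := IsLocalRing.ResidueField ↥A)
          (F := ↥(modularFunctionFieldFullC (IsLocalRing.ResidueField ↥A) n)) w = Q := by
  haveI := FA_S37_RI_ddb_inf A n hℓ hA hn h
  haveI := FA_S37_RI_frb_inf A n hℓ hA hn h
  exact fun Q hQ => FA_S37_COV_chart _ Q hQ

end Fermat.Agent.S37
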