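import Mathlib
import Fermat.Agent.S18.RRpChart
import Fermat.Agent.S18.RRpConst
import Fermat.Agent.Lib.RR.ChartRes
import Fermat.Agent.Lib.RR.SumZeros

/-!
# S37, leaf DEG1: places of a separably generated function field over an algebraically closed
field (any characteristic) have residue field `K` and degree one

* `FA_S37_DG_residue` : every `f ∈ O_v` is congruent to a constant modulo `𝔪_v`;
* `FA_S37_DG_deg_one` : `v.deg = 1`.

(The characteristic-zero versions are `FA_RR.residue`, `FA_RR.deg_eq_one`.)
-/

set_option autoImplicit false
set_option linter.unusedSectionVars false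
set_option linter.style.haveILetI false
set_option synthInstance.maxHeartbeats 400000
set_option maxHeartbeats 1000000

noncomputable section

open AlgebraicCurve IsDedekindDomain IntermediateField WithZero FA_RR FA_S18_C
open scoped IntermediateField.algebraAdjoinAdjoin

namespace Fermat.Agent.S37

variable {K F : Type*} [Field K] [Field F] [Algebra K F]

/-- chart form of the residue statement, at a separating element in `O_v`. -/
theorem FA_S37_DG_residue_chart [IsAlgClosed K] {y : F} (hy : Transcendental K y)
    [FiniteDimensional K⟮y⟯ F] [Algebra.IsSeparable K⟮y⟯ F]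
    (v : Place K F) (hyv : y ∈ v.toValuationSubring) (f : F) (hf : v.adicValuation f ≤ 1) :
    ∃ c : K, v.adicValuation (f - algebraMap K F c) < 1 := by
  haveI := sep_isDedekindDomain_chartRing hy
  haveI := isFractionRing_chartRing (K := K) y
  haveI := sep_finiteType_chartRing hy
  obtain ⟨w, rfl⟩ := sep_exists_chartPlace_eq hy v hyv
  exact residue_ofHeightOneSpectrum w f hf

/-- **Residue fields are `K`** (any characteristic). -/
theorem FA_S37_DG_residue [IsAlgClosed K] (hF : FA_S18_C_IsFF K F) (v : Place K F) (f : F)
    (hf : v.adicValuation f ≤ 1) :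
    ∃ c : K, v.adicValuation (f - algebraMap K F c) < 1 := by
  obtain ⟨x, hx, hfin, hsep⟩ := id hF
  rcases v.toValuationSubring.mem_or_inv_mem x with h | h
  · exact FA_S37_DG_residue_chart hx v h f hf
  · have hE : K⟮x⁻¹⟯ = K⟮x⟯ := adjoin_inv_eq x
    haveI : FiniteDimensional K⟮x⁻¹⟯ F := sep_finiteDimensional_congr hE
    haveI : Algebra.IsSeparable K⟮x⁻¹⟯ F := sep_isSeparable_congr hE
    exact FA_S37_DG_residue_chart (transcendental_inv hx) v h f hf

/-- **Places have degree one** (any characteristic). -/
theorem FA_S37_DG_deg_one [IsAlgClosed K] (hF : FA_S18_C_IsFF K F) (v : Place K F) :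
    v.deg = 1 := by
  have hsurj : Function.Surjective (algebraMap K v.ResidueField) := by
    intro z
    obtain ⟨a, rfl⟩ := IsLocalRing.residue_surjective z
    have ha : v.adicValuation (a : F) ≤ 1 := v.adicValuation_le_one_of_mem a.2
    obtain ⟨c, hc⟩ := FA_S37_DG_residue hF v a ha
    refine ⟨c, ?_⟩
    have h1 : (a : F) - algebraMap K F c = ((a - algebraMap K v.toValuationSubring c :
        v.toValuationSubring) : F) := rfl
    rw [h1, v.adicValuation_coe] at hc
    have h2 : a - algebraMap K v.toValuationSubring c ∈
        IsLocalRing.maximalIdeal v.toValuationSubring := by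
      have := (v.heightOneSpectrum.intValuation_lt_one_iff_mem _).mp hc
      simpa using this
    have h3 : IsLocalRing.residue v.toValuationSubring (a - algebraMap K v.toValuationSubring c)
        = 0 := (IsLocalRing.residue_eq_zero_iff _).mpr h2
    rw [map_sub, sub_eq_zero] at h3
    rw [h3]
    rfl
  have hbij : Function.Bijective (algebraMap K v.ResidueField) :=
    ⟨(algebraMap K v.ResidueField).injective, hsurj⟩
  show Module.finrank K v.ResidueField = 1
  rw [← Module.finrank_self K]
  exact ((AlgEquiv.ofBijective (Algebra.ofId K v.ResidueField) hbij).toLinearEquiv.finrank_eq).symm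

end Fermat.Agent.S37
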