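import Mathlib
import Fermat.Agent.S37.RedDeg
import Fermat.Agent.S18.FinSep
import Fermat.Agent.S18.GaussInst
import Fermat.Agent.S18.StageA0

/-!
# S37, leaf DEG1 at level `n`: places of `F̄_n` have degree one (`ℓ ∤ n`)

* `FA_S37_DG_isFF` : `F̄_n / k` is a separably generated function field (`FA_S18_C_IsFF`);
* `FA_S37_DG_deg` : every place of `F̄_n` has degree `1`;
* `FA_S37_DG_deg_eq` : `(r P).deg = P.deg` for ANY map `r : Place F_n → Place F̄_n`
  (first clause of `IsPlaceReductionAlong`).
-/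

set_option autoImplicit false
set_option linter.unusedSectionVars false
set_option linter.style.haveILetI false
set_option synthInstance.maxHeartbeats 400000
set_option maxHeartbeats 1000000

noncomputable section

namespace Fermat.Agent.S37

open ModularCurve AlgebraicCurve FA_S18 Fermat.Agent.S18

variable (A : ValuationSubring (AlgebraicClosure ℚ)) (n : ℕ) [NeZero n]

/-- shortcut instance (the search is slow with all the imports) -/
local instance (priority := 2000) FA_S37_DG_alg :
    Algebra (IsLocalRing.ResidueField ↥A)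
      ↥(modularFunctionFieldFullC (IsLocalRing.ResidueField ↥A) n) := inferInstance

/-- `F̄_n / k` is a separably generated function field in one variable. -/
theorem FA_S37_DG_isFF {ℓ : ℕ} (hℓ : ℓ.Prime) (hA : A.LiesOverPrime ℓ) (hn : ¬ ℓ ∣ n) :
    FA_S18_C_IsFF (IsLocalRing.ResidueField ↥A)
      ↥(modularFunctionFieldFullC (IsLocalRing.ResidueField ↥A) n) := by
  have h : FA_S18_I_Range A n :=
    FA_S18_I_range_of_target A n hℓ hA hn (FA_S18_B_range_inst A n ℓ)
  exact ⟨FA_S18_BASE_jb A n h, FA_S18_BASE_jb_transc A n h,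
    FA_S18_FINA_finite_inst A n hℓ hA hn h, FA_S18_FINA_sep_inst A n hℓ hA hn h⟩

/-- **Every place of `F̄_n` has degree one.** -/
theorem FA_S37_DG_deg {ℓ : ℕ} (hℓ : ℓ.Prime) (hA : A.LiesOverPrime ℓ) (hn : ¬ ℓ ∣ n)
    (Q : Place (IsLocalRing.ResidueField ↥A)
      ↥(modularFunctionFieldFullC (IsLocalRing.ResidueField ↥A) n)) : Q.deg = 1 := by
  haveI := FA_S18_B_resField_isAlgClosed A
  exact FA_S37_DG_deg_one (FA_S37_DG_isFF A n hℓ hA hn) Q

/-- **First clause of `IsPlaceReductionAlong`**, for any map `r`. -/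
theorem FA_S37_DG_deg_eq {ℓ : ℕ} (hℓ : ℓ.Prime) (hA : A.LiesOverPrime ℓ) (hn : ¬ ℓ ∣ n)
    (r : Place (AlgebraicClosure ℚ) ↥(modularFunctionFieldBar n) →
      Place (IsLocalRing.ResidueField ↥A)
        ↥(modularFunctionFieldFullC (IsLocalRing.ResidueField ↥A) n))
    (P : Place (AlgebraicClosure ℚ) ↥(modularFunctionFieldBar n)) : (r P).deg = P.deg := by
  rw [FA_S37_DG_deg A n hℓ hA hn, FA_S18_A_deg_eq_one]

end Fermat.Agent.S37
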