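import Mathlib
import Fermat.Agent.S18.GaussInst
import Fermat.Agent.Lib.RR.Principal
import Fermat.Agent.S18.StageA0

/-!
# S37, leaf A3: principal divisors are generated by integral principal divisors

For a prime `ℓ ∤ n` and a valuation subring `A` of `ℚ̄` over `ℓ`: every nonzero `f ∈ F_n` satisfies
`ι u · f = c · ι w` with `c ∈ ℚ̄ˣ` and `A`-integral series `u, w` such that `ι u, ι w ∈ F_n`,
`ρ u, ρ w ∈ F̄_n` and `ρ u ≠ 0`, `ρ w ≠ 0` (normal form of leaf B of S18).  Hence
`div f = div (ι w) - div (ι u)` lies in the subgroup generated by the integral principal divisors: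
`FA_S37_GEN_principalGenerated : PrincipalGeneratedByIntegral A (residue A) n`.
-/

set_option autoImplicit false
set_option linter.unusedSectionVars false
set_option linter.style.haveILetI false

noncomputable section

namespace Fermat.Agent.S37

open ModularCurve AlgebraicCurve Fermat.Agent.S18

variable (A : ValuationSubring (AlgebraicClosure ℚ)) (n : ℕ) [NeZero n]

/-- An `A`-integral series `y` with `ι y ∈ F_n` and `ρ y ≠ 0` gives an integral principal
divisor. -/
theorem FA_S37_GEN_mem_integral (ℓ : ℕ) (hℓ : ℓ.Prime) (hA : A.LiesOverPrime ℓ) (hn : ¬ ℓ ∣ n)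
    (y : LaurentSeries A) (hy : coeffMap A.subtype y ∈ modularFunctionFieldBar n)
    (hy0 : coeffMap (IsLocalRing.residue A) y ≠ 0)
    (D : Divisor (AlgebraicClosure ℚ) (modularFunctionFieldBar n))
    (hD : ∀ P, D P = P.ord (⟨coeffMap A.subtype y, hy⟩ : modularFunctionFieldBar n)) :
    D ∈ integralPrincipalDivisors A (IsLocalRing.residue A) n := by
  refine ⟨y, hy, ?_, hy0, hD⟩
  have h := (FA_S18_B_range_inst A n ℓ hℓ hA hn).1 _ hy (FA_S18_B_isInt_iota y)
  rwa [FA_S18_B_red_iota] at h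

/-- **Normal form with membership**: every nonzero `f ∈ F_n` is `c · ι w / ι u` with `u, w`
integral, in `F_n`, with nonzero reductions. -/
theorem FA_S37_GEN_normal (ℓ : ℕ) (hℓ : ℓ.Prime) (hA : A.LiesOverPrime ℓ) (hn : ¬ ℓ ∣ n)
    {f : LaurentSeries (AlgebraicClosure ℚ)} (hf : f ∈ modularFunctionFieldBar n) (hf0 : f ≠ 0) :
    ∃ (c : AlgebraicClosure ℚ) (u w : LaurentSeries A), c ≠ 0 ∧
      coeffMap A.subtype u ∈ modularFunctionFieldBar n ∧
      coeffMap A.subtype w ∈ modularFunctionFieldBar n ∧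
      coeffMap (IsLocalRing.residue A) u ≠ 0 ∧ coeffMap (IsLocalRing.residue A) w ≠ 0 ∧
      coeffMap A.subtype u * f = HahnSeries.C c * coeffMap A.subtype w := by
  obtain ⟨Dat, -, -⟩ := FA_S18_B_datum_inst A n ℓ hℓ hA hn
  obtain ⟨c, Q, P, hc, hQ, hP, e⟩ := FA_S18_B_normal Dat hf hf0
  refine ⟨c, FA_S18_B_ev Dat.x Q, Dat.comb P, hc, ?_, ?_, Dat.rho_ev_ne_zero hQ,
    Dat.rho_comb_ne_zero hP, e⟩
  · rw [FA_S18_B_coeffMap_ev]
    exact FA_S18_B_ev_mem _ Dat.x_mem _
  · rw [Dat.iota_comb]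
    exact sum_mem fun i _ => mul_mem (FA_S18_B_ev_mem _ Dat.x_mem _) (Dat.e_mem i)

/-- **A3**: principal divisors of `F_n` are generated by integral principal divisors. -/
theorem FA_S37_GEN_principalGenerated (ℓ : ℕ) (hℓ : ℓ.Prime) (hA : A.LiesOverPrime ℓ)
    (hn : ¬ ℓ ∣ n) : PrincipalGeneratedByIntegral A (IsLocalRing.residue A) n := by
  intro D hD
  obtain ⟨f, hf0, hDf⟩ := hD
  have hf0' : (f : LaurentSeries (AlgebraicClosure ℚ)) ≠ 0 := fun h => hf0 (Subtype.ext h)
  obtain ⟨c, u, w, hc, hu, hw, hu0, hw0, e⟩ := FA_S37_GEN_normal A n ℓ hℓ hA hn f.2 hf0'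
  set U : modularFunctionFieldBar n := ⟨coeffMap A.subtype u, hu⟩ with hU
  set W : modularFunctionFieldBar n := ⟨coeffMap A.subtype w, hw⟩ with hW
  have hU0 : U ≠ 0 := fun h => FA_S18_B_iota_ne_zero hu0 (congrArg Subtype.val h)
  have hW0 : W ≠ 0 := fun h => FA_S18_B_iota_ne_zero hw0 (congrArg Subtype.val h)
  have hcF : algebraMap (AlgebraicClosure ℚ) (modularFunctionFieldBar n) c ≠ 0 := by
    rw [Ne, map_eq_zero]
    exact hc
  have e' : U * f = algebraMap (AlgebraicClosure ℚ) (modularFunctionFieldBar n) c * W := by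
    apply Subtype.ext
    show coeffMap A.subtype u * (f : LaurentSeries (AlgebraicClosure ℚ))
      = algebraMap (AlgebraicClosure ℚ) (LaurentSeries (AlgebraicClosure ℚ)) c
        * coeffMap A.subtype w
    rw [e, FA_S18_B_algebraMap_eq_C]
  haveI : HasPrincipalDivisors (AlgebraicClosure ℚ) (modularFunctionFieldBar n) :=
    FA_RR.hasPrincipalDivisors (FA_S18_A_isFF n)
  -- the two integral principal divisors
  obtain ⟨DU, hDU, -⟩ := HasPrincipalDivisors.exists_divisor (K := AlgebraicClosure ℚ) U hU0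
  obtain ⟨DW, hDW, -⟩ := HasPrincipalDivisors.exists_divisor (K := AlgebraicClosure ℚ) W hW0
  have hDUm : DU ∈ integralPrincipalDivisors A (IsLocalRing.residue A) n :=
    FA_S37_GEN_mem_integral A n ℓ hℓ hA hn u hu hu0 DU hDU
  have hDWm : DW ∈ integralPrincipalDivisors A (IsLocalRing.residue A) n :=
    FA_S37_GEN_mem_integral A n ℓ hℓ hA hn w hw hw0 DW hDW
  have hD : D = DW - DU := by
    ext P
    rw [Finsupp.sub_apply, hDf, hDU, hDW]
    have h1 := congrArg P.ord e'
    rw [P.ord_mul hU0 hf0, P.ord_mul hcF hW0, FA_RR.ord_algebraMap] at h1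
    omega
  rw [hD]
  exact sub_mem (AddSubgroup.subset_closure hDWm) (AddSubgroup.subset_closure hDUm)

/-- `ReductionInputsModL A n` from any place reduction. -/
theorem FA_S37_GEN_reductionInputs (ℓ : ℕ) (hℓ : ℓ.Prime) (hA : A.LiesOverPrime ℓ)
    (hn : ¬ ℓ ∣ n)
    (r : Place (AlgebraicClosure ℚ) (modularFunctionFieldBar n) →
      Place (IsLocalRing.ResidueField A) (modularFunctionFieldFullC (IsLocalRing.ResidueField A) n))
    (hr : IsPlaceReductionModL A n r) : ReductionInputsModL A n :=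
  ⟨r, hr, FA_S37_GEN_principalGenerated A n ℓ hℓ hA hn⟩

/-- **Gauss units**: a Gauss-integral `f ∈ F_n` with nonzero reduction is `ι w / ι u` with
`u, w` integral, in `F_n`, with nonzero reductions. -/
theorem FA_S37_GEN_unit_normal (ℓ : ℕ) (hℓ : ℓ.Prime) (hA : A.LiesOverPrime ℓ) (hn : ¬ ℓ ∣ n)
    {f : LaurentSeries (AlgebraicClosure ℚ)} (hf : f ∈ modularFunctionFieldBar n)
    (hint : FA_S18_B_IsInt A (FA_S18_pi A) f) (hred : FA_S18_B_red A (FA_S18_pi A) f ≠ 0) :
    ∃ (u w : LaurentSeries A),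
      coeffMap A.subtype u ∈ modularFunctionFieldBar n ∧
      coeffMap A.subtype w ∈ modularFunctionFieldBar n ∧
      coeffMap (IsLocalRing.residue A) u ≠ 0 ∧ coeffMap (IsLocalRing.residue A) w ≠ 0 ∧
      coeffMap A.subtype u * f = coeffMap A.subtype w := by
  obtain ⟨Dat, -, -⟩ := FA_S18_B_datum_inst A n ℓ hℓ hA hn
  obtain ⟨Q, P, hQ, e⟩ := FA_S18_B_int_normal Dat hf hint
  have hu := Dat.rho_ev_ne_zero hQ
  refine ⟨FA_S18_B_ev Dat.x Q, Dat.comb P, ?_, ?_, hu, ?_, e⟩
  · rw [FA_S18_B_coeffMap_ev]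
    exact FA_S18_B_ev_mem _ Dat.x_mem _
  · rw [Dat.iota_comb]
    exact sum_mem fun i _ => mul_mem (FA_S18_B_ev_mem _ Dat.x_mem _) (Dat.e_mem i)
  · intro h0
    apply hred
    rw [FA_S18_B_red_eq hu e, h0, zero_div]

/-- **The spec of a place reduction on Gauss units**: for ANY `r` with
`IsPlaceReductionModL A n r` and every Gauss unit `f ∈ F_n` (Gauss-integral with nonzero
reduction): `r_* (div f) = div (red f)`. -/
theorem FA_S37_GEN_div (ℓ : ℕ) (hℓ : ℓ.Prime) (hA : A.LiesOverPrime ℓ) (hn : ¬ ℓ ∣ n)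
    (r : Place (AlgebraicClosure ℚ) (modularFunctionFieldBar n) →
      Place (IsLocalRing.ResidueField A) (modularFunctionFieldFullC (IsLocalRing.ResidueField A) n))
    (hr : IsPlaceReductionModL A n r)
    (f : modularFunctionFieldBar n)
    (hint : FA_S18_B_IsInt A (FA_S18_pi A) (f : LaurentSeries (AlgebraicClosure ℚ)))
    (hred : FA_S18_B_red A (FA_S18_pi A) (f : LaurentSeries (AlgebraicClosure ℚ)) ≠ 0)
    (hmem : FA_S18_B_red A (FA_S18_pi A) (f : LaurentSeries (AlgebraicClosure ℚ))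
      ∈ modularFunctionFieldFullC (IsLocalRing.ResidueField A) n)
    (D : Divisor (AlgebraicClosure ℚ) (modularFunctionFieldBar n))
    (hD : ∀ P, D P = P.ord f)
    (Q : Place (IsLocalRing.ResidueField A)
      (modularFunctionFieldFullC (IsLocalRing.ResidueField A) n)) :
    Finsupp.mapDomain r D Q
      = Q.ord (⟨FA_S18_B_red A (FA_S18_pi A) (f : LaurentSeries (AlgebraicClosure ℚ)), hmem⟩ :
          modularFunctionFieldFullC (IsLocalRing.ResidueField A) n) := by
  obtain ⟨u, w, hu, hw, hu0, hw0, e⟩ := FA_S37_GEN_unit_normal A n ℓ hℓ hA hn f.2 hint hred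
  have hrange := (FA_S18_B_range_inst A n ℓ hℓ hA hn).1
  have hum : coeffMap (IsLocalRing.residue A) u
      ∈ modularFunctionFieldFullC (IsLocalRing.ResidueField A) n := by
    have h := hrange _ hu (FA_S18_B_isInt_iota u)
    rwa [FA_S18_B_red_iota] at h
  have hwm : coeffMap (IsLocalRing.residue A) w
      ∈ modularFunctionFieldFullC (IsLocalRing.ResidueField A) n := by
    have h := hrange _ hw (FA_S18_B_isInt_iota w)
    rwa [FA_S18_B_red_iota] at h
  set U : modularFunctionFieldBar n := ⟨coeffMap A.subtype u, hu⟩ with hU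
  set W : modularFunctionFieldBar n := ⟨coeffMap A.subtype w, hw⟩ with hW
  have hU0 : U ≠ 0 := fun h => FA_S18_B_iota_ne_zero hu0 (congrArg Subtype.val h)
  have hW0 : W ≠ 0 := fun h => FA_S18_B_iota_ne_zero hw0 (congrArg Subtype.val h)
  have hf0 : f ≠ 0 := by
    intro h
    apply hW0
    apply Subtype.ext
    show coeffMap A.subtype w = 0
    rw [← e, h]
    simp
  have e' : U * f = W := Subtype.ext e
  haveI : HasPrincipalDivisors (AlgebraicClosure ℚ) (modularFunctionFieldBar n) :=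
    FA_RR.hasPrincipalDivisors (FA_S18_A_isFF n)
  obtain ⟨DU, hDU, -⟩ := HasPrincipalDivisors.exists_divisor (K := AlgebraicClosure ℚ) U hU0
  obtain ⟨DW, hDW, -⟩ := HasPrincipalDivisors.exists_divisor (K := AlgebraicClosure ℚ) W hW0
  have hDeq : D = DW - DU := by
    ext P
    rw [Finsupp.sub_apply, hD, hDU, hDW]
    have h1 := congrArg P.ord e'
    rw [P.ord_mul hU0 hf0] at h1
    omega
  have h1 := hr.2 u hu hum hu0 DU hDU Q
  have h2 := hr.2 w hw hwm hw0 DW hDW Q
  have h3 : Finsupp.mapDomain r D = Finsupp.mapDomain r DW - Finsupp.mapDomain r DU := by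
    rw [hDeq]
    exact map_sub (Finsupp.mapDomain.addMonoidHom r) DW DU
  rw [h3, Finsupp.sub_apply, h1, h2]
  -- `red f = ρ w / ρ u`
  have hUb0 : (⟨coeffMap (IsLocalRing.residue A) u, hum⟩ :
      modularFunctionFieldFullC (IsLocalRing.ResidueField A) n) ≠ 0 :=
    fun h => hu0 (congrArg Subtype.val h)
  have hRb0 : (⟨FA_S18_B_red A (FA_S18_pi A) (f : LaurentSeries (AlgebraicClosure ℚ)), hmem⟩ :
      modularFunctionFieldFullC (IsLocalRing.ResidueField A) n) ≠ 0 :=
    fun h => hred (congrArg Subtype.val h)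
  have h4 : (⟨coeffMap (IsLocalRing.residue A) w, hwm⟩ :
        modularFunctionFieldFullC (IsLocalRing.ResidueField A) n)
      = ⟨coeffMap (IsLocalRing.residue A) u, hum⟩
        * ⟨FA_S18_B_red A (FA_S18_pi A) (f : LaurentSeries (AlgebraicClosure ℚ)), hmem⟩ := by
    apply Subtype.ext
    show coeffMap (IsLocalRing.residue A) w
      = coeffMap (IsLocalRing.residue A) u
        * FA_S18_B_red A (FA_S18_pi A) (f : LaurentSeries (AlgebraicClosure ℚ))
    rw [FA_S18_B_red_eq hu0 e, mul_div_cancel₀ _ hu0]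
  rw [h4, Q.ord_mul hUb0 hRb0]
  ring

end Fermat.Agent.S37
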