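import Fermat.Agent.S37.RedFibre

/-!
# S37, leaf A1/A2: the reduction of places from two charts (abstract assembly)

Two charts `(B₁, Bb₁)` (at `x`) and `(B₂, Bb₂)` (at `x⁻¹`), each satisfying `FA_S37_RED_Hyp` and
`FA_S37_RED_Unif`.  `FA_S37_RED_global` : there is `r : Place K₀ F → Place k Fb` with
`Finsupp.mapDomain r (div y) Q = ord_Q (red y)` for all `y ∈ O` with `red y ≠ 0` and all `Q`.
-/

set_option autoImplicit false
set_option linter.unusedSectionVars false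
set_option linter.unusedVariables false

noncomputable section

open IsDedekindDomain IsDedekindDomain.HeightOneSpectrum WithZero AlgebraicCurve FA_RR

namespace Fermat.Agent.S37

/-- A valuation lemma: if `t ≡ c` with `|c| = 1` then `|t| = 1` and `t⁻¹ ≡ c⁻¹`. -/
theorem FA_S37_RED_val_inv {F Γ : Type*} [Field F] [LinearOrderedCommGroupWithZero Γ]
    (v : Valuation F Γ) (t c : F) (hc : v c = 1) (h : v (t - c) < 1) :
    v t = 1 ∧ v (t⁻¹ - c⁻¹) < 1 := by
  have ht : v t = 1 := by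
    have e : t = c + (t - c) := by ring
    rw [e, Valuation.map_add_eq_of_lt_left v (by rw [hc]; exact h), hc]
  refine ⟨ht, ?_⟩
  have ht0 : t ≠ 0 := (Valuation.ne_zero_iff v).1 (by rw [ht]; exact one_ne_zero)
  have hc0 : c ≠ 0 := (Valuation.ne_zero_iff v).1 (by rw [hc]; exact one_ne_zero)
  have e : t⁻¹ - c⁻¹ = -(t - c) * t⁻¹ * c⁻¹ := by
    field_simp
    ring
  rw [e, map_mul, map_mul, Valuation.map_neg, map_inv₀, map_inv₀, ht, hc, inv_one, mul_one,
    mul_one]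
  exact h

variable {K₀ k F Fb : Type*} [Field K₀] [Field k] [Field F] [Field Fb]
  [Algebra K₀ F] [Algebra k Fb]

/-- Nonzero constants have valuation one at a place. -/
theorem FA_S37_RED_adic_const (P : Place K₀ F) (c : K₀) (hc : c ≠ 0) :
    P.adicValuation (algebraMap K₀ F c) = 1 := by
  have h0 : algebraMap K₀ F c ≠ 0 := (map_ne_zero _).2 hc
  rw [adicValuation_eq_one_iff P h0]
  exact ord_algebraMap P c

/-- A constant of valuation `< 1` at a place is zero. -/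
theorem FA_S37_RED_adic_const_lt (P : Place K₀ F) (c : K₀)
    (h : P.adicValuation (algebraMap K₀ F c) < 1) : c = 0 := by
  by_contra hc
  rw [FA_S37_RED_adic_const P c hc] at h
  exact lt_irrefl _ h

variable {A : ValuationSubring K₀} {π : A →+* k} {O : ValuationSubring F} {red : O →+* Fb}

section one

variable {B : Type*} [CommRing B] [IsDedekindDomain B] [Algebra B F] [IsFractionRing B F]
  [Algebra K₀ B] [IsScalarTower K₀ B F]

/-- Membership in a prime in terms of the valuation of its place. -/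
theorem FA_S37_RED_mem_iff_adic (w : HeightOneSpectrum B) (b : B) :
    b ∈ w.asIdeal ↔
      (Place.ofHeightOneSpectrum (K := K₀) (F := F) w).adicValuation (algebraMap B F b) < 1 := by
  rw [adicValuation_ofHeightOneSpectrum, valuation_lt_one_iff_mem]

theorem FA_S37_RED_adic_le_one (w : HeightOneSpectrum B) (b : B) :
    (Place.ofHeightOneSpectrum (K := K₀) (F := F) w).adicValuation (algebraMap B F b) ≤ 1 := by
  rw [adicValuation_ofHeightOneSpectrum]
  exact valuation_le_one w b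

end one

variable {B₁ : Type*} [CommRing B₁] [IsDedekindDomain B₁] [Algebra B₁ F] [IsFractionRing B₁ F]
  [Algebra K₀ B₁] [IsScalarTower K₀ B₁ F]
variable {Bb₁ : Type*} [CommRing Bb₁] [IsDedekindDomain Bb₁] [Algebra Bb₁ Fb]
  [IsFractionRing Bb₁ Fb] [Algebra k Bb₁] [IsScalarTower k Bb₁ Fb]
variable {B₂ : Type*} [CommRing B₂] [IsDedekindDomain B₂] [Algebra B₂ F] [IsFractionRing B₂ F]
  [Algebra K₀ B₂] [IsScalarTower K₀ B₂ F]
variable {Bb₂ : Type*} [CommRing Bb₂] [IsDedekindDomain Bb₂] [Algebra Bb₂ Fb]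
  [IsFractionRing Bb₂ Fb] [Algebra k Bb₂] [IsScalarTower k Bb₂ Fb]

variable (A π O red B₁ Bb₁ B₂ Bb₂) in
/-- The hypotheses of the two-chart assembly. -/
structure FA_S37_RED_Two (x : F) (xb : Fb) (x₁ : B₁) (u₂ : B₂) (xb₁ : Bb₁) (ub₂ : Bb₂) :
    Prop where
  H₁ : FA_S37_RED_Hyp A π O red B₁ Bb₁
  H₂ : FA_S37_RED_Hyp A π O red B₂ Bb₂
  U₁ : FA_S37_RED_Unif O red B₁ Bb₁
  U₂ : FA_S37_RED_Unif O red B₂ Bb₂
  hker : ∀ f : O, red f = 0 → ∃ (ε : A) (g : O), π ε = 0 ∧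
    (f : F) = algebraMap K₀ F (ε : K₀) * (g : F)
  hnf₁ : ¬ IsField Bb₁
  hnf₂ : ¬ IsField Bb₂
  hx₁ : algebraMap B₁ F x₁ = x
  hu₂ : algebraMap B₂ F u₂ = x⁻¹
  hxb₁ : algebraMap Bb₁ Fb xb₁ = xb
  hub₂ : algebraMap Bb₂ Fb ub₂ = xb⁻¹
  hxO : x ∈ O
  hredx : ∀ h : x ∈ O, red ⟨x, h⟩ = xb
  hxb0 : xb ≠ 0
  hint₁ : ∀ (w : HeightOneSpectrum B₁) (a : A),
    x₁ - algebraMap K₀ B₁ (a : K₀) ∈ w.asIdeal → ∀ b : B₁, algebraMap B₁ F b ∈ O →
      ∀ c : K₀, b - algebraMap K₀ B₁ c ∈ w.asIdeal → c ∈ A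
  hint₂ : ∀ (w : HeightOneSpectrum B₂) (a : A),
    u₂ - algebraMap K₀ B₂ (a : K₀) ∈ w.asIdeal → ∀ b : B₂, algebraMap B₂ F b ∈ O →
      ∀ c : K₀, b - algebraMap K₀ B₂ c ∈ w.asIdeal → c ∈ A
  hcov₁ : ∀ P : Place K₀ F, x ∈ P.toValuationSubring →
    ∃ w : HeightOneSpectrum B₁, Place.ofHeightOneSpectrum (K := K₀) (F := F) w = P
  hcov₂ : ∀ P : Place K₀ F, x⁻¹ ∈ P.toValuationSubring →
    ∃ w : HeightOneSpectrum B₂, Place.ofHeightOneSpectrum (K := K₀) (F := F) w = P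
  hcovb₁ : ∀ Q : Place k Fb, xb ∈ Q.toValuationSubring →
    ∃ w : HeightOneSpectrum Bb₁, Place.ofHeightOneSpectrum (K := k) (F := Fb) w = Q
  hcovb₂ : ∀ Q : Place k Fb, xb⁻¹ ∈ Q.toValuationSubring →
    ∃ w : HeightOneSpectrum Bb₂, Place.ofHeightOneSpectrum (K := k) (F := Fb) w = Q

variable (O red B₁ Bb₁) in
/-- The domain of the first chart. -/
def FA_S37_RED_Dom₁ (P : Place K₀ F) : Prop :=
  ∃ (w : HeightOneSpectrum B₁) (Q : HeightOneSpectrum Bb₁),
    Place.ofHeightOneSpectrum (K := K₀) (F := F) w = P ∧ FA_S37_RED_Centre O red B₁ Bb₁ w Q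

variable (O red B₂ Bb₂) in
/-- The domain of the second chart. -/
def FA_S37_RED_Dom₂ (P : Place K₀ F) : Prop :=
  ∃ (w : HeightOneSpectrum B₂) (Q : HeightOneSpectrum Bb₂),
    Place.ofHeightOneSpectrum (K := K₀) (F := F) w = P ∧ FA_S37_RED_Centre O red B₂ Bb₂ w Q

namespace FA_S37_RED_Two

variable {x : F} {xb : Fb} {x₁ : B₁} {u₂ : B₂} {xb₁ : Bb₁} {ub₂ : Bb₂}
  (T : FA_S37_RED_Two A π O red B₁ Bb₁ B₂ Bb₂ x xb x₁ u₂ xb₁ ub₂)
include T

theorem x_ne_zero : x ≠ 0 := by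
  rintro rfl
  have := T.hredx T.hxO
  have e : (⟨(0 : F), T.hxO⟩ : O) = 0 := rfl
  rw [e, map_zero] at this
  exact T.hxb0 this.symm

theorem xinv_mem : x⁻¹ ∈ O := by
  by_contra h
  have := T.H₁.red_max ⟨x, T.hxO⟩ h
  rw [T.hredx T.hxO] at this
  exact T.hxb0 this

theorem red_xinv (h : x⁻¹ ∈ O) : red ⟨x⁻¹, h⟩ = xb⁻¹ := by
  have h1 : red ⟨x, T.hxO⟩ * red ⟨x⁻¹, h⟩ = 1 := by
    rw [← map_mul]
    have : (⟨x, T.hxO⟩ : O) * ⟨x⁻¹, h⟩ = 1 := Subtype.ext (mul_inv_cancel₀ T.x_ne_zero)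
    rw [this, map_one]
  rw [T.hredx T.hxO] at h1
  exact eq_inv_of_mul_eq_one_right h1

/-- A place where `x` takes a value in `A` lies in the first domain. -/
theorem dom₁_of (P : Place K₀ F) (a : A)
    (h : P.adicValuation (x - algebraMap K₀ F (a : K₀)) < 1) :
    FA_S37_RED_Dom₁ O red B₁ Bb₁ P := by
  have hxP : x ∈ P.toValuationSubring := by
    have e : x = (x - algebraMap K₀ F (a : K₀)) + algebraMap K₀ F (a : K₀) := by ring
    rw [e]
    exact add_mem ((mem_iff_adicValuation_le_one P).2 h.le) (P.algebraMap_mem' _)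
  obtain ⟨w, rfl⟩ := T.hcov₁ P hxP
  have hw : x₁ - algebraMap K₀ B₁ (a : K₀) ∈ w.asIdeal := by
    rw [FA_S37_RED_mem_iff_adic (K₀ := K₀) (F := F), map_sub, T.hx₁,
      ← IsScalarTower.algebraMap_apply]
    exact h
  obtain ⟨Q, hQ⟩ := FA_S37_RED_exists_centre T.H₁ T.hker T.hnf₁ w (T.hint₁ w a hw)
  exact ⟨w, Q, rfl, hQ⟩

/-- A place where `x⁻¹` takes a value in `A` lies in the second domain. -/
theorem dom₂_of (P : Place K₀ F) (a : A)
    (h : P.adicValuation (x⁻¹ - algebraMap K₀ F (a : K₀)) < 1) :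
    FA_S37_RED_Dom₂ O red B₂ Bb₂ P := by
  have hxP : x⁻¹ ∈ P.toValuationSubring := by
    have e : x⁻¹ = (x⁻¹ - algebraMap K₀ F (a : K₀)) + algebraMap K₀ F (a : K₀) := by ring
    rw [e]
    exact add_mem ((mem_iff_adicValuation_le_one P).2 h.le) (P.algebraMap_mem' _)
  obtain ⟨w, rfl⟩ := T.hcov₂ P hxP
  have hw : u₂ - algebraMap K₀ B₂ (a : K₀) ∈ w.asIdeal := by
    rw [FA_S37_RED_mem_iff_adic (K₀ := K₀) (F := F), map_sub, T.hu₂,
      ← IsScalarTower.algebraMap_apply]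
    exact h
  obtain ⟨Q, hQ⟩ := FA_S37_RED_exists_centre T.H₂ T.hker T.hnf₂ w (T.hint₂ w a hw)
  exact ⟨w, Q, rfl, hQ⟩

/-- Every place lies in one of the two domains. -/
theorem total (P : Place K₀ F) :
    FA_S37_RED_Dom₁ O red B₁ Bb₁ P ∨ FA_S37_RED_Dom₂ O red B₂ Bb₂ P := by
  by_cases hx : x ∈ P.toValuationSubring
  · obtain ⟨w, hw⟩ := T.hcov₁ P hx
    obtain ⟨c, hc⟩ := T.H₁.resB w x₁
    have hcv : P.adicValuation (x - algebraMap K₀ F c) < 1 := by
      rw [FA_S37_RED_mem_iff_adic (K₀ := K₀) (F := F), map_sub, T.hx₁,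
        ← IsScalarTower.algebraMap_apply, hw] at hc
      exact hc
    by_cases hcA : c ∈ A
    · exact Or.inl (T.dom₁_of P ⟨c, hcA⟩ hcv)
    · right
      obtain ⟨hinv, -⟩ := T.H₁.pi_max c hcA
      have hc0 : c ≠ 0 := fun h => hcA (h ▸ A.zero_mem)
      have := (FA_S37_RED_val_inv P.adicValuation x (algebraMap K₀ F c)
        (FA_S37_RED_adic_const P c hc0) hcv).2
      rw [← map_inv₀] at this
      exact T.dom₂_of P ⟨c⁻¹, hinv⟩ this
  · right
    have h1 : ¬ P.adicValuation x ≤ 1 := fun h => hx ((mem_iff_adicValuation_le_one P).2 h)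
    rw [not_le] at h1
    have h2 : P.adicValuation x⁻¹ < 1 := by
      rw [map_inv₀]
      exact inv_lt_one_of_one_lt₀ h1
    refine T.dom₂_of P 0 ?_
    simpa using h2

open Classical in
/-- The reduction of places. -/
def r (P : Place K₀ F) : Place k Fb :=
  if h : FA_S37_RED_Dom₁ O red B₁ Bb₁ P then
    Place.ofHeightOneSpectrum (K := k) (F := Fb) h.choose_spec.choose
  else
    Place.ofHeightOneSpectrum (K := k) (F := Fb)
      ((T.total P).resolve_left h).choose_spec.choose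

theorem r_dom₁ (P : Place K₀ F) (h : FA_S37_RED_Dom₁ O red B₁ Bb₁ P) :
    ∃ (w : HeightOneSpectrum B₁) (Q : HeightOneSpectrum Bb₁),
      Place.ofHeightOneSpectrum (K := K₀) (F := F) w = P ∧
      FA_S37_RED_Centre O red B₁ Bb₁ w Q ∧
      T.r P = Place.ofHeightOneSpectrum (K := k) (F := Fb) Q := by
  refine ⟨h.choose, h.choose_spec.choose, h.choose_spec.choose_spec.1,
    h.choose_spec.choose_spec.2, ?_⟩
  unfold r
  rw [dif_pos h]

theorem r_not_dom₁ (P : Place K₀ F) (h : ¬ FA_S37_RED_Dom₁ O red B₁ Bb₁ P) :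
    ∃ (w : HeightOneSpectrum B₂) (Q : HeightOneSpectrum Bb₂),
      Place.ofHeightOneSpectrum (K := K₀) (F := F) w = P ∧
      FA_S37_RED_Centre O red B₂ Bb₂ w Q ∧
      T.r P = Place.ofHeightOneSpectrum (K := k) (F := Fb) Q := by
  have h2 := (T.total P).resolve_left h
  refine ⟨h2.choose, h2.choose_spec.choose, h2.choose_spec.choose_spec.1,
    h2.choose_spec.choose_spec.2, ?_⟩
  unfold r
  rw [dif_neg h]

theorem r_eq₁ (w : HeightOneSpectrum B₁) (Q : HeightOneSpectrum Bb₁)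
    (hc : FA_S37_RED_Centre O red B₁ Bb₁ w Q) :
    T.r (Place.ofHeightOneSpectrum (K := K₀) (F := F) w)
      = Place.ofHeightOneSpectrum (K := k) (F := Fb) Q := by
  obtain ⟨w', Q', hw', hc', hr⟩ := T.r_dom₁ _ ⟨w, Q, rfl, hc⟩
  have e := ofHeightOneSpectrum_injective hw'
  subst e
  rw [hr, FA_S37_RED_centre_unique T.H₁ hc' hc]

theorem r_eq₂ (w : HeightOneSpectrum B₂) (Q : HeightOneSpectrum Bb₂)
    (hc : FA_S37_RED_Centre O red B₂ Bb₂ w Q)
    (h : ¬ FA_S37_RED_Dom₁ O red B₁ Bb₁ (Place.ofHeightOneSpectrum (K := K₀) (F := F) w)) :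
    T.r (Place.ofHeightOneSpectrum (K := K₀) (F := F) w)
      = Place.ofHeightOneSpectrum (K := k) (F := Fb) Q := by
  obtain ⟨w', Q', hw', hc', hr⟩ := T.r_not_dom₁ _ h
  have e := ofHeightOneSpectrum_injective hw'
  subst e
  rw [hr, FA_S37_RED_centre_unique T.H₂ hc' hc]

/-- The value of `x⁻¹` at a centred prime of the second chart. -/
theorem value₂ (w : HeightOneSpectrum B₂) (Q : HeightOneSpectrum Bb₂)
    (hc : FA_S37_RED_Centre O red B₂ Bb₂ w Q) :
    ∃ c : A, (Place.ofHeightOneSpectrum (K := K₀) (F := F) w).adicValuation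
        (x⁻¹ - algebraMap K₀ F (c : K₀)) < 1 ∧
      ub₂ - algebraMap k Bb₂ (π c) ∈ Q.asIdeal := by
  obtain ⟨c, hcw⟩ := T.H₂.resB w u₂
  have huO : algebraMap B₂ F u₂ ∈ O := by rw [T.hu₂]; exact T.xinv_mem
  have hcA : c ∈ A := FA_S37_RED_value_mem T.H₂ hc u₂ huO c hcw
  refine ⟨⟨c, hcA⟩, ?_, ?_⟩
  · rw [FA_S37_RED_mem_iff_adic (K₀ := K₀) (F := F), map_sub, T.hu₂,
      ← IsScalarTower.algebraMap_apply] at hcw
    exact hcw
  · refine FA_S37_RED_value_pi T.H₂ hc u₂ huO ⟨c, hcA⟩ hcw ub₂ ?_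
    rw [T.hub₂]
    have e : (⟨algebraMap B₂ F u₂, huO⟩ : O) = ⟨x⁻¹, T.xinv_mem⟩ := Subtype.ext T.hu₂
    rw [e, T.red_xinv]

/-- The value of `x` at a centred prime of the first chart. -/
theorem value₁ (w : HeightOneSpectrum B₁) (Q : HeightOneSpectrum Bb₁)
    (hc : FA_S37_RED_Centre O red B₁ Bb₁ w Q) :
    ∃ c : A, (Place.ofHeightOneSpectrum (K := K₀) (F := F) w).adicValuation
        (x - algebraMap K₀ F (c : K₀)) < 1 := by
  obtain ⟨c, hcw⟩ := T.H₁.resB w x₁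
  have hxO : algebraMap B₁ F x₁ ∈ O := by rw [T.hx₁]; exact T.hxO
  have hcA : c ∈ A := FA_S37_RED_value_mem T.H₁ hc x₁ hxO c hcw
  refine ⟨⟨c, hcA⟩, ?_⟩
  rw [FA_S37_RED_mem_iff_adic (K₀ := K₀) (F := F), map_sub, T.hx₁,
    ← IsScalarTower.algebraMap_apply] at hcw
  exact hcw

/-- Outside the first domain, `x̄⁻¹` vanishes at the centre. -/
theorem ub_mem (w : HeightOneSpectrum B₂) (Q : HeightOneSpectrum Bb₂)
    (hc : FA_S37_RED_Centre O red B₂ Bb₂ w Q)
    (h : ¬ FA_S37_RED_Dom₁ O red B₁ Bb₁ (Place.ofHeightOneSpectrum (K := K₀) (F := F) w)) :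
    ub₂ ∈ Q.asIdeal := by
  obtain ⟨c, hcv, hcQ⟩ := T.value₂ w Q hc
  by_cases hπ : π c = 0
  · rw [hπ, map_zero, sub_zero] at hcQ
    exact hcQ
  · exfalso
    apply h
    have hc0 : (c : K₀) ≠ 0 := by
      intro h0
      apply hπ
      have : c = 0 := Subtype.ext h0
      rw [this, map_zero]
    have hinv : (c : K₀)⁻¹ ∈ A := by
      by_contra hn
      obtain ⟨h1, h2⟩ := T.H₁.pi_max _ hn
      apply hπ
      have e : (⟨((c : K₀)⁻¹)⁻¹, h1⟩ : A) = c := Subtype.ext (inv_inv _)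
      rw [e] at h2
      exact h2
    have := (FA_S37_RED_val_inv _ x⁻¹ (algebraMap K₀ F (c : K₀))
      (FA_S37_RED_adic_const _ _ hc0) hcv).2
    rw [inv_inv, ← map_inv₀] at this
    exact T.dom₁_of _ ⟨(c : K₀)⁻¹, hinv⟩ this

/-- The fibre of `r` over a place of the first reduced chart. -/
theorem fibre₁ (Q₁ : HeightOneSpectrum Bb₁) (P : Place K₀ F) :
    T.r P = Place.ofHeightOneSpectrum (K := k) (F := Fb) Q₁ ↔
      ∃ w : HeightOneSpectrum B₁, Place.ofHeightOneSpectrum (K := K₀) (F := F) w = P ∧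
        FA_S37_RED_Centre O red B₁ Bb₁ w Q₁ := by
  constructor
  · intro hr
    by_cases h : FA_S37_RED_Dom₁ O red B₁ Bb₁ P
    · obtain ⟨w, Q, hw, hc, hr'⟩ := T.r_dom₁ P h
      rw [hr] at hr'
      have e := ofHeightOneSpectrum_injective hr'
      subst e
      exact ⟨w, hw, hc⟩
    · exfalso
      obtain ⟨w, Q, hw, hc, hr'⟩ := T.r_not_dom₁ P h
      rw [hr] at hr'
      subst hw
      have hub := T.ub_mem w Q hc h
      have h1 : (Place.ofHeightOneSpectrum (K := k) (F := Fb) Q).adicValuation xb⁻¹ < 1 := by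
        rw [← T.hub₂]
        exact (FA_S37_RED_mem_iff_adic (K₀ := k) (F := Fb) Q ub₂).1 hub
      have h2 : (Place.ofHeightOneSpectrum (K := k) (F := Fb) Q₁).adicValuation xb ≤ 1 := by
        rw [← T.hxb₁]
        exact FA_S37_RED_adic_le_one (K₀ := k) (F := Fb) Q₁ xb₁
      rw [← hr'] at h1
      have h3 : (Place.ofHeightOneSpectrum (K := k) (F := Fb) Q₁).adicValuation (xb * xb⁻¹)
          = 1 := by
        rw [mul_inv_cancel₀ T.hxb0, map_one]
      rw [map_mul] at h3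
      have h4 := mul_le_mul' h2 (le_refl
        ((Place.ofHeightOneSpectrum (K := k) (F := Fb) Q₁).adicValuation xb⁻¹))
      rw [h3, one_mul] at h4
      exact absurd h1 (not_lt.mpr h4)
  · rintro ⟨w, rfl, hc⟩
    exact T.r_eq₁ w Q₁ hc

/-- The fibre of `r` over a place of the second reduced chart at which `x̄⁻¹` vanishes. -/
theorem fibre₂ (Q₂ : HeightOneSpectrum Bb₂) (hub : ub₂ ∈ Q₂.asIdeal) (P : Place K₀ F) :
    T.r P = Place.ofHeightOneSpectrum (K := k) (F := Fb) Q₂ ↔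
      ∃ w : HeightOneSpectrum B₂, Place.ofHeightOneSpectrum (K := K₀) (F := F) w = P ∧
        FA_S37_RED_Centre O red B₂ Bb₂ w Q₂ := by
  have hlt : (Place.ofHeightOneSpectrum (K := k) (F := Fb) Q₂).adicValuation xb⁻¹ < 1 := by
    rw [← T.hub₂]
    exact (FA_S37_RED_mem_iff_adic (K₀ := k) (F := Fb) Q₂ ub₂).1 hub
  constructor
  · intro hr
    by_cases h : FA_S37_RED_Dom₁ O red B₁ Bb₁ P
    · exfalso
      obtain ⟨w, Q, hw, hc, hr'⟩ := T.r_dom₁ P h
      rw [hr] at hr'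
      have h2 : (Place.ofHeightOneSpectrum (K := k) (F := Fb) Q).adicValuation xb ≤ 1 := by
        rw [← T.hxb₁]
        exact FA_S37_RED_adic_le_one (K₀ := k) (F := Fb) Q xb₁
      rw [← hr'] at h2
      have h3 : (Place.ofHeightOneSpectrum (K := k) (F := Fb) Q₂).adicValuation (xb * xb⁻¹)
          = 1 := by
        rw [mul_inv_cancel₀ T.hxb0, map_one]
      rw [map_mul] at h3
      have h4 := mul_le_mul' h2 (le_refl
        ((Place.ofHeightOneSpectrum (K := k) (F := Fb) Q₂).adicValuation xb⁻¹))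
      rw [h3, one_mul] at h4
      exact absurd hlt (not_lt.mpr h4)
    · obtain ⟨w, Q, hw, hc, hr'⟩ := T.r_not_dom₁ P h
      rw [hr] at hr'
      have e := ofHeightOneSpectrum_injective hr'
      subst e
      exact ⟨w, hw, hc⟩
  · rintro ⟨w, rfl, hc⟩
    refine T.r_eq₂ w Q₂ hc ?_
    rintro ⟨w₁, Q', hw₁, hc₁⟩
    obtain ⟨a, ha⟩ := T.value₁ w₁ Q' hc₁
    obtain ⟨c, hcv, hcQ⟩ := T.value₂ w Q₂ hc
    rw [hw₁] at ha
    have hπc : π c = 0 := by
      have h3 : algebraMap k Bb₂ (π c) ∈ Q₂.asIdeal := by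
        have := Q₂.asIdeal.sub_mem hub hcQ
        simpa using this
      exact FA_S37_RED_const_mem T.H₂ Q₂ _ h3
    set P := Place.ofHeightOneSpectrum (K := K₀) (F := F) w with hP
    have hxinvP : P.adicValuation x⁻¹ ≤ 1 := by
      rw [← T.hu₂]
      exact FA_S37_RED_adic_le_one (K₀ := K₀) (F := F) w u₂
    have haP : P.adicValuation (algebraMap K₀ F (a : K₀)) ≤ 1 :=
      (mem_iff_adicValuation_le_one P).1 (P.algebraMap_mem' _)
    have e : algebraMap K₀ F (1 - (a : K₀) * (c : K₀))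
        = (x - algebraMap K₀ F (a : K₀)) * x⁻¹
          + algebraMap K₀ F (a : K₀) * (x⁻¹ - algebraMap K₀ F (c : K₀)) := by
      rw [map_sub, map_one, map_mul, sub_mul, mul_inv_cancel₀ T.x_ne_zero]
      ring
    have hlt1 : P.adicValuation (algebraMap K₀ F (1 - (a : K₀) * (c : K₀))) < 1 := by
      rw [e]
      refine lt_of_le_of_lt (Valuation.map_add _ _ _) (max_lt ?_ ?_)
      · rw [map_mul]
        calc P.adicValuation (x - algebraMap K₀ F (a : K₀)) * P.adicValuation x⁻¹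
            ≤ P.adicValuation (x - algebraMap K₀ F (a : K₀)) * 1 := mul_le_mul' le_rfl hxinvP
          _ < 1 := by rw [mul_one]; exact ha
      · rw [map_mul]
        calc P.adicValuation (algebraMap K₀ F (a : K₀))
              * P.adicValuation (x⁻¹ - algebraMap K₀ F (c : K₀))
            ≤ 1 * P.adicValuation (x⁻¹ - algebraMap K₀ F (c : K₀)) := mul_le_mul' haP le_rfl
          _ < 1 := by rw [one_mul]; exact hcv
    have hac := FA_S37_RED_adic_const_lt P _ hlt1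
    have hac' : a * c = 1 := by
      apply Subtype.ext
      show (a : K₀) * (c : K₀) = 1
      exact (sub_eq_zero.mp hac).symm
    have := congrArg π hac'
    rw [map_mul, hπc, mul_zero, map_one] at this
    exact zero_ne_one this

/-- **The reduction of places and its divisor formula** (abstract two-chart assembly). -/
theorem divisor_formula (y : F) (hy : y ∈ O) (hy0 : red ⟨y, hy⟩ ≠ 0)
    (D : Divisor K₀ F) (hD : ∀ P, D P = P.ord y) (Q : Place k Fb) :
    Finsupp.mapDomain T.r D Q = Q.ord (red ⟨y, hy⟩) := by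
  by_cases hx : xb ∈ Q.toValuationSubring
  · obtain ⟨Q₁, rfl⟩ := T.hcovb₁ Q hx
    exact FA_S37_RED_fibre T.H₁ T.U₁ T.r Q₁ (T.fibre₁ Q₁) y hy hy0 D hD
  · have h1 : ¬ Q.adicValuation xb ≤ 1 := fun h => hx ((mem_iff_adicValuation_le_one Q).2 h)
    rw [not_le] at h1
    have h2 : Q.adicValuation xb⁻¹ < 1 := by
      rw [map_inv₀]
      exact inv_lt_one_of_one_lt₀ h1
    obtain ⟨Q₂, rfl⟩ := T.hcovb₂ Q ((mem_iff_adicValuation_le_one Q).2 h2.le)
    have hub : ub₂ ∈ Q₂.asIdeal := by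
      rw [FA_S37_RED_mem_iff_adic (K₀ := k) (F := Fb), T.hub₂]
      exact h2
    exact FA_S37_RED_fibre T.H₂ T.U₂ T.r Q₂ (T.fibre₂ Q₂ hub) y hy hy0 D hD

end FA_S37_RED_Two

/-- **Abstract two-chart assembly**: existence of the reduction of places with the divisor
formula. -/
theorem FA_S37_RED_global {x : F} {xb : Fb} {x₁ : B₁} {u₂ : B₂} {xb₁ : Bb₁} {ub₂ : Bb₂}
    (T : FA_S37_RED_Two A π O red B₁ Bb₁ B₂ Bb₂ x xb x₁ u₂ xb₁ ub₂) :
    ∃ r : Place K₀ F → Place k Fb, ∀ (y : F) (hy : y ∈ O), red ⟨y, hy⟩ ≠ 0 →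
      ∀ D : Divisor K₀ F, (∀ P, D P = P.ord y) →
        ∀ Q : Place k Fb, Finsupp.mapDomain r D Q = Q.ord (red ⟨y, hy⟩) :=
  ⟨T.r, fun y hy hy0 D hD Q => T.divisor_formula y hy hy0 D hD Q⟩

end Fermat.Agent.S37

end
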