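import Mathlib
import Fermat.Agent.S37.RedInstDefs
import Fermat.Agent.S37.RedGlobal
import Fermat.Agent.S37.RedDegInst
import Fermat.Agent.S37.RedGen
import Fermat.Agent.S37.SigmaK4

/-!
# S37, leaf RED (final wiring): from the divisor formula on the Gauss ring to
`ReductionInputsModL A n`

* `FA_S37_REDF_spec` : a map `r` of places satisfying the divisor formula for every
  `y ∈ O` (the Gauss ring `FA_S37_RI_O`) with `red y ≠ 0` satisfies `IsPlaceReductionModL A n r`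
  (degrees: leaf DEG1);
* `FA_S37_REDF_inputs` : hence `ReductionInputsModL A n` (with leaf A3);
* `FA_S37_REDF_of_two` : the same from a two-chart datum `FA_S37_RED_Two` (leaf RedGlobal);
* `FA_S37_REDF_hRED` : the hypothesis `hRED` of `FA_S37_FIN_main` from two-chart data at the
  levels `N * FA_S37_SG_M ℓ`.
-/

set_option autoImplicit false
set_option linter.unusedSectionVars false
set_option linter.style.haveILetI false
set_option synthInstance.maxHeartbeats 400000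
set_option maxHeartbeats 1000000

noncomputable section

namespace Fermat.Agent.S37

open ModularCurve AlgebraicCurve FA_S18 Fermat.Agent.S18 IsDedekindDomain

variable (A : ValuationSubring (AlgebraicClosure ℚ)) (n : ℕ) [NeZero n]

/-- **The spec of a place reduction from the divisor formula on the Gauss ring.** -/
theorem FA_S37_REDF_spec {ℓ : ℕ} (hℓ : ℓ.Prime) (hA : A.LiesOverPrime ℓ) (hn : ¬ ℓ ∣ n)
    (h : FA_S18_I_Range A n)
    (r : Place (AlgebraicClosure ℚ) ↥(modularFunctionFieldBar n) →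
      Place (IsLocalRing.ResidueField ↥A)
        ↥(modularFunctionFieldFullC (IsLocalRing.ResidueField ↥A) n))
    (hr : ∀ (y : ↥(modularFunctionFieldBar n)) (hy : y ∈ FA_S37_RI_O A n hℓ hA hn),
      FA_S37_RI_red A n hℓ hA hn h ⟨y, hy⟩ ≠ 0 →
      ∀ D : Divisor (AlgebraicClosure ℚ) ↥(modularFunctionFieldBar n),
        (∀ P, D P = P.ord y) →
        ∀ Q, Finsupp.mapDomain r D Q = Q.ord (FA_S37_RI_red A n hℓ hA hn h ⟨y, hy⟩)) :
    IsPlaceReductionModL A n r := by
  refine ⟨fun P => FA_S37_DG_deg_eq A n hℓ hA hn r P, ?_⟩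
  intro y hy hyk hy0 D hD Q
  have hyO : (⟨coeffMap A.subtype y, hy⟩ : ↥(modularFunctionFieldBar n))
      ∈ FA_S37_RI_O A n hℓ hA hn :=
    (FA_S37_RI_mem_O_iff A n hℓ hA hn).mpr (FA_S18_B_isInt_iota (A := A) (π := FA_S18_pi A) y)
  have hred : FA_S37_RI_red A n hℓ hA hn h ⟨⟨coeffMap A.subtype y, hy⟩, hyO⟩
      = ⟨coeffMap (IsLocalRing.residue ↥A) y, hyk⟩ := by
    apply Subtype.ext
    rw [FA_S37_RI_red_coe]
    exact FA_S18_B_red_iota (A := A) (π := FA_S18_pi A) y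
  have hne : FA_S37_RI_red A n hℓ hA hn h ⟨⟨coeffMap A.subtype y, hy⟩, hyO⟩ ≠ 0 := by
    rw [hred]
    intro h0
    exact hy0 (congrArg Subtype.val h0)
  have := hr ⟨coeffMap A.subtype y, hy⟩ hyO hne D hD Q
  rw [this, hred]

/-- `ReductionInputsModL A n` from a map of places with the divisor formula. -/
theorem FA_S37_REDF_inputs {ℓ : ℕ} (hℓ : ℓ.Prime) (hA : A.LiesOverPrime ℓ) (hn : ¬ ℓ ∣ n)
    (h : FA_S18_I_Range A n)
    (hglob : ∃ r : Place (AlgebraicClosure ℚ) ↥(modularFunctionFieldBar n) →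
        Place (IsLocalRing.ResidueField ↥A)
          ↥(modularFunctionFieldFullC (IsLocalRing.ResidueField ↥A) n),
      ∀ (y : ↥(modularFunctionFieldBar n)) (hy : y ∈ FA_S37_RI_O A n hℓ hA hn),
        FA_S37_RI_red A n hℓ hA hn h ⟨y, hy⟩ ≠ 0 →
        ∀ D : Divisor (AlgebraicClosure ℚ) ↥(modularFunctionFieldBar n),
          (∀ P, D P = P.ord y) →
          ∀ Q, Finsupp.mapDomain r D Q = Q.ord (FA_S37_RI_red A n hℓ hA hn h ⟨y, hy⟩)) :
    ReductionInputsModL A n := by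
  obtain ⟨r, hr⟩ := hglob
  exact FA_S37_GEN_reductionInputs A n ℓ hℓ hA hn r (FA_S37_REDF_spec A n hℓ hA hn h r hr)

section two

variable {B₁ : Type*} [CommRing B₁] [IsDedekindDomain B₁]
  [Algebra B₁ ↥(modularFunctionFieldBar n)] [IsFractionRing B₁ ↥(modularFunctionFieldBar n)]
  [Algebra (AlgebraicClosure ℚ) B₁]
  [IsScalarTower (AlgebraicClosure ℚ) B₁ ↥(modularFunctionFieldBar n)]
variable {Bb₁ : Type*} [CommRing Bb₁] [IsDedekindDomain Bb₁]
  [Algebra Bb₁ ↥(modularFunctionFieldFullC (IsLocalRing.ResidueField ↥A) n)]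
  [IsFractionRing Bb₁ ↥(modularFunctionFieldFullC (IsLocalRing.ResidueField ↥A) n)]
  [Algebra (IsLocalRing.ResidueField ↥A) Bb₁]
  [IsScalarTower (IsLocalRing.ResidueField ↥A) Bb₁
    ↥(modularFunctionFieldFullC (IsLocalRing.ResidueField ↥A) n)]
variable {B₂ : Type*} [CommRing B₂] [IsDedekindDomain B₂]
  [Algebra B₂ ↥(modularFunctionFieldBar n)] [IsFractionRing B₂ ↥(modularFunctionFieldBar n)]
  [Algebra (AlgebraicClosure ℚ) B₂]
  [IsScalarTower (AlgebraicClosure ℚ) B₂ ↥(modularFunctionFieldBar n)]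
variable {Bb₂ : Type*} [CommRing Bb₂] [IsDedekindDomain Bb₂]
  [Algebra Bb₂ ↥(modularFunctionFieldFullC (IsLocalRing.ResidueField ↥A) n)]
  [IsFractionRing Bb₂ ↥(modularFunctionFieldFullC (IsLocalRing.ResidueField ↥A) n)]
  [Algebra (IsLocalRing.ResidueField ↥A) Bb₂]
  [IsScalarTower (IsLocalRing.ResidueField ↥A) Bb₂
    ↥(modularFunctionFieldFullC (IsLocalRing.ResidueField ↥A) n)]

/-- **`ReductionInputsModL A n` from a two-chart datum** for the Gauss ring at level `n`. -/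
theorem FA_S37_REDF_of_two {ℓ : ℕ} (hℓ : ℓ.Prime) (hA : A.LiesOverPrime ℓ) (hn : ¬ ℓ ∣ n)
    (h : FA_S18_I_Range A n)
    {x : ↥(modularFunctionFieldBar n)}
    {xb : ↥(modularFunctionFieldFullC (IsLocalRing.ResidueField ↥A) n)}
    {x₁ : B₁} {u₂ : B₂} {xb₁ : Bb₁} {ub₂ : Bb₂}
    (T : FA_S37_RED_Two A (IsLocalRing.residue ↥A) (FA_S37_RI_O A n hℓ hA hn)
      (FA_S37_RI_red A n hℓ hA hn h) B₁ Bb₁ B₂ Bb₂ x xb x₁ u₂ xb₁ ub₂) :
    ReductionInputsModL A n :=
  FA_S37_REDF_inputs A n hℓ hA hn h (FA_S37_RED_global T)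

end two

end Fermat.Agent.S37
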