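import Mathlib
import Fermat.Agent.Lib.RR.Chart
import Fermat.Agent.Lib.RR.Interface

/-!
# S37, leaf A1e (part 1): the value of a function at a place

`K` a field, `F / K` a field extension, `P : Place K F` a place whose residue field is `K`
(`FA_RR_Target_residue K F`).  The value `y(P) ∈ K` of `y ∈ V_P` is characterised by
`P.adicValuation (y - y(P)) < 1`; `y ↦ y(P)` is a ring homomorphism `V_P →+* K`
(`FA_S37_EV_hom`) which is the identity on constants.
-/

set_option autoImplicit false
set_option linter.unusedSectionVars false

noncomputable section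

namespace Fermat.Agent.S37

open AlgebraicCurve WithZero

variable {K F : Type*} [Field K] [Field F] [Algebra K F]

section Val

variable (P : Place K F)

/-- Nonzero constants have valuation one. -/
theorem FA_S37_EV_const_val {c : K} (hc : c ≠ 0) : P.adicValuation (algebraMap K F c) = 1 := by
  have hne : algebraMap K F c ≠ 0 := by
    rw [Ne, map_eq_zero]
    exact hc
  rw [FA_RR.adicValuation_eq_one_iff P hne]
  exact FA_RR.ord_algebraMap P c

theorem FA_S37_EV_const_lt {c : K} (h : P.adicValuation (algebraMap K F c) < 1) : c = 0 := by
  by_contra hc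
  rw [FA_S37_EV_const_val P hc] at h
  exact lt_irrefl _ h

/-- Uniqueness of the value. -/
theorem FA_S37_EV_unique {y : F} {c c' : K}
    (h : P.adicValuation (y - algebraMap K F c) < 1)
    (h' : P.adicValuation (y - algebraMap K F c') < 1) : c = c' := by
  have h1 : P.adicValuation (algebraMap K F (c' - c)) < 1 := by
    have e : algebraMap K F (c' - c) = (y - algebraMap K F c) - (y - algebraMap K F c') := by
      rw [map_sub]; ring
    rw [e]
    exact lt_of_le_of_lt (Valuation.map_sub _ _ _) (max_lt h h')
  exact (sub_eq_zero.mp (FA_S37_EV_const_lt P h1)).symm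

/-- An element with a value lies in the valuation ring. -/
theorem FA_S37_EV_mem_of_value {y : F} {c : K}
    (h : P.adicValuation (y - algebraMap K F c) < 1) : y ∈ P.toValuationSubring := by
  rw [FA_RR.mem_iff_adicValuation_le_one]
  have e : y = (y - algebraMap K F c) + algebraMap K F c := by ring
  rw [e]
  exact le_trans (Valuation.map_add _ _ _)
    (max_le h.le (P.adicValuation_algebraMap_le_one c))

variable (hres : FA_RR_Target_residue K F)

/-- The value of `y ∈ V_P` at `P`. -/
def FA_S37_EV_val (y : ↥P.toValuationSubring) : K :=
  (hres P (y : F) (P.adicValuation_le_one_of_mem y.2)).choose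

theorem FA_S37_EV_val_spec (y : ↥P.toValuationSubring) :
    P.adicValuation ((y : F) - algebraMap K F (FA_S37_EV_val P hres y)) < 1 :=
  (hres P (y : F) (P.adicValuation_le_one_of_mem y.2)).choose_spec

theorem FA_S37_EV_val_eq {y : ↥P.toValuationSubring} {c : K}
    (h : P.adicValuation ((y : F) - algebraMap K F c) < 1) : FA_S37_EV_val P hres y = c :=
  FA_S37_EV_unique P (FA_S37_EV_val_spec P hres y) h

/-- **The evaluation homomorphism** `V_P →+* K`. -/
def FA_S37_EV_hom : ↥P.toValuationSubring →+* K where
  toFun := FA_S37_EV_val P hres
  map_one' := by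
    apply FA_S37_EV_val_eq
    rw [map_one]
    show P.adicValuation ((1 : F) - 1) < 1
    rw [sub_self, map_zero]
    exact zero_lt_one
  map_zero' := by
    apply FA_S37_EV_val_eq
    rw [map_zero]
    show P.adicValuation ((0 : F) - 0) < 1
    rw [sub_self, map_zero]
    exact zero_lt_one
  map_add' y z := by
    apply FA_S37_EV_val_eq
    have e : ((y + z : ↥P.toValuationSubring) : F)
        - algebraMap K F (FA_S37_EV_val P hres y + FA_S37_EV_val P hres z)
        = ((y : F) - algebraMap K F (FA_S37_EV_val P hres y))
          + ((z : F) - algebraMap K F (FA_S37_EV_val P hres z)) := by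
      rw [map_add]
      show ((y : F) + (z : F)) - _ = _
      ring
    rw [e]
    exact lt_of_le_of_lt (Valuation.map_add _ _ _)
      (max_lt (FA_S37_EV_val_spec P hres y) (FA_S37_EV_val_spec P hres z))
  map_mul' y z := by
    apply FA_S37_EV_val_eq
    have e : ((y * z : ↥P.toValuationSubring) : F)
        - algebraMap K F (FA_S37_EV_val P hres y * FA_S37_EV_val P hres z)
        = ((y : F) - algebraMap K F (FA_S37_EV_val P hres y)) * (z : F)
          + algebraMap K F (FA_S37_EV_val P hres y)
            * ((z : F) - algebraMap K F (FA_S37_EV_val P hres z)) := by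
      rw [map_mul]
      show ((y : F) * (z : F)) - _ = _
      ring
    rw [e]
    refine lt_of_le_of_lt (Valuation.map_add _ _ _) (max_lt ?_ ?_)
    · rw [map_mul]
      calc P.adicValuation ((y : F) - algebraMap K F (FA_S37_EV_val P hres y))
            * P.adicValuation (z : F)
          ≤ P.adicValuation ((y : F) - algebraMap K F (FA_S37_EV_val P hres y)) * 1 := by
            gcongr
            exact P.adicValuation_le_one_of_mem z.2
        _ = P.adicValuation ((y : F) - algebraMap K F (FA_S37_EV_val P hres y)) := mul_one _
        _ < 1 := FA_S37_EV_val_spec P hres y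
    · rw [map_mul]
      calc P.adicValuation (algebraMap K F (FA_S37_EV_val P hres y))
            * P.adicValuation ((z : F) - algebraMap K F (FA_S37_EV_val P hres z))
          ≤ 1 * P.adicValuation ((z : F) - algebraMap K F (FA_S37_EV_val P hres z)) := by
            gcongr
            exact P.adicValuation_algebraMap_le_one _
        _ = P.adicValuation ((z : F) - algebraMap K F (FA_S37_EV_val P hres z)) := one_mul _
        _ < 1 := FA_S37_EV_val_spec P hres z

theorem FA_S37_EV_hom_apply (y : ↥P.toValuationSubring) :
    FA_S37_EV_hom P hres y = FA_S37_EV_val P hres y := rfl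

theorem FA_S37_EV_hom_spec (y : ↥P.toValuationSubring) :
    P.adicValuation ((y : F) - algebraMap K F (FA_S37_EV_hom P hres y)) < 1 :=
  FA_S37_EV_val_spec P hres y

theorem FA_S37_EV_hom_eq {y : ↥P.toValuationSubring} {c : K}
    (h : P.adicValuation ((y : F) - algebraMap K F c) < 1) : FA_S37_EV_hom P hres y = c :=
  FA_S37_EV_val_eq P hres h

/-- The evaluation is the identity on constants. -/
theorem FA_S37_EV_hom_const (c : K) :
    FA_S37_EV_hom P hres ⟨algebraMap K F c, P.algebraMap_mem' c⟩ = c := by
  apply FA_S37_EV_hom_eq
  show P.adicValuation (algebraMap K F c - algebraMap K F c) < 1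
  rw [sub_self, map_zero]
  exact zero_lt_one

/-- The kernel of the evaluation is the maximal ideal. -/
theorem FA_S37_EV_hom_eq_zero_iff (y : ↥P.toValuationSubring) :
    FA_S37_EV_hom P hres y = 0 ↔ P.adicValuation (y : F) < 1 := by
  constructor
  · intro h
    have := FA_S37_EV_hom_spec P hres y
    rwa [h, map_zero, sub_zero] at this
  · intro h
    apply FA_S37_EV_hom_eq
    rwa [map_zero, sub_zero]

end Val

end Fermat.Agent.S37
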