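import Mathlib
import Fermat.Agent.S37.RedEval
import Fermat.Agent.S18.GaussIntInst

/-!
# S37, leaf A1e (part 2): the values of the Gauss-integral chart at an integral place lie in `A`

`D` a Gauss datum of `F ⊂ K((q))` with generator `x`.

* `FA_S37_EV_int` : `y ∈ F ∩ O` integral over `K[x]` is integral over `A[x]` (a monic polynomial
  with coefficients in `A[x]`; extracted from the proof of B3).
* `FA_S37_EV_hom_mem` : abstract form: for a subring `R` of `K((q))` containing `A[x]` and a ring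
  homomorphism `ρ : R → K` with `ρ a = a` (`a ∈ A`), `ρ x = c₀ ∈ A`: `ρ y ∈ A` for every
  `y ∈ R ∩ F ∩ O` integral over `K[x]`.
* `FA_S37_EV_value_mem` : place form: for `P : Place K F` with `x(P) = c₀ ∈ A`, every `y ∈ F ∩ O`
  integral over `K[x]` lies in `V_P` and `y(P) ∈ A`.
-/

set_option autoImplicit false
set_option linter.unusedSectionVars false
set_option linter.style.haveILetI false

noncomputable section

namespace Fermat.Agent.S37

open ModularCurve Polynomial AlgebraicCurve Fermat.Agent.S18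

variable {K : Type*} [Field K] {A : ValuationSubring K} {k : Type*} [Field k] {π : A →+* k}
  {F : IntermediateField K (LaurentSeries K)} {n : ℕ}

/-- `y ∈ F ∩ O` integral over `K[x]` is integral over `A[x]`. -/
theorem FA_S37_EV_int (D : FA_S18_B_Datum A π F n) {y : LaurentSeries K} (hy : y ∈ F)
    (hint : FA_S18_B_IsInt A π y)
    (hyint : ∃ P : K[X][X], P.Monic ∧
      P.eval₂ (FA_S18_B3_evHom (coeffMap A.subtype D.x)) y = 0) :
    ∃ μ' : A[X][X], μ'.Monic ∧
      μ'.eval₂ ((coeffMap A.subtype).comp (FA_S18_B3_evHom D.x)) y = 0 := by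
  obtain ⟨Q, χ, hQ, hχ, hχ0⟩ := FA_S18_B3_det D hy hint
  have hQ0 : Q ≠ 0 := by
    rintro rfl
    exact hQ (Polynomial.map_zero _)
  have hχ1 : (χ.comp (C Q * X)).eval₂ ((coeffMap A.subtype).comp (FA_S18_B3_evHom D.x)) y = 0 := by
    rw [Polynomial.eval₂_comp, eval₂_mul, eval₂_C, eval₂_X]
    exact hχ0
  have hlc : (χ.comp (C Q * X)).leadingCoeff = Q ^ χ.natDegree := by
    rw [leadingCoeff_comp (by rw [natDegree_C_mul_X _ hQ0]; exact one_ne_zero),
      hχ.leadingCoeff, one_mul, leadingCoeff_mul, leadingCoeff_C, leadingCoeff_X, mul_one]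
  have hlc' : ((χ.comp (C Q * X)).leadingCoeff).map π ≠ 0 := by
    rw [hlc, Polynomial.map_pow]
    exact pow_ne_zero _ hQ
  letI algK : Algebra K[X] (LaurentSeries K) :=
    (FA_S18_B3_evHom (coeffMap A.subtype D.x)).toAlgebra
  have halg : algebraMap K[X] (LaurentSeries K) = FA_S18_B3_evHom (coeffMap A.subtype D.x) := rfl
  have hinj : Function.Injective (algebraMap K[X] (LaurentSeries K)) := by
    rw [injective_iff_map_eq_zero]
    intro P hP
    exact D.x_transc P hP
  haveI : Module.IsTorsionFree K[X] (LaurentSeries K) :=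
    Module.isTorsionFree_iff_algebraMap_injective.mpr hinj
  have hI : IsIntegral K[X] y := hyint
  have hp : Polynomial.aeval y ((χ.comp (C Q * X)).map (Polynomial.mapRingHom A.subtype)) = 0 := by
    rw [aeval_def, eval₂_map, halg, ← FA_S18_B3_evHom_comp]
    exact hχ1
  obtain ⟨ν, hν⟩ := minpoly.isIntegrallyClosed_dvd hI hp
  obtain ⟨μ', hμ', hμ'map⟩ := FA_S18_B3_gauss A π D.ker (χ.comp (C Q * X)) (minpoly K[X] y) ν
    (minpoly.monic hI) hν hlc'
  refine ⟨μ', hμ', ?_⟩
  rw [FA_S18_B3_evHom_comp, ← eval₂_map, hμ'map, ← halg, ← aeval_def]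
  exact minpoly.aeval _ _

/-- `IsIntegral` form of the hypothesis. -/
theorem FA_S37_EV_int' (D : FA_S18_B_Datum A π F n) {y : LaurentSeries K} (hy : y ∈ F)
    (hint : FA_S18_B_IsInt A π y)
    (hI : IsIntegral ↥(Algebra.adjoin K {coeffMap A.subtype D.x}) y) :
    ∃ μ' : A[X][X], μ'.Monic ∧
      μ'.eval₂ ((coeffMap A.subtype).comp (FA_S18_B3_evHom D.x)) y = 0 := by
  obtain ⟨P, hP, hPy⟩ := FA_S18_B3m_poly_of_integral (L := K) (coeffMap A.subtype D.x) y hI
  rw [FA_S18_B3_aeval_eq_evHom] at hPy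
  exact FA_S37_EV_int D hy hint ⟨P, hP, hPy⟩

/-- **Abstract form**: `R` a ring with an injective ring homomorphism `incl : R → K((q))`,
containing the constants of `A` (`cR`) and `x` (`xR`); `ρ : R → K` a ring homomorphism with
`ρ a = a` and `ρ x = c₀ ∈ A`.  Then `ρ y ∈ A` for every `y ∈ R` whose image lies in `F ∩ O` and is
integral over `K[x]`. -/
theorem FA_S37_EV_hom_mem (D : FA_S18_B_Datum A π F n) {R : Type*} [CommRing R]
    (incl : R →+* LaurentSeries K) (hinj : Function.Injective incl)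
    (cR : ↥A →+* R) (hcR : ∀ a : A, incl (cR a) = algebraMap K (LaurentSeries K) (a : K))
    (xR : R) (hxR : incl xR = coeffMap A.subtype D.x) (ρ : R →+* K)
    (hρc : ∀ a : A, ρ (cR a) = (a : K))
    (c₀ : A) (hρx : ρ xR = (c₀ : K))
    (y : R) (hy : incl y ∈ F) (hint : FA_S18_B_IsInt A π (incl y))
    (hI : IsIntegral ↥(Algebra.adjoin K {coeffMap A.subtype D.x}) (incl y)) :
    ρ y ∈ A := by
  obtain ⟨μ', hμ', h0⟩ := FA_S37_EV_int' D hy hint hI
  let φR : A[X] →+* R := Polynomial.eval₂RingHom cR xR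
  have hφ : incl.comp φR = (coeffMap A.subtype).comp (FA_S18_B3_evHom D.x) := by
    apply Polynomial.ringHom_ext
    · intro a
      show incl (φR (C a)) = coeffMap A.subtype (FA_S18_B3_evHom D.x (C a))
      have e1 : φR (C a) = cR a := by
        show Polynomial.eval₂ cR _ (C a) = _
        rw [eval₂_C]
      have e2 : FA_S18_B3_evHom D.x (C a) = HahnSeries.C a := by
        show Polynomial.eval₂ _ _ (C a) = _
        rw [eval₂_C]
      rw [e1, e2, FA_S18_B_iota_C, hcR]
    · show incl (φR X) = coeffMap A.subtype (FA_S18_B3_evHom D.x X)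
      have e1 : φR X = xR := by
        show Polynomial.eval₂ cR _ X = _
        rw [eval₂_X]
      have e2 : FA_S18_B3_evHom D.x X = D.x := by
        show Polynomial.eval₂ _ _ X = _
        rw [eval₂_X]
      rw [e1, e2, hxR]
  have h1 : μ'.eval₂ φR y = 0 := by
    apply hinj
    have h2 := Polynomial.hom_eval₂ μ' φR incl y
    rw [h2, map_zero, hφ]
    exact h0
  have h3 := Polynomial.hom_eval₂ μ' φR ρ y
  rw [h1, map_zero] at h3
  have hρφ : ρ.comp φR = A.subtype.comp (Polynomial.evalRingHom c₀) := by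
    apply Polynomial.ringHom_ext
    · intro a
      show ρ (φR (C a)) = ((Polynomial.evalRingHom c₀ (C a) : A) : K)
      have e1 : φR (C a) = cR a := by
        show Polynomial.eval₂ cR _ (C a) = _
        rw [eval₂_C]
      rw [e1, Polynomial.coe_evalRingHom, eval_C]
      exact hρc a
    · show ρ (φR X) = ((Polynomial.evalRingHom c₀ X : A) : K)
      have e1 : φR X = xR := by
        show Polynomial.eval₂ cR _ X = _
        rw [eval₂_X]
      rw [e1, Polynomial.coe_evalRingHom, eval_X]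
      exact hρx
  rw [hρφ] at h3
  have hint' : IsIntegral A (ρ y) := by
    refine ⟨μ'.map (Polynomial.evalRingHom c₀), hμ'.map _, ?_⟩
    rw [eval₂_map]
    exact h3.symm
  obtain ⟨a, ha⟩ := IsIntegrallyClosed.isIntegral_iff.mp hint'
  rw [← ha]
  exact a.2

/-- **Place form**: at a place `P` of `F` with `x(P) = c₀ ∈ A`, every `y ∈ V_P ∩ O` integral over
`K[x]` has its value `y(P)` in `A`. -/
theorem FA_S37_EV_value_mem (D : FA_S18_B_Datum A π F n) (hres : FA_RR_Target_residue K ↥F)
    (P : Place K ↥F) (c₀ : A)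
    (hx : P.adicValuation ((⟨coeffMap A.subtype D.x, D.x_mem⟩ : ↥F)
      - algebraMap K ↥F (c₀ : K)) < 1)
    (y : ↥F) (hyP : y ∈ P.toValuationSubring)
    (hint : FA_S18_B_IsInt A π (y : LaurentSeries K))
    (hI : IsIntegral ↥(Algebra.adjoin K {coeffMap A.subtype D.x}) (y : LaurentSeries K)) :
    ∃ c : A, P.adicValuation (y - algebraMap K ↥F (c : K)) < 1 := by
  have hxP : (⟨coeffMap A.subtype D.x, D.x_mem⟩ : ↥F) ∈ P.toValuationSubring :=
    FA_S37_EV_mem_of_value P hx
  let incl : ↥P.toValuationSubring →+* LaurentSeries K :=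
    F.val.toRingHom.comp P.toValuationSubring.subtype
  have hinj : Function.Injective incl := fun a b hab =>
    Subtype.ext (Subtype.ext hab)
  let cR : ↥A →+* ↥P.toValuationSubring :=
    ((algebraMap K ↥F).comp A.subtype).codRestrict P.toValuationSubring
      (fun a => P.algebraMap_mem' (a : K))
  have hmem := FA_S37_EV_hom_mem D incl hinj cR (fun a => rfl)
    ⟨⟨coeffMap A.subtype D.x, D.x_mem⟩, hxP⟩ rfl (FA_S37_EV_hom P hres)
    (fun a => FA_S37_EV_hom_const P hres (a : K)) c₀ (FA_S37_EV_hom_eq P hres hx)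
    ⟨y, hyP⟩ y.2 hint hI
  exact ⟨⟨_, hmem⟩, FA_S37_EV_hom_spec P hres ⟨y, hyP⟩⟩

end Fermat.Agent.S37
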