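import Mathlib
import Fermat.Agent.S37.RedEvalB
import Fermat.Agent.S18.Charts0Inst
import Fermat.Agent.S18.InstDefs
import Fermat.Agent.S18.BaseCoe
import Fermat.Agent.Lib.RR.SumZeros

/-!
# S37, leaf A1e (part 3): values of the charts of `F_n` at integral places

Level `n` prime to `ℓ`, `F = F_n = modularFunctionFieldBar n`, `O` the Gauss ring.

* `FA_S37_EV_res n` : every place of `F_n` has residue field `ℚ̄`.
* `FA_S37_EV_fin` : if `j(P) ∈ A` then every `y ∈ O ∩ Bf` has its value `y(P)` in `A`.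
* `FA_S37_EV_inf` : if `u(P) ∈ A` (`u = 1 / j`) then every `y ∈ O ∩ Bi` has its value in `A`.
-/

set_option autoImplicit false
set_option linter.unusedSectionVars false
set_option linter.style.haveILetI false

noncomputable section

namespace Fermat.Agent.S37

open ModularCurve Polynomial AlgebraicCurve Fermat.Agent.S18 FA_S18

variable (A : ValuationSubring (AlgebraicClosure ℚ)) (n : ℕ) [NeZero n]

/-- Every place of `F_n` has residue field `ℚ̄`. -/
theorem FA_S37_EV_res : FA_RR_Target_residue (AlgebraicClosure ℚ) ↥(modularFunctionFieldBar n) :=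
  FA_RR.residue (FA_S18_A_isFF n)

/-- An element with a value at `P` has non-negative order. -/
theorem FA_S37_EV_ord_nonneg {K F : Type*} [Field K] [Field F] [Algebra K F] (P : Place K F)
    {y : F} (hy0 : y ≠ 0) {c : K} (h : P.adicValuation (y - algebraMap K F c) < 1) :
    0 ≤ P.ord y := by
  rcases (FA_RR.mem_iff_ord P).mp (FA_S37_EV_mem_of_value P h) with h0 | h0
  · exact absurd h0 hy0
  · exact h0

/-- **Finite chart**: if `j(P) = c₀ ∈ A` then every `y ∈ O ∩ Bf` has a value `y(P) ∈ A`. -/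
theorem FA_S37_EV_fin {ℓ : ℕ} (hℓ : ℓ.Prime) (hA : A.LiesOverPrime ℓ) (hn : ¬ ℓ ∣ n)
    (P : Place (AlgebraicClosure ℚ) ↥(modularFunctionFieldBar n)) (c₀ : A)
    (hP : P.adicValuation (FA_S18_A_jbar n
      - algebraMap (AlgebraicClosure ℚ) ↥(modularFunctionFieldBar n) (c₀ : AlgebraicClosure ℚ)) < 1)
    (y : ↥(modularFunctionFieldBar n)) (hyO : y ∈ FA_S18_I_O A n) (hyB : y ∈ FA_S18_H2_Bf n) :
    ∃ c : A, P.adicValuation (y
      - algebraMap (AlgebraicClosure ℚ) ↥(modularFunctionFieldBar n) (c : AlgebraicClosure ℚ)) < 1 := by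
  obtain ⟨D, hDx, -⟩ := FA_S18_B_datum_inst A n ℓ hℓ hA hn
  have hxL : coeffMap A.subtype D.x = jqModC (AlgebraicClosure ℚ) := by
    rw [hDx, coeffMap_jqModC]
  have hxF : (⟨coeffMap A.subtype D.x, D.x_mem⟩ : ↥(modularFunctionFieldBar n))
      = FA_S18_A_jbar n := Subtype.ext (by
    show coeffMap A.subtype D.x = _
    rw [hxL, FA_S18_I_jbar_coe])
  have hj0 : 0 ≤ P.ord (FA_S18_A_jbar n) :=
    FA_S37_EV_ord_nonneg P (FA_S18_H2_jbar_ne_zero n) hP
  have hyP : y ∈ P.toValuationSubring :=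
    (FA_RR.mem_iff_ord P).mpr (Or.inr ((FA_S18_H2_mem_Bf_iff n).mp hyB P hj0))
  have hI : IsIntegral ↥(Algebra.adjoin (AlgebraicClosure ℚ) {coeffMap A.subtype D.x})
      (y : LaurentSeries (AlgebraicClosure ℚ)) := by
    have h1 : IsIntegral (Algebra.adjoin (AlgebraicClosure ℚ) {FA_S18_A_jbar n}) y := hyB
    rw [FA_S18_BASE_isIntegral_coe_iff_singleton, FA_S18_I_jbar_coe] at h1
    rw [hxL]
    exact h1
  exact FA_S37_EV_value_mem D (FA_S37_EV_res n) P c₀ (by rw [hxF]; exact hP) y hyP hyO hI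

/-- **Chart at infinity**: if `u(P) = c₀ ∈ A` (`u = 1 / j`) then every `y ∈ O ∩ Bi` has a value
`y(P) ∈ A`. -/
theorem FA_S37_EV_inf {ℓ : ℕ} (hℓ : ℓ.Prime) (hA : A.LiesOverPrime ℓ) (hn : ¬ ℓ ∣ n)
    (P : Place (AlgebraicClosure ℚ) ↥(modularFunctionFieldBar n)) (c₀ : A)
    (hP : P.adicValuation ((FA_S18_A_jbar n)⁻¹
      - algebraMap (AlgebraicClosure ℚ) ↥(modularFunctionFieldBar n) (c₀ : AlgebraicClosure ℚ)) < 1)
    (y : ↥(modularFunctionFieldBar n)) (hyO : y ∈ FA_S18_I_O A n) (hyB : y ∈ FA_S18_H2_Bi n) :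
    ∃ c : A, P.adicValuation (y
      - algebraMap (AlgebraicClosure ℚ) ↥(modularFunctionFieldBar n) (c : AlgebraicClosure ℚ)) < 1 := by
  obtain ⟨D₀, hDx₀, -⟩ := FA_S18_B_datum_inst A n ℓ hℓ hA hn
  let D := D₀.inv (FA_S18_CU_u ↥A) (by rw [hDx₀]; exact FA_S18_CU_j_mul_u _)
  have hxL : coeffMap A.subtype D.x = (jqModC (AlgebraicClosure ℚ))⁻¹ := by
    show coeffMap A.subtype (D₀.inv (FA_S18_CU_u ↥A) _).x = _
    rw [FA_S18_B_Datum.inv_x, FA_S18_B3_coeffMap_u]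
  have hcoe : (((FA_S18_A_jbar n)⁻¹ : ↥(modularFunctionFieldBar n)) :
      LaurentSeries (AlgebraicClosure ℚ)) = (jqModC (AlgebraicClosure ℚ))⁻¹ := by
    rw [← FA_S18_I_jbar_coe n]
    rfl
  have hxF : (⟨coeffMap A.subtype D.x, D.x_mem⟩ : ↥(modularFunctionFieldBar n))
      = (FA_S18_A_jbar n)⁻¹ := Subtype.ext (by
    show coeffMap A.subtype D.x = _
    rw [hxL, hcoe])
  have hu0 : 0 ≤ P.ord (FA_S18_A_jbar n)⁻¹ :=
    FA_S37_EV_ord_nonneg P (inv_ne_zero (FA_S18_H2_jbar_ne_zero n)) hP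
  have hj0 : P.ord (FA_S18_A_jbar n) ≤ 0 := by
    rw [P.ord_inv] at hu0
    omega
  have hyP : y ∈ P.toValuationSubring :=
    (FA_RR.mem_iff_ord P).mpr (Or.inr ((FA_S18_H2_mem_Bi_iff n).mp hyB P hj0))
  have hI : IsIntegral ↥(Algebra.adjoin (AlgebraicClosure ℚ) {coeffMap A.subtype D.x})
      (y : LaurentSeries (AlgebraicClosure ℚ)) := by
    have h1 : IsIntegral (Algebra.adjoin (AlgebraicClosure ℚ) {(FA_S18_A_jbar n)⁻¹}) y := hyB
    rw [FA_S18_BASE_isIntegral_coe_iff_singleton, hcoe] at h1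
    rw [hxL]
    exact h1
  exact FA_S37_EV_value_mem D (FA_S37_EV_res n) P c₀ (by rw [hxF]; exact hP) y hyP hyO hI

end Fermat.Agent.S37
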