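import Mathlib
import Fermat.Agent.S37.RedEvalInst
import Fermat.Agent.S18.RRpChart
import Fermat.Agent.S18.StageA0

/-!
# S37, leaf A1 (file RedHint): the hypothesis `hint` of `FA_S37_RED_exists_centre` at level `n`

`B = chartRing ℚ̄ x` for `x = j` (finite chart) or `x = j⁻¹` (chart at infinity), `O` any
valuation subring of `F_n` with the same elements as the Gauss ring `FA_S18_I_O A n`.

* `FA_S37_HT_mem_iff` (generic): membership in a height one prime `w` of the chart ring is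
  `adicValuation < 1` at the place of `w`.
* `FA_S37_HT_fin`, `FA_S37_HT_inf` : if `x - a ∈ w` for some `a ∈ A`, then every `b ∈ B ∩ O` has
  its value at `w` in `A`.
-/

set_option autoImplicit false
set_option linter.unusedSectionVars false
set_option linter.unusedVariables false
set_option linter.style.haveILetI false

noncomputable section

namespace Fermat.Agent.S37

open FA_RR Polynomial ModularCurve AlgebraicCurve IsDedekindDomain IntermediateField
  Fermat.Agent.S18 FA_S18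

section generic

variable {K F : Type*} [Field K] [Field F] [Algebra K F]
variable {x : F} (hx : Transcendental K x) [FiniteDimensional K⟮x⟯ F]
  [Algebra.IsSeparable K⟮x⟯ F]

/-- Membership in a height one prime of the chart ring, in terms of the place. -/
theorem FA_S37_HT_mem_iff (w : @HeightOneSpectrum (chartRing K x) _) (b : chartRing K x) :
    b ∈ w.asIdeal ↔ (FA_S18_C.sep_chartPlace hx w).adicValuation (b : F) < 1 := by
  haveI := FA_S18_C.sep_isDedekindDomain_chartRing hx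
  haveI := isFractionRing_chartRing (K := K) x
  rw [FA_S18_C.sep_chartPlace_adicValuation hx w]
  exact (HeightOneSpectrum.valuation_lt_one_iff_mem w b).symm

/-- The value of `b` at `w` is `c`. -/
theorem FA_S37_HT_value_iff (w : @HeightOneSpectrum (chartRing K x) _) (b : chartRing K x)
    (c : K) :
    b - algebraMap K (chartRing K x) c ∈ w.asIdeal ↔
      (FA_S18_C.sep_chartPlace hx w).adicValuation ((b : F) - algebraMap K F c) < 1 := by
  rw [FA_S37_HT_mem_iff hx w]
  rfl

end generic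

section inst

variable (A : ValuationSubring (AlgebraicClosure ℚ)) (n : ℕ) [NeZero n]

/-- **`hint`, finite chart.** -/
theorem FA_S37_HT_fin {ℓ : ℕ} (hℓ : ℓ.Prime) (hA : A.LiesOverPrime ℓ) (hn : ¬ ℓ ∣ n)
    (O : ValuationSubring ↥(modularFunctionFieldBar n))
    (hO : ∀ y : ↥(modularFunctionFieldBar n), y ∈ O ↔ y ∈ FA_S18_I_O A n)
    (w : @HeightOneSpectrum (chartRing (AlgebraicClosure ℚ) (FA_S18_A_jbar n)) _) (a : A)
    (ha : (⟨FA_S18_A_jbar n, x_mem_chartRing _⟩ :
        chartRing (AlgebraicClosure ℚ) (FA_S18_A_jbar n))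
      - algebraMap (AlgebraicClosure ℚ) (chartRing (AlgebraicClosure ℚ) (FA_S18_A_jbar n))
          (a : AlgebraicClosure ℚ) ∈ w.asIdeal)
    (b : chartRing (AlgebraicClosure ℚ) (FA_S18_A_jbar n))
    (hb : algebraMap (chartRing (AlgebraicClosure ℚ) (FA_S18_A_jbar n))
      ↥(modularFunctionFieldBar n) b ∈ O)
    (c : AlgebraicClosure ℚ)
    (hc : b - algebraMap (AlgebraicClosure ℚ)
      (chartRing (AlgebraicClosure ℚ) (FA_S18_A_jbar n)) c ∈ w.asIdeal) : c ∈ A := by
  obtain ⟨htr, hfd, -⟩ := FA_S18_A_jbar_spec n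
  haveI := hfd
  have h1 := (FA_S37_HT_value_iff htr w _ _).mp ha
  have h2 := (FA_S37_HT_value_iff htr w _ _).mp hc
  obtain ⟨c', hc'⟩ := FA_S37_EV_fin A n hℓ hA hn (FA_S18_C.sep_chartPlace htr w) a h1
    (b : ↥(modularFunctionFieldBar n)) ((hO _).mp hb) b.2
  have e := FA_S37_EV_unique (FA_S18_C.sep_chartPlace htr w) h2 hc'
  rw [e]
  exact c'.2

/-- **`hint`, chart at infinity.** -/
theorem FA_S37_HT_inf {ℓ : ℕ} (hℓ : ℓ.Prime) (hA : A.LiesOverPrime ℓ) (hn : ¬ ℓ ∣ n)
    (O : ValuationSubring ↥(modularFunctionFieldBar n))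
    (hO : ∀ y : ↥(modularFunctionFieldBar n), y ∈ O ↔ y ∈ FA_S18_I_O A n)
    (w : @HeightOneSpectrum (chartRing (AlgebraicClosure ℚ) (FA_S18_A_jbar n)⁻¹) _) (a : A)
    (ha : (⟨(FA_S18_A_jbar n)⁻¹, x_mem_chartRing _⟩ :
        chartRing (AlgebraicClosure ℚ) (FA_S18_A_jbar n)⁻¹)
      - algebraMap (AlgebraicClosure ℚ) (chartRing (AlgebraicClosure ℚ) (FA_S18_A_jbar n)⁻¹)
          (a : AlgebraicClosure ℚ) ∈ w.asIdeal)
    (b : chartRing (AlgebraicClosure ℚ) (FA_S18_A_jbar n)⁻¹)
    (hb : algebraMap (chartRing (AlgebraicClosure ℚ) (FA_S18_A_jbar n)⁻¹)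
      ↥(modularFunctionFieldBar n) b ∈ O)
    (c : AlgebraicClosure ℚ)
    (hc : b - algebraMap (AlgebraicClosure ℚ)
      (chartRing (AlgebraicClosure ℚ) (FA_S18_A_jbar n)⁻¹) c ∈ w.asIdeal) : c ∈ A := by
  obtain ⟨htr0, hfd0, -⟩ := FA_S18_A_jbar_spec n
  have htr : Transcendental (AlgebraicClosure ℚ) (FA_S18_A_jbar n)⁻¹ :=
    FA_RR.transcendental_inv htr0
  haveI := hfd0
  haveI hfd : FiniteDimensional (AlgebraicClosure ℚ)⟮(FA_S18_A_jbar n)⁻¹⟯
      ↥(modularFunctionFieldBar n) :=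
    FA_S18_C.sep_finiteDimensional_congr
      (FA_RR.adjoin_inv_eq (K := AlgebraicClosure ℚ) (FA_S18_A_jbar n))
  have h1 := (FA_S37_HT_value_iff htr w _ _).mp ha
  have h2 := (FA_S37_HT_value_iff htr w _ _).mp hc
  obtain ⟨c', hc'⟩ := FA_S37_EV_inf A n hℓ hA hn (FA_S18_C.sep_chartPlace htr w) a h1
    (b : ↥(modularFunctionFieldBar n)) ((hO _).mp hb) b.2
  have e := FA_S37_EV_unique (FA_S18_C.sep_chartPlace htr w) h2 hc'
  rw [e]
  exact c'.2

end inst

end Fermat.Agent.S37

end
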