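import Fermat.Agent.S37.RedCuspAbs
import Fermat.Agent.S18.CuspWire
import Fermat.Agent.S18.CuspBridge
import Fermat.Agent.S18.FinInstFinal

/-!
# S37 leaf A1d: the reduced chart at infinity is NORMAL (lift form)

Level `n` with `M ∣ n`, `M ∈ {4, 9}`, `ℓ ∤ n`, `2 ≤ n`.  If the reduced finite chart
`redAlg (Bf n)` contains the integral closure of `k[j̄]` (leaf A1c), then the reduced chart at
infinity `redAlg (Bi n)` contains the integral closure of `k[j̄⁻¹]`: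

  `FA_S37_RCU_normal_inf`.

Inputs: LEMMA SN (`FA_S37_SN.main`), root-closedness of the chart at infinity
(`FA_S18_CUSP_icl_of_BQ`, `FA_S18_CUBR_targetBQ`, `FA_S18_FI_icl_fin`), `FA_S18_H2_Bm_bound`.
-/

set_option autoImplicit false
set_option linter.unusedSectionVars false
set_option synthInstance.maxHeartbeats 400000
set_option maxHeartbeats 1000000

noncomputable section

namespace Fermat.Agent.S37

open ModularCurve Polynomial FA_S18 Fermat.Agent.S18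

variable (A : ValuationSubring (AlgebraicClosure ℚ)) (n : ℕ) [NeZero n]

/-- `j̄ = red j`. -/
abbrev FA_S37_RCU_jb (h : FA_S18_I_Range A n) :
    ↥(modularFunctionFieldFullC (IsLocalRing.ResidueField ↥A) n) :=
  FA_S18_I_red A n h (FA_S18_I_j A n)

theorem FA_S37_RCU_jb_ne_zero (h : FA_S18_I_Range A n) : FA_S37_RCU_jb A n h ≠ 0 := by
  intro h0
  have h1 : FA_S37_RCU_jb A n h * FA_S18_I_red A n h (FA_S18_I_jinv A n) = 1 := by
    rw [← map_mul, FA_S18_I_j_mul_jinv, map_one]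
  rw [h0, zero_mul] at h1
  exact zero_ne_one h1

/-- Every element of the reduced finite chart lies in the reduced chart at infinity after
multiplication by a power of `j̄⁻¹`. -/
theorem FA_S37_RCU_transfer (h : FA_S18_I_Range A n)
    (y : ↥(modularFunctionFieldFullC (IsLocalRing.ResidueField ↥A) n))
    (hy : y ∈ FA_S18_I_redAlg A n h (FA_S18_H2_Bf n)) :
    ∃ m : ℕ, y * (FA_S37_RCU_jb A n h)⁻¹ ^ m ∈ FA_S18_I_redAlg A n h (FA_S18_H2_Bi n) := by
  obtain ⟨Y, hY, rfl⟩ := hy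
  obtain ⟨m, -, hm⟩ := FA_S18_H2_Bm_bound n (FA_S18_H2_Bf_le_Bm n hY)
  refine ⟨m, Y * FA_S18_I_jinv A n ^ m, hm, ?_⟩
  rw [map_mul, map_pow, FA_S18_I_red_jinv]

/-- **A1d (with root-closedness as a hypothesis).** -/
theorem FA_S37_RCU_normal_inf_of_root (h : FA_S18_I_Range A n) (p : ℕ) (hp : p.Prime)
    (hpk : ((p : ℕ) : IsLocalRing.ResidueField ↥A) ≠ 0)
    (hfinN : ∀ z : ↥(modularFunctionFieldFullC (IsLocalRing.ResidueField ↥A) n),
      IsIntegral (Algebra.adjoin (IsLocalRing.ResidueField ↥A) {FA_S37_RCU_jb A n h}) z →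
        z ∈ FA_S18_I_redAlg A n h (FA_S18_H2_Bf n))
    (hroot : ∀ t : ↥(modularFunctionFieldFullC (IsLocalRing.ResidueField ↥A) n),
      t ^ p ∈ FA_S18_I_redAlg A n h (FA_S18_H2_Bi n) →
        t ∈ FA_S18_I_redAlg A n h (FA_S18_H2_Bi n))
    (z : ↥(modularFunctionFieldFullC (IsLocalRing.ResidueField ↥A) n))
    (hz : IsIntegral (Algebra.adjoin (IsLocalRing.ResidueField ↥A) {(FA_S37_RCU_jb A n h)⁻¹}) z) :
    z ∈ FA_S18_I_redAlg A n h (FA_S18_H2_Bi n) := by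
  have : IsAlgClosed (IsLocalRing.ResidueField ↥A) := FA_S18_B_resField_isAlgClosed A
  exact FA_S37_RCA.normal_inf p hp hpk (FA_S37_RCU_jb A n h) (FA_S37_RCU_jb_ne_zero A n h)
    (FA_S18_I_redAlg A n h (FA_S18_H2_Bf n)) (FA_S18_I_redAlg A n h (FA_S18_H2_Bi n))
    (FA_S18_I_jbinv_inf A n h) hfinN (FA_S37_RCU_transfer A n h) hroot z hz

/-- A prime different from `ℓ`. -/
theorem FA_S37_RCU_exists_prime (ℓ : ℕ) : ∃ p : ℕ, p.Prime ∧ p ≠ ℓ := by
  by_cases h2 : ℓ = 2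
  · exact ⟨3, Nat.prime_three, by omega⟩
  · exact ⟨2, Nat.prime_two, fun h => h2 h.symm⟩

/-- **A1d**: normality (lift form) of the reduced chart at infinity at the level `n`
(`M ∣ n`, `M ∈ {4, 9}`, `ℓ ∤ n`), from normality (lift form) of the reduced finite chart. -/
theorem FA_S37_RCU_normal_inf (M : ℕ) [NeZero M] (hMn : M ∣ n) (h49 : M = 4 ∨ M = 9) {ℓ : ℕ}
    (hℓ : ℓ.Prime) (hA : A.LiesOverPrime ℓ) (hn : ¬ ℓ ∣ n) (hn2 : 2 ≤ n)
    (h : FA_S18_I_Range A n)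
    (hfinN : ∀ z : ↥(modularFunctionFieldFullC (IsLocalRing.ResidueField ↥A) n),
      IsIntegral (Algebra.adjoin (IsLocalRing.ResidueField ↥A) {FA_S37_RCU_jb A n h}) z →
        z ∈ FA_S18_I_redAlg A n h (FA_S18_H2_Bf n))
    (z : ↥(modularFunctionFieldFullC (IsLocalRing.ResidueField ↥A) n))
    (hz : IsIntegral (Algebra.adjoin (IsLocalRing.ResidueField ↥A) {(FA_S37_RCU_jb A n h)⁻¹}) z) :
    z ∈ FA_S18_I_redAlg A n h (FA_S18_H2_Bi n) := by
  obtain ⟨p, hp, hpℓ⟩ := FA_S37_RCU_exists_prime ℓ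
  have hpdvd : ¬ ℓ ∣ p := fun hd => hpℓ ((Nat.prime_dvd_prime_iff_eq hℓ hp).mp hd).symm
  have hu : IsUnit ((p : ℕ) : A) := FA_S18_WIRE_isUnit A ℓ hℓ hA p hpdvd
  have hpk : ((p : ℕ) : IsLocalRing.ResidueField ↥A) ≠ 0 := by
    have h1 : IsLocalRing.residue ↥A ((p : ℕ) : A) ≠ 0 := (hu.map (IsLocalRing.residue ↥A)).ne_zero
    rwa [map_natCast] at h1
  have hw : IsUnit ((n : ℕ) : A) := FA_S18_WIRE_isUnit A ℓ hℓ hA n hn
  have hicl : FA_S18_I_Target_N_icl A n h p :=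
    FA_S18_CUSP_icl_of_BQ A n h p hp.pos n hw
      (fun x hx => FA_S18_FI_icl_fin A M n hMn h49 hℓ hA hn h p hp.pos x hx)
      (FA_S18_CUBR_targetBQ A n ℓ hℓ hA hn hn2 h p hp.pos hw)
  exact FA_S37_RCU_normal_inf_of_root A n h p hp hpk hfinN hicl.2 z hz

/-- **A1d**, stated with the generator `ū = red (j⁻¹)` of the chart at infinity. -/
theorem FA_S37_RCU_normal_inf' (M : ℕ) [NeZero M] (hMn : M ∣ n) (h49 : M = 4 ∨ M = 9) {ℓ : ℕ}
    (hℓ : ℓ.Prime) (hA : A.LiesOverPrime ℓ) (hn : ¬ ℓ ∣ n) (hn2 : 2 ≤ n)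
    (h : FA_S18_I_Range A n)
    (hfinN : ∀ z : ↥(modularFunctionFieldFullC (IsLocalRing.ResidueField ↥A) n),
      IsIntegral (Algebra.adjoin (IsLocalRing.ResidueField ↥A)
        {FA_S18_I_red A n h (FA_S18_I_j A n)}) z →
        z ∈ FA_S18_I_redAlg A n h (FA_S18_H2_Bf n))
    (z : ↥(modularFunctionFieldFullC (IsLocalRing.ResidueField ↥A) n))
    (hz : IsIntegral (Algebra.adjoin (IsLocalRing.ResidueField ↥A)
      {FA_S18_I_red A n h (FA_S18_I_jinv A n)}) z) :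
    z ∈ FA_S18_I_redAlg A n h (FA_S18_H2_Bi n) := by
  rw [FA_S18_I_red_jinv] at hz
  exact FA_S37_RCU_normal_inf A n M hMn h49 hℓ hA hn hn2 h hfinN z hz

end Fermat.Agent.S37
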