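import Fermat.Agent.S18.FinInstFinal
import Fermat.Agent.S18.GaussMid

/-!
# S37, leaf A1c: normality (lift form) of the reduced finite chart at the level `n`

`FA_S37_RED_lift_fin` : for `M ∣ n`, `M = 4` or `9`, `ℓ ∤ n`: every `z ∈ F̄_n` integral over
`k[j̄]` is the reduction of an element of `Bf n ∩ O`.

This is the glueing theorem `FA_S18_U_glue` at `F_M ⊂ F_n` (instance `FA_S18_FI_glueHyp`).
-/

set_option autoImplicit false
set_option linter.unusedSectionVars false
set_option linter.style.haveILetI false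

noncomputable section

namespace Fermat.Agent.S37

open ModularCurve Fermat.Agent.S24 Fermat.Agent.S18 FA_S18 Polynomial

variable (A : ValuationSubring (AlgebraicClosure ℚ)) (M n : ℕ) [NeZero M] [NeZero n]

set_option synthInstance.maxHeartbeats 400000 in
set_option maxHeartbeats 1000000 in
/-- **A1c**: the reduced finite chart is normal, in lift form. -/
theorem FA_S37_RED_lift_fin (hMn : M ∣ n) (h49 : M = 4 ∨ M = 9) {ℓ : ℕ} (hℓ : ℓ.Prime)
    (hA : A.LiesOverPrime ℓ) (hn : ¬ ℓ ∣ n) (h : FA_S18_I_Range A n)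
    (z : ↥(modularFunctionFieldFullC (IsLocalRing.ResidueField ↥A) n))
    (hz : IsIntegral (Algebra.adjoin (IsLocalRing.ResidueField ↥A)
      {FA_S18_I_red A n h (FA_S18_I_j A n)}) z) :
    z ∈ FA_S18_I_redAlg A n h (FA_S18_H2_Bf n) := by
  have hM : ¬ ℓ ∣ M := fun h => hn (h.trans hMn)
  have hval := FA_S18_FI_hval A M hℓ hA hM
  have hrM : FA_S18_FI_Range A (FA_S18_pi A) (modularFunctionFieldBar M)
      (modularFunctionFieldFullC (IsLocalRing.ResidueField ↥A) M) :=
    (FA_S18_B_range_inst A M ℓ hℓ hA hM).1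
  have hrn : FA_S18_FI_Range A (FA_S18_pi A) (modularFunctionFieldBar n)
      (modularFunctionFieldFullC (IsLocalRing.ResidueField ↥A) n) := h
  have hicfrac := FA_S18_FIC_ic_frac A M hℓ hA hM h49 hval hrM
  letI : Algebra ↥(modularFunctionFieldBar M) ↥(modularFunctionFieldBar n) :=
    (IntermediateField.inclusion (FA_S18_NC_bar_le hMn)).toRingHom.toAlgebra
  letI : Algebra ↥(modularFunctionFieldFullC (IsLocalRing.ResidueField ↥A) M) ↥(modularFunctionFieldFullC (IsLocalRing.ResidueField ↥A) n) :=
    (IntermediateField.inclusion (full_degeneracyC_le (IsLocalRing.ResidueField ↥A) hMn)).toRingHom.toAlgebra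
  have hM2 : 2 ≤ M := by rcases h49 with h | h <;> rw [h] <;> norm_num
  haveI hfd : FiniteDimensional ↥(modularFunctionFieldBar M) ↥(modularFunctionFieldBar n) := FA_S18_NC_finite_bar hMn hM2
  haveI hfdb : FiniteDimensional ↥(modularFunctionFieldFullC (IsLocalRing.ResidueField ↥A) M) ↥(modularFunctionFieldFullC (IsLocalRing.ResidueField ↥A) n) := (FA_S18_SEPD_deg A n M hMn hℓ hA hn).1
  haveI := FA_S18_B_resField_isAlgClosed A
  haveI := FA_S18_B_resField_charP A ℓ hℓ hA
  haveI hsepb : Algebra.IsSeparable ↥(modularFunctionFieldFullC (IsLocalRing.ResidueField ↥A) M) ↥(modularFunctionFieldFullC (IsLocalRing.ResidueField ↥A) n) := FA_S18_SEP_bar ℓ hℓ (IsLocalRing.ResidueField ↥A) M n hMn hn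
  haveI hcz : CharZero ↥(modularFunctionFieldBar M) :=
    charZero_of_injective_algebraMap (algebraMap (AlgebraicClosure ℚ) ↥(modularFunctionFieldBar M)).injective
  haveI hsep : Algebra.IsSeparable ↥(modularFunctionFieldBar M) ↥(modularFunctionFieldBar n) := Algebra.IsAlgebraic.isSeparable_of_perfectField
  have H := FA_S18_FI_glueHyp A M n hMn h49 hℓ hA hn hval hrM hrn hicfrac.1 hicfrac.2
    (FA_S18_FIS_int A M n hMn hℓ hA hn hval hrM hrn)
    (FA_S18_FIS_span A M n hMn hℓ hA hn hval hrM hrn)
  -- integrality over `Rb`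
  obtain ⟨P, hP, hPz⟩ := FA_S18_B3m_poly_of_integral
    (L := IsLocalRing.ResidueField ↥A) (FA_S18_I_red A n h (FA_S18_I_j A n)) z hz
  have hzi : IsIntegral ↥(FA_S18_U_Rb (FA_S18_FI_O A (FA_S18_pi A) (modularFunctionFieldBar M) hval)
      (FA_S18_FI_red A (FA_S18_pi A) (modularFunctionFieldBar M) (modularFunctionFieldFullC (IsLocalRing.ResidueField ↥A) M) hval hrM) (FA_S18_H2_Bf M).toSubring) z := by
    refine ⟨P.map (FA_S18_FIS_g A M hval hrM), hP.map _, ?_⟩
    rw [Polynomial.eval₂_map]
    have h1 := Polynomial.hom_eval₂ P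
      ((algebraMap
        ↥(FA_S18_U_Rb (FA_S18_FI_O A (FA_S18_pi A) (modularFunctionFieldBar M) hval)
            (FA_S18_FI_red A (FA_S18_pi A) (modularFunctionFieldBar M)
              (modularFunctionFieldFullC (IsLocalRing.ResidueField ↥A) M) hval hrM)
            (FA_S18_H2_Bf M).toSubring)
        ↥(modularFunctionFieldFullC (IsLocalRing.ResidueField ↥A) n)).comp
        (FA_S18_FIS_g A M hval hrM))
      ((modularFunctionFieldFullC (IsLocalRing.ResidueField ↥A) n).val :
        ↥(modularFunctionFieldFullC (IsLocalRing.ResidueField ↥A) n) →+*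
          LaurentSeries (IsLocalRing.ResidueField ↥A)) z
    have h2 := Polynomial.hom_eval₂ P
      ((Polynomial.aeval (FA_S18_I_red A n h (FA_S18_I_j A n)) :
          (IsLocalRing.ResidueField ↥A)[X] →ₐ[IsLocalRing.ResidueField ↥A]
            ↥(modularFunctionFieldFullC (IsLocalRing.ResidueField ↥A) n)) :
        (IsLocalRing.ResidueField ↥A)[X] →+*
          ↥(modularFunctionFieldFullC (IsLocalRing.ResidueField ↥A) n))
      ((modularFunctionFieldFullC (IsLocalRing.ResidueField ↥A) n).val :
        ↥(modularFunctionFieldFullC (IsLocalRing.ResidueField ↥A) n) →+*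
          LaurentSeries (IsLocalRing.ResidueField ↥A)) z
    have hcomp : ((modularFunctionFieldFullC (IsLocalRing.ResidueField ↥A) n).val :
        ↥(modularFunctionFieldFullC (IsLocalRing.ResidueField ↥A) n) →+*
          LaurentSeries (IsLocalRing.ResidueField ↥A)).comp
        ((algebraMap
        ↥(FA_S18_U_Rb (FA_S18_FI_O A (FA_S18_pi A) (modularFunctionFieldBar M) hval)
            (FA_S18_FI_red A (FA_S18_pi A) (modularFunctionFieldBar M)
              (modularFunctionFieldFullC (IsLocalRing.ResidueField ↥A) M) hval hrM)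
            (FA_S18_H2_Bf M).toSubring)
        ↥(modularFunctionFieldFullC (IsLocalRing.ResidueField ↥A) n)).comp
        (FA_S18_FIS_g A M hval hrM))
        = FA_S18_B3_evHom (jqModC (IsLocalRing.ResidueField ↥A)) :=
      RingHom.ext fun P => rfl
    have hcomp2 : ((modularFunctionFieldFullC (IsLocalRing.ResidueField ↥A) n).val :
        ↥(modularFunctionFieldFullC (IsLocalRing.ResidueField ↥A) n) →+*
          LaurentSeries (IsLocalRing.ResidueField ↥A)).comp
        ((Polynomial.aeval (FA_S18_I_red A n h (FA_S18_I_j A n)) :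
          (IsLocalRing.ResidueField ↥A)[X] →ₐ[IsLocalRing.ResidueField ↥A]
            ↥(modularFunctionFieldFullC (IsLocalRing.ResidueField ↥A) n)) :
        (IsLocalRing.ResidueField ↥A)[X] →+*
          ↥(modularFunctionFieldFullC (IsLocalRing.ResidueField ↥A) n))
        = FA_S18_B3_evHom (jqModC (IsLocalRing.ResidueField ↥A)) := by
      refine RingHom.ext fun Q => ?_
      have e1 : (((modularFunctionFieldFullC (IsLocalRing.ResidueField ↥A) n).val :
          ↥(modularFunctionFieldFullC (IsLocalRing.ResidueField ↥A) n) →+*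
            LaurentSeries (IsLocalRing.ResidueField ↥A)).comp
          ((Polynomial.aeval (FA_S18_I_red A n h (FA_S18_I_j A n)) :
            (IsLocalRing.ResidueField ↥A)[X] →ₐ[IsLocalRing.ResidueField ↥A]
              ↥(modularFunctionFieldFullC (IsLocalRing.ResidueField ↥A) n)) :
          (IsLocalRing.ResidueField ↥A)[X] →+*
            ↥(modularFunctionFieldFullC (IsLocalRing.ResidueField ↥A) n))) Q
          = Polynomial.aeval ((FA_S18_I_red A n h (FA_S18_I_j A n) :
              ↥(modularFunctionFieldFullC (IsLocalRing.ResidueField ↥A) n)) :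
              LaurentSeries (IsLocalRing.ResidueField ↥A)) Q :=
        (Polynomial.aeval_algHom_apply
          (modularFunctionFieldFullC (IsLocalRing.ResidueField ↥A) n).val _ Q).symm
      rw [e1, FA_S18_I_red_coe]
      have e2 : ((FA_S18_I_j A n : ↥(FA_S18_I_O A n)) : ↥(modularFunctionFieldBar n))
          = FA_S18_A_jbar n := rfl
      rw [e2, FA_S18_I_jbar_red, FA_S18_B_aeval_eq_ev]
      rfl
    rw [hcomp] at h1
    rw [hcomp2] at h2
    apply Subtype.ext
    refine h1.trans (h2.symm.trans ?_)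
    rw [hPz]
    rfl
  obtain ⟨y, hy, hyx⟩ := H.FA_S18_U_glue z hzi
  refine ⟨⟨(y : ↥(modularFunctionFieldBar n)), y.2⟩, hy, ?_⟩
  rw [← hyx]
  exact Subtype.ext rfl

end Fermat.Agent.S37

end
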