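import Mathlib

/-!
# S37 (leaf A2, pure algebra): roots of a polynomial over a valuation ring reduce with multiplicity

`A` a valuation subring of an algebraically closed field `L`, `φ : A →+* k` a ring hom to a field
killing the maximal ideal.  For `g ∈ A[X]` with `g.map φ ≠ 0` and `c : k`:

  `rootMultiplicity c (g.map φ) = #{roots x of g in L (with multiplicity) | x ∈ A, φ x = c}`.
-/

set_option autoImplicit false

open Polynomial

namespace FA_S37_RC

variable {L k : Type*} [Field L] [Field k]

/-- The counting predicate: `x ∈ A` and `φ x = c`. -/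
def Hits (A : ValuationSubring L) (φ : A →+* k) (c : k) (x : L) : Prop :=
  ∃ hx : x ∈ A, φ ⟨x, hx⟩ = c

theorem hits_coe (A : ValuationSubring L) (φ : A →+* k) (c : k) (a : A) :
    Hits A φ c (a : L) ↔ φ a = c := by
  constructor
  · rintro ⟨_, h⟩
    exact h
  · intro h
    exact ⟨a.2, h⟩

theorem not_hits_of_not_mem (A : ValuationSubring L) (φ : A →+* k) (c : k) {x : L}
    (hx : x ∉ A) : ¬ Hits A φ c x := fun h => hx h.1

/-- If `x ∉ A` then `x⁻¹ ∈ A` and it is killed by `φ`. -/
theorem inv_mem_and_map_eq_zero (A : ValuationSubring L) (φ : A →+* k)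
    (hφ : ∀ a ∈ IsLocalRing.maximalIdeal A, φ a = 0) {x : L} (hx : x ∉ A) :
    ∃ hs : x⁻¹ ∈ A, φ ⟨x⁻¹, hs⟩ = 0 := by
  have hs : x⁻¹ ∈ A := (A.mem_or_inv_mem x).resolve_left hx
  refine ⟨hs, hφ _ ?_⟩
  rw [IsLocalRing.mem_maximalIdeal, mem_nonunits_iff]
  intro hu
  obtain ⟨u, hu⟩ := hu
  apply hx
  have h1 : ((u⁻¹ : Aˣ) : A) * ⟨x⁻¹, hs⟩ = 1 := by
    rw [← hu]
    exact u.inv_mul
  have h2 : (((u⁻¹ : Aˣ) : A) : L) * x⁻¹ = 1 := by
    have := congrArg (fun a : A => (a : L)) h1
    simpa using this
  have hx0 : x ≠ 0 := by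
    rintro rfl
    exact hx A.zero_mem
  have h3 : (((u⁻¹ : Aˣ) : A) : L) = x := by
    field_simp at h2
    exact h2
  rw [← h3]
  exact ((u⁻¹ : Aˣ) : A).2

/-- Division by `1 - s X` stays inside `A[X]`. -/
theorem exists_of_one_sub_mul (A : ValuationSubring L) (s : A) (g : A[X]) (h : L[X])
    (hgh : g.map (algebraMap A L) = (1 - C (s : L) * X) * h) :
    ∃ g₁ : A[X], g₁.map (algebraMap A L) = h ∧ g = (1 - C s * X) * g₁ := by
  have hcoeff : ∀ n, h.coeff n ∈ A := by
    intro n
    induction n with
    | zero =>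
      have := congrArg (fun p => p.coeff 0) hgh
      simp only [coeff_map, sub_mul, one_mul, coeff_sub, mul_assoc, mul_coeff_zero,
        coeff_X_zero, zero_mul, mul_zero, sub_zero] at this
      rw [← this]
      exact (g.coeff 0).2
    | succ n ih =>
      have := congrArg (fun p => p.coeff (n + 1)) hgh
      simp only [coeff_map, sub_mul, one_mul, coeff_sub, mul_assoc, coeff_C_mul,
        coeff_X_mul] at this
      have h2 : h.coeff (n + 1) = algebraMap A L (g.coeff (n + 1)) + (s : L) * h.coeff n := by
        rw [this]; ring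
      rw [h2]
      exact A.add_mem _ _ (g.coeff (n + 1)).2 (A.mul_mem _ _ s.2 ih)
  have hl : h ∈ Polynomial.lifts (algebraMap A L) := by
    rw [Polynomial.lifts_iff_coeff_lifts]
    intro n
    exact ⟨⟨h.coeff n, hcoeff n⟩, rfl⟩
  obtain ⟨g₁, hg₁⟩ := hl
  refine ⟨g₁, hg₁, ?_⟩
  have hg₁' : g₁.map (algebraMap A L) = h := hg₁
  apply Polynomial.map_injective (algebraMap A L) (FaithfulSMul.algebraMap_injective A L)
  rw [hgh, Polynomial.map_mul, hg₁']
  congr 1
  simp only [Polynomial.map_sub, Polynomial.map_one, Polynomial.map_mul, Polynomial.map_C,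
    Polynomial.map_X]
  rfl

open Classical in
/-- **Roots reduce with multiplicity.**  `A` a valuation subring of `L`, `φ : A →+* k` killing the
maximal ideal, `g ∈ A[X]` whose image in `L[X]` splits and with `g.map φ ≠ 0`.  Then the
multiplicity of `c` as a root of `g.map φ` is the number of roots `x` of `g` in `L` (counted with
multiplicity) such that `x ∈ A` and `φ x = c`. -/
theorem rootMultiplicity_map (A : ValuationSubring L) (φ : A →+* k)
    (hφ : ∀ a ∈ IsLocalRing.maximalIdeal A, φ a = 0) (g : A[X])
    (hsplit : (g.map (algebraMap A L)).Splits) (hg : g.map φ ≠ 0) (c : k) :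
    (g.map φ).rootMultiplicity c =
      Multiset.countP (Hits A φ c) (g.map (algebraMap A L)).roots := by
  have hinj : Function.Injective (algebraMap A L) := FaithfulSMul.algebraMap_injective A L
  induction hn : Multiset.card (g.map (algebraMap A L)).roots generalizing g with
  | zero =>
    have hr : (g.map (algebraMap A L)).roots = 0 := Multiset.card_eq_zero.mp hn
    have hdeg : (g.map (algebraMap A L)).natDegree = 0 := by
      rw [hsplit.natDegree_eq_card_roots, hn]
    have hdeg' : g.natDegree = 0 := by
      rwa [Polynomial.natDegree_map_eq_of_injective hinj] at hdeg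
    obtain ⟨a, rfl⟩ : ∃ a, g = C a := ⟨g.coeff 0, Polynomial.eq_C_of_natDegree_eq_zero hdeg'⟩
    rw [hr, Multiset.countP_zero, Polynomial.map_C]
    exact Polynomial.rootMultiplicity_C _ _
  | succ n ih =>
    have hne : (g.map (algebraMap A L)).roots ≠ 0 := by
      intro h0
      rw [h0] at hn
      simp at hn
    obtain ⟨r, hr⟩ := Multiset.exists_mem_of_ne_zero hne
    have hgL0 : g.map (algebraMap A L) ≠ 0 := fun h0 => by
      rw [h0] at hr
      simp at hr
    have hroot : (g.map (algebraMap A L)).IsRoot r := (Polynomial.mem_roots hgL0).mp hr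
    have hdvd : (X - C r) ∣ g.map (algebraMap A L) := Polynomial.dvd_iff_isRoot.mpr hroot
    obtain ⟨h, hh⟩ := hdvd
    have hh0 : h ≠ 0 := by
      rintro rfl
      rw [mul_zero] at hh
      exact hgL0 hh
    have hroots : (g.map (algebraMap A L)).roots = r ::ₘ h.roots := by
      rw [hh, Polynomial.roots_mul (mul_ne_zero (Polynomial.X_sub_C_ne_zero r) hh0),
        Polynomial.roots_X_sub_C]
      rfl
    have hsplit_h : h.Splits := by
      rw [hh] at hsplit
      exact ((Polynomial.splits_mul (Polynomial.X_sub_C_ne_zero r) hh0).mp hsplit).2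
    have hcard : Multiset.card h.roots = n := by
      rw [hroots, Multiset.card_cons] at hn
      omega
    by_cases hrA : r ∈ A
    · -- the root lies in `A`
      have hroot' : g.IsRoot ⟨r, hrA⟩ := by
        have h1 : algebraMap A L (g.eval ⟨r, hrA⟩) = 0 := by
          have := hroot
          rw [Polynomial.IsRoot.def] at this
          rw [← this]
          exact (Polynomial.eval_map_apply (algebraMap A L) (⟨r, hrA⟩ : A)).symm ▸ rfl
        exact hinj (by rw [h1, map_zero])
      obtain ⟨g₁, hg₁⟩ := Polynomial.dvd_iff_isRoot.mpr hroot'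
      have hg₁L : g₁.map (algebraMap A L) = h := by
        have h2 : (X - C r) * g₁.map (algebraMap A L) = (X - C r) * h := by
          rw [← hh, hg₁, Polynomial.map_mul]
          congr 1
          simp only [Polynomial.map_sub, Polynomial.map_X, Polynomial.map_C]
          rfl
        exact mul_left_cancel₀ (Polynomial.X_sub_C_ne_zero r) h2
      have hmap : g.map φ = (X - C (φ ⟨r, hrA⟩)) * g₁.map φ := by
        rw [hg₁, Polynomial.map_mul]
        simp only [Polynomial.map_sub, Polynomial.map_X, Polynomial.map_C]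
      have hg₁0 : g₁.map φ ≠ 0 := by
        intro h0
        rw [hmap, h0, mul_zero] at hg
        exact hg rfl
      have ih' := ih g₁ (hg₁L ▸ hsplit_h) hg₁0 (by rw [hg₁L]; exact hcard)
      rw [hroots, Multiset.countP_cons, ← hg₁L, ← ih', hmap,
        Polynomial.rootMultiplicity_mul (by rw [← hmap]; exact hg),
        Polynomial.rootMultiplicity_X_sub_C, add_comm]
      congr 1
      have : Hits A φ c r ↔ c = φ ⟨r, hrA⟩ :=
        (hits_coe A φ c ⟨r, hrA⟩).trans eq_comm
      by_cases hc : c = φ ⟨r, hrA⟩
      · rw [if_pos hc, if_pos (this.mpr hc)]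
      · rw [if_neg hc, if_neg (fun h' => hc (this.mp h'))]
    · -- the root lies outside `A`
      obtain ⟨hs, hs0⟩ := inv_mem_and_map_eq_zero A φ hφ hrA
      have hr0 : r ≠ 0 := by
        rintro rfl
        exact hrA A.zero_mem
      have hfac : g.map (algebraMap A L) =
          (1 - C ((⟨r⁻¹, hs⟩ : A) : L) * X) * (C (-r) * h) := by
        rw [hh]
        have : (X - C r : L[X]) = (1 - C (r⁻¹) * X) * C (-r) := by
          rw [sub_mul, one_mul, mul_assoc, mul_comm X, ← mul_assoc, ← C_mul]
          have : r⁻¹ * -r = -1 := by field_simp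
          rw [this]
          simp
          ring
        rw [this, mul_assoc]
      obtain ⟨g₁, hg₁L, hg₁⟩ := exists_of_one_sub_mul A ⟨r⁻¹, hs⟩ g _ hfac
      have hroots₁ : (g₁.map (algebraMap A L)).roots = h.roots := by
        rw [hg₁L, Polynomial.roots_C_mul _ (neg_ne_zero.mpr hr0)]
      have hmap : g.map φ = g₁.map φ := by
        rw [hg₁, Polynomial.map_mul]
        simp only [Polynomial.map_sub, Polynomial.map_one, Polynomial.map_mul, Polynomial.map_C,
          Polynomial.map_X, hs0, map_zero, zero_mul, sub_zero, one_mul]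
      have hsplit₁ : (g₁.map (algebraMap A L)).Splits := by
        rw [hg₁L]
        exact hsplit_h.C_mul _
      have ih' := ih g₁ hsplit₁ (hmap ▸ hg) (by rw [hroots₁]; exact hcard)
      rw [hroots, Multiset.countP_cons, if_neg (not_hits_of_not_mem A φ c hrA), add_zero, hmap, ih',
        hroots₁]

open Classical in
/-- Version for an algebraically closed field. -/
theorem rootMultiplicity_map_of_isAlgClosed [IsAlgClosed L] (A : ValuationSubring L)
    (φ : A →+* k) (hφ : ∀ a ∈ IsLocalRing.maximalIdeal A, φ a = 0) (g : A[X])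
    (hg : g.map φ ≠ 0) (c : k) :
    (g.map φ).rootMultiplicity c =
      Multiset.countP (Hits A φ c) (g.map (algebraMap A L)).roots :=
  rootMultiplicity_map A φ hφ g (IsAlgClosed.splits _) hg c

end FA_S37_RC
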