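import Fermat.Agent.S37.RedInstDefs
import Fermat.Agent.S37.RedLift
import Fermat.Agent.S37.RedCusp
import Fermat.Agent.S37.RootCount
import Fermat.Agent.S18.GaussIntInst
import Fermat.Agent.Lib.RR.ChartRes

/-!
# S37, leaf CI: the hypotheses `FA_S37_RED_Hyp` of `RedCore` at level `n`, both charts

Level `n` with `M ∣ n`, `M ∈ {4, 9}`, `ℓ ∤ n`.

* `FA_S37_RI_hyp_chart` : generic chart `x`, `x̄` (integrality and lift as hypotheses), for any
  valuation subring `O` with the elements of the Gauss ring and any `red` agreeing with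
  `FA_S18_I_red`.
* `FA_S37_RI_hyp_fin` : the finite chart `B = chartRing ℚ̄ j`, `Bb = chartRing k j̄`;
* `FA_S37_RI_hyp_inf` : the chart at infinity `B = chartRing ℚ̄ j⁻¹`, `Bb = chartRing k j̄⁻¹`;
* `FA_S37_RI_hyp_fin'`, `FA_S37_RI_hyp_inf'` : the same for `O = FA_S37_RI_O`,
  `red = FA_S37_RI_red`;
* `FA_S37_RI_not_isField_fin / _inf` : the reduced charts are not fields.
-/

set_option autoImplicit false
set_option linter.unusedSectionVars false
set_option linter.unusedVariables false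
set_option linter.style.haveILetI false
set_option synthInstance.maxHeartbeats 400000
set_option maxHeartbeats 1000000

noncomputable section

namespace Fermat.Agent.S37

open ModularCurve AlgebraicCurve IntermediateField FA_RR FA_S18 Fermat.Agent.S18 IsDedekindDomain

variable (A : ValuationSubring (AlgebraicClosure ℚ)) (n : ℕ) [NeZero n]

/-- **Generic chart.** -/
theorem FA_S37_RI_hyp_chart (h : FA_S18_I_Range A n)
    (O : ValuationSubring ↥(modularFunctionFieldBar n))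
    (hO : ∀ y : ↥(modularFunctionFieldBar n), y ∈ O ↔ y ∈ FA_S18_I_O A n)
    (red : O →+* ↥(modularFunctionFieldFullC (IsLocalRing.ResidueField ↥A) n))
    (hred : ∀ (y : ↥(modularFunctionFieldBar n)) (hy : y ∈ O),
      red ⟨y, hy⟩ = FA_S18_I_red A n h ⟨y, (hO y).mp hy⟩)
    (x : ↥(modularFunctionFieldBar n)) (hx : Transcendental (AlgebraicClosure ℚ) x)
    [FiniteDimensional (AlgebraicClosure ℚ)⟮x⟯ ↥(modularFunctionFieldBar n)]
    (xb : ↥(modularFunctionFieldFullC (IsLocalRing.ResidueField ↥A) n))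
    [IsDedekindDomain ↥(chartRing (AlgebraicClosure ℚ) x)]
    [IsFractionRing ↥(chartRing (AlgebraicClosure ℚ) x) ↥(modularFunctionFieldBar n)]
    [IsDedekindDomain ↥(chartRing (IsLocalRing.ResidueField ↥A) xb)]
    [IsFractionRing ↥(chartRing (IsLocalRing.ResidueField ↥A) xb)
      ↥(modularFunctionFieldFullC (IsLocalRing.ResidueField ↥A) n)]
    (hint : ∀ y : ↥(FA_S18_I_O A n),
      (y : ↥(modularFunctionFieldBar n)) ∈ chartRing (AlgebraicClosure ℚ) x →
        FA_S18_I_red A n h y ∈ chartRing (IsLocalRing.ResidueField ↥A) xb)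
    (hlift : ∀ z : ↥(modularFunctionFieldFullC (IsLocalRing.ResidueField ↥A) n),
      z ∈ chartRing (IsLocalRing.ResidueField ↥A) xb →
        ∃ y : ↥(FA_S18_I_O A n),
          (y : ↥(modularFunctionFieldBar n)) ∈ chartRing (AlgebraicClosure ℚ) x ∧
            FA_S18_I_red A n h y = z) :
    FA_S37_RED_Hyp A (FA_S18_pi A) O red ↥(chartRing (AlgebraicClosure ℚ) x)
      ↥(chartRing (IsLocalRing.ResidueField ↥A) xb) := by
  refine
    { pi_max := fun c hc => FA_S37_RC.inv_mem_and_map_eq_zero A (FA_S18_pi A)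
        (FA_S18_B_pi_ker A) hc
      red_max := fun f hf => ?_
      const_mem := fun a => ?_
      const_red := fun a ha => ?_
      lift := fun z => ?_
      int := fun b hb => ?_
      resB := fun P b => ?_ }
  · -- red_max
    by_contra hne
    apply hf
    rw [hO]
    have hfI : FA_S18_B_IsInt A (FA_S18_pi A)
        (((f : ↥(modularFunctionFieldBar n)) : LaurentSeries (AlgebraicClosure ℚ))) :=
      (hO _).mp f.2
    have hr : FA_S18_B_red A (FA_S18_pi A)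
        (((f : ↥(modularFunctionFieldBar n)) : LaurentSeries (AlgebraicClosure ℚ))) ≠ 0 := by
      intro h0
      apply hne
      have e : f = ⟨(f : ↥(modularFunctionFieldBar n)), f.2⟩ := rfl
      rw [e, hred]
      apply Subtype.ext
      rw [FA_S18_I_red_coe]
      exact h0
    exact (FA_S18_B_isInt_inv hfI hr).1
  · -- const_mem
    rw [hO]
    exact (FA_S18_I_O A n).algebraMap_mem a
  · -- const_red
    rw [hred]
    exact FA_S18_I_compat A n h a
  · -- lift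
    obtain ⟨y, hyB, hyz⟩ := hlift (z : ↥(modularFunctionFieldFullC (IsLocalRing.ResidueField ↥A) n))
      z.2
    refine ⟨⟨(y : ↥(modularFunctionFieldBar n)), hyB⟩, (hO _).mpr y.2, ?_⟩
    rw [hred]
    exact hyz
  · -- int
    have hb' : (b : ↥(modularFunctionFieldBar n)) ∈ FA_S18_I_O A n := (hO _).mp hb
    refine ⟨⟨_, hint ⟨(b : ↥(modularFunctionFieldBar n)), hb'⟩ b.2⟩, ?_⟩
    rw [hred]
    rfl
  · -- resB
    haveI : Algebra.FiniteType (AlgebraicClosure ℚ) ↥(chartRing (AlgebraicClosure ℚ) x) :=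
      finiteType_chartRing hx
    exact exists_const_sub_mem (K := AlgebraicClosure ℚ) P b

/-- `2 ≤ n` for a level divisible by `4` or `9`. -/
theorem FA_S37_RI_two_le (M : ℕ) (hMn : M ∣ n) (h49 : M = 4 ∨ M = 9) : 2 ≤ n := by
  have hpos : 0 < n := Nat.pos_of_ne_zero (NeZero.ne n)
  have hle : M ≤ n := Nat.le_of_dvd hpos hMn
  rcases h49 with h | h <;> omega

/-- **The finite chart** `B = chartRing ℚ̄ j`, `Bb = chartRing k j̄` satisfies `FA_S37_RED_Hyp`. -/
theorem FA_S37_RI_hyp_fin (M : ℕ) [NeZero M] (hMn : M ∣ n) (h49 : M = 4 ∨ M = 9) {ℓ : ℕ}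
    (hℓ : ℓ.Prime) (hA : A.LiesOverPrime ℓ) (hn : ¬ ℓ ∣ n) (h : FA_S18_I_Range A n)
    (O : ValuationSubring ↥(modularFunctionFieldBar n))
    (hO : ∀ y : ↥(modularFunctionFieldBar n), y ∈ O ↔ y ∈ FA_S18_I_O A n)
    (red : O →+* ↥(modularFunctionFieldFullC (IsLocalRing.ResidueField ↥A) n))
    (hred : ∀ (y : ↥(modularFunctionFieldBar n)) (hy : y ∈ O),
      red ⟨y, hy⟩ = FA_S18_I_red A n h ⟨y, (hO y).mp hy⟩) :
    haveI := FA_S37_RI_dd_fin n
    haveI := FA_S37_RI_fr_fin n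
    haveI := FA_S37_RI_ddb_fin A n hℓ hA hn h
    haveI := FA_S37_RI_frb_fin A n hℓ hA hn h
    FA_S37_RED_Hyp A (FA_S18_pi A) O red ↥(chartRing (AlgebraicClosure ℚ) (FA_S18_A_jbar n))
      ↥(chartRing (IsLocalRing.ResidueField ↥A) (FA_S18_BASE_jb A n h)) := by
  haveI := FA_S37_RI_dd_fin n
  haveI := FA_S37_RI_fr_fin n
  haveI := FA_S37_RI_ddb_fin A n hℓ hA hn h
  haveI := FA_S37_RI_frb_fin A n hℓ hA hn h
  haveI := FA_S37_RI_fd_fin n
  refine FA_S37_RI_hyp_chart A n h O hO red hred (FA_S18_A_jbar n) (FA_S18_A_jbar_spec n).1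
    (FA_S18_BASE_jb A n h) ?_ ?_
  · intro y hy
    exact FA_S18_BASE_into_fin A n hℓ hA hn h (FA_S18_B_integral_inst A n ℓ) y hy
  · intro z hz
    exact FA_S37_RED_lift_fin A M n hMn h49 hℓ hA hn h z hz

/-- **The chart at infinity** `B = chartRing ℚ̄ j⁻¹`, `Bb = chartRing k j̄⁻¹` satisfies
`FA_S37_RED_Hyp`. -/
theorem FA_S37_RI_hyp_inf (M : ℕ) [NeZero M] (hMn : M ∣ n) (h49 : M = 4 ∨ M = 9) {ℓ : ℕ}
    (hℓ : ℓ.Prime) (hA : A.LiesOverPrime ℓ) (hn : ¬ ℓ ∣ n) (h : FA_S18_I_Range A n)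
    (O : ValuationSubring ↥(modularFunctionFieldBar n))
    (hO : ∀ y : ↥(modularFunctionFieldBar n), y ∈ O ↔ y ∈ FA_S18_I_O A n)
    (red : O →+* ↥(modularFunctionFieldFullC (IsLocalRing.ResidueField ↥A) n))
    (hred : ∀ (y : ↥(modularFunctionFieldBar n)) (hy : y ∈ O),
      red ⟨y, hy⟩ = FA_S18_I_red A n h ⟨y, (hO y).mp hy⟩) :
    haveI := FA_S37_RI_dd_inf n
    haveI := FA_S37_RI_fr_inf n
    haveI := FA_S37_RI_ddb_inf A n hℓ hA hn h
    haveI := FA_S37_RI_frb_inf A n hℓ hA hn h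
    FA_S37_RED_Hyp A (FA_S18_pi A) O red ↥(chartRing (AlgebraicClosure ℚ) (FA_S18_A_jbar n)⁻¹)
      ↥(chartRing (IsLocalRing.ResidueField ↥A) (FA_S18_BASE_jb A n h)⁻¹) := by
  haveI := FA_S37_RI_dd_inf n
  haveI := FA_S37_RI_fr_inf n
  haveI := FA_S37_RI_ddb_inf A n hℓ hA hn h
  haveI := FA_S37_RI_frb_inf A n hℓ hA hn h
  haveI := FA_S37_RI_fd_inf n
  refine FA_S37_RI_hyp_chart A n h O hO red hred (FA_S18_A_jbar n)⁻¹ (FA_S37_RI_transc_inv n)
    (FA_S18_BASE_jb A n h)⁻¹ ?_ ?_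
  · intro y hy
    exact FA_S18_BASE_into_inf A n hℓ hA hn h (FA_S18_B_integral_inst A n ℓ) y hy
  · intro z hz
    exact FA_S37_RCU_normal_inf A n M hMn h49 hℓ hA hn (FA_S37_RI_two_le n M hMn h49) h
      (fun z hz => FA_S37_RED_lift_fin A M n hMn h49 hℓ hA hn h z hz) z hz

/-- The finite chart, for the canonical `O = FA_S37_RI_O`, `red = FA_S37_RI_red`. -/
theorem FA_S37_RI_hyp_fin' (M : ℕ) [NeZero M] (hMn : M ∣ n) (h49 : M = 4 ∨ M = 9) {ℓ : ℕ}
    (hℓ : ℓ.Prime) (hA : A.LiesOverPrime ℓ) (hn : ¬ ℓ ∣ n) (h : FA_S18_I_Range A n) :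
    haveI := FA_S37_RI_dd_fin n
    haveI := FA_S37_RI_fr_fin n
    haveI := FA_S37_RI_ddb_fin A n hℓ hA hn h
    haveI := FA_S37_RI_frb_fin A n hℓ hA hn h
    FA_S37_RED_Hyp A (FA_S18_pi A) (FA_S37_RI_O A n hℓ hA hn) (FA_S37_RI_red A n hℓ hA hn h)
      ↥(chartRing (AlgebraicClosure ℚ) (FA_S18_A_jbar n))
      ↥(chartRing (IsLocalRing.ResidueField ↥A) (FA_S18_BASE_jb A n h)) :=
  FA_S37_RI_hyp_fin A n M hMn h49 hℓ hA hn h (FA_S37_RI_O A n hℓ hA hn) (fun _ => Iff.rfl)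
    (FA_S37_RI_red A n hℓ hA hn h) (fun _ _ => rfl)

/-- The chart at infinity, for the canonical `O = FA_S37_RI_O`, `red = FA_S37_RI_red`. -/
theorem FA_S37_RI_hyp_inf' (M : ℕ) [NeZero M] (hMn : M ∣ n) (h49 : M = 4 ∨ M = 9) {ℓ : ℕ}
    (hℓ : ℓ.Prime) (hA : A.LiesOverPrime ℓ) (hn : ¬ ℓ ∣ n) (h : FA_S18_I_Range A n) :
    haveI := FA_S37_RI_dd_inf n
    haveI := FA_S37_RI_fr_inf n
    haveI := FA_S37_RI_ddb_inf A n hℓ hA hn h
    haveI := FA_S37_RI_frb_inf A n hℓ hA hn h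
    FA_S37_RED_Hyp A (FA_S18_pi A) (FA_S37_RI_O A n hℓ hA hn) (FA_S37_RI_red A n hℓ hA hn h)
      ↥(chartRing (AlgebraicClosure ℚ) (FA_S18_A_jbar n)⁻¹)
      ↥(chartRing (IsLocalRing.ResidueField ↥A) (FA_S18_BASE_jb A n h)⁻¹) :=
  FA_S37_RI_hyp_inf A n M hMn h49 hℓ hA hn h (FA_S37_RI_O A n hℓ hA hn) (fun _ => Iff.rfl)
    (FA_S37_RI_red A n hℓ hA hn h) (fun _ _ => rfl)

/-! ### The reduced charts are not fields -/

/-- The chart ring at a transcendental element is not a field (`K` algebraically closed). -/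
theorem FA_S37_RI_not_isField_chart {K F : Type*} [Field K] [Field F] [Algebra K F]
    [IsAlgClosed K] {x : F} (hx : Transcendental K x) : ¬ IsField ↥(chartRing K x) := by
  intro hf
  have hx0 : x ≠ 0 := FA_S18_C.sep_ne_zero_of_transcendental hx
  set xB : ↥(chartRing K x) := ⟨x, x_mem_chartRing x⟩ with hxB
  have hxB0 : xB ≠ 0 := fun h0 => hx0 (congrArg Subtype.val h0)
  obtain ⟨y, hy⟩ := hf.mul_inv_cancel hxB0
  have hyx : (y : F) = x⁻¹ := by
    have h1 : x * (y : F) = 1 := congrArg Subtype.val hy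
    exact eq_inv_of_mul_eq_one_right h1
  have h1 : IsIntegral (Algebra.adjoin K {x}) x⁻¹ := by
    rw [← hyx]
    exact y.2
  have h2 : IsIntegral (Algebra.adjoin K {x⁻¹}) x⁻¹ := x_mem_chartRing (K := K) x⁻¹
  obtain ⟨c, hc⟩ := FA_S18_C.sep_const_of_integral hx h1 h2
  apply hx
  have hxc : x = algebraMap K F c⁻¹ := by
    rw [map_inv₀, hc, inv_inv]
  rw [hxc]
  exact isAlgebraic_algebraMap _

theorem FA_S37_RI_not_isField_fin (h : FA_S18_I_Range A n) :
    ¬ IsField ↥(chartRing (IsLocalRing.ResidueField ↥A) (FA_S18_BASE_jb A n h)) :=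
  haveI := FA_S18_B_resField_isAlgClosed A
  FA_S37_RI_not_isField_chart (FA_S18_BASE_jb_transc A n h)

theorem FA_S37_RI_not_isField_inf (h : FA_S18_I_Range A n) :
    ¬ IsField ↥(chartRing (IsLocalRing.ResidueField ↥A) (FA_S18_BASE_jb A n h)⁻¹) :=
  haveI := FA_S18_B_resField_isAlgClosed A
  FA_S37_RI_not_isField_chart (FA_S37_RI_transcb_inv A n h)

end Fermat.Agent.S37
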