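import Fermat.Agent.S37.RedInstDefs
import Fermat.Agent.S37.RedGlobal

/-!
# S37, leaf RED (file RedSmall): the small fields of `FA_S37_RED_Two` at level `n`

Concrete types of `S37/RedInstDefs.lean`: `K₀ = ℚ̄`, `k = ResidueField A`, `F = F_n`,
`Fb = F̄_n`, `O = FA_S37_RI_O A n hℓ hA hn`, `red = FA_S37_RI_red A n hℓ hA hn h`,
`B₁ = chartRing ℚ̄ j`, `B₂ = chartRing ℚ̄ j⁻¹`, `Bb₁ = chartRing k j̄`, `Bb₂ = chartRing k j̄⁻¹`,
`x = j = FA_S18_A_jbar n`, `xb = j̄ = FA_S18_BASE_jb A n h`.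

* `FA_S37_SM_hker`  : the kernel of `red` is `𝔪_A · O`;
* `FA_S37_SM_not_isField` (generic), `FA_S37_SM_hnf₁`, `FA_S37_SM_hnf₂` : chart rings are not
  fields;
* `FA_S37_SM_hx₁`, `_hu₂`, `_hxb₁`, `_hub₂`, `_hxO`, `_hredx`, `_hxb0`.
-/

set_option autoImplicit false
set_option linter.unusedSectionVars false
set_option linter.style.haveILetI false
set_option synthInstance.maxHeartbeats 400000
set_option maxHeartbeats 1000000

noncomputable section

namespace Fermat.Agent.S37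

open ModularCurve AlgebraicCurve IntermediateField FA_RR FA_S18 Fermat.Agent.S18

section generic

variable {K F : Type*} [Field K] [Field F] [Algebra K F]

/-- The chart ring at a transcendental element is not a field. -/
theorem FA_S37_SM_not_isField {x : F} (hx : Transcendental K x) :
    ¬ IsField ↥(chartRing K x) := by
  intro hF
  have hinj : Function.Injective
      (algebraMap ↥(Algebra.adjoin K {x}) ↥(chartRing K x)) := by
    intro a b hab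
    have := congrArg (fun z : ↥(chartRing K x) => (z : F)) hab
    exact Subtype.ext this
  have h1 : IsField ↥(Algebra.adjoin K {x}) :=
    (Algebra.IsIntegral.isField_iff_isField hinj).mpr hF
  have h2 : IsField (Polynomial K) :=
    (Polynomial.algEquivOfTranscendental K x hx).toRingEquiv.toMulEquiv.isField h1
  exact Polynomial.not_isField K h2

end generic

variable (A : ValuationSubring (AlgebraicClosure ℚ)) (n : ℕ) [NeZero n]

/-- **`hker`**: the kernel of the reduction is `𝔪_A · O`. -/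
theorem FA_S37_SM_hker {ℓ : ℕ} (hℓ : ℓ.Prime) (hA : A.LiesOverPrime ℓ) (hn : ¬ ℓ ∣ n)
    (h : FA_S18_I_Range A n) (f : ↥(FA_S37_RI_O A n hℓ hA hn))
    (hf : FA_S37_RI_red A n hℓ hA hn h f = 0) :
    ∃ (ε : A) (g : ↥(FA_S37_RI_O A n hℓ hA hn)), IsLocalRing.residue ↥A ε = 0 ∧
      (f : ↥(modularFunctionFieldBar n))
        = algebraMap (AlgebraicClosure ℚ) ↥(modularFunctionFieldBar n) (ε : AlgebraicClosure ℚ)
          * (g : ↥(modularFunctionFieldBar n)) := by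
  obtain ⟨m, hm, y', hy'⟩ := FA_S18_I_ker A n hℓ hA hn h (FA_S18_B_ker_inst A n ℓ)
    (⟨f.1, f.2⟩ : ↥(FA_S18_I_O A n)) hf
  refine ⟨m, ⟨y'.1, y'.2⟩, (IsLocalRing.residue_eq_zero_iff m).mpr hm, ?_⟩
  have := congrArg (fun z : ↥(FA_S18_I_O A n) => (z : ↥(modularFunctionFieldBar n))) hy'
  simp only at this
  rw [this]
  show ((m • y' : ↥(FA_S18_I_O A n)) : ↥(modularFunctionFieldBar n)) = _
  rw [Subalgebra.coe_smul, Algebra.smul_def]
  rfl

/-- **`hnf₁`**. -/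
theorem FA_S37_SM_hnf₁ (h : FA_S18_I_Range A n) :
    ¬ IsField ↥(chartRing (IsLocalRing.ResidueField ↥A) (FA_S18_BASE_jb A n h)) :=
  FA_S37_SM_not_isField (FA_S18_BASE_jb_transc A n h)

/-- **`hnf₂`**. -/
theorem FA_S37_SM_hnf₂ (h : FA_S18_I_Range A n) :
    ¬ IsField ↥(chartRing (IsLocalRing.ResidueField ↥A) (FA_S18_BASE_jb A n h)⁻¹) :=
  FA_S37_SM_not_isField (FA_S37_RI_transcb_inv A n h)

/-- **`hx₁`**. -/
theorem FA_S37_SM_hx₁ :
    algebraMap ↥(chartRing (AlgebraicClosure ℚ) (FA_S18_A_jbar n)) ↥(modularFunctionFieldBar n)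
      (⟨FA_S18_A_jbar n, x_mem_chartRing _⟩ :
        ↥(chartRing (AlgebraicClosure ℚ) (FA_S18_A_jbar n))) = FA_S18_A_jbar n := rfl

/-- **`hu₂`**. -/
theorem FA_S37_SM_hu₂ :
    algebraMap ↥(chartRing (AlgebraicClosure ℚ) (FA_S18_A_jbar n)⁻¹) ↥(modularFunctionFieldBar n)
      (⟨(FA_S18_A_jbar n)⁻¹, x_mem_chartRing _⟩ :
        ↥(chartRing (AlgebraicClosure ℚ) (FA_S18_A_jbar n)⁻¹)) = (FA_S18_A_jbar n)⁻¹ := rfl

/-- **`hxb₁`**. -/
theorem FA_S37_SM_hxb₁ (h : FA_S18_I_Range A n) :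
    algebraMap ↥(chartRing (IsLocalRing.ResidueField ↥A) (FA_S18_BASE_jb A n h))
      ↥(modularFunctionFieldFullC (IsLocalRing.ResidueField ↥A) n)
      (⟨FA_S18_BASE_jb A n h, x_mem_chartRing _⟩ :
        ↥(chartRing (IsLocalRing.ResidueField ↥A) (FA_S18_BASE_jb A n h)))
      = FA_S18_BASE_jb A n h := rfl

/-- **`hub₂`**. -/
theorem FA_S37_SM_hub₂ (h : FA_S18_I_Range A n) :
    algebraMap ↥(chartRing (IsLocalRing.ResidueField ↥A) (FA_S18_BASE_jb A n h)⁻¹)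
      ↥(modularFunctionFieldFullC (IsLocalRing.ResidueField ↥A) n)
      (⟨(FA_S18_BASE_jb A n h)⁻¹, x_mem_chartRing _⟩ :
        ↥(chartRing (IsLocalRing.ResidueField ↥A) (FA_S18_BASE_jb A n h)⁻¹))
      = (FA_S18_BASE_jb A n h)⁻¹ := rfl

/-- **`hxO`**. -/
theorem FA_S37_SM_hxO {ℓ : ℕ} (hℓ : ℓ.Prime) (hA : A.LiesOverPrime ℓ) (hn : ¬ ℓ ∣ n) :
    FA_S18_A_jbar n ∈ FA_S37_RI_O A n hℓ hA hn :=
  FA_S18_I_jbar_isInt A n

/-- **`hredx`**. -/
theorem FA_S37_SM_hredx {ℓ : ℕ} (hℓ : ℓ.Prime) (hA : A.LiesOverPrime ℓ) (hn : ¬ ℓ ∣ n)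
    (h : FA_S18_I_Range A n) (hx : FA_S18_A_jbar n ∈ FA_S37_RI_O A n hℓ hA hn) :
    FA_S37_RI_red A n hℓ hA hn h ⟨FA_S18_A_jbar n, hx⟩ = FA_S18_BASE_jb A n h := rfl

/-- **`hxb0`**. -/
theorem FA_S37_SM_hxb0 (h : FA_S18_I_Range A n) : FA_S18_BASE_jb A n h ≠ 0 :=
  FA_S18_BASE_jb_ne A n h

end Fermat.Agent.S37
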