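import Fermat.Agent.S37.RedGlobal
import Fermat.Agent.S37.RedInst
import Fermat.Agent.S37.MultFinal
import Fermat.Agent.S37.RedHint
import Fermat.Agent.S37.RedCover
import Fermat.Agent.S37.RedFinal
import Fermat.Agent.S37.RedSmall

/-!
# S37, leaf RED: the two-chart datum `FA_S37_RED_Two` at level `n`

Level `n` with `M ∣ n`, `M ∈ {4, 9}`, `ℓ ∤ n`; charts `chartRing ℚ̄ j`, `chartRing ℚ̄ j⁻¹`
and their reductions `chartRing k j̄`, `chartRing k j̄⁻¹`.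

* `FA_S37_RTI_two` : the datum `FA_S37_RED_Two`, given `hker` (the kernel of the reduction is
  `𝔪_A · O`);
* `FA_S37_RTI_global` : hence the reduction of places with the divisor formula;
* `FA_S37_RTI_inputs` : hence `ReductionInputsModL A n`;
* `FA_S37_RTI_ker`, `FA_S37_RTI_main` : `hker` holds, so `ReductionInputsModL A n` holds
  unconditionally at every level `n` with `M ∣ n`, `M ∈ {4, 9}`, `ℓ ∤ n`;
* `FA_S37_RTI_hRED` : the hypothesis `hRED` of `FA_S37_FIN_main`.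
-/

set_option autoImplicit false
set_option linter.unusedSectionVars false
set_option linter.unusedVariables false
set_option linter.style.haveILetI false
set_option synthInstance.maxHeartbeats 400000
set_option maxHeartbeats 0

noncomputable section

namespace Fermat.Agent.S37

open ModularCurve AlgebraicCurve IntermediateField FA_RR FA_S18 Fermat.Agent.S18 IsDedekindDomain

variable (A : ValuationSubring (AlgebraicClosure ℚ)) (n : ℕ) [NeZero n]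

/-- The statement `hker` at level `n`: the kernel of the reduction is `𝔪_A · O`. -/
def FA_S37_RTI_Ker {ℓ : ℕ} (hℓ : ℓ.Prime) (hA : A.LiesOverPrime ℓ) (hn : ¬ ℓ ∣ n)
    (h : FA_S18_I_Range A n) : Prop :=
  ∀ f : ↥(FA_S37_RI_O A n hℓ hA hn), FA_S37_RI_red A n hℓ hA hn h f = 0 →
    ∃ (ε : ↥A) (g : ↥(FA_S37_RI_O A n hℓ hA hn)), FA_S18_pi A ε = 0 ∧
      (f : ↥(modularFunctionFieldBar n))
        = algebraMap (AlgebraicClosure ℚ) ↥(modularFunctionFieldBar n) (ε : AlgebraicClosure ℚ)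
          * (g : ↥(modularFunctionFieldBar n))

/-- **The two-chart datum at level `n`**, given `hker`. -/
theorem FA_S37_RTI_two (M : ℕ) [NeZero M] (hMn : M ∣ n) (h49 : M = 4 ∨ M = 9) {ℓ : ℕ}
    (hℓ : ℓ.Prime) (hA : A.LiesOverPrime ℓ) (hn : ¬ ℓ ∣ n) (h : FA_S18_I_Range A n)
    (hker : FA_S37_RTI_Ker A n hℓ hA hn h) :
    haveI := FA_S37_RI_dd_fin n
    haveI := FA_S37_RI_fr_fin n
    haveI := FA_S37_RI_ddb_fin A n hℓ hA hn h
    haveI := FA_S37_RI_frb_fin A n hℓ hA hn h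
    haveI := FA_S37_RI_dd_inf n
    haveI := FA_S37_RI_fr_inf n
    haveI := FA_S37_RI_ddb_inf A n hℓ hA hn h
    haveI := FA_S37_RI_frb_inf A n hℓ hA hn h
    FA_S37_RED_Two A (FA_S18_pi A) (FA_S37_RI_O A n hℓ hA hn) (FA_S37_RI_red A n hℓ hA hn h)
      ↥(chartRing (AlgebraicClosure ℚ) (FA_S18_A_jbar n))
      ↥(chartRing (IsLocalRing.ResidueField ↥A) (FA_S18_BASE_jb A n h))
      ↥(chartRing (AlgebraicClosure ℚ) (FA_S18_A_jbar n)⁻¹)
      ↥(chartRing (IsLocalRing.ResidueField ↥A) (FA_S18_BASE_jb A n h)⁻¹)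
      (FA_S18_A_jbar n) (FA_S18_BASE_jb A n h)
      ⟨FA_S18_A_jbar n, x_mem_chartRing _⟩ ⟨(FA_S18_A_jbar n)⁻¹, x_mem_chartRing _⟩
      ⟨FA_S18_BASE_jb A n h, x_mem_chartRing _⟩ ⟨(FA_S18_BASE_jb A n h)⁻¹, x_mem_chartRing _⟩ := by
  haveI := FA_S37_RI_dd_fin n
  haveI := FA_S37_RI_fr_fin n
  haveI := FA_S37_RI_ddb_fin A n hℓ hA hn h
  haveI := FA_S37_RI_frb_fin A n hℓ hA hn h
  haveI := FA_S37_RI_dd_inf n
  haveI := FA_S37_RI_fr_inf n
  haveI := FA_S37_RI_ddb_inf A n hℓ hA hn h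
  haveI := FA_S37_RI_frb_inf A n hℓ hA hn h
  have H₁ := FA_S37_RI_hyp_fin' A n M hMn h49 hℓ hA hn h
  have H₂ := FA_S37_RI_hyp_inf' A n M hMn h49 hℓ hA hn h
  exact
    { H₁ := H₁
      H₂ := H₂
      U₁ := FA_S37_MU_unif_fin A n hℓ hA hn h H₁
      U₂ := FA_S37_MU_unif_inf A n hℓ hA hn h H₂
      hker := hker
      hnf₁ := FA_S37_RI_not_isField_fin A n h
      hnf₂ := FA_S37_RI_not_isField_inf A n h
      hx₁ := rfl
      hu₂ := rfl
      hxb₁ := rfl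
      hub₂ := rfl
      hxO := (FA_S18_I_j A n).2
      hredx := fun _ => rfl
      hxb0 := FA_S18_BASE_jb_ne A n h
      hint₁ := fun w a ha b hb c hc =>
        FA_S37_HT_fin A n hℓ hA hn (FA_S37_RI_O A n hℓ hA hn) (fun _ => Iff.rfl) w a ha b hb c hc
      hint₂ := fun w a ha b hb c hc =>
        FA_S37_HT_inf A n hℓ hA hn (FA_S37_RI_O A n hℓ hA hn) (fun _ => Iff.rfl) w a ha b hb c hc
      hcov₁ := FA_S37_COV_fin n
      hcov₂ := FA_S37_COV_inf n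
      hcovb₁ := FA_S37_COV_finb A n hℓ hA hn h
      hcovb₂ := FA_S37_COV_infb A n hℓ hA hn h }

/-- **The reduction of places with the divisor formula at level `n`**, given `hker`. -/
theorem FA_S37_RTI_global (M : ℕ) [NeZero M] (hMn : M ∣ n) (h49 : M = 4 ∨ M = 9) {ℓ : ℕ}
    (hℓ : ℓ.Prime) (hA : A.LiesOverPrime ℓ) (hn : ¬ ℓ ∣ n) (h : FA_S18_I_Range A n)
    (hker : FA_S37_RTI_Ker A n hℓ hA hn h) :
    ∃ r : Place (AlgebraicClosure ℚ) ↥(modularFunctionFieldBar n) →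
        Place (IsLocalRing.ResidueField ↥A)
          ↥(modularFunctionFieldFullC (IsLocalRing.ResidueField ↥A) n),
      ∀ (y : ↥(modularFunctionFieldBar n)) (hy : y ∈ FA_S37_RI_O A n hℓ hA hn),
        FA_S37_RI_red A n hℓ hA hn h ⟨y, hy⟩ ≠ 0 →
        ∀ D : Divisor (AlgebraicClosure ℚ) ↥(modularFunctionFieldBar n),
          (∀ P, D P = P.ord y) →
          ∀ Q, Finsupp.mapDomain r D Q = Q.ord (FA_S37_RI_red A n hℓ hA hn h ⟨y, hy⟩) := by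
  haveI := FA_S37_RI_dd_fin n
  haveI := FA_S37_RI_fr_fin n
  haveI := FA_S37_RI_ddb_fin A n hℓ hA hn h
  haveI := FA_S37_RI_frb_fin A n hℓ hA hn h
  haveI := FA_S37_RI_dd_inf n
  haveI := FA_S37_RI_fr_inf n
  haveI := FA_S37_RI_ddb_inf A n hℓ hA hn h
  haveI := FA_S37_RI_frb_inf A n hℓ hA hn h
  exact FA_S37_RED_global (FA_S37_RTI_two A n M hMn h49 hℓ hA hn h hker)

/-- **`ReductionInputsModL A n`** at a level `n` with `M ∣ n`, `M ∈ {4, 9}`, `ℓ ∤ n`, given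
`hker`. -/
theorem FA_S37_RTI_inputs (M : ℕ) [NeZero M] (hMn : M ∣ n) (h49 : M = 4 ∨ M = 9) {ℓ : ℕ}
    (hℓ : ℓ.Prime) (hA : A.LiesOverPrime ℓ) (hn : ¬ ℓ ∣ n)
    (hker : FA_S37_RTI_Ker A n hℓ hA hn (FA_S37_RI_range A n hℓ hA hn)) :
    ReductionInputsModL A n :=
  FA_S37_REDF_inputs A n hℓ hA hn (FA_S37_RI_range A n hℓ hA hn)
    (FA_S37_RTI_global A n M hMn h49 hℓ hA hn (FA_S37_RI_range A n hℓ hA hn) hker)

/-- `hker` holds at level `n`. -/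
theorem FA_S37_RTI_ker {ℓ : ℕ} (hℓ : ℓ.Prime) (hA : A.LiesOverPrime ℓ) (hn : ¬ ℓ ∣ n)
    (h : FA_S18_I_Range A n) : FA_S37_RTI_Ker A n hℓ hA hn h :=
  fun f hf => FA_S37_SM_hker A n hℓ hA hn h f hf

/-- **`ReductionInputsModL A n`, unconditionally**, at a level `n` with `M ∣ n`, `M ∈ {4, 9}`,
`ℓ ∤ n`. -/
theorem FA_S37_RTI_main (M : ℕ) [NeZero M] (hMn : M ∣ n) (h49 : M = 4 ∨ M = 9) {ℓ : ℕ}
    (hℓ : ℓ.Prime) (hA : A.LiesOverPrime ℓ) (hn : ¬ ℓ ∣ n) :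
    ReductionInputsModL A n :=
  FA_S37_RTI_inputs A n M hMn h49 hℓ hA hn
    (FA_S37_RTI_ker A n hℓ hA hn (FA_S37_RI_range A n hℓ hA hn))

/-- **The hypothesis `hRED` of `FA_S37_FIN_main`.** -/
theorem FA_S37_RTI_hRED (N : ℕ) [NeZero N] : ∀ ℓ : ℕ, ℓ.Prime → ¬ ℓ ∣ N →
    ∀ A : ValuationSubring (AlgebraicClosure ℚ), A.LiesOverPrime ℓ →
      ReductionInputsModL A (N * FA_S37_SG_M ℓ) := by
  intro ℓ hℓ hℓN A hA
  have hn : ¬ ℓ ∣ N * FA_S37_SG_M ℓ := by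
    intro hd
    rcases (Nat.Prime.dvd_mul hℓ).mp hd with h | h
    · exact hℓN h
    · exact FA_S37_SG_M_not_dvd hℓ h
  have h49 : FA_S37_SG_M ℓ = 4 ∨ FA_S37_SG_M ℓ = 9 := by
    rcases FA_S37_SG_M_cases ℓ with ⟨h, -⟩ | ⟨h, -⟩
    · exact Or.inl h
    · exact Or.inr h
  exact FA_S37_RTI_main A (N * FA_S37_SG_M ℓ) (FA_S37_SG_M ℓ) (Dvd.intro_left N rfl) h49 hℓ hA hn

end Fermat.Agent.S37

end
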