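import Fermat.Agent.S28.DegZero2

/-!
# S37, leaf D' (conjugates): the transfer `τ` of S24 with the images of ALL generators exposed

`FA_S37_AL_transfer`: the formal field `K(j(q^d) : d ∣ N) ⊆ K((q))` embeds in the meromorphic
functions on `ℍ` with `τ (j(q^d)) = j (d z)` for every `d ∣ N`.
-/

set_option autoImplicit false
set_option linter.unusedSectionVars false
set_option linter.style.haveILetI false

noncomputable section

open UpperHalfPlane ModularForm EisensteinSeries Complex MatrixGroups Filter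
open scoped Manifold Topology

namespace Fermat.Agent.S37

open Fermat.Agent.S24 Fermat.Agent.Mero Fermat.Agent.S28

section transfer

variable (K : Type) [Field K] [Algebra ℚ K] [Algebra K ℂ] [Algebra K FA_Mero_Field]
  (ht : FA_S24_Tower K)
variable (N : ℕ) [NeZero N]

include ht in
/-- The transfer, with the images of all generators exposed. -/
theorem FA_S37_AL_transfer :
    ∃ τ : IntermediateField.adjoin K {x : LaurentSeries K | ∃ (d : ℕ) (_ : NeZero d), d ∣ N ∧
        x = ModularCurve.coeffEmb K (ModularCurve.qExpand ℚ d ModularCurve.jq)}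
          →ₐ[K] FA_Mero_Field,
      Set.range τ = (FA_S24_F0 K FA_S24_g N : Set FA_Mero_Field) ∧
      ∀ (d : ℕ) [NeZero d] (_ : d ∣ N)
        (h : ModularCurve.coeffEmb K (ModularCurve.qExpand ℚ d ModularCurve.jq) ∈
          IntermediateField.adjoin K {x : LaurentSeries K | ∃ (d : ℕ) (_ : NeZero d), d ∣ N ∧
            x = ModularCurve.coeffEmb K (ModularCurve.qExpand ℚ d ModularCurve.jq)}),
        τ ⟨_, h⟩ = FA_S24_g d := by
  have hQE := FA_S24_QE
  have hQX := FA_S24_QX
  have hJQ := FA_S24_JQ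
  have hTR := FA_S24_TR
  have hadd : ∀ x ∈ FA_S24_good N, ∀ y ∈ FA_S24_good N,
      FA_S24_Qinf N (x + y) = FA_S24_Qinf N x + FA_S24_Qinf N y :=
    fun x hx y hy => FA_S24_Qinf_add hx hy
  have hinj : ∀ x ∈ FA_S24_good N, FA_S24_Qinf N x = 0 → x = 0 := fun x hx h0 => by
    by_contra hne
    exact FA_S24_Qinf_ne_zero hx hne h0
  have hgen : ∀ i : {d : ℕ // d ∣ N}, FA_S24_g i.1 ∈ FA_S24_good N ∧
      FA_S24_Qinf N (FA_S24_g i.1) = FA_S24_Lam K N (FA_S24_sGen K N i) := fun i => by
    have : NeZero i.1 := FA_S24_neZero_of_dvd i.2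
    have hd : 0 < (i.1 : ℤ) := by exact_mod_cast Nat.pos_of_ne_zero (NeZero.ne i.1)
    refine ⟨?_, ?_⟩
    · rw [FA_S24_g_eq hd]
      exact FA_S24_jaffM_mem_good hQE N _ 0 1 hd one_pos (i.1 * N) (by push_cast; ring)
    · rw [FA_S24_Qinf_g hQE hQX hJQ N i.1]
      unfold FA_S24_sGen
      rw [FA_S24_Lam_gen]
  have hconst : ∀ c : K, algebraMap K FA_Mero_Field c ∈ FA_S24_good N ∧
      FA_S24_Qinf N (algebraMap K FA_Mero_Field c) =
        FA_S24_Lam K N (algebraMap K (LaurentSeries K) c) := fun c =>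
    ⟨FA_S24_constK_mem_good K ht N c, by
      rw [FA_S24_Lam_const, ht c, FA_S24_Qinf_const]⟩
  obtain ⟨τ, hτ, hQ⟩ := hTR K FA_Mero_Field (LaurentSeries K) (LaurentSeries ℂ) (FA_S24_Lam K N)
    (FA_S24_good N) (FA_S24_Qinf N) hadd
    (fun x hx y hy => FA_S24_Qinf_mul hx hy) hinj hconst
    {d : ℕ // d ∣ N} (FA_S24_sGen K N) (fun i => FA_S24_g i.1) hgen
  have h1 : IntermediateField.adjoin K {x : LaurentSeries K | ∃ (d : ℕ) (_ : NeZero d), d ∣ N ∧
        x = ModularCurve.coeffEmb K (ModularCurve.qExpand ℚ d ModularCurve.jq)}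
      = IntermediateField.adjoin K (Set.range (FA_S24_sGen K N)) := by
    rw [FA_S24_range_sGen]
  obtain ⟨τ', hτ', hval⟩ := FA_S28_d0_transport h1 τ
  refine ⟨τ', ?_, ?_⟩
  · rw [hτ', hτ, FA_S24_range_tGen]
    rfl
  · intro d hdne hdN h
    have h2 : ModularCurve.coeffEmb K (ModularCurve.qExpand ℚ d ModularCurve.jq) ∈
        IntermediateField.adjoin K (Set.range (FA_S24_sGen K N)) := h1 ▸ h
    rw [hval _ h h2]
    -- both `τ (j(q^d))` and `g d` lie in `good`, with the same image under `Qinf`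
    have hrange : ∀ y ∈ IntermediateField.adjoin K
        (Set.range (fun i : {d : ℕ // d ∣ N} => FA_S24_g i.1)), y ∈ FA_S24_good N := by
      intro y hy
      induction hy using IntermediateField.adjoin_induction with
      | mem x hx =>
        obtain ⟨i, rfl⟩ := hx
        exact (hgen i).1
      | algebraMap c => exact (hconst c).1
      | add a b _ _ ha hb => exact add_mem ha hb
      | inv a _ ha => exact inv_mem ha
      | mul a b _ _ ha hb => exact mul_mem ha hb
    have hτG : τ ⟨_, h2⟩ ∈ FA_S24_good N := by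
      apply hrange
      have : τ ⟨_, h2⟩ ∈ Set.range τ := ⟨_, rfl⟩
      rw [hτ] at this
      exact this
    have hg1 := hgen ⟨d, hdN⟩
    have hs1 : FA_S24_sGen K N ⟨d, hdN⟩
        = ModularCurve.coeffEmb K (ModularCurve.qExpand ℚ d ModularCurve.jq) := rfl
    have hQeq : FA_S24_Qinf N (τ ⟨_, h2⟩) = FA_S24_Qinf N (FA_S24_g d) := by
      rw [hQ, hg1.2, hs1]
    have hneg : -FA_S24_g d ∈ FA_S24_good N := neg_mem hg1.1
    have hQ0 : FA_S24_Qinf N 0 = 0 := by
      have := hadd 0 (zero_mem _) 0 (zero_mem _)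
      rw [add_zero] at this
      exact left_eq_add.mp this
    have hQneg : FA_S24_Qinf N (-FA_S24_g d) = - FA_S24_Qinf N (FA_S24_g d) := by
      have := hadd _ hg1.1 _ hneg
      rw [add_neg_cancel, hQ0] at this
      exact eq_neg_of_add_eq_zero_right this.symm
    have hsub : FA_S24_Qinf N (τ ⟨_, h2⟩ + -FA_S24_g d) = 0 := by
      rw [hadd _ hτG _ hneg, hQneg, hQeq, add_neg_cancel]
    have := hinj _ (add_mem hτG hneg) hsub
    exact add_neg_eq_zero.mp this

end transfer

end Fermat.Agent.S37
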