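import Fermat.Agent.S37.ALAn
import Fermat.Agent.S37.ALTransfer
import Fermat.Prelude.Def_ModularCurve_HeckeOperator

/-!
# S37, leaf D' (conjugates): the Atkin–Lehner involution of `F_{Nℓ}`

`FA_S37_AL_exists`: for a prime `ℓ ∤ N` there is a `ℚ̄`-algebra endomorphism `w` of
`F_{Nℓ} = modularFunctionFieldBar (N * ℓ)` with `w ∘ α = β` and `w ∘ β = α`
(`α = heckeAlphaBar`, the inclusion; `β = heckeBetaBar`, `q ↦ q ^ ℓ`).
-/

set_option autoImplicit false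
set_option linter.unusedSectionVars false
set_option linter.style.haveILetI false

noncomputable section

open UpperHalfPlane ModularForm EisensteinSeries Complex MatrixGroups Filter
open scoped Manifold Topology

namespace Fermat.Agent.S37

open Fermat.Agent.S24 Fermat.Agent.Mero Fermat.Agent.S28 ModularCurve

/-- Abstract conjugation: if `τ : F →ₐ[K] M` is a homomorphism of fields and `W : M →ₐ[K] M` maps
the range of `τ` into itself, then `τ⁻¹ W τ` is an endomorphism of `F`. -/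
theorem FA_S37_AL_conj {K F M : Type*} [Field K] [Field F] [Field M] [Algebra K F] [Algebra K M]
    (τ : F →ₐ[K] M) (W : M →ₐ[K] M) (h : ∀ x : F, W (τ x) ∈ Set.range τ) :
    ∃ w : F →ₐ[K] F, ∀ x : F, τ (w x) = W (τ x) := by
  have h' : ∀ x : F, (W.comp τ) x ∈ τ.range := fun x => h x
  let e : F ≃ₐ[K] τ.range := AlgEquiv.ofInjective τ τ.injective
  refine ⟨(e.symm : τ.range →ₐ[K] F).comp (AlgHom.codRestrict (W.comp τ) τ.range h'), fun x => ?_⟩
  have h1 : ∀ z : τ.range, τ (e.symm z) = (z : M) := fun z => by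
    have := congrArg Subtype.val (e.apply_symm_apply z)
    exact this
  show τ (e.symm (AlgHom.codRestrict (W.comp τ) τ.range h' x)) = W (τ x)
  rw [h1]
  rfl

/-- The divisors of `N ℓ` for a prime `ℓ ∤ N`. -/
theorem FA_S37_AL_dvd_cases {N ℓ d : ℕ} (hℓ : ℓ.Prime) (hd : d ∣ N * ℓ) :
    d ∣ N ∨ ∃ d', d' ∣ N ∧ d = d' * ℓ := by
  by_cases h : ℓ ∣ d
  · obtain ⟨d', rfl⟩ := h
    right
    refine ⟨d', ?_, mul_comm _ _⟩
    rw [mul_comm ℓ d'] at hd
    exact Nat.dvd_of_mul_dvd_mul_right hℓ.pos hd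
  · left
    have hc : Nat.Coprime d ℓ := (Nat.Coprime.symm ((Nat.Prime.coprime_iff_not_dvd hℓ).mpr h))
    exact hc.dvd_of_dvd_mul_right hd

/-- `β (j(q^d)) = j(q^(d ℓ))`, as series. -/
theorem FA_S37_AL_qExpand_gen (K : Type) [Field K] [Algebra ℚ K] (d ℓ : ℕ) [NeZero d] [NeZero ℓ]
    [NeZero (d * ℓ)] :
    qExpand K ℓ (coeffEmb K (qExpand ℚ d jq)) = coeffEmb K (qExpand ℚ (d * ℓ) jq) := by
  have h1 : coeffEmb K (qExpand ℚ (d * ℓ) jq) = qExpand K (d * ℓ) (coeffEmb K jq) :=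
    FA_S24_coeffMap_qExpand _ _ _
  have h2 : coeffEmb K (qExpand ℚ d jq) = qExpand K d (coeffEmb K jq) :=
    FA_S24_coeffMap_qExpand _ _ _
  rw [h1, h2, qExpand_qExpand]
  have e : ℓ * d = d * ℓ := Nat.mul_comm _ _
  ext n
  by_cases hn : ((d * ℓ : ℕ) : ℤ) ∣ n
  · obtain ⟨m, rfl⟩ := hn
    rw [qExpand_coeff_mul]
    have hn' : ((d * ℓ : ℕ) : ℤ) * m = ((ℓ * d : ℕ) : ℤ) * m := by rw [e]
    rw [hn', qExpand_coeff_mul]
  · rw [qExpand_coeff_of_not_dvd _ _ hn, qExpand_coeff_of_not_dvd _ _ (by rw [e]; exact hn)]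

/-- **Atkin–Lehner.** For a prime `ℓ ∤ N` there is an endomorphism `w` of `F_{Nℓ}` over `ℚ̄`
exchanging the two degeneracy maps `α` (inclusion) and `β` (`q ↦ q ^ ℓ`). -/
theorem FA_S37_AL_exists (N ℓ : ℕ) [NeZero N] [NeZero ℓ] (hℓ : ℓ.Prime) (hℓN : ¬ ℓ ∣ N) :
    ∃ w : ↥(modularFunctionFieldBar (N * ℓ)) →ₐ[AlgebraicClosure ℚ]
        ↥(modularFunctionFieldBar (N * ℓ)),
      w.comp (heckeAlphaBar (AlgebraicClosure ℚ) N ℓ) = heckeBetaBar (AlgebraicClosure ℚ) N ℓ ∧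
      w.comp (heckeBetaBar (AlgebraicClosure ℚ) N ℓ) = heckeAlphaBar (AlgebraicClosure ℚ) N ℓ := by
  have halg : Algebra.IsAlgebraic ℚ (AlgebraicClosure ℚ) := AlgebraicClosure.isAlgebraic ℚ
  letI algC : Algebra (AlgebraicClosure ℚ) ℂ :=
    (IsAlgClosed.lift (R := ℚ) (S := AlgebraicClosure ℚ) (M := ℂ)).toRingHom.toAlgebra
  letI algM : Algebra (AlgebraicClosure ℚ) FA_Mero_Field :=
    ((algebraMap ℂ FA_Mero_Field).comp (algebraMap (AlgebraicClosure ℚ) ℂ)).toAlgebra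
  have ht : FA_S24_Tower (AlgebraicClosure ℚ) := fun c => rfl
  have hN0 : 0 < N := Nat.pos_of_ne_zero (NeZero.ne N)
  have hℓ0 : 0 < ℓ := hℓ.pos
  -- the transfer at level `N ℓ`
  obtain ⟨τ₀, hτ₀, hgen₀⟩ := FA_S37_AL_transfer (AlgebraicClosure ℚ) ht (N * ℓ)
  obtain ⟨τ, hτ, hval⟩ := FA_S28_d0_transport (FA_S24_BC (N * ℓ)) τ₀
  have hτgen : ∀ (d : ℕ) [NeZero d] (_ : d ∣ N * ℓ) (z : ↥(modularFunctionFieldBar (N * ℓ))),
      (z : LaurentSeries (AlgebraicClosure ℚ)) = coeffEmb (AlgebraicClosure ℚ) (qExpand ℚ d jq) →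
      τ z = FA_S24_g d := by
    intro d _ hd z hz
    obtain ⟨b, hb⟩ := z
    have hb' : b = coeffEmb (AlgebraicClosure ℚ) (qExpand ℚ d jq) := hz
    subst hb'
    have h2 : coeffEmb (AlgebraicClosure ℚ) (qExpand ℚ d jq) ∈
        IntermediateField.adjoin (AlgebraicClosure ℚ)
          {x : LaurentSeries (AlgebraicClosure ℚ) | ∃ (d : ℕ) (_ : NeZero d), d ∣ N * ℓ ∧
            x = coeffEmb (AlgebraicClosure ℚ) (qExpand ℚ d jq)} :=
      (FA_S24_BC (N * ℓ)) ▸ hb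
    rw [hval _ hb h2]
    exact hgen₀ d hd h2
  -- the analytic Atkin–Lehner operator
  obtain ⟨W₀, hWc, hWg⟩ := FA_S37_AL_W_exists N ℓ hN0 hℓ0
    ((Nat.Prime.coprime_iff_not_dvd hℓ).mpr hℓN)
  let W : FA_Mero_Field →ₐ[AlgebraicClosure ℚ] FA_Mero_Field :=
    { W₀ with commutes' := fun c => hWc (algebraMap (AlgebraicClosure ℚ) ℂ c) }
  have hWapp : ∀ x, W x = W₀ x := fun _ => rfl
  -- `W` preserves `F₀`
  have hWF0 : ∀ y ∈ FA_S24_F0 (AlgebraicClosure ℚ) FA_S24_g (N * ℓ),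
      W y ∈ FA_S24_F0 (AlgebraicClosure ℚ) FA_S24_g (N * ℓ) := by
    intro y hy
    unfold FA_S24_F0 at hy ⊢
    induction hy using IntermediateField.adjoin_induction with
    | mem x hx =>
      obtain ⟨d, hd, rfl⟩ := hx
      rcases FA_S37_AL_dvd_cases hℓ hd with h | ⟨d', hd', rfl⟩
      · rw [hWapp, (hWg d h).1]
        exact IntermediateField.subset_adjoin _ _ ⟨d * ℓ, Nat.mul_dvd_mul_right h ℓ, rfl⟩
      · rw [hWapp, (hWg d' hd').2]
        exact IntermediateField.subset_adjoin _ _ ⟨d', hd'.trans (dvd_mul_right N ℓ), rfl⟩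
    | algebraMap c =>
      rw [W.commutes]
      exact IntermediateField.algebraMap_mem _ c
    | add a b _ _ ha hb => rw [map_add]; exact add_mem ha hb
    | inv a _ ha => rw [map_inv₀]; exact inv_mem ha
    | mul a b _ _ ha hb => rw [map_mul]; exact mul_mem ha hb
  have hrange : ∀ x : ↥(modularFunctionFieldBar (N * ℓ)), W (τ x) ∈ Set.range τ := by
    intro x
    rw [hτ, hτ₀]
    apply hWF0
    have : τ x ∈ Set.range τ := ⟨x, rfl⟩
    rw [hτ, hτ₀] at this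
    exact this
  obtain ⟨w, hw⟩ := FA_S37_AL_conj τ W hrange
  have hτinj : Function.Injective τ := τ.toRingHom.injective
  refine ⟨w, ?_, ?_⟩
  · apply IntermediateField.algHom_ext_of_eq_adjoin _ (FA_S24_BC N)
    rintro x ⟨d, hd0, hd, rfl⟩
    apply hτinj
    have hdℓ0 : NeZero (d * ℓ) := ⟨Nat.mul_ne_zero (NeZero.ne d) (NeZero.ne ℓ)⟩
    rw [AlgHom.comp_apply, hw,
      hτgen d (hd.trans (dvd_mul_right N ℓ)) _ (coe_heckeAlphaBar N ℓ _),
      hWapp, (hWg d hd).1]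
    refine (hτgen (d * ℓ) (Nat.mul_dvd_mul_right hd ℓ) _ ?_).symm
    rw [coe_heckeBetaBar]
    exact FA_S37_AL_qExpand_gen (AlgebraicClosure ℚ) d ℓ
  · apply IntermediateField.algHom_ext_of_eq_adjoin _ (FA_S24_BC N)
    rintro x ⟨d, hd0, hd, rfl⟩
    apply hτinj
    have hdℓ0 : NeZero (d * ℓ) := ⟨Nat.mul_ne_zero (NeZero.ne d) (NeZero.ne ℓ)⟩
    rw [AlgHom.comp_apply, hw,
      hτgen (d * ℓ) (Nat.mul_dvd_mul_right hd ℓ) _
        ((coe_heckeBetaBar N ℓ _).trans (FA_S37_AL_qExpand_gen (AlgebraicClosure ℚ) d ℓ)),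
      hWapp, (hWg d hd).2]
    exact (hτgen d (hd.trans (dvd_mul_right N ℓ)) _ (coe_heckeAlphaBar N ℓ _)).symm

end Fermat.Agent.S37
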