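import Fermat.Agent.S37.K5Red
import Fermat.Agent.S37.GalRed
import Fermat.Agent.S37.HeckeIn

/-!
# S37, leaf K5 (part 2): the Eichler–Shimura congruence on divisors of degree zero

`ρ = r_* ∘ s^*` (`FA_S37_K5_rho`), `T = heckeDivBar` at `(N, ℓ)`, `θ : k ≃+* k` (the Frobenius of
the residue field), `φ = FA_S37_GB_barAut (N * M) θ` its coefficientwise action on `F̄_{N M}`.
From the norm congruence for integral series (`hCG`, = `FA_S37_CG_series` + `FA_S37_CJ_norm`)

  `ρ (T D) = φ • ρ D + ℓ • (φ⁻¹ • ρ D)`   for every divisor `D` of degree zero.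
-/

set_option autoImplicit false
set_option linter.unusedSectionVars false
set_option linter.style.haveILetI false
set_option maxHeartbeats 1000000
set_option synthInstance.maxHeartbeats 400000

noncomputable section

namespace Fermat.Agent.S37

open AlgebraicCurve ModularCurve HahnSeries Fermat.Agent.S18 FA_S18

variable (A : ValuationSubring (AlgebraicClosure ℚ)) (N M ℓ : ℕ) [NeZero N] [NeZero M] [NeZero ℓ]

/-- The "Hecke norm" `N_{F_{Nℓ}/αF_N}(β f)`. -/
def FA_S37_K5_norm (f : ↥(modularFunctionFieldBar N)) : ↥(modularFunctionFieldBar N) :=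
  letI := algebraAlong (heckeAlphaBar (AlgebraicClosure ℚ) N ℓ)
  Algebra.norm ↥(modularFunctionFieldBar N) (heckeBetaBar (AlgebraicClosure ℚ) N ℓ f)

theorem FA_S37_K5_norm_mul (f g : ↥(modularFunctionFieldBar N)) :
    FA_S37_K5_norm N ℓ (f * g) = FA_S37_K5_norm N ℓ f * FA_S37_K5_norm N ℓ g := by
  unfold FA_S37_K5_norm
  rw [map_mul, map_mul]

/-- The norm congruence for integral series (hypothesis of K5). -/
def FA_S37_K5_Cong (θ : IsLocalRing.ResidueField A ≃+* IsLocalRing.ResidueField A) : Prop :=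
  ∀ (y : LaurentSeries A) (hy : coeffMap A.subtype y ∈ modularFunctionFieldBar N),
    coeffMap (IsLocalRing.residue A) y ≠ 0 →
    ∃ y' : LaurentSeries A,
      coeffMap A.subtype y' = (FA_S37_K5_norm N ℓ ⟨coeffMap A.subtype y, hy⟩ :
        LaurentSeries (AlgebraicClosure ℚ)) ∧
      coeffMap (IsLocalRing.residue A) y'
        = coeffMap (θ : IsLocalRing.ResidueField A →+* IsLocalRing.ResidueField A)
            (coeffMap (IsLocalRing.residue A) y) *
          coeffMap (θ.symm : IsLocalRing.ResidueField A →+* IsLocalRing.ResidueField A)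
            (coeffMap (IsLocalRing.residue A) y) ^ ℓ

theorem FA_S37_K5_barAut_inv_coe {k : Type*} [Field k] (n : ℕ) [NeZero n] (θ : k ≃+* k)
    (x : ↥(modularFunctionFieldFullC k n)) :
    (((FA_S37_GB_barAut n θ)⁻¹ • x : ↥(modularFunctionFieldFullC k n)) : LaurentSeries k)
      = coeffMap (θ.symm : k →+* k) (x : LaurentSeries k) := rfl

theorem FA_S37_K5_coeffMap_ne_zero {k : Type*} [Field k] (θ : k ≃+* k) {x : LaurentSeries k}
    (hx : x ≠ 0) : coeffMap (θ : k →+* k) x ≠ 0 := by
  intro h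
  apply hx
  have := congrArg (coeffMap (θ.symm : k →+* k)) h
  rwa [coeffMap_coeffMap, map_zero,
    coeffMap_congr (g := RingHom.id k) (RingHom.ext fun a => θ.symm_apply_apply a) x,
    coeffMap_id] at this

section Main

variable [HasPrincipalDivisors (AlgebraicClosure ℚ) ↥(modularFunctionFieldBar (N * M))]
variable [HasPrincipalDivisors (AlgebraicClosure ℚ) ↥(modularFunctionFieldBar (N * ℓ))]

/-- `T (div f) = div (N f)`. -/
theorem FA_S37_K5_hT (hα : HeckeAlphaBarIntegral (AlgebraicClosure ℚ) N ℓ)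
    (hβ : HeckeBetaBarIntegral (AlgebraicClosure ℚ) N ℓ)
    (f : ↥(modularFunctionFieldBar N)) (hf : f ≠ 0)
    (D : Divisor (AlgebraicClosure ℚ) ↥(modularFunctionFieldBar N))
    (hD : ∀ P : Place (AlgebraicClosure ℚ) ↥(modularFunctionFieldBar N), D P = P.ord f)
    (P : Place (AlgebraicClosure ℚ) ↥(modularFunctionFieldBar N)) :
    heckeDivBar hα hβ D P = P.ord (FA_S37_K5_norm N ℓ f) := by
  have hfin := FA_S37_HI_alphaFinite N ℓ
  have hnorm := FA_S37_HI_alphaNorm N ℓ hfin
  have h2 : ∀ W : Place (AlgebraicClosure ℚ) ↥(modularFunctionFieldBar (N * ℓ)),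
      Divisor.pullbackAlong (heckeBetaBar (AlgebraicClosure ℚ) N ℓ) hβ D W
        = W.ord (heckeBetaBar (AlgebraicClosure ℚ) N ℓ f) :=
    fun W => FA_S37_K5_pullbackAlong_ord _ hβ hD W
  have hβf : heckeBetaBar (AlgebraicClosure ℚ) N ℓ f ≠ 0 := by
    rw [Ne, map_eq_zero]
    exact hf
  exact hnorm _ hβf _ h2 P

/-- `T (single P 1)` is effective. -/
theorem FA_S37_K5_T_nonneg (hα : HeckeAlphaBarIntegral (AlgebraicClosure ℚ) N ℓ)
    (hβ : HeckeBetaBarIntegral (AlgebraicClosure ℚ) N ℓ)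
    {E : Divisor (AlgebraicClosure ℚ) ↥(modularFunctionFieldBar N)} (hE : 0 ≤ E) :
    0 ≤ heckeDivBar hα hβ E :=
  FA_S37_K5_pushforwardAlong_nonneg _ hα (FA_S37_K5_pullbackAlong_nonneg _ hβ hE)

/-- **K5 on divisors**: the Eichler–Shimura congruence for `ρ = r_* ∘ s^*` on divisors of
degree zero, for ANY place reduction `r` at level `N * M`. -/
theorem FA_S37_K5_div (hℓ : ℓ.Prime) (hA : A.LiesOverPrime ℓ) (hN : ¬ ℓ ∣ N)
    (hs : HeckeBetaBarIntegral (AlgebraicClosure ℚ) N M)
    {r : Place (AlgebraicClosure ℚ) ↥(modularFunctionFieldBar (N * M)) →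
      Place (IsLocalRing.ResidueField A)
        ↥(modularFunctionFieldFullC (IsLocalRing.ResidueField A) (N * M))}
    (hr : IsPlaceReductionModL A (N * M) r)
    (hα : HeckeAlphaBarIntegral (AlgebraicClosure ℚ) N ℓ)
    (hβ : HeckeBetaBarIntegral (AlgebraicClosure ℚ) N ℓ)
    (θ : IsLocalRing.ResidueField A ≃+* IsLocalRing.ResidueField A)
    (hCG : FA_S37_K5_Cong A N ℓ θ)
    (D : Divisor (AlgebraicClosure ℚ) ↥(modularFunctionFieldBar N))
    (hD : Divisor.degree D = 0) :
    FA_S37_K5_rho A N M hs r (heckeDivBar hα hβ D)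
      = FA_S37_GB_barAut (N * M) θ • FA_S37_K5_rho A N M hs r D
        + ℓ • ((FA_S37_GB_barAut (N * M) θ)⁻¹ • FA_S37_K5_rho A N M hs r D) := by
  have hFIs := FA_S37_HI_betaFI N M hs
  have hFIβ := FA_S37_HI_betaFI N ℓ hβ
  have hred := FA_S37_K5_red A N M hℓ hA hN hs hFIs hr
  refine FA_S37_BD_ES (FA_S18_C0_isFF N) hred (heckeDivBar hα hβ) (FA_S37_K5_norm N ℓ) ?_
    ((finrankAlong (AlgebraicClosure ℚ) (heckeBetaBar (AlgebraicClosure ℚ) N ℓ) : ℤ) *
      (finrankAlong (AlgebraicClosure ℚ) (heckeBetaBar (AlgebraicClosure ℚ) N M) : ℤ)) ?_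
    (FA_S37_GB_barAut (N * M) θ) ℓ ?_ D hD
  · -- hT
    rintro f f' ⟨w, u, hw, hu, hwk, huk, e, e'⟩ D' hD' P
    have hf : f ≠ 0 := by
      intro h
      rw [h] at e
      simp only [ZeroMemClass.coe_zero, zero_mul] at e
      exact FA_S18_B_iota_ne_zero hwk e.symm
    exact FA_S37_K5_hT N ℓ hα hβ f hf D' hD' P
  · -- hTbd
    intro P Q
    have h0 : (0 : Divisor (AlgebraicClosure ℚ) ↥(modularFunctionFieldBar N))
        ≤ Finsupp.single P 1 := by
      classical
      rw [Finsupp.le_def]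
      intro v
      rw [Finsupp.zero_apply, Finsupp.single_apply]
      split_ifs <;> simp
    have h1 := FA_S37_BD_bound_eff (FA_S18_C0_isFF N) (FA_S37_K5_rho A N M hs r) _
      (fun P' Q' => FA_S37_K5_rho_bound A N M hs hFIs r P' Q') Q _
      (FA_S37_K5_T_nonneg N ℓ hα hβ h0)
    have h2 : Divisor.degree (heckeDivBar hα hβ (Finsupp.single P 1))
        = (finrankAlong (AlgebraicClosure ℚ) (heckeBetaBar (AlgebraicClosure ℚ) N ℓ) : ℤ) := by
      rw [heckeDivBar, Divisor.degree_correspondence _ _ hβ hα hFIβ, Divisor.degree_single,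
        FA_RR.deg_eq_one (FA_S18_C0_isFF N) P]
      simp
    rwa [h2] at h1
  · -- hN
    rintro f f' ⟨w, u, hw, hu, hwk, huk, e, e'⟩
    obtain ⟨w', hw'1, hw'2⟩ := hCG w hw hwk
    obtain ⟨u', hu'1, hu'2⟩ := hCG u hu huk
    have ef : f * ⟨coeffMap A.subtype u, hu⟩ = ⟨coeffMap A.subtype w, hw⟩ := Subtype.ext e
    have hθw := FA_S37_K5_coeffMap_ne_zero θ hwk
    have hθu := FA_S37_K5_coeffMap_ne_zero θ huk
    have hθw' := FA_S37_K5_coeffMap_ne_zero θ.symm hwk
    have hθu' := FA_S37_K5_coeffMap_ne_zero θ.symm huk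
    refine ⟨w', u', ?_, ?_, ?_, ?_, ?_, ?_⟩
    · rw [hw'1]; exact (FA_S37_K5_norm N ℓ _).2
    · rw [hu'1]; exact (FA_S37_K5_norm N ℓ _).2
    · rw [hw'2]; exact mul_ne_zero hθw (pow_ne_zero _ hθw')
    · rw [hu'2]; exact mul_ne_zero hθu (pow_ne_zero _ hθu')
    · rw [hw'1, hu'1, ← ef, FA_S37_K5_norm_mul]
      rfl
    · have hcoe : (((FA_S37_GB_barAut (N * M) θ • f') * ((FA_S37_GB_barAut (N * M) θ)⁻¹ • f') ^ ℓ :
          ↥(modularFunctionFieldFullC (IsLocalRing.ResidueField A) (N * M))) :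
            LaurentSeries (IsLocalRing.ResidueField A))
          = coeffMap (θ : IsLocalRing.ResidueField A →+* IsLocalRing.ResidueField A)
              (f' : LaurentSeries (IsLocalRing.ResidueField A)) *
            coeffMap (θ.symm : IsLocalRing.ResidueField A →+* IsLocalRing.ResidueField A)
              (f' : LaurentSeries (IsLocalRing.ResidueField A)) ^ ℓ := rfl
      have q1 : ∀ x : LaurentSeries (IsLocalRing.ResidueField A),
          qExpand (IsLocalRing.ResidueField A) M
            (coeffMap (θ : IsLocalRing.ResidueField A →+* IsLocalRing.ResidueField A) x)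
          = coeffMap (θ : IsLocalRing.ResidueField A →+* IsLocalRing.ResidueField A)
              (qExpand (IsLocalRing.ResidueField A) M x) :=
        fun x => (ModularCurve.coeffMap_qExpand _ M x).symm
      have q2 : ∀ x : LaurentSeries (IsLocalRing.ResidueField A),
          qExpand (IsLocalRing.ResidueField A) M
            (coeffMap (θ.symm : IsLocalRing.ResidueField A →+* IsLocalRing.ResidueField A) x)
          = coeffMap (θ.symm : IsLocalRing.ResidueField A →+* IsLocalRing.ResidueField A)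
              (qExpand (IsLocalRing.ResidueField A) M x) :=
        fun x => (ModularCurve.coeffMap_qExpand _ M x).symm
      rw [hcoe, hw'2, hu'2, map_mul, map_mul, map_pow, map_pow, q1, q1, q2, q2, ← e',
        map_mul, map_mul]
      ring

end Main

end Fermat.Agent.S37
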