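import Mathlib

/-!
# S37, leaf D' (conjugates), abstract part: the norm as a product over explicitly given embeddings

`FA_S37_CJ_norm_abs`: if `F'/F` is finite separable of degree `n` and `E i : F' →+* M` (`i < n`) are
pairwise distinct ring homomorphisms into a field `M` which all restrict to the same `ι : F →+* M`,
then `ι (N_{F'/F} x) = ∏ i, E i x`.
-/

set_option autoImplicit false

noncomputable section

namespace Fermat.Agent.S37

theorem FA_S37_CJ_norm_abs {F F' M : Type*} [Field F] [Field F'] [Field M] [Algebra F F']
    [FiniteDimensional F F'] [Algebra.IsSeparable F F'] (ι : F →+* M) {n : ℕ}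
    (hn : Module.finrank F F' = n) (E : Fin n → (F' →+* M))
    (hE : ∀ i x, E i (algebraMap F F' x) = ι x) (hinj : Function.Injective E) (x : F') :
    ι (Algebra.norm F x) = ∏ i, E i x := by
  classical
  letI algΩ : Algebra F (AlgebraicClosure M) :=
    ((algebraMap M (AlgebraicClosure M)).comp ι).toAlgebra
  have halg : ∀ c : F, algebraMap F (AlgebraicClosure M) c
      = algebraMap M (AlgebraicClosure M) (ι c) := fun _ => rfl
  let E' : Fin n → (F' →ₐ[F] AlgebraicClosure M) := fun i =>
    { (algebraMap M (AlgebraicClosure M)).comp (E i) with
      commutes' := fun c => by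
        show algebraMap M (AlgebraicClosure M) (E i (algebraMap F F' c)) = _
        rw [hE, halg] }
  have hE'app : ∀ i y, E' i y = algebraMap M (AlgebraicClosure M) (E i y) := fun _ _ => rfl
  have hE'inj : Function.Injective E' := by
    intro i j hij
    apply hinj
    ext y
    apply (algebraMap M (AlgebraicClosure M)).injective
    rw [← hE'app, ← hE'app, hij]
  have hcard : Fintype.card (F' →ₐ[F] AlgebraicClosure M) = Fintype.card (Fin n) := by
    rw [AlgHom.card, hn, Fintype.card_fin]
  have hbij : Function.Bijective E' :=
    (Fintype.bijective_iff_injective_and_card E').mpr ⟨hE'inj, hcard.symm⟩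
  have h := Algebra.norm_eq_prod_embeddings F (AlgebraicClosure M) x
  apply (algebraMap M (AlgebraicClosure M)).injective
  rw [← halg, h, map_prod]
  rw [← Fintype.prod_bijective E' hbij (fun i => algebraMap M (AlgebraicClosure M) (E i x))
    (fun σ => σ x) (fun i => hE'app i x)]

end Fermat.Agent.S37
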