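import Fermat.Agent.S37.ConjDegAbs
import Fermat.Agent.S18.StageA0
import Fermat.Prelude.Def_ModularCurve_HeckeOperator

/-!
# S37, leaf D' (conjugates): `[F_{Nℓ} : α F_N] = ℓ + 1` for a prime `ℓ ∤ N`
-/

set_option autoImplicit false
set_option linter.unusedSectionVars false
set_option linter.style.haveILetI false

noncomputable section

namespace Fermat.Agent.S37

open ModularCurve AlgebraicCurve IntermediateField Fermat.Agent.S18 Fermat.Agent.S24

/-- `[F_{Nℓ} : α F_N] = ℓ + 1`. -/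
theorem FA_S37_CJ_finrank (N ℓ : ℕ) [NeZero N] [NeZero ℓ] (hℓ : ℓ.Prime) (hℓN : ¬ ℓ ∣ N) :
    finrankAlong (AlgebraicClosure ℚ) (heckeAlphaBar (AlgebraicClosure ℚ) N ℓ) = ℓ + 1 := by
  letI := algebraAlong (heckeAlphaBar (AlgebraicClosure ℚ) N ℓ)
  haveI := isScalarTower_along (heckeAlphaBar (AlgebraicClosure ℚ) N ℓ)
  have h := FA_S37_CJ_finrank_abs (K := AlgebraicClosure ℚ) (F := ↥(modularFunctionFieldBar N))
    (F' := ↥(modularFunctionFieldBar (N * ℓ))) (FA_S18_A_jbar N)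
  have hx : algebraMap ↥(modularFunctionFieldBar N) ↥(modularFunctionFieldBar (N * ℓ))
      (FA_S18_A_jbar N) = FA_S18_A_jbar (N * ℓ) := Subtype.ext rfl
  have hN : 0 < N := Nat.pos_of_ne_zero (NeZero.ne N)
  rw [hx, (FA_S18_A_jbar_spec N).2.2, (FA_S18_A_jbar_spec (N * ℓ)).2.2,
    FA_S24_psi_mul_prime_of_not_dvd hℓ hN hℓN] at h
  have hpos : 0 < dedekindPsi N := by
    rw [← (FA_S18_A_jbar_spec N).2.2]
    haveI := (FA_S18_A_jbar_spec N).2.1
    exact Module.finrank_pos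
  exact Nat.eq_of_mul_eq_mul_right hpos h

end Fermat.Agent.S37
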