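import Fermat.Agent.S28.DegZero2

/-!
# S37, leaf D' (conjugates), analytic part: the Atkin–Lehner operator on meromorphic functions

For coprime `N`, `ℓ` (both positive) there is a ring endomorphism `W` of the field of meromorphic
functions on `ℍ`, fixing the constants, with `W (j (d z)) = j (d ℓ z)` and `W (j (d ℓ z)) = j (d z)`
for every `d ∣ N`:  `W f = (γ⁻¹ • f) (ℓ z)`, `γ = [[x, -y], [N, ℓ]]`, `ℓ x + N y = 1`.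
-/

set_option autoImplicit false
set_option linter.unusedSectionVars false
set_option linter.style.haveILetI false

noncomputable section

open UpperHalfPlane ModularForm EisensteinSeries Complex MatrixGroups Filter
open scoped Manifold Topology

namespace Fermat.Agent.S37

open Fermat.Agent.S24 Fermat.Agent.Mero Fermat.Agent.S28

/-- Composition of two affine maps `z ↦ (a z)/δ`. -/
theorem FA_S37_AL_aff_aff (a δ a' δ' : ℤ) (ha : 0 < a) (hδ : 0 < δ) (ha' : 0 < a') (hδ' : 0 < δ')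
    (a'' δ'' : ℤ) (ha'' : 0 < a'') (hδ'' : 0 < δ'') (h : a * a' * δ'' = a'' * (δ * δ')) (z : ℍ) :
    FA_S24_aff a 0 δ ha hδ (FA_S24_aff a' 0 δ' ha' hδ' z) = FA_S24_aff a'' 0 δ'' ha'' hδ'' z := by
  apply UpperHalfPlane.ext
  rw [FA_S24_aff_coe, FA_S24_aff_coe, FA_S24_aff_coe]
  have h1 : (δ : ℂ) ≠ 0 := by exact_mod_cast hδ.ne'
  have h2 : (δ' : ℂ) ≠ 0 := by exact_mod_cast hδ'.ne'
  have h3 : (δ'' : ℂ) ≠ 0 := by exact_mod_cast hδ''.ne'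
  have h' : (a : ℂ) * a' * δ'' = a'' * (δ * δ') := by exact_mod_cast h
  simp only [Int.cast_zero, add_zero]
  field_simp
  linear_combination (z : ℂ) * h'

/-- The scaling operator `f ↦ f (ℓ z)` on holomorphic functions. -/
def FA_S37_AL_scaleHol (ℓ : ℤ) (hℓ : 0 < ℓ) : FA_Mero_Hol →+* FA_Mero_Hol where
  toFun f := ⟨(f : ℍ → ℂ) ∘ FA_S24_aff ℓ 0 1 hℓ one_pos,
    FA_S24_mdiff_comp_aff ℓ 0 1 hℓ one_pos f.2⟩
  map_one' := rfl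
  map_mul' _ _ := rfl
  map_zero' := rfl
  map_add' _ _ := rfl

theorem FA_S37_AL_scaleHol_apply (ℓ : ℤ) (hℓ : 0 < ℓ) (f : FA_Mero_Hol) (z : ℍ) :
    (FA_S37_AL_scaleHol ℓ hℓ f : ℍ → ℂ) z = (f : ℍ → ℂ) (FA_S24_aff ℓ 0 1 hℓ one_pos z) := rfl

theorem FA_S37_AL_scaleHol_injective (ℓ : ℤ) (hℓ : 0 < ℓ) :
    Function.Injective (FA_S37_AL_scaleHol ℓ hℓ) := by
  intro f g hfg
  apply Subtype.ext
  funext z
  have h := congrFun (congrArg Subtype.val hfg) (FA_S24_aff 1 0 ℓ one_pos hℓ z)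
  have e := FA_S37_AL_aff_aff ℓ 1 1 ℓ hℓ one_pos one_pos hℓ 1 1 one_pos one_pos (by ring) z
  have e1 : FA_S24_aff 1 0 1 one_pos one_pos z = z := by
    apply UpperHalfPlane.ext
    rw [FA_S24_aff_coe]
    simp
  change (f : ℍ → ℂ) (FA_S24_aff ℓ 0 1 hℓ one_pos (FA_S24_aff 1 0 ℓ one_pos hℓ z))
    = (g : ℍ → ℂ) (FA_S24_aff ℓ 0 1 hℓ one_pos (FA_S24_aff 1 0 ℓ one_pos hℓ z)) at h
  rw [e, e1] at h
  exact h

/-- The scaling operator on meromorphic functions. -/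
def FA_S37_AL_scale (ℓ : ℤ) (hℓ : 0 < ℓ) : FA_Mero_Field →+* FA_Mero_Field :=
  IsFractionRing.lift (A := FA_Mero_Hol) (K := FA_Mero_Field)
    (g := (algebraMap FA_Mero_Hol FA_Mero_Field).comp (FA_S37_AL_scaleHol ℓ hℓ))
    ((IsFractionRing.injective FA_Mero_Hol FA_Mero_Field).comp
      (FA_S37_AL_scaleHol_injective ℓ hℓ))

theorem FA_S37_AL_scale_algebraMap (ℓ : ℤ) (hℓ : 0 < ℓ) (f : FA_Mero_Hol) :
    FA_S37_AL_scale ℓ hℓ (algebraMap FA_Mero_Hol FA_Mero_Field f)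
      = algebraMap FA_Mero_Hol FA_Mero_Field (FA_S37_AL_scaleHol ℓ hℓ f) :=
  IsFractionRing.lift_algebraMap _ f

theorem FA_S37_AL_scale_const (ℓ : ℤ) (hℓ : 0 < ℓ) (c : ℂ) :
    FA_S37_AL_scale ℓ hℓ (algebraMap ℂ FA_Mero_Field c) = algebraMap ℂ FA_Mero_Field c := by
  rw [IsScalarTower.algebraMap_apply ℂ FA_Mero_Hol FA_Mero_Field, FA_S37_AL_scale_algebraMap]
  rfl

/-- The operator `W f = (γ⁻¹ • f) (ℓ z)`. -/
def FA_S37_AL_W (ℓ : ℤ) (hℓ : 0 < ℓ) (γ : SL(2, ℤ)) : FA_Mero_Field →+* FA_Mero_Field :=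
  (FA_S37_AL_scale ℓ hℓ).comp (MulSemiringAction.toRingHom SL(2, ℤ) FA_Mero_Field γ⁻¹)

theorem FA_S37_AL_W_apply (ℓ : ℤ) (hℓ : 0 < ℓ) (γ : SL(2, ℤ)) (x : FA_Mero_Field) :
    FA_S37_AL_W ℓ hℓ γ x = FA_S37_AL_scale ℓ hℓ (γ⁻¹ • x) := rfl

theorem FA_S37_AL_W_const (ℓ : ℤ) (hℓ : 0 < ℓ) (γ : SL(2, ℤ)) (c : ℂ) :
    FA_S37_AL_W ℓ hℓ γ (algebraMap ℂ FA_Mero_Field c) = algebraMap ℂ FA_Mero_Field c := by
  rw [FA_S37_AL_W_apply, FA_Mero_smul_algebraMap_complex, FA_S37_AL_scale_const]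

/-- Pointwise form of `W` on holomorphic functions. -/
theorem FA_S37_AL_scaleHol_smul_apply (ℓ : ℤ) (hℓ : 0 < ℓ) (γ : SL(2, ℤ)) (f : FA_Mero_Hol)
    (z : ℍ) :
    (FA_S37_AL_scaleHol ℓ hℓ (γ⁻¹ • f) : ℍ → ℂ) z
      = (f : ℍ → ℂ) (γ • FA_S24_aff ℓ 0 1 hℓ one_pos z) := by
  rw [FA_S37_AL_scaleHol_apply, FA_Mero_Hol_smul_apply, inv_inv]

theorem FA_S37_AL_W_jaff_hol (ℓ : ℤ) (hℓ : 0 < ℓ) (γ γ' : SL(2, ℤ)) (d : ℤ) (hd : 0 < d)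
    (a δ : ℤ) (ha : 0 < a) (hδ : 0 < δ)
    (h : ∀ z : ℍ, FA_S24_aff d 0 1 hd one_pos (γ • FA_S24_aff ℓ 0 1 hℓ one_pos z)
      = γ' • FA_S24_aff a 0 δ ha hδ z) :
    FA_S37_AL_scaleHol ℓ hℓ (γ⁻¹ • FA_S24_jaff d 0 1 hd one_pos) = FA_S24_jaff a 0 δ ha hδ := by
  apply Subtype.ext
  funext z
  rw [FA_S37_AL_scaleHol_smul_apply, FA_S24_jaff_apply, FA_S24_jaff_apply, h z, FA_S24_j_smul]

/-- `W (j ∘ aff d 0 1) = j ∘ aff a 0 δ'` whenever `aff d 0 1 (γ • (ℓ z)) = γ' • aff a 0 δ' z`. -/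
theorem FA_S37_AL_W_jaffM (ℓ : ℤ) (hℓ : 0 < ℓ) (γ γ' : SL(2, ℤ)) (d : ℤ) (hd : 0 < d)
    (a δ : ℤ) (ha : 0 < a) (hδ : 0 < δ)
    (h : ∀ z : ℍ, FA_S24_aff d 0 1 hd one_pos (γ • FA_S24_aff ℓ 0 1 hℓ one_pos z)
      = γ' • FA_S24_aff a 0 δ ha hδ z) :
    FA_S37_AL_W ℓ hℓ γ (FA_S24_jaffM d 0 1 hd one_pos) = FA_S24_jaffM a 0 δ ha hδ := by
  unfold FA_S24_jaffM
  rw [FA_S37_AL_W_apply, FA_Mero_smul_algebraMap, FA_S37_AL_scale_algebraMap,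
    FA_S37_AL_W_jaff_hol ℓ hℓ γ γ' d hd a δ ha hδ h]

/-- **The Atkin–Lehner operator on meromorphic functions.** -/
theorem FA_S37_AL_W_exists (N ℓ : ℕ) (hN : 0 < N) (hℓ : 0 < ℓ) (hcop : Nat.Coprime ℓ N) :
    ∃ W : FA_Mero_Field →+* FA_Mero_Field,
      (∀ c : ℂ, W (algebraMap ℂ FA_Mero_Field c) = algebraMap ℂ FA_Mero_Field c) ∧
      ∀ d : ℕ, d ∣ N →
        W (FA_S24_g d) = FA_S24_g (d * ℓ) ∧ W (FA_S24_g (d * ℓ)) = FA_S24_g d := by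
  have hℓ' : 0 < (ℓ : ℤ) := by exact_mod_cast hℓ
  obtain ⟨x, y, hxy⟩ := (Nat.Coprime.isCoprime hcop : IsCoprime (ℓ : ℤ) (N : ℤ))
  -- `x * ℓ + y * N = 1`
  let γ : SL(2, ℤ) := ⟨!![x, -y; (N : ℤ), (ℓ : ℤ)], by
    rw [Matrix.det_fin_two_of]
    linear_combination hxy⟩
  have hγ00 : γ.1 0 0 = x := rfl
  have hγ01 : γ.1 0 1 = -y := rfl
  have hγ10 : γ.1 1 0 = (N : ℤ) := rfl
  have hγ11 : γ.1 1 1 = (ℓ : ℤ) := rfl
  refine ⟨FA_S37_AL_W ℓ hℓ' γ, fun c => FA_S37_AL_W_const ℓ hℓ' γ c, ?_⟩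
  rintro d ⟨e, rfl⟩
  have hd0 : 0 < d := Nat.pos_of_ne_zero (fun h => by rw [h, zero_mul] at hN; exact lt_irrefl _ hN)
  have hd : 0 < (d : ℤ) := by exact_mod_cast hd0
  have hdℓ : 0 < ((d * ℓ : ℕ) : ℤ) := by exact_mod_cast Nat.mul_pos hd0 hℓ
  have hdℓ' : 0 < (d : ℤ) * (ℓ : ℤ) := mul_pos hd hℓ'
  have hxy' : x * (ℓ : ℤ) + y * ((d : ℤ) * (e : ℤ)) = 1 := by
    have := hxy
    push_cast at this
    exact this
  let γ₁ : SL(2, ℤ) := ⟨!![x, -((d : ℤ) * y); (e : ℤ), (ℓ : ℤ)], by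
    rw [Matrix.det_fin_two_of]
    linear_combination hxy'⟩
  let γ₂ : SL(2, ℤ) := ⟨!![(ℓ : ℤ) * x, -((d : ℤ) * y); (e : ℤ), 1], by
    rw [Matrix.det_fin_two_of]
    linear_combination hxy'⟩
  have h100 : γ₁.1 0 0 = x := rfl
  have h101 : γ₁.1 0 1 = -((d : ℤ) * y) := rfl
  have h110 : γ₁.1 1 0 = (e : ℤ) := rfl
  have h111 : γ₁.1 1 1 = (ℓ : ℤ) := rfl
  have h200 : γ₂.1 0 0 = (ℓ : ℤ) * x := rfl
  have h201 : γ₂.1 0 1 = -((d : ℤ) * y) := rfl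
  have h210 : γ₂.1 1 0 = (e : ℤ) := rfl
  have h211 : γ₂.1 1 1 = 1 := rfl
  constructor
  · rw [FA_S24_g_eq hd, FA_S24_g_eq hdℓ]
    have key : ∀ z : ℍ, FA_S24_aff d 0 1 hd one_pos (γ • FA_S24_aff ℓ 0 1 hℓ' one_pos z)
        = γ₁ • FA_S24_aff ((d * ℓ : ℕ) : ℤ) 0 1 hdℓ one_pos z := by
      intro z
      rw [FA_S24_UT_moebius d hd γ γ₁ d 0 1 hd one_pos
        (by rw [hγ00, h100]; ring) (by rw [hγ01, h100, h101]; ring)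
        (by rw [hγ10, h110]; push_cast; ring) (by rw [hγ11, h110, h111]; ring)
        (FA_S24_aff ℓ 0 1 hℓ' one_pos z),
        FA_S37_AL_aff_aff d 1 ℓ 1 hd one_pos hℓ' one_pos ((d * ℓ : ℕ) : ℤ) 1 hdℓ one_pos
          (by push_cast; ring) z]
    exact FA_S37_AL_W_jaffM ℓ hℓ' γ γ₁ d hd _ 1 hdℓ one_pos key
  · rw [FA_S24_g_eq hd, FA_S24_g_eq hdℓ]
    have key : ∀ z : ℍ, FA_S24_aff ((d * ℓ : ℕ) : ℤ) 0 1 hdℓ one_pos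
          (γ • FA_S24_aff ℓ 0 1 hℓ' one_pos z)
        = γ₂ • FA_S24_aff d 0 1 hd one_pos z := by
      intro z
      rw [FA_S24_UT_moebius ((d * ℓ : ℕ) : ℤ) hdℓ γ γ₂ d 0 ℓ hd hℓ'
        (by rw [hγ00, h200]; push_cast; ring) (by rw [hγ01, h200, h201]; push_cast; ring)
        (by rw [hγ10, h210]; push_cast; ring) (by rw [hγ11, h210, h211]; ring)
        (FA_S24_aff ℓ 0 1 hℓ' one_pos z),
        FA_S37_AL_aff_aff d ℓ ℓ 1 hd hℓ' hℓ' one_pos d 1 hd one_pos (by ring) z]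
    exact FA_S37_AL_W_jaffM ℓ hℓ' γ γ₂ _ hdℓ d 1 hd one_pos key

end Fermat.Agent.S37
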