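import Mathlib
import Fermat.Agent.S37.RootCount

/-!
# S37, leaf N3: valuations of the base ring `K[x]` and the base fibre inequality

* `FA_S37_N3_intValuation_of_factor` : in a Dedekind domain, `v = (p)`, `r = p ^ m * h`,
  `h ∉ v` ⟹ `v.intValuation r = exp (-m)`.
* `FA_S37_N3_polyPrime a` : the height one prime `(X - a)` of `K[X]`;
  `FA_S37_N3_intValuation_polyPrime` : `v_{(X - a)} g = exp (-rootMultiplicity a g)`;
  `FA_S37_N3_exists_polyPrime_eq` : over an algebraically closed field all height one primes of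
  `K[X]` are such.
* abstract base ring `R` (Dedekind, `aeval x : K[X] → R` bijective):
  `FA_S37_N3_asIdeal_eq` (`x - a ∈ 𝔭 ⟹ 𝔭 = (x - a)`),
  `FA_S37_N3_intValuation_aeval` (`v_𝔭 (g(x)) = exp (-rootMultiplicity a g)`),
  `FA_S37_N3_exists_sub_mem` (`K` algebraically closed: every `𝔭` contains some `x - a`).
* `FA_S37_N3_baseFI` : **the base fibre inequality** (RootCount glue):
  `v_𝔮 (p̄ (x̄)) ≤ ∏_{𝔭 ∈ T} v_𝔭 (p (x))` for primes `𝔭 = (x - a)`, `a ∈ A`, over `𝔮 ∋ x̄ - ā`;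
  `FA_S37_N3_baseFI_eq` : equality when `T` contains all primes `(x - a)`, `a` a root of `p`
  reducing to `c`.
-/

set_option autoImplicit false
set_option linter.unusedSectionVars false
set_option linter.style.haveILetI false

noncomputable section

open Polynomial IsDedekindDomain WithZero

section Generic

variable {R : Type*} [CommRing R] [IsDedekindDomain R]

/-- `v = (p)`, `r = p ^ m * h`, `h ∉ v` ⟹ `v (r) = exp (-m)`. -/
theorem FA_S37_N3_intValuation_of_factor (v : HeightOneSpectrum R) {p : R} (hp : p ≠ 0)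
    (hv : v.asIdeal = Ideal.span {p}) (m : ℕ) {h : R} (hh : h ∉ v.asIdeal) :
    v.intValuation (p ^ m * h) = exp (-(m : ℤ)) := by
  have h1 : v.intValuation p = exp (-1 : ℤ) := v.intValuation_singleton hp hv
  have h2 : v.intValuation h = 1 := HeightOneSpectrum.intValuation_eq_one_iff.mpr hh
  rw [map_mul, map_pow, h1, h2, mul_one, ← exp_nsmul]
  congr 1
  simp

theorem FA_S37_N3_prod_exp {ι : Type*} (s : Finset ι) (f : ι → ℤ) :
    ∏ i ∈ s, (exp (f i) : ℤᵐ⁰) = exp (∑ i ∈ s, f i) := by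
  classical
  induction s using Finset.induction_on with
  | empty => simp
  | insert a s ha ih => rw [Finset.prod_insert ha, Finset.sum_insert ha, ih, exp_add]

end Generic

section Poly

variable {K : Type*} [Field K]

/-- The height one prime `(X - a)` of `K[X]`. -/
def FA_S37_N3_polyPrime (a : K) : HeightOneSpectrum K[X] where
  asIdeal := Ideal.span {X - C a}
  isPrime := (Ideal.span_singleton_prime (X_sub_C_ne_zero a)).mpr (prime_X_sub_C a)
  ne_bot := by
    rw [Ne, Ideal.span_singleton_eq_bot]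
    exact X_sub_C_ne_zero a

theorem FA_S37_N3_polyPrime_asIdeal (a : K) :
    (FA_S37_N3_polyPrime a).asIdeal = Ideal.span {X - C a} := rfl

theorem FA_S37_N3_mem_polyPrime {a : K} {g : K[X]} :
    g ∈ (FA_S37_N3_polyPrime a).asIdeal ↔ g.eval a = 0 := by
  rw [FA_S37_N3_polyPrime_asIdeal, Ideal.mem_span_singleton, dvd_iff_isRoot]
  rfl

/-- `v_{(X - a)} (g) = exp (- rootMultiplicity a g)`. -/
theorem FA_S37_N3_intValuation_polyPrime (a : K) {g : K[X]} (hg : g ≠ 0) :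
    (FA_S37_N3_polyPrime a).intValuation g = exp (-(g.rootMultiplicity a : ℤ)) := by
  obtain ⟨h, hgh, hnd⟩ := exists_eq_pow_rootMultiplicity_mul_and_not_dvd g hg a
  have hh : h ∉ (FA_S37_N3_polyPrime a).asIdeal := by
    rw [FA_S37_N3_polyPrime_asIdeal, Ideal.mem_span_singleton]
    exact hnd
  conv_lhs => rw [hgh]
  exact FA_S37_N3_intValuation_of_factor (FA_S37_N3_polyPrime a) (X_sub_C_ne_zero a)
    (FA_S37_N3_polyPrime_asIdeal a) _ hh

theorem FA_S37_N3_polyPrime_injective : Function.Injective (FA_S37_N3_polyPrime (K := K)) := by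
  intro a b hab
  have h1 : (X - C a : K[X]) ∈ (FA_S37_N3_polyPrime b).asIdeal := by
    rw [← hab, FA_S37_N3_polyPrime_asIdeal]
    exact Ideal.mem_span_singleton_self _
  rw [FA_S37_N3_mem_polyPrime, eval_sub, eval_X, eval_C, sub_eq_zero] at h1
  exact h1.symm

/-- Over an algebraically closed field every height one prime of `K[X]` is `(X - a)`. -/
theorem FA_S37_N3_exists_polyPrime_eq [IsAlgClosed K] (v : HeightOneSpectrum K[X]) :
    ∃ a : K, v = FA_S37_N3_polyPrime a := by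
  obtain ⟨p, hp⟩ := (IsPrincipalIdealRing.principal v.asIdeal).principal
  have hp' : v.asIdeal = Ideal.span {p} := hp
  have hp0 : p ≠ 0 := by
    intro h0
    apply v.ne_bot
    rw [hp', h0, Ideal.span_singleton_eq_bot]
  have hprime : Prime p := by
    have := v.isPrime
    rw [hp'] at this
    exact (Ideal.span_singleton_prime hp0).mp this
  have hdeg : p.degree = 1 := IsAlgClosed.degree_eq_one_of_irreducible K hprime.irreducible
  obtain ⟨a, ha⟩ : ∃ a, p.IsRoot a := IsAlgClosed.exists_root p (by rw [hdeg]; exact one_ne_zero)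
  refine ⟨a, ?_⟩
  apply HeightOneSpectrum.ext
  rw [FA_S37_N3_polyPrime_asIdeal, hp']
  have hdvd : (X - C a) ∣ p := dvd_iff_isRoot.mpr ha
  obtain ⟨u, hu⟩ := hdvd
  have hu_unit : IsUnit u := by
    rcases hprime.irreducible.isUnit_or_isUnit hu with h | h
    · exact absurd h (not_isUnit_X_sub_C a)
    · exact h
  rw [hu]
  exact Ideal.span_singleton_mul_right_unit hu_unit _

end Poly

section Abstract

variable {K : Type*} [Field K] {R : Type*} [CommRing R] [IsDedekindDomain R] [Algebra K R]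
  (x : R)

theorem FA_S37_N3_aeval_divByMonic (a : K) (g : K[X]) :
    aeval x g = (x - algebraMap K R a) * aeval x (g /ₘ (X - C a)) + algebraMap K R (g.eval a) := by
  have h := Polynomial.modByMonic_add_div g (X - C a)
  rw [modByMonic_X_sub_C_eq_C_eval] at h
  conv_lhs => rw [← h]
  simp only [map_add, map_mul, map_sub, aeval_X, aeval_C]
  ring

/-- A nonzero constant is not in a height one prime. -/
theorem FA_S37_N3_const_notMem (𝔭 : HeightOneSpectrum R) {c : K} (hc : c ≠ 0) :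
    algebraMap K R c ∉ 𝔭.asIdeal := by
  intro h
  apply 𝔭.isPrime.ne_top
  rw [Ideal.eq_top_iff_one]
  have : algebraMap K R c⁻¹ * algebraMap K R c = 1 := by
    rw [← map_mul, inv_mul_cancel₀ hc, map_one]
  rw [← this]
  exact Ideal.mul_mem_left _ _ h

theorem FA_S37_N3_aeval_mem_iff (𝔭 : HeightOneSpectrum R) {a : K}
    (ha : x - algebraMap K R a ∈ 𝔭.asIdeal) (g : K[X]) :
    aeval x g ∈ 𝔭.asIdeal ↔ g.eval a = 0 := by
  rw [FA_S37_N3_aeval_divByMonic x a g]
  constructor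
  · intro h
    by_contra hne
    apply FA_S37_N3_const_notMem 𝔭 hne
    have h2 := Ideal.mul_mem_right (aeval x (g /ₘ (X - C a))) _ ha
    have := Ideal.sub_mem _ h h2
    simpa using this
  · intro h
    rw [h, map_zero, add_zero]
    exact Ideal.mul_mem_right _ _ ha

/-- `x - a ∈ 𝔭 ⟹ 𝔭 = (x - a)`. -/
theorem FA_S37_N3_asIdeal_eq (hsurj : Function.Surjective (aeval (R := K) x))
    (𝔭 : HeightOneSpectrum R) {a : K} (ha : x - algebraMap K R a ∈ 𝔭.asIdeal) :
    𝔭.asIdeal = Ideal.span {x - algebraMap K R a} := by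
  apply le_antisymm
  · intro r hr
    obtain ⟨g, rfl⟩ := hsurj r
    have h0 := (FA_S37_N3_aeval_mem_iff x 𝔭 ha g).mp hr
    rw [FA_S37_N3_aeval_divByMonic x a g, h0, map_zero, add_zero]
    exact Ideal.mul_mem_right _ _ (Ideal.mem_span_singleton_self _)
  · rw [Ideal.span_singleton_le_iff_mem]
    exact ha

/-- Two height one primes containing the same `x - a` are equal. -/
theorem FA_S37_N3_eq_of_mem (hsurj : Function.Surjective (aeval (R := K) x))
    (𝔭 𝔭' : HeightOneSpectrum R) {a : K} (ha : x - algebraMap K R a ∈ 𝔭.asIdeal)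
    (ha' : x - algebraMap K R a ∈ 𝔭'.asIdeal) : 𝔭 = 𝔭' := by
  apply HeightOneSpectrum.ext
  rw [FA_S37_N3_asIdeal_eq x hsurj 𝔭 ha, FA_S37_N3_asIdeal_eq x hsurj 𝔭' ha']

/-- A height one prime contains at most one `x - a`. -/
theorem FA_S37_N3_const_unique (𝔭 : HeightOneSpectrum R) {a b : K}
    (ha : x - algebraMap K R a ∈ 𝔭.asIdeal) (hb : x - algebraMap K R b ∈ 𝔭.asIdeal) : a = b := by
  by_contra hne
  have hne' : b - a ≠ 0 := sub_ne_zero.mpr (Ne.symm hne)
  apply FA_S37_N3_const_notMem 𝔭 hne'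
  have := Ideal.sub_mem _ ha hb
  have e : x - algebraMap K R a - (x - algebraMap K R b) = algebraMap K R (b - a) := by
    rw [map_sub]; ring
  rwa [e] at this

/-- **Valuation at `(x - a)`**: `v_𝔭 (g (x)) = exp (- rootMultiplicity a g)`. -/
theorem FA_S37_N3_intValuation_aeval (hbij : Function.Bijective (aeval (R := K) x))
    (𝔭 : HeightOneSpectrum R) {a : K} (ha : x - algebraMap K R a ∈ 𝔭.asIdeal)
    {g : K[X]} (hg : g ≠ 0) :
    𝔭.intValuation (aeval x g) = exp (-(g.rootMultiplicity a : ℤ)) := by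
  obtain ⟨h, hgh, hnd⟩ := exists_eq_pow_rootMultiplicity_mul_and_not_dvd g hg a
  have hp0 : x - algebraMap K R a ≠ 0 := by
    intro h0
    have h1 : aeval x (X - C a : K[X]) = aeval x (0 : K[X]) := by
      rw [map_sub, aeval_X, aeval_C, h0, map_zero]
    exact X_sub_C_ne_zero a (hbij.1 h1)
  have hh : aeval x h ∉ 𝔭.asIdeal := by
    rw [FA_S37_N3_aeval_mem_iff x 𝔭 ha h]
    intro h0
    exact hnd (dvd_iff_isRoot.mpr h0)
  have e : aeval x g = (x - algebraMap K R a) ^ (g.rootMultiplicity a) * aeval x h := by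
    conv_lhs => rw [hgh]
    rw [map_mul, map_pow, map_sub, aeval_X, aeval_C]
  rw [e]
  exact FA_S37_N3_intValuation_of_factor 𝔭 hp0 (FA_S37_N3_asIdeal_eq x hbij.2 𝔭 ha) _ hh

/-- Over an algebraically closed field every height one prime of `R ≅ K[x]` contains some
`x - a`. -/
theorem FA_S37_N3_exists_sub_mem [IsAlgClosed K] (hbij : Function.Bijective (aeval (R := K) x))
    (𝔭 : HeightOneSpectrum R) : ∃ a : K, x - algebraMap K R a ∈ 𝔭.asIdeal := by
  obtain ⟨r, hr, hr0⟩ : ∃ r ∈ 𝔭.asIdeal, r ≠ 0 := by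
    by_contra hcon
    apply 𝔭.ne_bot
    rw [eq_bot_iff]
    intro r hr
    by_contra hr0
    exact hcon ⟨r, hr, hr0⟩
  obtain ⟨g, rfl⟩ := hbij.2 r
  have hg0 : g ≠ 0 := by
    rintro rfl
    exact hr0 (map_zero _)
  -- `g` splits: induct on the number of roots
  have hsplit := IsAlgClosed.splits g
  have hprod := hsplit.eq_prod_roots
  rw [hprod, map_mul, aeval_C, map_multiset_prod] at hr
  have hlc : algebraMap K R g.leadingCoeff ∉ 𝔭.asIdeal :=
    FA_S37_N3_const_notMem 𝔭 (leadingCoeff_ne_zero.mpr hg0)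
  have h2 := (𝔭.isPrime.mem_or_mem hr).resolve_left hlc
  rw [Multiset.map_map] at h2
  obtain ⟨y, hy, hy𝔭⟩ := (𝔭.isPrime.multiset_prod_mem_iff_exists_mem _).mp h2
  obtain ⟨a, _, rfl⟩ := Multiset.mem_map.mp hy
  refine ⟨a, ?_⟩
  simpa using hy𝔭

end Abstract

section BaseFI

/-- Counting: distinct elements satisfying `P` contribute at most `countP P`. -/
theorem FA_S37_N3_sum_count_le {α : Type*} [DecidableEq α] (M : Multiset α) (P : α → Prop)
    [DecidablePred P] (S : Finset α) (hS : ∀ a ∈ S, P a) :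
    ∑ a ∈ S, M.count a ≤ M.countP P := by
  have h1 : ∀ a ∈ S, M.count a = (M.filter P).count a := fun a ha => by
    rw [Multiset.count_filter_of_pos (hS a ha)]
  rw [Finset.sum_congr rfl h1, Multiset.countP_eq_card_filter]
  calc ∑ a ∈ S, (M.filter P).count a
      ≤ ∑ a ∈ S ∪ (M.filter P).toFinset, (M.filter P).count a :=
        Finset.sum_le_sum_of_subset Finset.subset_union_left
    _ = Multiset.card (M.filter P) :=
        Multiset.sum_count_eq_card fun a ha => Finset.mem_union_right _ (Multiset.mem_toFinset.mpr ha)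

/-- Counting, equality: if `S` contains all elements of `M` satisfying `P`. -/
theorem FA_S37_N3_sum_count_eq {α : Type*} [DecidableEq α] (M : Multiset α) (P : α → Prop)
    [DecidablePred P] (S : Finset α) (hS : ∀ a ∈ S, P a) (hall : ∀ a ∈ M, P a → a ∈ S) :
    ∑ a ∈ S, M.count a = M.countP P := by
  have h1 : ∀ a ∈ S, M.count a = (M.filter P).count a := fun a ha => by
    rw [Multiset.count_filter_of_pos (hS a ha)]
  rw [Finset.sum_congr rfl h1, Multiset.countP_eq_card_filter]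
  exact Multiset.sum_count_eq_card fun a ha =>
    hall a (Multiset.mem_of_mem_filter ha) (Multiset.of_mem_filter ha)

variable {K₀ k : Type*} [Field K₀] [IsAlgClosed K₀] [Field k]
  (A : ValuationSubring K₀) (π : A →+* k)
  {R Rb : Type*} [CommRing R] [IsDedekindDomain R] [Algebra K₀ R] [CommRing Rb]
  [IsDedekindDomain Rb] [Algebra k Rb]

/-- **The base fibre inequality.**  `R ≅ K₀[x]`, `Rb ≅ k[x̄]`, `p ∈ A[X]` with `p̄ ≠ 0`, `𝔮` a
height one prime of `Rb`, `T` a finite set of height one primes `𝔭 = (x - a)`, `a ∈ A`, lying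
over `𝔮` (i.e. `x̄ - ā ∈ 𝔮`).  Then `v_𝔮 (p̄ (x̄)) ≤ ∏_{𝔭 ∈ T} v_𝔭 (p (x))`. -/
theorem FA_S37_N3_baseFI (hπ : ∀ a ∈ IsLocalRing.maximalIdeal A, π a = 0)
    (x : R) (xb : Rb) (hx : Function.Bijective (Polynomial.aeval (R := K₀) x))
    (hxb : Function.Bijective (Polynomial.aeval (R := k) xb))
    (p : A[X]) (hp : p.map π ≠ 0) (𝔮 : HeightOneSpectrum Rb) (T : Finset (HeightOneSpectrum R))
    (hT : ∀ 𝔭 ∈ T, ∃ a : A, x - algebraMap K₀ R a ∈ 𝔭.asIdeal ∧
      xb - algebraMap k Rb (π a) ∈ 𝔮.asIdeal) :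
    𝔮.intValuation (Polynomial.aeval xb (p.map π))
      ≤ ∏ 𝔭 ∈ T, 𝔭.intValuation (Polynomial.aeval x (p.map A.subtype)) := by
  classical
  rcases T.eq_empty_or_nonempty with rfl | ⟨𝔭₀, h𝔭₀⟩
  · rw [Finset.prod_empty]
    exact 𝔮.intValuation_le_one _
  choose! a ha hab using hT
  set c : k := π (a 𝔭₀) with hc_def
  have hc : ∀ 𝔭 ∈ T, π (a 𝔭) = c := fun 𝔭 h𝔭 =>
    FA_S37_N3_const_unique xb 𝔮 (hab 𝔭 h𝔭) (hab 𝔭₀ h𝔭₀)
  set g : K₀[X] := p.map A.subtype with hg_def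
  have hg0 : g ≠ 0 := by
    intro h0
    apply hp
    have : p = 0 := (Polynomial.map_eq_zero_iff A.subtype_injective).mp h0
    rw [this, Polynomial.map_zero]
  have hL : 𝔮.intValuation (aeval xb (p.map π)) = exp (-((p.map π).rootMultiplicity c : ℤ)) :=
    FA_S37_N3_intValuation_aeval xb hxb 𝔮 (hab 𝔭₀ h𝔭₀) hp
  have hR : ∀ 𝔭 ∈ T, 𝔭.intValuation (aeval x g)
      = exp (-(g.rootMultiplicity ((a 𝔭 : A) : K₀) : ℤ)) :=
    fun 𝔭 h𝔭 => FA_S37_N3_intValuation_aeval x hx 𝔭 (ha 𝔭 h𝔭) hg0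
  rw [hL, Finset.prod_congr rfl hR, FA_S37_N3_prod_exp, exp_le_exp, Finset.sum_neg_distrib,
    neg_le_neg_iff, ← Nat.cast_sum, Nat.cast_le]
  have hroot := FA_S37_RC.rootMultiplicity_map_of_isAlgClosed A π hπ p hp c
  have hinj : Set.InjOn (fun 𝔭 : HeightOneSpectrum R => ((a 𝔭 : A) : K₀)) T := by
    intro 𝔭 h𝔭 𝔭' h𝔭' h
    have h' : ((a 𝔭 : A) : K₀) = ((a 𝔭' : A) : K₀) := h
    have h1 := ha 𝔭 h𝔭
    rw [h'] at h1
    exact FA_S37_N3_eq_of_mem x hx.2 𝔭 𝔭' h1 (ha 𝔭' h𝔭')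
  have hsum : ∑ 𝔭 ∈ T, g.rootMultiplicity ((a 𝔭 : A) : K₀)
      = ∑ b ∈ T.image (fun 𝔭 : HeightOneSpectrum R => ((a 𝔭 : A) : K₀)), g.roots.count b := by
    rw [Finset.sum_image hinj]
    exact Finset.sum_congr rfl fun 𝔭 _ => (count_roots g).symm
  rw [hsum, hroot]
  refine FA_S37_N3_sum_count_le _ _ _ ?_
  intro b hb
  obtain ⟨𝔭, h𝔭, rfl⟩ := Finset.mem_image.mp hb
  exact (FA_S37_RC.hits_coe A π c (a 𝔭)).mpr (hc 𝔭 h𝔭)

/-- **The base fibre formula** (equality): if moreover every root `b ∈ A` of `p` with `π b = c`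
has its prime `(x - b)` in `T` (and `x̄ - c ∈ 𝔮`), then
`v_𝔮 (p̄ (x̄)) = ∏_{𝔭 ∈ T} v_𝔭 (p (x))`. -/
theorem FA_S37_N3_baseFI_eq (hπ : ∀ a ∈ IsLocalRing.maximalIdeal A, π a = 0)
    (x : R) (xb : Rb) (hx : Function.Bijective (Polynomial.aeval (R := K₀) x))
    (hxb : Function.Bijective (Polynomial.aeval (R := k) xb))
    (p : A[X]) (hp : p.map π ≠ 0) (𝔮 : HeightOneSpectrum Rb) (c : k)
    (hc𝔮 : xb - algebraMap k Rb c ∈ 𝔮.asIdeal) (T : Finset (HeightOneSpectrum R))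
    (hT : ∀ 𝔭 ∈ T, ∃ a : A, x - algebraMap K₀ R a ∈ 𝔭.asIdeal ∧ π a = c)
    (hall : ∀ b : A, (p.map A.subtype).IsRoot (b : K₀) → π b = c →
      ∃ 𝔭 ∈ T, x - algebraMap K₀ R (b : K₀) ∈ 𝔭.asIdeal) :
    𝔮.intValuation (Polynomial.aeval xb (p.map π))
      = ∏ 𝔭 ∈ T, 𝔭.intValuation (Polynomial.aeval x (p.map A.subtype)) := by
  classical
  choose! a ha hac using hT
  set g : K₀[X] := p.map A.subtype with hg_def
  have hg0 : g ≠ 0 := by
    intro h0
    apply hp
    have : p = 0 := (Polynomial.map_eq_zero_iff A.subtype_injective).mp h0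
    rw [this, Polynomial.map_zero]
  have hL : 𝔮.intValuation (aeval xb (p.map π)) = exp (-((p.map π).rootMultiplicity c : ℤ)) :=
    FA_S37_N3_intValuation_aeval xb hxb 𝔮 hc𝔮 hp
  have hR : ∀ 𝔭 ∈ T, 𝔭.intValuation (aeval x g)
      = exp (-(g.rootMultiplicity ((a 𝔭 : A) : K₀) : ℤ)) :=
    fun 𝔭 h𝔭 => FA_S37_N3_intValuation_aeval x hx 𝔭 (ha 𝔭 h𝔭) hg0
  rw [hL, Finset.prod_congr rfl hR, FA_S37_N3_prod_exp, exp_inj, Finset.sum_neg_distrib,
    neg_inj, ← Nat.cast_sum, Nat.cast_inj]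
  have hroot := FA_S37_RC.rootMultiplicity_map_of_isAlgClosed A π hπ p hp c
  have hinj : Set.InjOn (fun 𝔭 : HeightOneSpectrum R => ((a 𝔭 : A) : K₀)) T := by
    intro 𝔭 h𝔭 𝔭' h𝔭' h
    have h' : ((a 𝔭 : A) : K₀) = ((a 𝔭' : A) : K₀) := h
    have h1 := ha 𝔭 h𝔭
    rw [h'] at h1
    exact FA_S37_N3_eq_of_mem x hx.2 𝔭 𝔭' h1 (ha 𝔭' h𝔭')
  have hsum : ∑ 𝔭 ∈ T, g.rootMultiplicity ((a 𝔭 : A) : K₀)
      = ∑ b ∈ T.image (fun 𝔭 : HeightOneSpectrum R => ((a 𝔭 : A) : K₀)), g.roots.count b := by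
    rw [Finset.sum_image hinj]
    exact Finset.sum_congr rfl fun 𝔭 _ => (count_roots g).symm
  rw [hsum, hroot]
  symm
  refine FA_S37_N3_sum_count_eq _ _ _ ?_ ?_
  · intro b hb
    obtain ⟨𝔭, h𝔭, rfl⟩ := Finset.mem_image.mp hb
    exact (FA_S37_RC.hits_coe A π c (a 𝔭)).mpr (hac 𝔭 h𝔭)
  · intro b hb hhit
    obtain ⟨hbA, hbc⟩ := hhit
    have hroot_b : g.IsRoot b := (mem_roots hg0).mp hb
    obtain ⟨𝔭, h𝔭, h𝔭b⟩ := hall ⟨b, hbA⟩ hroot_b hbc
    refine Finset.mem_image.mpr ⟨𝔭, h𝔭, ?_⟩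
    exact FA_S37_N3_const_unique x 𝔭 (ha 𝔭 h𝔭) h𝔭b

end BaseFI
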