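import Fermat.Agent.S37.Bounded
import Fermat.Prelude.Def_AlgebraicCurve_BaseChangeGalois

/-!
# S37, leaf BD (second part): Galois equivariance (B) and Eichler–Shimura (D) on degree-zero
divisors from their validity on principal divisors

Abstract setting.  `F / K` a function field over an algebraically closed field of characteristic
zero, `F' / k` any field extension (the reduced function field), `ρ : Div F →+ Div F'` a
"reduction of divisors" and `U f f'` a relation "`f` is a (Gauss) unit with reduction `f'`" with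

* `div`   : `U f f'` and `D = div f` imply `ρ D = div f'`;
* `gen`   : every principal divisor is `div f` with `U f f'` for some `f'` (scaling);
* `bound` : the coefficients of `ρ (single P 1)` are bounded.

Then (`FA_S37_BD_equivariant`) `ρ (g • D) = g' • ρ D` for `deg D = 0` as soon as `U` is stable
under `(g, g')`, and (`FA_S37_BD_ES`) `ρ (T D) = φ • ρ D + ℓ • (φ⁻¹ • ρ D)` for `deg D = 0` as soon
as `T (div f) = div (N f)` and `U f f' → U (N f) ((φ • f') * (φ⁻¹ • f') ^ ℓ)`.
-/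

set_option autoImplicit false
set_option linter.unusedSectionVars false
set_option linter.style.haveILetI false

noncomputable section

namespace Fermat.Agent.S37

open AlgebraicCurve

variable {K F : Type*} [Field K] [Field F] [Algebra K F] [IsAlgClosed K] [CharZero K]
variable {k F' : Type*} [Field k] [Field F'] [Algebra k F']

/-- Abstract reduction datum on divisors. -/
structure FA_S37_BD_Red (ρ : Divisor K F →+ Divisor k F') (U : F → F' → Prop) : Prop where
  ne_zero : ∀ f f', U f f' → f' ≠ 0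
  div : ∀ f f', U f f' → ∀ D : Divisor K F, (∀ P : Place K F, D P = P.ord f) →
    ∀ Q : Place k F', ρ D Q = Q.ord f'
  gen : ∀ D ∈ Divisor.principal (K := K) (F := F), ∃ f f', U f f' ∧ ∀ P : Place K F, D P = P.ord f
  bound : ∃ C : ℤ, ∀ (P : Place K F) (Q : Place k F'), |ρ (Finsupp.single P 1) Q| ≤ C

/-- `div (g • f) = g • div f` in coordinates. -/
theorem FA_S37_BD_ord_smul_inv {k₀ F₀ : Type*} [Field k₀] [Field F₀] [Algebra k₀ F₀]
    (g : SemilinearAut k₀ F₀) (Q : Place k₀ F₀) (f : F₀) :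
    Q.ord (g • f) = (g⁻¹ • Q).ord f := by
  have h := SemilinearAut.ord_smul g (g⁻¹ • Q) f
  rw [smul_inv_smul] at h
  exact h

/-- **(B)** Galois equivariance of the reduction on divisors of degree zero. -/
theorem FA_S37_BD_equivariant (hF : FA_RR_IsFF K F) {ρ : Divisor K F →+ Divisor k F'}
    {U : F → F' → Prop} (h : FA_S37_BD_Red ρ U)
    (g : SemilinearAut K F) (g' : SemilinearAut k F')
    (hg : ∀ f f', U f f' → U (g • f) (g' • f'))
    (D : Divisor K F) (hD : Divisor.degree D = 0) :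
    ρ (g • D) = g' • ρ D := by
  obtain ⟨C, hC⟩ := h.bound
  set Ψ : Divisor K F →+ Divisor k F' :=
    ρ.comp (DistribSMul.toAddMonoidHom (Divisor K F) g) -
      (DistribSMul.toAddMonoidHom (Divisor k F') g').comp ρ with hΨ
  have hΨapp : ∀ E : Divisor K F, Ψ E = ρ (g • E) - g' • ρ E := fun E => rfl
  have hprin : ∀ E ∈ Divisor.principal (K := K) (F := F), Ψ E = 0 := by
    intro E hE
    obtain ⟨f, f', hU, hEf⟩ := h.gen E hE
    rw [hΨapp, sub_eq_zero]
    ext Q
    have h1 : ∀ P : Place K F, (g • E) P = P.ord (g • f) := by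
      intro P
      rw [SemilinearAut.divisor_smul_apply, hEf, FA_S37_BD_ord_smul_inv]
    rw [h.div _ _ (hg f f' hU) (g • E) h1 Q, SemilinearAut.divisor_smul_apply,
      h.div _ _ hU E hEf, FA_S37_BD_ord_smul_inv]
  have hbd : ∀ (P : Place K F) (Q : Place k F'), |Ψ (Finsupp.single P 1) Q| ≤ C + C := by
    intro P Q
    rw [hΨapp, Finsupp.sub_apply, SemilinearAut.smul_single, SemilinearAut.divisor_smul_apply]
    have h1 := hC (g • P) Q
    have h2 := hC P (g'⁻¹ • Q)
    have h3 := abs_sub (ρ (Finsupp.single (g • P) 1) Q) (ρ (Finsupp.single P 1) (g'⁻¹ • Q))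
    linarith
  have := FA_S37_BD_vanish hF Ψ hprin (C + C) hbd D hD
  rw [hΨapp, sub_eq_zero] at this
  exact this

/-- **(D)** Eichler–Shimura relation on divisors of degree zero, from the norm congruence. -/
theorem FA_S37_BD_ES (hF : FA_RR_IsFF K F) {ρ : Divisor K F →+ Divisor k F'}
    {U : F → F' → Prop} (h : FA_S37_BD_Red ρ U)
    (T : Divisor K F →+ Divisor K F) (N : F → F)
    (hT : ∀ f f', U f f' → ∀ D : Divisor K F, (∀ P : Place K F, D P = P.ord f) →
      ∀ P : Place K F, T D P = P.ord (N f))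
    (CT : ℤ) (hTbd : ∀ (P : Place K F) (Q : Place k F'), |ρ (T (Finsupp.single P 1)) Q| ≤ CT)
    (φ : SemilinearAut k F') (ℓ : ℕ)
    (hN : ∀ f f', U f f' → U (N f) ((φ • f') * (φ⁻¹ • f') ^ ℓ))
    (D : Divisor K F) (hD : Divisor.degree D = 0) :
    ρ (T D) = φ • ρ D + ℓ • (φ⁻¹ • ρ D) := by
  obtain ⟨C, hC⟩ := h.bound
  set S : Divisor k F' →+ Divisor k F' :=
    DistribSMul.toAddMonoidHom (Divisor k F') φ +
      ℓ • DistribSMul.toAddMonoidHom (Divisor k F') φ⁻¹ with hS
  have hSapp : ∀ E : Divisor k F', S E = φ • E + ℓ • (φ⁻¹ • E) := fun E => rfl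
  set Ψ : Divisor K F →+ Divisor k F' := ρ.comp T - S.comp ρ with hΨ
  have hΨapp : ∀ E : Divisor K F, Ψ E = ρ (T E) - (φ • ρ E + ℓ • (φ⁻¹ • ρ E)) := fun E => rfl
  have hprin : ∀ E ∈ Divisor.principal (K := K) (F := F), Ψ E = 0 := by
    intro E hE
    obtain ⟨f, f', hU, hEf⟩ := h.gen E hE
    rw [hΨapp, sub_eq_zero]
    ext Q
    have hf' : f' ≠ 0 := h.ne_zero f f' hU
    have h1 : φ • f' ≠ 0 := by
      rw [SemilinearAut.smul_def]
      exact (map_ne_zero_iff _ (SemilinearAut.toRingAut φ).injective).mpr hf'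
    have h2 : φ⁻¹ • f' ≠ 0 := by
      rw [SemilinearAut.smul_def]
      exact (map_ne_zero_iff _ (SemilinearAut.toRingAut φ⁻¹).injective).mpr hf'
    rw [h.div _ _ (hN f f' hU) (T E) (hT f f' hU E hEf) Q, Q.ord_mul h1 (pow_ne_zero _ h2),
      ← zpow_natCast, Q.ord_zpow, Finsupp.add_apply, Finsupp.smul_apply,
      SemilinearAut.divisor_smul_apply, SemilinearAut.divisor_smul_apply,
      h.div _ _ hU E hEf, h.div _ _ hU E hEf, FA_S37_BD_ord_smul_inv, FA_S37_BD_ord_smul_inv,
      nsmul_eq_mul]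
  have hbd : ∀ (P : Place K F) (Q : Place k F'),
      |Ψ (Finsupp.single P 1) Q| ≤ CT + (C + ℓ * C) := by
    intro P Q
    rw [hΨapp, Finsupp.sub_apply, Finsupp.add_apply, Finsupp.smul_apply,
      SemilinearAut.divisor_smul_apply, SemilinearAut.divisor_smul_apply, nsmul_eq_mul]
    have h1 := hTbd P Q
    have h2 := hC P (φ⁻¹ • Q)
    have h3 := hC P (φ⁻¹⁻¹ • Q)
    have hℓ : (0 : ℤ) ≤ (ℓ : ℤ) := Int.natCast_nonneg _
    have h4 : |(ℓ : ℤ) * ρ (Finsupp.single P 1) (φ⁻¹⁻¹ • Q)| ≤ ℓ * C := by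
      rw [abs_mul, abs_of_nonneg hℓ]
      exact mul_le_mul_of_nonneg_left h3 hℓ
    have h5 := abs_sub (ρ (T (Finsupp.single P 1)) Q)
      (ρ (Finsupp.single P 1) (φ⁻¹ • Q) + (ℓ : ℤ) * ρ (Finsupp.single P 1) (φ⁻¹⁻¹ • Q))
    have h6 := abs_add_le (ρ (Finsupp.single P 1) (φ⁻¹ • Q))
      ((ℓ : ℤ) * ρ (Finsupp.single P 1) (φ⁻¹⁻¹ • Q))
    linarith
  have := FA_S37_BD_vanish hF Ψ hprin _ hbd D hD
  rw [hΨapp, sub_eq_zero] at this
  exact this

end Fermat.Agent.S37
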