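import Fermat.Agent.S18.CuspDescent
import Fermat.Agent.S28.Unit
import Fermat.Prelude.Def_ModularCurve_X0ModL

/-!
# S37, leaf CG: the norm congruence (reduction of the conjugates identity)

`β = qExpand ℓ`, `tw_b` = twist by `ζ ^ b` (`ζ` a primitive `ℓ`-th root of unity), `Frob` the
coefficientwise Frobenius of `k((q))`, `char k = ℓ`.

* `FA_S37_CG_pow_char` : `g ^ ℓ = β (Frob g)` for every Laurent series `g` over `k`;
* `FA_S37_CG_qExpand_char` : `β g = (Frob⁻¹ g) ^ ℓ` (`k` perfect);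
* `FA_S37_CG_red_tw` : the reduction of a twist by an `ℓ`-th root of unity of `A` is the
  reduction;
* `FA_S37_CG_core` : if `f` is Gauss-integral and `β Nf = β (β f) · ∏_b y b` with `y b`
  Gauss-integral of reduction `red f`, then `Nf` is Gauss-integral and
  `red Nf = (Frob⁻¹ f̄) ^ ℓ · Frob f̄`;
* `FA_S37_CG_main` : the same for `y b = tw_b f`.
-/

set_option autoImplicit false
set_option linter.unusedSectionVars false
set_option linter.style.haveILetI false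

noncomputable section

namespace Fermat.Agent.S37

open ModularCurve Fermat.Agent.S18 Fermat.Agent.S28

section CharL

variable {k : Type} [Field k] (ℓ : ℕ) [hℓ : Fact ℓ.Prime] [CharP k ℓ]

/-- `P ^ ℓ = Frob (P (X ^ ℓ))` for power series in characteristic `ℓ`. -/
theorem FA_S37_CG_ps_pow (P : PowerSeries k) :
    P ^ ℓ = (PowerSeries.expand ℓ hℓ.out.ne_zero P).map (frobenius k ℓ) := by
  haveI : ExpChar k ℓ := ExpChar.prime hℓ.out
  exact (MvPowerSeries.map_frobenius_expand ℓ hℓ.out.ne_zero (f := P)).symm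

/-- `coeffMap` along an injective ring homomorphism is injective. -/
theorem FA_S37_CG_coeffMap_injective {R S : Type*} [CommRing R] [CommRing S] (φ : R →+* S)
    (hφ : Function.Injective φ) : Function.Injective (coeffMap φ) := by
  intro x y h
  ext n
  have := congrArg (fun z => z.coeff n) h
  simp only [coeffMap_coeff] at this
  exact hφ this

/-- **Frobenius on Laurent series**: `g ^ ℓ = β (Frob g)` in characteristic `ℓ`. -/
theorem FA_S37_CG_pow_char (g : LaurentSeries k) :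
    haveI : NeZero ℓ := ⟨hℓ.out.ne_zero⟩
    g ^ ℓ = qExpand k ℓ (coeffMap (frobenius k ℓ) g) := by
  haveI : NeZero ℓ := ⟨hℓ.out.ne_zero⟩
  show g ^ ℓ = qExpand k ℓ (coeffMap (frobenius k ℓ) g)
  have hg := LaurentSeries.single_order_mul_powerSeriesPart g
  generalize g.order = o at hg
  generalize g.powerSeriesPart = P at hg
  subst hg
  have hs : (HahnSeries.single o (1 : k)) ^ ℓ = HahnSeries.single ((ℓ : ℤ) * o) (1 : k) := by
    rw [HahnSeries.single_pow, one_pow, nsmul_eq_mul]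
  have hP : (HahnSeries.ofPowerSeries ℤ k P) ^ ℓ
      = qExpand k ℓ (coeffMap (frobenius k ℓ) (HahnSeries.ofPowerSeries ℤ k P)) := by
    rw [coeffMap_ofPowerSeries, FA_S28_unit_qExpand_ofPowerSeries, ← map_pow,
      FA_S37_CG_ps_pow ℓ, PowerSeries.map_expand]
  rw [mul_pow, hs, hP, map_mul, map_mul, coeffMap_single, qExpand_single,
    map_one (frobenius k ℓ)]

/-- `β g = (Frob⁻¹ g) ^ ℓ` over a perfect field of characteristic `ℓ`. -/
theorem FA_S37_CG_qExpand_char [PerfectRing k ℓ] (g : LaurentSeries k) :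
    haveI : NeZero ℓ := ⟨hℓ.out.ne_zero⟩
    qExpand k ℓ g = (coeffMap ((frobeniusEquiv k ℓ).symm : k →+* k) g) ^ ℓ := by
  haveI : NeZero ℓ := ⟨hℓ.out.ne_zero⟩
  show qExpand k ℓ g = (coeffMap ((frobeniusEquiv k ℓ).symm : k →+* k) g) ^ ℓ
  rw [FA_S37_CG_pow_char ℓ, coeffMap_coeffMap]
  congr 1
  have e : (frobenius k ℓ).comp ((frobeniusEquiv k ℓ).symm : k →+* k) = RingHom.id k := by
    apply RingHom.ext
    intro x
    show frobenius k ℓ ((frobeniusEquiv k ℓ).symm x) = x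
    exact frobenius_apply_frobeniusEquiv_symm k ℓ x
  rw [coeffMap_congr e, coeffMap_id]

end CharL

section Gauss

variable {K : Type} [Field K] (A : ValuationSubring K) {k : Type} [Field k] (π : A →+* k)
  (ℓ : ℕ) [hℓ : Fact ℓ.Prime] [CharP k ℓ]

/-- An `ℓ`-th root of unity of `A` reduces to `1` in characteristic `ℓ`. -/
theorem FA_S37_CG_pi_root (ζ : Aˣ) (hζ : ζ ^ ℓ = 1) : π (ζ : A) = 1 := by
  have h1 : (π (ζ : A)) ^ ℓ = 1 := by
    rw [← map_pow, ← Units.val_pow_eq_pow_val, hζ, Units.val_one, map_one]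
  have h2 : (π (ζ : A) - 1) ^ ℓ = 0 := by
    rw [sub_pow_char, h1, one_pow, sub_self]
  exact sub_eq_zero.mp (pow_eq_zero_iff hℓ.out.ne_zero |>.mp h2)

/-- The reduction of the twist by an `ℓ`-th root of unity is the reduction. -/
theorem FA_S37_CG_red_tw (ζ : Aˣ) (hζ : ζ ^ ℓ = 1) {y : LaurentSeries K}
    (h : FA_S18_B_IsInt A π y) :
    FA_S18_B_red A π (FA_S18_CUE_tw (FA_S18_CUE_uK A ζ) y) = FA_S18_B_red A π y := by
  rw [FA_S18_CUE_red_tw ζ h]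
  have e : FA_S18_CUE_uk A π ζ = 1 := by
    apply Units.ext
    show π (ζ : A) = 1
    exact FA_S37_CG_pi_root A π ℓ ζ hζ
  rw [e, FA_S18_CUE_tw_one]

theorem FA_S37_CG_isInt_prod {ι : Type*} (s : Finset ι) (y : ι → LaurentSeries K)
    (h : ∀ i ∈ s, FA_S18_B_IsInt A π (y i)) : FA_S18_B_IsInt A π (∏ i ∈ s, y i) :=
  (FA_S18_B_ring A π).prod_mem h

theorem FA_S37_CG_red_prod {ι : Type*} (s : Finset ι) (y : ι → LaurentSeries K)
    (h : ∀ i ∈ s, FA_S18_B_IsInt A π (y i)) :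
    FA_S18_B_red A π (∏ i ∈ s, y i) = ∏ i ∈ s, FA_S18_B_red A π (y i) := by
  classical
  induction s using Finset.induction_on with
  | empty => simpa using FA_S18_B_red_one (A := A) (π := π)
  | insert a s ha ih =>
    rw [Finset.prod_insert ha, Finset.prod_insert ha,
      FA_S18_B_red_mul (h a (Finset.mem_insert_self a s))
        (FA_S37_CG_isInt_prod A π s y fun i hi => h i (Finset.mem_insert_of_mem hi)),
      ih fun i hi => h i (Finset.mem_insert_of_mem hi)]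

/-- **The norm congruence, abstract form.**  `β Nf = β (β f) · ∏_b y b`, `y b` Gauss-integral
of reduction `f̄` (`ℓ` of them) ⟹ `Nf` is Gauss-integral and
`red Nf = (Frob⁻¹ f̄) ^ ℓ · Frob f̄`. -/
theorem FA_S37_CG_core [PerfectRing k ℓ] (ζ : Kˣ) (hζ : IsPrimitiveRoot ζ ℓ) (hℓK : (ℓ : K) ≠ 0)
    {f Nf : LaurentSeries K} (hf : FA_S18_B_IsInt A π f) (y : Fin ℓ → LaurentSeries K)
    (hy : ∀ b, FA_S18_B_IsInt A π (y b))
    (hyr : ∀ b, FA_S18_B_red A π (y b) = FA_S18_B_red A π f)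
    (hid : haveI : NeZero ℓ := ⟨hℓ.out.ne_zero⟩
      qExpand K ℓ Nf = qExpand K ℓ (qExpand K ℓ f) * ∏ b : Fin ℓ, y b) :
    FA_S18_B_IsInt A π Nf ∧
      FA_S18_B_red A π Nf
        = (coeffMap ((frobeniusEquiv k ℓ).symm : k →+* k) (FA_S18_B_red A π f)) ^ ℓ
          * coeffMap (frobenius k ℓ) (FA_S18_B_red A π f) := by
  haveI : NeZero ℓ := ⟨hℓ.out.ne_zero⟩
  have hid' : qExpand K ℓ Nf = qExpand K ℓ (qExpand K ℓ f) * ∏ b : Fin ℓ, y b := hid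
  have h1 : FA_S18_B_IsInt A π (qExpand K ℓ (qExpand K ℓ f)) :=
    FA_S18_CUE_isInt_qExpand ℓ (FA_S18_CUE_isInt_qExpand ℓ hf)
  have h2 : FA_S18_B_IsInt A π (∏ b : Fin ℓ, y b) :=
    FA_S37_CG_isInt_prod A π _ y fun b _ => hy b
  have h3 : FA_S18_B_IsInt A π (qExpand K ℓ Nf) := by
    rw [hid']
    exact FA_S18_B_isInt_mul h1 h2
  have hN : FA_S18_B_IsInt A π Nf := FA_S18_CUE_isInt_of_qExpand ℓ ζ hζ hℓK h3
  refine ⟨hN, ?_⟩
  apply qExpand_injective (R := k) ℓ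
  rw [← FA_S18_CUE_red_qExpand ℓ hN, hid', FA_S18_B_red_mul h1 h2,
    FA_S18_CUE_red_qExpand ℓ (FA_S18_CUE_isInt_qExpand ℓ hf), FA_S18_CUE_red_qExpand ℓ hf,
    FA_S37_CG_red_prod A π _ y (fun b _ => hy b), map_mul]
  congr 1
  · rw [FA_S37_CG_qExpand_char ℓ (FA_S18_B_red A π f)]
  · rw [Finset.prod_congr rfl (fun b _ => hyr b), Finset.prod_const, Finset.card_univ,
      Fintype.card_fin]
    exact FA_S37_CG_pow_char ℓ _

/-- **The norm congruence** for the twists `y b = tw_{ζ^b} f`, `ζ ∈ Aˣ` a primitive `ℓ`-th root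
of unity. -/
theorem FA_S37_CG_main [PerfectRing k ℓ] (ζ : Aˣ) (hζ : IsPrimitiveRoot (FA_S18_CUE_uK A ζ) ℓ)
    (hℓK : (ℓ : K) ≠ 0) {f Nf : LaurentSeries K} (hf : FA_S18_B_IsInt A π f)
    (hid : haveI : NeZero ℓ := ⟨hℓ.out.ne_zero⟩
      qExpand K ℓ Nf = qExpand K ℓ (qExpand K ℓ f)
        * ∏ b : Fin ℓ, FA_S18_CUE_tw (FA_S18_CUE_uK A ζ ^ (b : ℕ)) f) :
    FA_S18_B_IsInt A π Nf ∧
      FA_S18_B_red A π Nf
        = (coeffMap ((frobeniusEquiv k ℓ).symm : k →+* k) (FA_S18_B_red A π f)) ^ ℓ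
          * coeffMap (frobenius k ℓ) (FA_S18_B_red A π f) := by
  have hζA : ζ ^ ℓ = 1 := by
    apply Units.ext
    apply Subtype.ext
    have := congrArg (fun u : Kˣ => (u : K)) hζ.pow_eq_one
    simpa using this
  have hpow : ∀ b : ℕ, FA_S18_CUE_uK A ζ ^ b = FA_S18_CUE_uK A (ζ ^ b) := fun b =>
    (map_pow (Units.map A.subtype.toMonoidHom) ζ b).symm
  have hb1 : ∀ b : ℕ, (ζ ^ b) ^ ℓ = 1 := fun b => by
    rw [← pow_mul, mul_comm, pow_mul, hζA, one_pow]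
  refine FA_S37_CG_core A π ℓ (FA_S18_CUE_uK A ζ) hζ hℓK hf
    (fun b => FA_S18_CUE_tw (FA_S18_CUE_uK A ζ ^ (b : ℕ)) f) (fun b => ?_) (fun b => ?_) hid
  · rw [hpow]
    exact FA_S18_CUE_isInt_tw (ζ ^ (b : ℕ)) hf
  · rw [hpow]
    exact FA_S37_CG_red_tw A π ℓ (ζ ^ (b : ℕ)) (hb1 b) hf

/-- An `ℓ`-th root of unity of `K` lies in `Aˣ`. -/
theorem FA_S37_CG_zeta_mem (ζ : Kˣ) (hζ : ζ ^ ℓ = 1) : ∃ ζA : Aˣ, FA_S18_CUE_uK A ζA = ζ := by
  have hpos : 0 < ℓ := hℓ.out.pos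
  have h1 : (ζ : K) ^ ℓ = 1 := by
    rw [← Units.val_pow_eq_pow_val, hζ, Units.val_one]
  have hinv : (ζ : K)⁻¹ = (ζ : K) ^ (ℓ - 1) := by
    apply inv_eq_of_mul_eq_one_right
    rw [← pow_succ', Nat.sub_add_cancel hpos, h1]
  have hinv' : (ζ : K) = ((ζ : K)⁻¹) ^ (ℓ - 1) := by
    rw [inv_pow]
    apply eq_inv_of_mul_eq_one_right
    rw [← pow_succ, Nat.sub_add_cancel hpos, h1]
  have hmem : (ζ : K) ∈ A := by
    rcases A.mem_or_inv_mem (ζ : K) with h | h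
    · exact h
    · rw [hinv']
      exact pow_mem h _
  have hmem' : (ζ : K)⁻¹ ∈ A := by
    rw [hinv]
    exact pow_mem hmem _
  refine ⟨⟨⟨(ζ : K), hmem⟩, ⟨(ζ : K)⁻¹, hmem'⟩, ?_, ?_⟩, ?_⟩
  · apply Subtype.ext
    show (ζ : K) * (ζ : K)⁻¹ = 1
    exact mul_inv_cancel₀ ζ.ne_zero
  · apply Subtype.ext
    show (ζ : K)⁻¹ * (ζ : K) = 1
    exact inv_mul_cancel₀ ζ.ne_zero
  · apply Units.ext
    rfl

/-- **The norm congruence, Gauss form, with the conjugates identity in the form of leaf CJ**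
(`qExpand (ℓ * ℓ)`, product over `Finset.range ℓ`, `ζ : Kˣ`). -/
theorem FA_S37_CG_gauss [PerfectRing k ℓ] (ζ : Kˣ) (hζ : IsPrimitiveRoot ζ ℓ)
    (hℓK : (ℓ : K) ≠ 0) {f Nf : LaurentSeries K} (hf : FA_S18_B_IsInt A π f)
    (hid : haveI : NeZero ℓ := ⟨hℓ.out.ne_zero⟩
      haveI : NeZero (ℓ * ℓ) := ⟨mul_ne_zero hℓ.out.ne_zero hℓ.out.ne_zero⟩
      qExpand K ℓ Nf = qExpand K (ℓ * ℓ) f
        * ∏ b ∈ Finset.range ℓ, FA_S18_CUE_tw (ζ ^ b) f) :
    FA_S18_B_IsInt A π Nf ∧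
      FA_S18_B_red A π Nf
        = (coeffMap ((frobeniusEquiv k ℓ).symm : k →+* k) (FA_S18_B_red A π f)) ^ ℓ
          * coeffMap (frobenius k ℓ) (FA_S18_B_red A π f) := by
  haveI : NeZero ℓ := ⟨hℓ.out.ne_zero⟩
  haveI : NeZero (ℓ * ℓ) := ⟨mul_ne_zero hℓ.out.ne_zero hℓ.out.ne_zero⟩
  obtain ⟨ζA, rfl⟩ := FA_S37_CG_zeta_mem A ℓ ζ hζ.pow_eq_one
  refine FA_S37_CG_main A π ℓ ζA hζ hℓK hf ?_
  show qExpand K ℓ Nf = qExpand K ℓ (qExpand K ℓ f)
        * ∏ b : Fin ℓ, FA_S18_CUE_tw (FA_S18_CUE_uK A ζA ^ (b : ℕ)) f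
  rw [qExpand_qExpand, Fin.prod_univ_eq_prod_range
    (fun b : ℕ => FA_S18_CUE_tw (FA_S18_CUE_uK A ζA ^ b) f) ℓ]
  exact hid

/-- The same with the reduction written as `β f̄ · Frob f̄` (no perfectness needed). -/
theorem FA_S37_CG_gauss' (ζ : Kˣ) (hζ : IsPrimitiveRoot ζ ℓ)
    (hℓK : (ℓ : K) ≠ 0) {f Nf : LaurentSeries K} (hf : FA_S18_B_IsInt A π f)
    (hid : haveI : NeZero ℓ := ⟨hℓ.out.ne_zero⟩
      haveI : NeZero (ℓ * ℓ) := ⟨mul_ne_zero hℓ.out.ne_zero hℓ.out.ne_zero⟩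
      qExpand K ℓ Nf = qExpand K (ℓ * ℓ) f
        * ∏ b ∈ Finset.range ℓ, FA_S18_CUE_tw (ζ ^ b) f) :
    haveI : NeZero ℓ := ⟨hℓ.out.ne_zero⟩
    FA_S18_B_IsInt A π Nf ∧
      FA_S18_B_red A π Nf
        = qExpand k ℓ (FA_S18_B_red A π f) * coeffMap (frobenius k ℓ) (FA_S18_B_red A π f) := by
  haveI : NeZero ℓ := ⟨hℓ.out.ne_zero⟩
  haveI : NeZero (ℓ * ℓ) := ⟨mul_ne_zero hℓ.out.ne_zero hℓ.out.ne_zero⟩
  show FA_S18_B_IsInt A π Nf ∧
      FA_S18_B_red A π Nf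
        = qExpand k ℓ (FA_S18_B_red A π f) * coeffMap (frobenius k ℓ) (FA_S18_B_red A π f)
  have hid' : qExpand K ℓ Nf = qExpand K (ℓ * ℓ) f
        * ∏ b ∈ Finset.range ℓ, FA_S18_CUE_tw (ζ ^ b) f := hid
  obtain ⟨ζA, rfl⟩ := FA_S37_CG_zeta_mem A ℓ ζ hζ.pow_eq_one
  have hζA : ζA ^ ℓ = 1 := by
    apply Units.ext
    apply Subtype.ext
    have := congrArg (fun u : Kˣ => (u : K)) hζ.pow_eq_one
    simpa using this
  have hpow : ∀ b : ℕ, FA_S18_CUE_uK A ζA ^ b = FA_S18_CUE_uK A (ζA ^ b) := fun b =>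
    (map_pow (Units.map A.subtype.toMonoidHom) ζA b).symm
  have hb1 : ∀ b : ℕ, (ζA ^ b) ^ ℓ = 1 := fun b => by
    rw [← pow_mul, mul_comm, pow_mul, hζA, one_pow]
  have hy : ∀ b ∈ Finset.range ℓ,
      FA_S18_B_IsInt A π (FA_S18_CUE_tw (FA_S18_CUE_uK A ζA ^ b) f) := fun b _ => by
    rw [hpow]
    exact FA_S18_CUE_isInt_tw (ζA ^ b) hf
  have hyr : ∀ b ∈ Finset.range ℓ,
      FA_S18_B_red A π (FA_S18_CUE_tw (FA_S18_CUE_uK A ζA ^ b) f) = FA_S18_B_red A π f :=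
    fun b _ => by
      rw [hpow]
      exact FA_S37_CG_red_tw A π ℓ (ζA ^ b) (hb1 b) hf
  have h1 : FA_S18_B_IsInt A π (qExpand K (ℓ * ℓ) f) := FA_S18_CUE_isInt_qExpand (ℓ * ℓ) hf
  have h2 : FA_S18_B_IsInt A π (∏ b ∈ Finset.range ℓ, FA_S18_CUE_tw (FA_S18_CUE_uK A ζA ^ b) f) :=
    FA_S37_CG_isInt_prod A π _ _ hy
  have h3 : FA_S18_B_IsInt A π (qExpand K ℓ Nf) := by
    rw [hid']
    exact FA_S18_B_isInt_mul h1 h2
  have hN : FA_S18_B_IsInt A π Nf := FA_S18_CUE_isInt_of_qExpand ℓ _ hζ hℓK h3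
  refine ⟨hN, ?_⟩
  apply qExpand_injective (R := k) ℓ
  rw [← FA_S18_CUE_red_qExpand ℓ hN, hid', FA_S18_B_red_mul h1 h2,
    FA_S18_CUE_red_qExpand (ℓ * ℓ) hf,
    FA_S37_CG_red_prod A π _ _ hy, map_mul, qExpand_qExpand]
  congr 1
  rw [Finset.prod_congr rfl hyr, Finset.prod_const, Finset.card_range]
  exact FA_S37_CG_pow_char ℓ _

/-- **The norm congruence, series form** (the form consumed by K5): if `y` is an `A`-integral
Laurent series and `Nf` satisfies the conjugates identity for `f = ι y`, then `Nf = ι y'` with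
`y'` integral and `ȳ' = β ȳ · Frob ȳ`. -/
theorem FA_S37_CG_series (ζ : Kˣ) (hζ : ζ ^ ℓ = 1) (y : LaurentSeries A) (Nf : LaurentSeries K)
    (hid : haveI : NeZero ℓ := ⟨hℓ.out.ne_zero⟩
      haveI : NeZero (ℓ * ℓ) := ⟨mul_ne_zero hℓ.out.ne_zero hℓ.out.ne_zero⟩
      qExpand K ℓ Nf = qExpand K (ℓ * ℓ) (coeffMap A.subtype y)
        * ∏ b ∈ Finset.range ℓ, FA_S18_CUE_tw (ζ ^ b) (coeffMap A.subtype y)) :
    haveI : NeZero ℓ := ⟨hℓ.out.ne_zero⟩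
    ∃ y' : LaurentSeries A, coeffMap A.subtype y' = Nf ∧
      coeffMap π y' = qExpand k ℓ (coeffMap π y) * coeffMap (frobenius k ℓ) (coeffMap π y) := by
  haveI : NeZero ℓ := ⟨hℓ.out.ne_zero⟩
  haveI : NeZero (ℓ * ℓ) := ⟨mul_ne_zero hℓ.out.ne_zero hℓ.out.ne_zero⟩
  show ∃ y' : LaurentSeries A, coeffMap A.subtype y' = Nf ∧
      coeffMap π y' = qExpand k ℓ (coeffMap π y) * coeffMap (frobenius k ℓ) (coeffMap π y)
  have hid' : qExpand K ℓ Nf = qExpand K (ℓ * ℓ) (coeffMap A.subtype y)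
        * ∏ b ∈ Finset.range ℓ, FA_S18_CUE_tw (ζ ^ b) (coeffMap A.subtype y) := hid
  obtain ⟨ζA, rfl⟩ := FA_S37_CG_zeta_mem A ℓ ζ hζ
  have hζA : ζA ^ ℓ = 1 := by
    apply Units.ext
    apply Subtype.ext
    have := congrArg (fun u : Kˣ => (u : K)) hζ
    simpa using this
  have hpow : ∀ b : ℕ, FA_S18_CUE_uK A ζA ^ b = FA_S18_CUE_uK A (ζA ^ b) := fun b =>
    (map_pow (Units.map A.subtype.toMonoidHom) ζA b).symm
  have hbar : ∀ b : ℕ, Units.map π.toMonoidHom (ζA ^ b) = 1 := fun b => by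
    apply Units.ext
    show π ((ζA ^ b : Aˣ) : A) = 1
    rw [Units.val_pow_eq_pow_val, map_pow, FA_S37_CG_pi_root A π ℓ ζA hζA, one_pow]
  set Z : LaurentSeries A :=
    qExpand A (ℓ * ℓ) y * ∏ b ∈ Finset.range ℓ, FA_S18_CUE_tw (ζA ^ b) y with hZ
  have hιZ : coeffMap A.subtype Z = qExpand K ℓ Nf := by
    rw [hid', hZ, map_mul, map_prod, coeffMap_qExpand]
    congr 1
    refine Finset.prod_congr rfl fun b _ => ?_
    rw [FA_S18_CUE_coeffMap_tw, hpow]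
  have hπZ : coeffMap π Z
      = qExpand k ℓ (qExpand k ℓ (coeffMap π y) * coeffMap (frobenius k ℓ) (coeffMap π y)) := by
    rw [hZ, map_mul, map_prod, coeffMap_qExpand, map_mul, qExpand_qExpand]
    congr 1
    rw [← FA_S37_CG_pow_char ℓ (coeffMap π y)]
    have : ∀ b ∈ Finset.range ℓ, coeffMap π (FA_S18_CUE_tw (ζA ^ b) y) = coeffMap π y :=
      fun b _ => by rw [FA_S18_CUE_coeffMap_tw, hbar, FA_S18_CUE_tw_one]
    rw [Finset.prod_congr rfl this, Finset.prod_const, Finset.card_range]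
  refine ⟨FA_S18_CUE_dec ℓ Z, ?_, ?_⟩
  · rw [FA_S18_CUE_coeffMap_dec, hιZ, FA_S18_CUE_dec_qExpand]
  · rw [FA_S18_CUE_coeffMap_dec, hπZ, FA_S18_CUE_dec_qExpand]

/-- Gauss units go to Gauss units. -/
theorem FA_S37_CG_ne_zero [PerfectRing k ℓ] {fb : LaurentSeries k} (h : fb ≠ 0) :
    (coeffMap ((frobeniusEquiv k ℓ).symm : k →+* k) fb) ^ ℓ * coeffMap (frobenius k ℓ) fb ≠ 0 := by
  have h1 : coeffMap (frobenius k ℓ) fb ≠ 0 := fun h0 =>
    h (FA_S37_CG_coeffMap_injective _ (frobenius k ℓ).injective (by rw [h0, map_zero]))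
  have h2 : coeffMap ((frobeniusEquiv k ℓ).symm : k →+* k) fb ≠ 0 := fun h0 =>
    h (FA_S37_CG_coeffMap_injective _ (RingHom.injective _) (by rw [h0, map_zero]))
  exact mul_ne_zero (pow_ne_zero _ h2) h1

end Gauss

end Fermat.Agent.S37
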