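import Fermat.Agent.S37.AtkinLehner
import Fermat.Agent.S37.ConjAbs
import Fermat.Agent.S37.ConjDeg
import Fermat.Agent.S18.CuspTwist

/-!
# S37, leaf D' (conjugates): the norm of `β f` over `α F_N` as a product of `q`-series

`FA_S37_CJ_norm`: for a prime `ℓ ∤ N`, a primitive `ℓ`-th root of unity `ζ` and `f ∈ F_N`,
in `ℚ̄((q))`:

    (N_{F_{Nℓ}/αF_N} (β f)) (q^ℓ) = f (q^{ℓ²}) · ∏_{b < ℓ} f (ζ^b q).
-/

set_option autoImplicit false
set_option linter.unusedSectionVars false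
set_option linter.style.haveILetI false

noncomputable section

namespace Fermat.Agent.S37

open ModularCurve AlgebraicCurve IntermediateField Fermat.Agent.S18 Fermat.Agent.S24

local notation "Qb" => AlgebraicClosure ℚ

/-- The coefficient of `q⁻¹` in `j` over `ℚ̄`. -/
theorem FA_S37_CJ_coeff_j : (coeffEmb Qb jq).coeff (-1 : ℤ) = 1 := by
  show (coeffMap (algebraMap ℚ Qb) jq).coeff (-1 : ℤ) = 1
  rw [coeffMap_coeff, coeff_jq_neg_one, map_one]

/-- **The norm product formula.** -/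
theorem FA_S37_CJ_norm (N ℓ : ℕ) [NeZero N] [NeZero ℓ] (hℓ : ℓ.Prime) (hℓN : ¬ ℓ ∣ N)
    (ζ : Qbˣ) (hζ : IsPrimitiveRoot ζ ℓ) (f : ↥(modularFunctionFieldBar N)) :
    letI := algebraAlong (heckeAlphaBar Qb N ℓ)
    qExpand Qb ℓ ((Algebra.norm ↥(modularFunctionFieldBar N) (heckeBetaBar Qb N ℓ f) :
        ↥(modularFunctionFieldBar N)) : LaurentSeries Qb)
      = qExpand Qb (ℓ * ℓ) (f : LaurentSeries Qb)
        * ∏ b ∈ Finset.range ℓ, FA_S18_CUE_tw (ζ ^ b) (f : LaurentSeries Qb) := by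
  letI algα := algebraAlong (heckeAlphaBar Qb N ℓ)
  haveI := isScalarTower_along (heckeAlphaBar Qb N ℓ)
  have hfr : Module.finrank ↥(modularFunctionFieldBar N) ↥(modularFunctionFieldBar (N * ℓ))
      = ℓ + 1 := FA_S37_CJ_finrank N ℓ hℓ hℓN
  haveI hfin : FiniteDimensional ↥(modularFunctionFieldBar N) ↥(modularFunctionFieldBar (N * ℓ)) :=
    Module.finite_of_finrank_pos (by rw [hfr]; exact Nat.succ_pos ℓ)
  haveI hsep : Algebra.IsSeparable ↥(modularFunctionFieldBar N)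
      ↥(modularFunctionFieldBar (N * ℓ)) := inferInstance
  obtain ⟨w, hwα, hwβ⟩ := FA_S37_AL_exists N ℓ hℓ hℓN
  have hwα' : ∀ x, w (heckeAlphaBar Qb N ℓ x) = heckeBetaBar Qb N ℓ x := fun x =>
    congrArg (fun φ : ↥(modularFunctionFieldBar N) →ₐ[Qb] ↥(modularFunctionFieldBar (N * ℓ)) =>
      φ x) hwα
  have hwβ' : ∀ x, w (heckeBetaBar Qb N ℓ x) = heckeAlphaBar Qb N ℓ x := fun x =>
    congrArg (fun φ : ↥(modularFunctionFieldBar N) →ₐ[Qb] ↥(modularFunctionFieldBar (N * ℓ)) =>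
      φ x) hwβ
  -- the maps
  let val : ↥(modularFunctionFieldBar (N * ℓ)) →+* LaurentSeries Qb :=
    (modularFunctionFieldBar (N * ℓ)).val.toRingHom
  let valN : ↥(modularFunctionFieldBar N) →+* LaurentSeries Qb :=
    (modularFunctionFieldBar N).val.toRingHom
  let ι : ↥(modularFunctionFieldBar N) →+* LaurentSeries Qb := (qExpand Qb ℓ).comp valN
  let E : Fin (ℓ + 1) → (↥(modularFunctionFieldBar (N * ℓ)) →+* LaurentSeries Qb) := fun i =>
    if (i : ℕ) < ℓ then (FA_S18_CUE_tw (ζ ^ (i : ℕ))).comp (val.comp w.toRingHom)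
    else (qExpand Qb ℓ).comp val
  have hE1 : ∀ (i : Fin (ℓ + 1)) (_ : (i : ℕ) < ℓ) (x : ↥(modularFunctionFieldBar (N * ℓ))),
      E i x = FA_S18_CUE_tw (ζ ^ (i : ℕ)) ((w x : ↥(modularFunctionFieldBar (N * ℓ))) :
        LaurentSeries Qb) := by
    intro i hi x
    show (if (i : ℕ) < ℓ then (FA_S18_CUE_tw (ζ ^ (i : ℕ))).comp (val.comp w.toRingHom)
      else (qExpand Qb ℓ).comp val) x = _
    rw [if_pos hi]
    rfl
  have hE2 : ∀ (i : Fin (ℓ + 1)) (_ : ¬ (i : ℕ) < ℓ) (x : ↥(modularFunctionFieldBar (N * ℓ))),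
      E i x = qExpand Qb ℓ (x : LaurentSeries Qb) := by
    intro i hi x
    show (if (i : ℕ) < ℓ then (FA_S18_CUE_tw (ζ ^ (i : ℕ))).comp (val.comp w.toRingHom)
      else (qExpand Qb ℓ).comp val) x = _
    rw [if_neg hi]
    rfl
  have hζpow : ∀ b : ℕ, (ζ ^ b) ^ ℓ = 1 := fun b => by
    rw [← pow_mul, mul_comm, pow_mul, hζ.pow_eq_one, one_pow]
  have hαalg : ∀ x : ↥(modularFunctionFieldBar N),
      algebraMap ↥(modularFunctionFieldBar N) ↥(modularFunctionFieldBar (N * ℓ)) x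
        = heckeAlphaBar Qb N ℓ x := fun _ => rfl
  have hE : ∀ i x, E i (algebraMap ↥(modularFunctionFieldBar N)
      ↥(modularFunctionFieldBar (N * ℓ)) x) = ι x := by
    intro i x
    by_cases hi : (i : ℕ) < ℓ
    · rw [hE1 i hi, hαalg, hwα', coe_heckeBetaBar, FA_S18_CUE_tw_qExpand _ ℓ (hζpow _)]
      rfl
    · rw [hE2 i hi, hαalg, coe_heckeAlphaBar]
      rfl
  -- the test element `β j`
  have hjmem : coeffEmb Qb jq ∈ modularFunctionFieldBar N :=
    coeffEmb_mem_laurentBaseChange Qb (modularFunctionField_le_full N (jq_mem N))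
  have hℓ2 : 2 ≤ ℓ := hℓ.two_le
  have hinj : Function.Injective E := by
    intro i i' hii
    have h0 := congrArg (fun φ : ↥(modularFunctionFieldBar (N * ℓ)) →+* LaurentSeries Qb =>
      (φ (heckeBetaBar Qb N ℓ ⟨coeffEmb Qb jq, hjmem⟩)).coeff (-1 : ℤ)) hii
    beta_reduce at h0
    have hlast : (qExpand Qb ℓ ((heckeBetaBar Qb N ℓ ⟨coeffEmb Qb jq, hjmem⟩ :
        ↥(modularFunctionFieldBar (N * ℓ))) : LaurentSeries Qb)).coeff (-1 : ℤ) = 0 := by
      apply qExpand_coeff_of_not_dvd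
      intro hdvd
      have h1 : (ℓ : ℤ) ∣ 1 := by
        obtain ⟨c, hc⟩ := hdvd
        exact ⟨-c, by rw [mul_neg, ← hc]; norm_num⟩
      have h2 := Int.le_of_dvd one_pos h1
      omega
    have htw : ∀ b : ℕ, (FA_S18_CUE_tw (ζ ^ b) ((w (heckeBetaBar Qb N ℓ ⟨coeffEmb Qb jq, hjmem⟩) :
        ↥(modularFunctionFieldBar (N * ℓ))) : LaurentSeries Qb)).coeff (-1 : ℤ)
        = (((ζ ^ b) ^ (-1 : ℤ) : Qbˣ) : Qb) := by
      intro b
      rw [hwβ', coe_heckeAlphaBar, FA_S18_CUE_tw_coeff]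
      show _ * (coeffEmb Qb jq).coeff (-1 : ℤ) = _
      rw [FA_S37_CJ_coeff_j, mul_one]
    by_cases hi : (i : ℕ) < ℓ <;> by_cases hi' : (i' : ℕ) < ℓ
    · rw [hE1 i hi, hE1 i' hi', htw, htw] at h0
      have h1 : (ζ ^ (i : ℕ)) ^ (-1 : ℤ) = (ζ ^ (i' : ℕ)) ^ (-1 : ℤ) := Units.ext h0
      rw [zpow_neg_one, zpow_neg_one, inv_inj] at h1
      exact Fin.ext (hζ.pow_inj hi hi' h1)
    · rw [hE1 i hi, hE2 i' hi', htw, hlast] at h0
      exact absurd h0 (Units.ne_zero _)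
    · rw [hE2 i hi, hE1 i' hi', htw, hlast] at h0
      exact absurd h0.symm (Units.ne_zero _)
    · apply Fin.ext
      have := i.2
      have := i'.2
      omega
  have key := FA_S37_CJ_norm_abs (F := ↥(modularFunctionFieldBar N))
    (F' := ↥(modularFunctionFieldBar (N * ℓ))) ι hfr E hE hinj (heckeBetaBar Qb N ℓ f)
  show ι (Algebra.norm ↥(modularFunctionFieldBar N) (heckeBetaBar Qb N ℓ f)) = _
  rw [key, Fin.prod_univ_castSucc, mul_comm]
  congr 1
  · rw [hE2 _ (by simp), coe_heckeBetaBar, qExpand_qExpand]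
  · rw [← Fin.prod_univ_eq_prod_range (fun b => FA_S18_CUE_tw (ζ ^ b) (f : LaurentSeries Qb)) ℓ]
    refine Finset.prod_congr rfl fun b _ => ?_
    rw [hE1 _ (by simp), hwβ', coe_heckeAlphaBar]
    rfl

end Fermat.Agent.S37
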