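import Mathlib

/-!
# S37, leaf D' (conjugates): degree of a tower over a rational subfield (abstract)

`FA_S37_CJ_finrank_abs`: for fields `K ⊆ F → F'` and `x ∈ F`:
`[F' : F] · [F : K(x)] = [F' : K(x')]`, `x'` the image of `x`.
-/

set_option autoImplicit false

noncomputable section

namespace Fermat.Agent.S37

open IntermediateField

theorem FA_S37_CJ_finrank_abs {K F F' : Type*} [Field K] [Field F] [Field F'] [Algebra K F]
    [Algebra K F'] [Algebra F F'] [IsScalarTower K F F'] (x : F) :
    Module.finrank F F' * Module.finrank K⟮x⟯ F = Module.finrank K⟮algebraMap F F' x⟯ F' := by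
  have h1 := Module.finrank_mul_finrank K⟮x⟯ F F'
  have hmap : (K⟮x⟯).map (IsScalarTower.toAlgHom K F F') = K⟮algebraMap F F' x⟯ := by
    rw [IntermediateField.adjoin_map, Set.image_singleton]
    rfl
  let i : K⟮x⟯ ≃+* K⟮algebraMap F F' x⟯ :=
    ((IntermediateField.equivMap K⟮x⟯ (IsScalarTower.toAlgHom K F F')).trans
      (IntermediateField.equivOfEq hmap)).toRingEquiv
  have h2 : Module.finrank K⟮x⟯ F' = Module.finrank K⟮algebraMap F F' x⟯ F' := by
    refine Algebra.finrank_eq_of_equiv_equiv i (RingEquiv.refl F') ?_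
    ext y
    rfl
  rw [← h2, ← h1, mul_comm]

end Fermat.Agent.S37
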