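import Fermat.Agent.S18.FinSep
import Fermat.Agent.S18.GaussIntInst
import Fermat.Agent.S18.GaussCartInst

/-!
# S37: finite generation of the Gauss-integral charts over `A[x]`, both charts

Level `n` prime to `ℓ`, `O` the Gauss ring of `F_n`, `j`, `u = 1 / j`.

* `FA_S37_FINF_fg_fin` : `O ∩ Bf` is generated over `A[j]` by finitely many elements
  (`FA_S18_FIN_fg` with its hypotheses discharged).
* `FA_S37_FINF_fg_inf` : `O ∩ Bi` is generated over `A[u]` by finitely many elements (the mirror: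
  `Λ'(b) = O ∩ Bi ∩ u^b Bf = u^b Λ(b)`).
-/

set_option autoImplicit false
set_option linter.unusedSectionVars false
set_option linter.style.haveILetI false

noncomputable section

namespace Fermat.Agent.S37

open ModularCurve IsLocalRing FA_S18 AlgebraicCurve Polynomial IntermediateField
  Fermat.Agent.S18

variable (A : ValuationSubring (AlgebraicClosure ℚ)) (n : ℕ) [NeZero n]

/-- **FIN, finite chart**, unconditional. -/
theorem FA_S37_FINF_fg_fin {ℓ : ℕ} (hℓ : ℓ.Prime) (hA : A.LiesOverPrime ℓ) (hn : ¬ ℓ ∣ n)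
    (h : FA_S18_I_Range A n) :
    ∃ (r : ℕ) (e : Fin r → ↥(modularFunctionFieldBar n)),
      (∀ i, e i ∈ FA_S18_I_O A n ∧ e i ∈ FA_S18_H2_Bf n) ∧
      ∀ y ∈ FA_S18_I_O A n, y ∈ FA_S18_H2_Bf n →
        ∃ a : Fin r → (↥A)[X],
          y = ∑ i, aeval ((FA_S18_I_j A n : ↥(FA_S18_I_O A n)) : ↥(modularFunctionFieldBar n))
            (a i) * e i :=
  FA_S18_FIN_fg A n hℓ hA hn h (FA_S18_B4_cart_inst A n ℓ)
    (FA_S18_FINA_AB A n hℓ hA hn h (FA_S18_B_integral_inst A n ℓ))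

/-- `Λ'(b) = O ∩ Bi ∩ u^b Bf`, as an `A`-submodule of `O`. -/
def FA_S37_FINF_Lam (b : ℕ) : Submodule ↥A ↥(FA_S18_I_O A n) where
  carrier := {y | (y : ↥(modularFunctionFieldBar n)) ∈ FA_S18_H2_Bi n ∧
    (y : ↥(modularFunctionFieldBar n)) * (FA_S18_A_jbar n) ^ b ∈ FA_S18_H2_Bf n}
  add_mem' := by
    rintro y y' ⟨h1, h2⟩ ⟨h1', h2'⟩
    refine ⟨Subalgebra.add_mem _ h1 h1', ?_⟩
    show ((y : ↥(modularFunctionFieldBar n)) + (y' : ↥(modularFunctionFieldBar n))) * _ ∈ _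
    rw [add_mul]
    exact Subalgebra.add_mem _ h2 h2'
  zero_mem' := by
    refine ⟨Subalgebra.zero_mem _, ?_⟩
    show (0 : ↥(modularFunctionFieldBar n)) * _ ∈ _
    rw [zero_mul]
    exact Subalgebra.zero_mem _
  smul_mem' := by
    rintro a y ⟨h1, h2⟩
    have e : ((a • y : ↥(FA_S18_I_O A n)) : ↥(modularFunctionFieldBar n))
        = (a : AlgebraicClosure ℚ) • (y : ↥(modularFunctionFieldBar n)) := rfl
    refine ⟨?_, ?_⟩
    · show ((a • y : ↥(FA_S18_I_O A n)) : ↥(modularFunctionFieldBar n)) ∈ _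
      rw [e]
      exact Subalgebra.smul_mem _ h1 _
    · show ((a • y : ↥(FA_S18_I_O A n)) : ↥(modularFunctionFieldBar n)) * _ ∈ _
      rw [e, smul_mul_assoc]
      exact Subalgebra.smul_mem _ h2 _

theorem FA_S37_FINF_mem_Lam (b : ℕ) (y : ↥(FA_S18_I_O A n)) :
    y ∈ FA_S37_FINF_Lam A n b ↔ (y : ↥(modularFunctionFieldBar n)) ∈ FA_S18_H2_Bi n ∧
      (y : ↥(modularFunctionFieldBar n)) * (FA_S18_A_jbar n) ^ b ∈ FA_S18_H2_Bf n := Iff.rfl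

theorem FA_S37_FINF_Lam_mono (b : ℕ) : FA_S37_FINF_Lam A n b ≤ FA_S37_FINF_Lam A n (b + 1) := by
  rintro y ⟨h1, h2⟩
  refine ⟨h1, ?_⟩
  rw [pow_succ, ← mul_assoc]
  exact Subalgebra.mul_mem _ h2 (FA_S18_H2_j_mem_Bf n)

theorem FA_S37_FINF_Lam_umul (b : ℕ) (y : ↥(FA_S18_I_O A n)) (hy : y ∈ FA_S37_FINF_Lam A n b) :
    FA_S18_I_jinv A n * y ∈ FA_S37_FINF_Lam A n (b + 1) := by
  obtain ⟨h1, h2⟩ := hy
  have hj0 := FA_S18_H2_jbar_ne_zero n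
  refine ⟨?_, ?_⟩
  · show (FA_S18_A_jbar n)⁻¹ * (y : ↥(modularFunctionFieldBar n)) ∈ _
    exact Subalgebra.mul_mem _ (FA_S18_H2_jinv_mem_Bi n) h1
  · show (FA_S18_A_jbar n)⁻¹ * (y : ↥(modularFunctionFieldBar n)) * _ ∈ _
    have e : (FA_S18_A_jbar n)⁻¹ * (y : ↥(modularFunctionFieldBar n))
        * (FA_S18_A_jbar n) ^ (b + 1)
        = (y : ↥(modularFunctionFieldBar n)) * (FA_S18_A_jbar n) ^ b := by
      rw [pow_succ]
      field_simp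
    rw [e]
    exact h2

/-- Every element of `O ∩ Bi` lies in some `Λ'(b)`. -/
theorem FA_S37_FINF_Lam_exhaust (y : ↥(FA_S18_I_O A n))
    (hy : (y : ↥(modularFunctionFieldBar n)) ∈ FA_S18_H2_Bi n) :
    ∃ b, y ∈ FA_S37_FINF_Lam A n b := by
  obtain ⟨m, hm, -⟩ := FA_S18_H2_Bm_bound n (FA_S18_H2_Bi_le_Bm n hy)
  exact ⟨m, hy, hm⟩

/-- `y ∈ Λ'(b) → y j^b ∈ Λ(b)`. -/
theorem FA_S37_FINF_to_Lam (b : ℕ) (y : ↥(FA_S18_I_O A n)) (hy : y ∈ FA_S37_FINF_Lam A n b) :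
    y * FA_S18_I_j A n ^ b ∈ FA_S18_FIN_Lam A n b := by
  obtain ⟨h1, h2⟩ := hy
  have hj0 := FA_S18_H2_jbar_ne_zero n
  refine ⟨h2, ?_⟩
  show (y : ↥(modularFunctionFieldBar n)) * (FA_S18_A_jbar n) ^ b * ((FA_S18_A_jbar n)⁻¹) ^ b ∈ _
  have e : (y : ↥(modularFunctionFieldBar n)) * (FA_S18_A_jbar n) ^ b
      * ((FA_S18_A_jbar n)⁻¹) ^ b = (y : ↥(modularFunctionFieldBar n)) := by
    rw [mul_assoc, ← mul_pow, mul_inv_cancel₀ hj0, one_pow, mul_one]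
  rw [e]
  exact h1

/-- `z ∈ Λ(b) → u^b z ∈ Λ'(b)`. -/
theorem FA_S37_FINF_of_Lam (b : ℕ) (z : ↥(FA_S18_I_O A n)) (hz : z ∈ FA_S18_FIN_Lam A n b) :
    FA_S18_I_jinv A n ^ b * z ∈ FA_S37_FINF_Lam A n b := by
  obtain ⟨h1, h2⟩ := hz
  have hj0 := FA_S18_H2_jbar_ne_zero n
  refine ⟨?_, ?_⟩
  · show ((FA_S18_A_jbar n)⁻¹) ^ b * (z : ↥(modularFunctionFieldBar n)) ∈ _
    rw [mul_comm]
    exact h2
  · show ((FA_S18_A_jbar n)⁻¹) ^ b * (z : ↥(modularFunctionFieldBar n))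
      * (FA_S18_A_jbar n) ^ b ∈ _
    have e : ((FA_S18_A_jbar n)⁻¹) ^ b * (z : ↥(modularFunctionFieldBar n))
        * (FA_S18_A_jbar n) ^ b = (z : ↥(modularFunctionFieldBar n)) := by
      rw [mul_comm (((FA_S18_A_jbar n)⁻¹) ^ b), mul_assoc, ← mul_pow,
        inv_mul_cancel₀ hj0, one_pow, mul_one]
    rw [e]
    exact h1

theorem FA_S37_FINF_u_j_pow (b : ℕ) (y : ↥(FA_S18_I_O A n)) :
    FA_S18_I_jinv A n ^ b * (y * FA_S18_I_j A n ^ b) = y := by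
  have h1 : FA_S18_I_jinv A n ^ b * FA_S18_I_j A n ^ b = 1 := by
    rw [← mul_pow, mul_comm, FA_S18_I_j_mul_jinv, one_pow]
  calc FA_S18_I_jinv A n ^ b * (y * FA_S18_I_j A n ^ b)
      = y * (FA_S18_I_jinv A n ^ b * FA_S18_I_j A n ^ b) := by ring
    _ = y := by rw [h1, mul_one]

/-- `Λ'(b)` is the image of `Λ(b)` under multiplication by `u^b`. -/
theorem FA_S37_FINF_Lam_eq_map (b : ℕ) :
    FA_S37_FINF_Lam A n b
      = (FA_S18_FIN_Lam A n b).map (LinearMap.mulLeft ↥A (FA_S18_I_jinv A n ^ b)) := by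
  apply le_antisymm
  · intro y hy
    exact ⟨y * FA_S18_I_j A n ^ b, FA_S37_FINF_to_Lam A n b y hy, FA_S37_FINF_u_j_pow A n b y⟩
  · rintro _ ⟨z, hz, rfl⟩
    exact FA_S37_FINF_of_Lam A n b z hz

/-- **fg + ker** for `Λ'(b)`. -/
theorem FA_S37_FINF_Lam_cart {ℓ : ℕ} (hℓ : ℓ.Prime) (hA : A.LiesOverPrime ℓ) (hn : ¬ ℓ ∣ n)
    (h : FA_S18_I_Range A n) (b : ℕ) :
    (FA_S37_FINF_Lam A n b).FG ∧
      ∀ y ∈ FA_S37_FINF_Lam A n b, FA_S18_I_red A n h y = 0 →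
        y ∈ IsLocalRing.maximalIdeal ↥A • FA_S37_FINF_Lam A n b := by
  obtain ⟨hfg, hker⟩ := FA_S18_FIN_Lam_cart A n hℓ hA hn h (FA_S18_B4_cart_inst A n ℓ) b
  constructor
  · rw [FA_S37_FINF_Lam_eq_map]
    exact hfg.map _
  · intro y hy hred
    have hz := FA_S37_FINF_to_Lam A n b y hy
    have hzred : FA_S18_I_red A n h (y * FA_S18_I_j A n ^ b) = 0 := by
      rw [map_mul, hred, zero_mul]
    have hzm := hker _ hz hzred
    have hmap : (LinearMap.mulLeft ↥A (FA_S18_I_jinv A n ^ b)) (y * FA_S18_I_j A n ^ b)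
        ∈ (IsLocalRing.maximalIdeal ↥A • FA_S18_FIN_Lam A n b).map
          (LinearMap.mulLeft ↥A (FA_S18_I_jinv A n ^ b)) := ⟨_, hzm, rfl⟩
    rw [Submodule.map_smul'', ← FA_S37_FINF_Lam_eq_map] at hmap
    have e : (LinearMap.mulLeft ↥A (FA_S18_I_jinv A n ^ b)) (y * FA_S18_I_j A n ^ b) = y :=
      FA_S37_FINF_u_j_pow A n b y
    rw [e] at hmap
    exact hmap

set_option synthInstance.maxHeartbeats 400000 in
/-- shortcut instance (the search is slow with all the imports) -/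
local instance (priority := 2000) FA_S37_FINF_alg :
    Algebra (IsLocalRing.ResidueField ↥A)
      ↥(modularFunctionFieldFullC (IsLocalRing.ResidueField ↥A) n) := inferInstance

/-- **The ambient bound at the chart `u`.** -/
theorem FA_S37_FINF_amb {ℓ : ℕ} (hℓ : ℓ.Prime) (hA : A.LiesOverPrime ℓ) (hn : ¬ ℓ ∣ n)
    (h : FA_S18_I_Range A n) :
    ∃ (r : ℕ) (eb : Fin r → ↥(modularFunctionFieldFullC (IsLocalRing.ResidueField ↥A) n))
      (τ : ℕ), ∀ (b : ℕ) (y : ↥(FA_S18_I_O A n)),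
        (y : ↥(modularFunctionFieldBar n)) ∈ FA_S18_H2_Bi n →
        (y : ↥(modularFunctionFieldBar n)) * (FA_S18_A_jbar n) ^ b ∈ FA_S18_H2_Bf n →
        ∃ a : Fin r → (IsLocalRing.ResidueField ↥A)[X], (∀ i, (a i).natDegree ≤ b + τ) ∧
          FA_S18_I_red A n h y
            = ∑ i, aeval (FA_S18_I_red A n h (FA_S18_I_jinv A n)) (a i) * eb i := by
  have hint := FA_S18_B_integral_inst A n ℓ
  have htr : Transcendental (IsLocalRing.ResidueField ↥A) (FA_S18_BASE_jb A n h)⁻¹ :=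
    FA_RR.transcendental_inv (FA_S18_BASE_jb_transc A n h)
  haveI hfd := FA_S18_FINA_finite_inst A n hℓ hA hn h
  haveI hsep := FA_S18_FINA_sep_inst A n hℓ hA hn h
  haveI : FiniteDimensional (IsLocalRing.ResidueField ↥A)⟮(FA_S18_BASE_jb A n h)⁻¹⟯
      ↥(modularFunctionFieldFullC (IsLocalRing.ResidueField ↥A) n) :=
    FA_S18_C.sep_finiteDimensional_congr
      (FA_RR.adjoin_inv_eq (K := IsLocalRing.ResidueField ↥A) (FA_S18_BASE_jb A n h))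
  haveI : Algebra.IsSeparable (IsLocalRing.ResidueField ↥A)⟮(FA_S18_BASE_jb A n h)⁻¹⟯
      ↥(modularFunctionFieldFullC (IsLocalRing.ResidueField ↥A) n) :=
    FA_S18_C.sep_isSeparable_congr
      (FA_RR.adjoin_inv_eq (K := IsLocalRing.ResidueField ↥A) (FA_S18_BASE_jb A n h))
  obtain ⟨r, eb, τ, hamb⟩ := FA_S18_FINA_ambient htr
  refine ⟨r, eb, τ, fun b y hy hyb => ?_⟩
  have h1 := FA_S18_BASE_into_inf A n hℓ hA hn h hint y hy
  have h2 := FA_S18_BASE_into_fin A n hℓ hA hn h hint (y * FA_S18_I_j A n ^ b) hyb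
  rw [map_mul, map_pow] at h2
  have h3 : FA_S18_I_red A n h y * ((FA_S18_BASE_jb A n h)⁻¹)⁻¹ ^ b
      ∈ FA_S18_H2_icl (IsLocalRing.ResidueField ↥A) ((FA_S18_BASE_jb A n h)⁻¹)⁻¹ := by
    rw [inv_inv]
    exact h2
  obtain ⟨a, ha, hsum⟩ := hamb b (FA_S18_I_red A n h y) h1 h3
  refine ⟨a, ha, ?_⟩
  rw [FA_S18_I_red_jinv]
  exact hsum

/-- **FIN, chart at infinity**: `O ∩ Bi` is generated over `A[u]` by finitely many elements. -/
theorem FA_S37_FINF_fg_inf {ℓ : ℕ} (hℓ : ℓ.Prime) (hA : A.LiesOverPrime ℓ) (hn : ¬ ℓ ∣ n)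
    (h : FA_S18_I_Range A n) :
    ∃ (r : ℕ) (e : Fin r → ↥(modularFunctionFieldBar n)),
      (∀ i, e i ∈ FA_S18_I_O A n ∧ e i ∈ FA_S18_H2_Bi n) ∧
      ∀ y ∈ FA_S18_I_O A n, y ∈ FA_S18_H2_Bi n →
        ∃ a : Fin r → (↥A)[X],
          y = ∑ i, aeval ((FA_S18_I_jinv A n : ↥(FA_S18_I_O A n)) :
            ↥(modularFunctionFieldBar n)) (a i) * e i := by
  obtain ⟨m, e, b₁, he, hgen⟩ := FA_S18_FIN_main (FA_S18_I_O A n) (FA_S18_I_red A n h)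
    (FA_S18_I_compat A n h) (FA_S18_I_jinv A n) (FA_S37_FINF_Lam A n)
    (FA_S37_FINF_Lam_mono A n) (FA_S37_FINF_Lam_umul A n)
    (fun b => (FA_S37_FINF_Lam_cart A n hℓ hA hn h b).1)
    (fun b => (FA_S37_FINF_Lam_cart A n hℓ hA hn h b).2)
    (by
      obtain ⟨r, eb, τ, hb⟩ := FA_S37_FINF_amb A n hℓ hA hn h
      exact ⟨r, eb, τ, fun b y hy => hb b y hy.1 hy.2⟩)
  refine ⟨m, fun i => (e i : ↥(modularFunctionFieldBar n)), fun i => ⟨(e i).2, (he i).1⟩, ?_⟩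
  intro y hyO hyB
  obtain ⟨b, hb⟩ := FA_S37_FINF_Lam_exhaust A n ⟨y, hyO⟩ hyB
  obtain ⟨a, ha⟩ := hgen b ⟨y, hyO⟩ hb
  refine ⟨a, ?_⟩
  have h1 := congrArg (fun z : ↥(FA_S18_I_O A n) => (z : ↥(modularFunctionFieldBar n))) ha
  simp only at h1
  rw [h1]
  have h2 : ((∑ i, aeval (FA_S18_I_jinv A n) (a i) * e i : ↥(FA_S18_I_O A n)) :
      ↥(modularFunctionFieldBar n))
      = ∑ i, ((aeval (FA_S18_I_jinv A n) (a i) * e i : ↥(FA_S18_I_O A n)) :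
        ↥(modularFunctionFieldBar n)) :=
    map_sum (FA_S18_I_O A n).val _ Finset.univ
  rw [h2]
  refine Finset.sum_congr rfl fun i _ => ?_
  show ((aeval (FA_S18_I_jinv A n) (a i) : ↥(FA_S18_I_O A n)) : ↥(modularFunctionFieldBar n))
      * (e i : ↥(modularFunctionFieldBar n)) = _
  congr 1
  exact (aeval_algHom_apply (FA_S18_I_O A n).val (FA_S18_I_jinv A n) (a i)).symm

end Fermat.Agent.S37
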