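import Fermat.Agent.S37.K5
import Fermat.Agent.S37.Cong
import Fermat.Agent.S37.Conj
import Fermat.Agent.S18.Descent

/-!
# S37, leaf K5 (part 3): the norm congruence hypothesis `FA_S37_K5_Cong` holds for the Frobenius

For `ℓ` prime, `ℓ ∤ N`, `A` over `ℓ` and `θ : k ≃+* k` with `θ x = x ^ ℓ`:
`FA_S37_K5_cong : FA_S37_K5_Cong A N ℓ θ` (from `FA_S37_CJ_norm` and `FA_S37_CG_series`), hence
`FA_S37_K5_div_frob`: the Eichler–Shimura congruence on divisors of degree zero without hypothesis.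
-/

set_option autoImplicit false
set_option linter.unusedSectionVars false
set_option linter.style.haveILetI false
set_option maxHeartbeats 1000000
set_option synthInstance.maxHeartbeats 400000

noncomputable section

namespace Fermat.Agent.S37

open AlgebraicCurve ModularCurve HahnSeries Fermat.Agent.S18 FA_S18

variable (A : ValuationSubring (AlgebraicClosure ℚ)) (N M ℓ : ℕ) [NeZero N] [NeZero M] [NeZero ℓ]

/-- `β g = (θ⁻¹ g) ^ ℓ` for `θ` the Frobenius of a field of characteristic `ℓ`. -/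
theorem FA_S37_K5_qExpand_frob {k : Type} [Field k] (hℓ : ℓ.Prime) [CharP k ℓ]
    (θ : k ≃+* k) (hθ : ∀ x, θ x = x ^ ℓ) (g : LaurentSeries k) :
    qExpand k ℓ g = (coeffMap (θ.symm : k →+* k) g) ^ ℓ := by
  haveI : Fact ℓ.Prime := ⟨hℓ⟩
  have h1 := FA_S37_CG_pow_char (k := k) ℓ (coeffMap (θ.symm : k →+* k) g)
  have h1' : (coeffMap (θ.symm : k →+* k) g) ^ ℓ
      = qExpand k ℓ (coeffMap (frobenius k ℓ) (coeffMap (θ.symm : k →+* k) g)) := h1
  rw [h1', coeffMap_coeffMap]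
  have e : (frobenius k ℓ).comp (θ.symm : k →+* k) = RingHom.id k := by
    apply RingHom.ext
    intro x
    show frobenius k ℓ (θ.symm x) = x
    rw [frobenius_def, ← hθ, RingEquiv.apply_symm_apply]
  rw [coeffMap_congr e, coeffMap_id]

/-- **The norm congruence holds for the Frobenius.** -/
theorem FA_S37_K5_cong (hℓ : ℓ.Prime) (hA : A.LiesOverPrime ℓ) (hN : ¬ ℓ ∣ N)
    (θ : IsLocalRing.ResidueField A ≃+* IsLocalRing.ResidueField A)
    (hθ : ∀ x, θ x = x ^ ℓ) : FA_S37_K5_Cong A N ℓ θ := by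
  intro y hy hyk
  haveI : Fact ℓ.Prime := ⟨hℓ⟩
  haveI := FA_S18_B_resField_charP A ℓ hℓ hA
  obtain ⟨ζ0, hζ0⟩ := FA_S18_G_exists_primitiveRoot ℓ hℓ.ne_zero
  have hζ0ne : ζ0 ≠ 0 := hζ0.ne_zero hℓ.ne_zero
  have hζ : IsPrimitiveRoot (Units.mk0 ζ0 hζ0ne) ℓ := by
    rw [← IsPrimitiveRoot.coe_units_iff]
    exact hζ0
  have hid := FA_S37_CJ_norm N ℓ hℓ hN (Units.mk0 ζ0 hζ0ne) hζ ⟨coeffMap A.subtype y, hy⟩
  obtain ⟨y', h1, h2⟩ := FA_S37_CG_series A (IsLocalRing.residue A) ℓ (Units.mk0 ζ0 hζ0ne)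
    hζ.pow_eq_one y
    ((FA_S37_K5_norm N ℓ ⟨coeffMap A.subtype y, hy⟩ : ↥(modularFunctionFieldBar N)) :
      LaurentSeries (AlgebraicClosure ℚ)) hid
  refine ⟨y', h1, ?_⟩
  have h2' : coeffMap (IsLocalRing.residue A) y'
      = qExpand (IsLocalRing.ResidueField A) ℓ (coeffMap (IsLocalRing.residue A) y)
        * coeffMap (frobenius (IsLocalRing.ResidueField A) ℓ)
            (coeffMap (IsLocalRing.residue A) y) := h2
  have e : (θ : IsLocalRing.ResidueField A →+* IsLocalRing.ResidueField A)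
      = frobenius (IsLocalRing.ResidueField A) ℓ := by
    apply RingHom.ext
    intro x
    show θ x = frobenius (IsLocalRing.ResidueField A) ℓ x
    rw [hθ, frobenius_def]
  rw [h2', FA_S37_K5_qExpand_frob ℓ hℓ θ hθ, e, mul_comm]

section Main

variable [HasPrincipalDivisors (AlgebraicClosure ℚ) ↥(modularFunctionFieldBar (N * M))]
variable [HasPrincipalDivisors (AlgebraicClosure ℚ) ↥(modularFunctionFieldBar (N * ℓ))]

/-- **K5 on divisors, for the Frobenius**: no hypothesis left except the place reduction `r`. -/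
theorem FA_S37_K5_div_frob (hℓ : ℓ.Prime) (hA : A.LiesOverPrime ℓ) (hN : ¬ ℓ ∣ N)
    (hs : HeckeBetaBarIntegral (AlgebraicClosure ℚ) N M)
    {r : Place (AlgebraicClosure ℚ) ↥(modularFunctionFieldBar (N * M)) →
      Place (IsLocalRing.ResidueField A)
        ↥(modularFunctionFieldFullC (IsLocalRing.ResidueField A) (N * M))}
    (hr : IsPlaceReductionModL A (N * M) r)
    (hα : HeckeAlphaBarIntegral (AlgebraicClosure ℚ) N ℓ)
    (hβ : HeckeBetaBarIntegral (AlgebraicClosure ℚ) N ℓ)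
    (θ : IsLocalRing.ResidueField A ≃+* IsLocalRing.ResidueField A)
    (hθ : ∀ x, θ x = x ^ ℓ)
    (D : Divisor (AlgebraicClosure ℚ) ↥(modularFunctionFieldBar N))
    (hD : Divisor.degree D = 0) :
    FA_S37_K5_rho A N M hs r (heckeDivBar hα hβ D)
      = FA_S37_GB_barAut (N * M) θ • FA_S37_K5_rho A N M hs r D
        + ℓ • ((FA_S37_GB_barAut (N * M) θ)⁻¹ • FA_S37_K5_rho A N M hs r D) :=
  FA_S37_K5_div A N M ℓ hℓ hA hN hs hr hα hβ θ (FA_S37_K5_cong A N ℓ hℓ hA hN θ hθ) D hD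

end Main

end Fermat.Agent.S37
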