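import Fermat.Agent.S37.BoundedES
import Fermat.Agent.S18.GaussInst
import Fermat.Agent.S18.C0Base
import Fermat.Prelude.Def_ModularCurve_HeckeOperator
import Fermat.Prelude.Def_ModularCurve_ReductionModL
import Fermat.Prelude.Thm_ModularCurve_coeffMap_qExpand

/-!
# S37, leaf K5 (part 1): the reduction datum `FA_S37_BD_Red` for `ρ = r_* ∘ s^*`

`N` the level, `M ≥ 1`, `n = N * M`, `s = heckeBetaBar ℚ̄ N M : F_N → F_n` (`f(q) ↦ f(q^M)`),
`r` ANY place reduction at level `n` (`IsPlaceReductionModL A n r`),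
`ρ := mapDomain r ∘ pullbackAlong s : Div F_N →+ Div F̄_n`.

`FA_S37_K5_U A N M f f'` : `f = ιw / ιu` with integral series `w, u` (in `F_N`, nonzero reductions)
and `f' = (w̄ / ū)(q^M)`.
-/

set_option autoImplicit false
set_option linter.unusedSectionVars false
set_option linter.style.haveILetI false
set_option maxHeartbeats 1000000
set_option synthInstance.maxHeartbeats 400000

noncomputable section

namespace Fermat.Agent.S37

open AlgebraicCurve ModularCurve HahnSeries Fermat.Agent.S18 FA_S18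

variable (A : ValuationSubring (AlgebraicClosure ℚ)) (N M : ℕ) [NeZero N] [NeZero M]

/-- "`f` is a Gauss unit of `F_N` with reduction `f̄`, and `f' = f̄(q^M)`", in quotient form. -/
def FA_S37_K5_U (f : ↥(modularFunctionFieldBar N))
    (f' : ↥(modularFunctionFieldFullC (IsLocalRing.ResidueField A) (N * M))) : Prop :=
  ∃ w u : LaurentSeries A,
    coeffMap A.subtype w ∈ modularFunctionFieldBar N ∧
    coeffMap A.subtype u ∈ modularFunctionFieldBar N ∧
    coeffMap (IsLocalRing.residue A) w ≠ 0 ∧ coeffMap (IsLocalRing.residue A) u ≠ 0 ∧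
    (f : LaurentSeries (AlgebraicClosure ℚ)) * coeffMap A.subtype u = coeffMap A.subtype w ∧
    (f' : LaurentSeries (IsLocalRing.ResidueField A)) *
        qExpand (IsLocalRing.ResidueField A) M (coeffMap (IsLocalRing.residue A) u)
      = qExpand (IsLocalRing.ResidueField A) M (coeffMap (IsLocalRing.residue A) w)

/-- The reduction of an integral series of `F_N` lies in `F̄_N`. -/
theorem FA_S37_K5_red_mem {ℓ : ℕ} (hℓ : ℓ.Prime) (hA : A.LiesOverPrime ℓ) (hN : ¬ ℓ ∣ N)
    {w : LaurentSeries A} (hw : coeffMap A.subtype w ∈ modularFunctionFieldBar N) :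
    coeffMap (IsLocalRing.residue A) w ∈
      modularFunctionFieldFullC (IsLocalRing.ResidueField A) N := by
  have h1 : coeffMap (IsLocalRing.residue A) (1 : LaurentSeries A) ≠ 0 := by
    rw [map_one]; exact one_ne_zero
  have e : coeffMap A.subtype (1 : LaurentSeries A) * coeffMap A.subtype w
      = coeffMap A.subtype w := by rw [map_one, one_mul]
  have hint : FA_S18_B_IsInt A (FA_S18_pi A) (coeffMap A.subtype w) := ⟨w, 1, h1, e⟩
  have := (FA_S18_B_range_inst A N ℓ hℓ hA hN).1 _ hw hint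
  rwa [FA_S18_B_red_eq h1 e, map_one, div_one] at this

/-- `q ↦ q^M` maps `F̄_N` into `F̄_{N M}`. -/
theorem FA_S37_K5_qExpand_mem {z : LaurentSeries (IsLocalRing.ResidueField A)}
    (hz : z ∈ modularFunctionFieldFullC (IsLocalRing.ResidueField A) N) :
    qExpand (IsLocalRing.ResidueField A) M z ∈
      modularFunctionFieldFullC (IsLocalRing.ResidueField A) (N * M) :=
  full_degeneracyC_map_le (IsLocalRing.ResidueField A) N M ⟨z, hz, rfl⟩

/-- `s (ι w) = ι (w(q^M))`. -/
theorem FA_S37_K5_iota_qExpand (w : LaurentSeries A) :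
    coeffMap A.subtype (qExpand A M w)
      = qExpand (AlgebraicClosure ℚ) M (coeffMap A.subtype w) :=
  ModularCurve.coeffMap_qExpand _ M w

theorem FA_S37_K5_rho_qExpand (w : LaurentSeries A) :
    coeffMap (IsLocalRing.residue A) (qExpand A M w)
      = qExpand (IsLocalRing.ResidueField A) M (coeffMap (IsLocalRing.residue A) w) :=
  ModularCurve.coeffMap_qExpand _ M w

/-- The divisor of `φ f` is the pullback of the divisor of `f`. -/
theorem FA_S37_K5_pullbackAlong_ord {K F F' : Type*} [Field K] [Field F] [Field F']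
    [Algebra K F] [Algebra K F'] [HasPrincipalDivisors K F'] (φ : F →ₐ[K] F')
    (hφ : φ.toRingHom.IsIntegral) {f : F} {D : Divisor K F}
    (hD : ∀ v : Place K F, D v = v.ord f) (w : Place K F') :
    Divisor.pullbackAlong φ hφ D w = w.ord (φ f) := by
  letI := algebraAlong φ
  haveI := isScalarTower_along φ
  haveI := isIntegral_along φ hφ
  exact Divisor.pullback_apply_eq_ord hD w

section Rho

variable [HasPrincipalDivisors (AlgebraicClosure ℚ) ↥(modularFunctionFieldBar (N * M))]

/-- `ρ = r_* ∘ s^*`. -/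
def FA_S37_K5_rho (hs : HeckeBetaBarIntegral (AlgebraicClosure ℚ) N M)
    (r : Place (AlgebraicClosure ℚ) ↥(modularFunctionFieldBar (N * M)) →
      Place (IsLocalRing.ResidueField A)
        ↥(modularFunctionFieldFullC (IsLocalRing.ResidueField A) (N * M))) :
    Divisor (AlgebraicClosure ℚ) ↥(modularFunctionFieldBar N) →+
      Divisor (IsLocalRing.ResidueField A)
        ↥(modularFunctionFieldFullC (IsLocalRing.ResidueField A) (N * M)) :=
  (Finsupp.mapDomain.addMonoidHom r).comp
    (Divisor.pullbackAlong (heckeBetaBar (AlgebraicClosure ℚ) N M) hs)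

theorem FA_S37_K5_rho_apply (hs : HeckeBetaBarIntegral (AlgebraicClosure ℚ) N M)
    (r : Place (AlgebraicClosure ℚ) ↥(modularFunctionFieldBar (N * M)) →
      Place (IsLocalRing.ResidueField A)
        ↥(modularFunctionFieldFullC (IsLocalRing.ResidueField A) (N * M)))
    (D : Divisor (AlgebraicClosure ℚ) ↥(modularFunctionFieldBar N)) :
    FA_S37_K5_rho A N M hs r D
      = Finsupp.mapDomain r
          (Divisor.pullbackAlong (heckeBetaBar (AlgebraicClosure ℚ) N M) hs D) := rfl

/-- `ρ (div ιw) = div (w̄(q^M))` for an integral series `w`. -/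
theorem FA_S37_K5_rho_int {ℓ : ℕ} (hℓ : ℓ.Prime) (hA : A.LiesOverPrime ℓ) (hN : ¬ ℓ ∣ N)
    (hs : HeckeBetaBarIntegral (AlgebraicClosure ℚ) N M)
    {r : Place (AlgebraicClosure ℚ) ↥(modularFunctionFieldBar (N * M)) →
      Place (IsLocalRing.ResidueField A)
        ↥(modularFunctionFieldFullC (IsLocalRing.ResidueField A) (N * M))}
    (hr : IsPlaceReductionModL A (N * M) r)
    {w : LaurentSeries A} (hw : coeffMap A.subtype w ∈ modularFunctionFieldBar N)
    (hwk : coeffMap (IsLocalRing.residue A) w ≠ 0)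
    (D : Divisor (AlgebraicClosure ℚ) ↥(modularFunctionFieldBar N))
    (hD : ∀ P : Place (AlgebraicClosure ℚ) ↥(modularFunctionFieldBar N),
      D P = P.ord (⟨coeffMap A.subtype w, hw⟩ : ↥(modularFunctionFieldBar N)))
    (Q : Place (IsLocalRing.ResidueField A)
        ↥(modularFunctionFieldFullC (IsLocalRing.ResidueField A) (N * M))) :
    FA_S37_K5_rho A N M hs r D Q
      = Q.ord (⟨qExpand (IsLocalRing.ResidueField A) M (coeffMap (IsLocalRing.residue A) w),
          FA_S37_K5_qExpand_mem A N M (FA_S37_K5_red_mem A N hℓ hA hN hw)⟩ :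
            ↥(modularFunctionFieldFullC (IsLocalRing.ResidueField A) (N * M))) := by
  rw [FA_S37_K5_rho_apply]
  have hsw : heckeBetaBar (AlgebraicClosure ℚ) N M ⟨coeffMap A.subtype w, hw⟩
      = (⟨coeffMap A.subtype (qExpand A M w), by
          rw [FA_S37_K5_iota_qExpand]
          exact (heckeBetaBar (AlgebraicClosure ℚ) N M ⟨coeffMap A.subtype w, hw⟩).2⟩ :
        ↥(modularFunctionFieldBar (N * M))) := by
    apply Subtype.ext
    rw [coe_heckeBetaBar]
    exact (FA_S37_K5_iota_qExpand A M w).symm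
  have hy : coeffMap A.subtype (qExpand A M w) ∈
      laurentBaseChange (AlgebraicClosure ℚ) (modularFunctionFieldFull (N * M)) := by
    rw [FA_S37_K5_iota_qExpand]
    exact (heckeBetaBar (AlgebraicClosure ℚ) N M ⟨coeffMap A.subtype w, hw⟩).2
  have hyk : coeffMap (IsLocalRing.residue A) (qExpand A M w) ∈
      modularFunctionFieldFullC (IsLocalRing.ResidueField A) (N * M) := by
    rw [FA_S37_K5_rho_qExpand]
    exact FA_S37_K5_qExpand_mem A N M (FA_S37_K5_red_mem A N hℓ hA hN hw)
  have hne : coeffMap (IsLocalRing.residue A) (qExpand A M w) ≠ 0 := by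
    rw [FA_S37_K5_rho_qExpand]
    intro h
    apply hwk
    apply qExpand_injective (R := IsLocalRing.ResidueField A) M
    rw [h, map_zero]
  have key := hr.2 (qExpand A M w) hy hyk hne
    (Divisor.pullbackAlong (heckeBetaBar (AlgebraicClosure ℚ) N M) hs D) (fun W => by
      rw [FA_S37_K5_pullbackAlong_ord _ hs hD W, hsw]) Q
  rw [key]
  congr 1
  apply Subtype.ext
  exact FA_S37_K5_rho_qExpand A M w

/-- `ρ (div f) = div f'` for `U f f'`. -/
theorem FA_S37_K5_rho_div {ℓ : ℕ} (hℓ : ℓ.Prime) (hA : A.LiesOverPrime ℓ) (hN : ¬ ℓ ∣ N)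
    (hs : HeckeBetaBarIntegral (AlgebraicClosure ℚ) N M)
    {r : Place (AlgebraicClosure ℚ) ↥(modularFunctionFieldBar (N * M)) →
      Place (IsLocalRing.ResidueField A)
        ↥(modularFunctionFieldFullC (IsLocalRing.ResidueField A) (N * M))}
    (hr : IsPlaceReductionModL A (N * M) r)
    (f : ↥(modularFunctionFieldBar N))
    (f' : ↥(modularFunctionFieldFullC (IsLocalRing.ResidueField A) (N * M)))
    (hU : FA_S37_K5_U A N M f f')
    (D : Divisor (AlgebraicClosure ℚ) ↥(modularFunctionFieldBar N))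
    (hD : ∀ P : Place (AlgebraicClosure ℚ) ↥(modularFunctionFieldBar N), D P = P.ord f)
    (Q : Place (IsLocalRing.ResidueField A)
        ↥(modularFunctionFieldFullC (IsLocalRing.ResidueField A) (N * M))) :
    FA_S37_K5_rho A N M hs r D Q = Q.ord f' := by
  obtain ⟨w, u, hw, hu, hwk, huk, e, e'⟩ := hU
  haveI := FA_RR.hasPrincipalDivisors (FA_S18_C0_isFF N)
  have hw0 : (⟨coeffMap A.subtype w, hw⟩ : ↥(modularFunctionFieldBar N)) ≠ 0 := by
    intro h
    exact FA_S18_B_iota_ne_zero hwk (congrArg Subtype.val h)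
  have hu0 : (⟨coeffMap A.subtype u, hu⟩ : ↥(modularFunctionFieldBar N)) ≠ 0 := by
    intro h
    exact FA_S18_B_iota_ne_zero huk (congrArg Subtype.val h)
  have ef : f * ⟨coeffMap A.subtype u, hu⟩ = ⟨coeffMap A.subtype w, hw⟩ := Subtype.ext e
  have hf0 : f ≠ 0 := by
    intro h
    rw [h, zero_mul] at ef
    exact hw0 ef.symm
  obtain ⟨Dw, hDw, -⟩ := HasPrincipalDivisors.exists_divisor (K := AlgebraicClosure ℚ) _ hw0
  obtain ⟨Du, hDu, -⟩ := HasPrincipalDivisors.exists_divisor (K := AlgebraicClosure ℚ) _ hu0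
  have hD' : D = Dw - Du := by
    ext P
    rw [hD, Finsupp.sub_apply, hDw, hDu, ← ef, P.ord_mul hf0 hu0]
    ring
  have hqw : qExpand (IsLocalRing.ResidueField A) M (coeffMap (IsLocalRing.residue A) w) ≠ 0 := by
    intro h
    apply hwk
    apply qExpand_injective (R := IsLocalRing.ResidueField A) M
    rw [h, map_zero]
  have hqu : qExpand (IsLocalRing.ResidueField A) M (coeffMap (IsLocalRing.residue A) u) ≠ 0 := by
    intro h
    apply huk
    apply qExpand_injective (R := IsLocalRing.ResidueField A) M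
    rw [h, map_zero]
  set W' : ↥(modularFunctionFieldFullC (IsLocalRing.ResidueField A) (N * M)) :=
    ⟨qExpand (IsLocalRing.ResidueField A) M (coeffMap (IsLocalRing.residue A) w),
      FA_S37_K5_qExpand_mem A N M (FA_S37_K5_red_mem A N hℓ hA hN hw)⟩ with hW'
  set U' : ↥(modularFunctionFieldFullC (IsLocalRing.ResidueField A) (N * M)) :=
    ⟨qExpand (IsLocalRing.ResidueField A) M (coeffMap (IsLocalRing.residue A) u),
      FA_S37_K5_qExpand_mem A N M (FA_S37_K5_red_mem A N hℓ hA hN hu)⟩ with hU'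
  have hW0 : W' ≠ 0 := fun h => hqw (congrArg Subtype.val h)
  have hU0 : U' ≠ 0 := fun h => hqu (congrArg Subtype.val h)
  have ef' : f' * U' = W' := Subtype.ext e'
  have hf'0 : f' ≠ 0 := by
    intro h
    rw [h, zero_mul] at ef'
    exact hW0 ef'.symm
  have h1 : FA_S37_K5_rho A N M hs r Dw Q = Q.ord W' :=
    FA_S37_K5_rho_int A N M hℓ hA hN hs hr hw hwk Dw hDw Q
  have h2 : FA_S37_K5_rho A N M hs r Du Q = Q.ord U' :=
    FA_S37_K5_rho_int A N M hℓ hA hN hs hr hu huk Du hDu Q
  rw [hD', map_sub, Finsupp.sub_apply, h1, h2, ← ef', Q.ord_mul hf'0 hU0]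
  ring

/-- every nonzero `f ∈ F_N` is a constant times a Gauss unit in quotient form -/
theorem FA_S37_K5_gen {ℓ : ℕ} (hℓ : ℓ.Prime) (hA : A.LiesOverPrime ℓ) (hN : ¬ ℓ ∣ N)
    (D : Divisor (AlgebraicClosure ℚ) ↥(modularFunctionFieldBar N))
    (hD : D ∈ Divisor.principal (K := AlgebraicClosure ℚ) (F := ↥(modularFunctionFieldBar N))) :
    ∃ (f : ↥(modularFunctionFieldBar N))
      (f' : ↥(modularFunctionFieldFullC (IsLocalRing.ResidueField A) (N * M))),
      FA_S37_K5_U A N M f f' ∧
        ∀ P : Place (AlgebraicClosure ℚ) ↥(modularFunctionFieldBar N), D P = P.ord f := by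
  obtain ⟨f, hf, hDf⟩ := hD
  obtain ⟨D₀, -, -⟩ := FA_S18_B_datum_inst A N ℓ hℓ hA hN
  have hf0 : (f : LaurentSeries (AlgebraicClosure ℚ)) ≠ 0 := fun h => hf (Subtype.ext h)
  obtain ⟨c, Q, P, hc, hQ, hP, e⟩ := FA_S18_B_normal D₀ f.2 hf0
  have huk := D₀.rho_ev_ne_zero hQ
  have hwk := D₀.rho_comb_ne_zero hP
  have hu : coeffMap A.subtype (FA_S18_B_ev D₀.x Q) ∈ modularFunctionFieldBar N := by
    rw [FA_S18_B_coeffMap_ev]
    exact FA_S18_B_ev_mem _ D₀.x_mem _
  have hw : coeffMap A.subtype (D₀.comb P) ∈ modularFunctionFieldBar N := by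
    rw [D₀.iota_comb]
    exact sum_mem fun i _ => mul_mem (FA_S18_B_ev_mem _ D₀.x_mem _) (D₀.e_mem i)
  have hqu : qExpand (IsLocalRing.ResidueField A) M
      (coeffMap (IsLocalRing.residue A) (FA_S18_B_ev D₀.x Q)) ≠ 0 := by
    intro h
    apply huk
    apply qExpand_injective (R := IsLocalRing.ResidueField A) M
    rw [h, map_zero]
  refine ⟨algebraMap (AlgebraicClosure ℚ) ↥(modularFunctionFieldBar N) c⁻¹ * f,
    ⟨qExpand (IsLocalRing.ResidueField A) M (coeffMap (IsLocalRing.residue A) (D₀.comb P)) /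
      qExpand (IsLocalRing.ResidueField A) M
        (coeffMap (IsLocalRing.residue A) (FA_S18_B_ev D₀.x Q)),
      div_mem (FA_S37_K5_qExpand_mem A N M (FA_S37_K5_red_mem A N hℓ hA hN hw))
        (FA_S37_K5_qExpand_mem A N M (FA_S37_K5_red_mem A N hℓ hA hN hu))⟩,
    ⟨D₀.comb P, FA_S18_B_ev D₀.x Q, hw, hu, hwk, huk, ?_, ?_⟩, ?_⟩
  · show (algebraMap (AlgebraicClosure ℚ) (LaurentSeries (AlgebraicClosure ℚ)) c⁻¹ *
        (f : LaurentSeries (AlgebraicClosure ℚ))) * _ = _
    rw [mul_assoc, mul_comm (f : LaurentSeries (AlgebraicClosure ℚ)), e,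
      FA_S18_B_algebraMap_eq_C, ← mul_assoc, ← map_mul, inv_mul_cancel₀ hc, map_one, one_mul]
  · exact div_mul_cancel₀ _ hqu
  · intro P'
    have hc' : algebraMap (AlgebraicClosure ℚ) ↥(modularFunctionFieldBar N) c⁻¹ ≠ 0 := by
      rw [Ne, map_eq_zero]
      exact inv_ne_zero hc
    rw [hDf, P'.ord_mul hc' hf, FA_RR.ord_algebraMap, zero_add]

/-- pullbacks of effective divisors are effective -/
theorem FA_S37_K5_pullbackAlong_nonneg {K F F' : Type*} [Field K] [Field F] [Field F']
    [Algebra K F] [Algebra K F'] [HasPrincipalDivisors K F'] (φ : F →ₐ[K] F')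
    (hφ : φ.toRingHom.IsIntegral) {E : Divisor K F} (hE : 0 ≤ E) :
    0 ≤ Divisor.pullbackAlong φ hφ E := by
  rw [Finsupp.le_def]
  intro w
  rw [Finsupp.zero_apply, Divisor.pullbackAlong_apply]
  exact mul_nonneg (Int.natCast_nonneg _) (Finsupp.le_def.mp hE _)

/-- pushforwards of effective divisors are effective -/
theorem FA_S37_K5_pushforwardAlong_nonneg {K F F' : Type*} [Field K] [Field F] [Field F']
    [Algebra K F] [Algebra K F'] (φ : F →ₐ[K] F')
    (hφ : φ.toRingHom.IsIntegral) {E : Divisor K F'} (hE : 0 ≤ E) :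
    0 ≤ Divisor.pushforwardAlong φ hφ E := by
  classical
  induction E using Finsupp.induction with
  | zero => simp
  | single_add w n E hw hn ih =>
    have hn0 : 0 ≤ n := by
      have := Finsupp.le_def.mp hE w
      rw [Finsupp.zero_apply, Finsupp.add_apply, Finsupp.single_eq_same,
        Finsupp.notMem_support_iff.mp hw, add_zero] at this
      exact this
    have hE0 : 0 ≤ E := by
      rw [Finsupp.le_def]
      intro v
      have := Finsupp.le_def.mp hE v
      rw [Finsupp.zero_apply, Finsupp.add_apply] at this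
      by_cases hv : v = w
      · subst hv
        rw [Finsupp.notMem_support_iff.mp hw]
        exact le_refl _
      · rw [Finsupp.single_eq_of_ne hv, zero_add] at this
        exact this
    rw [map_add, Divisor.pushforwardAlong_single]
    refine add_nonneg ?_ (ih hE0)
    rw [Finsupp.le_def]
    intro v
    rw [Finsupp.zero_apply, Finsupp.single_apply]
    split_ifs
    · exact mul_nonneg hn0 (Int.natCast_nonneg _)
    · exact le_refl _

/-- `mapDomain r` of an effective divisor (places of degree one) has coefficients in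
`[0, deg]`. -/
theorem FA_S37_K5_mapDomain_bound {K F : Type*} [Field K] [Field F] [Algebra K F]
    [IsAlgClosed K] [CharZero K] (hF : FA_RR_IsFF K F) {Y : Type*} (r : Place K F → Y)
    (E : Divisor K F) (hE : 0 ≤ E) (Q : Y) :
    |Finsupp.mapDomain r E Q| ≤ Divisor.degree E := by
  classical
  have := FA_S37_BD_bound_eff hF (Finsupp.mapDomain.addMonoidHom r) 1 (fun P Q' => by
    show |Finsupp.mapDomain r (Finsupp.single P (1 : ℤ)) Q'| ≤ 1
    rw [Finsupp.mapDomain_single, Finsupp.single_apply]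
    split_ifs <;> simp) Q E hE
  rwa [mul_one] at this

/-- the bound for `ρ` on single places -/
theorem FA_S37_K5_rho_bound
    (hs : HeckeBetaBarIntegral (AlgebraicClosure ℚ) N M)
    (hFI : FundamentalIdentityAlong (AlgebraicClosure ℚ)
      (heckeBetaBar (AlgebraicClosure ℚ) N M) hs)
    (r : Place (AlgebraicClosure ℚ) ↥(modularFunctionFieldBar (N * M)) →
      Place (IsLocalRing.ResidueField A)
        ↥(modularFunctionFieldFullC (IsLocalRing.ResidueField A) (N * M)))
    (P : Place (AlgebraicClosure ℚ) ↥(modularFunctionFieldBar N))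
    (Q : Place (IsLocalRing.ResidueField A)
        ↥(modularFunctionFieldFullC (IsLocalRing.ResidueField A) (N * M))) :
    |FA_S37_K5_rho A N M hs r (Finsupp.single P 1) Q|
      ≤ (finrankAlong (AlgebraicClosure ℚ) (heckeBetaBar (AlgebraicClosure ℚ) N M) : ℤ) := by
  classical
  rw [FA_S37_K5_rho_apply]
  have h0 : (0 : Divisor (AlgebraicClosure ℚ) ↥(modularFunctionFieldBar N))
      ≤ Finsupp.single P 1 := by
    rw [Finsupp.le_def]
    intro v
    rw [Finsupp.zero_apply, Finsupp.single_apply]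
    split_ifs <;> simp
  have h1 := FA_S37_K5_mapDomain_bound (FA_S18_C0_isFF (N * M)) r _
    (FA_S37_K5_pullbackAlong_nonneg (heckeBetaBar (AlgebraicClosure ℚ) N M) hs h0) Q
  rw [Divisor.degree_pullbackAlong _ hs hFI, Divisor.degree_single,
    FA_RR.deg_eq_one (FA_S18_C0_isFF N) P] at h1
  simpa using h1

/-- **The reduction datum** for `ρ = r_* ∘ s^*` and `U`. -/
theorem FA_S37_K5_red {ℓ : ℕ} (hℓ : ℓ.Prime) (hA : A.LiesOverPrime ℓ) (hN : ¬ ℓ ∣ N)
    (hs : HeckeBetaBarIntegral (AlgebraicClosure ℚ) N M)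
    (hFI : FundamentalIdentityAlong (AlgebraicClosure ℚ)
      (heckeBetaBar (AlgebraicClosure ℚ) N M) hs)
    {r : Place (AlgebraicClosure ℚ) ↥(modularFunctionFieldBar (N * M)) →
      Place (IsLocalRing.ResidueField A)
        ↥(modularFunctionFieldFullC (IsLocalRing.ResidueField A) (N * M))}
    (hr : IsPlaceReductionModL A (N * M) r) :
    FA_S37_BD_Red (FA_S37_K5_rho A N M hs r) (FA_S37_K5_U A N M) where
  ne_zero := by
    rintro f f' ⟨w, u, hw, hu, hwk, huk, e, e'⟩ h
    rw [h] at e'
    simp only [ZeroMemClass.coe_zero, zero_mul] at e'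
    apply hwk
    apply qExpand_injective (R := IsLocalRing.ResidueField A) M
    rw [← e', map_zero]
  div := fun f f' hU D hD Q => FA_S37_K5_rho_div A N M hℓ hA hN hs hr f f' hU D hD Q
  gen := fun D hD => FA_S37_K5_gen A N M hℓ hA hN D hD
  bound := ⟨_, fun P Q => FA_S37_K5_rho_bound A N M hs hFI r P Q⟩

end Rho

end Fermat.Agent.S37
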