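import Mathlib

/-!
# S37, leaf A1/A2 (core): reduction of places on a chart, abstractly

`K₀ ⊃ A` a valuation ring with `π : A →+* k`; `F ⊃ O` a valuation ring with `red : O →+* Fb`;
`B`, `Bb` Dedekind domains with fraction fields `F`, `Fb` (the charts).

* `FA_S37_RED_Centre P Q` : the prime `P` of `B` is centred at the prime `Q` of `Bb`, i.e.
  `red (P ∩ O) ⊆ Q`.
* `FA_S37_RED_LR` : an element of `O` without poles at the primes centred at `Q` has a reduction
  without pole at `Q`.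
* `FA_S37_RED_mult` : **the multiplicity formula** `∏_{P ↦ Q} |y|_P = |red y|_Q`, from the fibre
  inequality `FA_S37_RED_FI` (the only input from norms).
-/

set_option autoImplicit false
set_option linter.unusedSectionVars false
set_option linter.unusedVariables false

noncomputable section

open IsDedekindDomain IsDedekindDomain.HeightOneSpectrum WithZero

namespace Fermat.Agent.S37

variable {K₀ k F Fb : Type*} [Field K₀] [Field k] [Field F] [Field Fb]
  [Algebra K₀ F] [Algebra k Fb]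
variable (A : ValuationSubring K₀) (π : A →+* k) (O : ValuationSubring F) (red : O →+* Fb)
variable (B : Type*) [CommRing B] [IsDedekindDomain B] [Algebra B F] [IsFractionRing B F]
  [Algebra K₀ B] [IsScalarTower K₀ B F]
variable (Bb : Type*) [CommRing Bb] [IsDedekindDomain Bb] [Algebra Bb Fb] [IsFractionRing Bb Fb]
  [Algebra k Bb] [IsScalarTower k Bb Fb]

/-- The hypotheses on a chart. -/
structure FA_S37_RED_Hyp : Prop where
  pi_max : ∀ c : K₀, c ∉ A → ∃ h : c⁻¹ ∈ A, π ⟨c⁻¹, h⟩ = 0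
  red_max : ∀ f : O, (f : F)⁻¹ ∉ O → red f = 0
  const_mem : ∀ a : A, algebraMap K₀ F a ∈ O
  const_red : ∀ (a : A) (h : algebraMap K₀ F a ∈ O),
    red ⟨algebraMap K₀ F a, h⟩ = algebraMap k Fb (π a)
  lift : ∀ z : Bb, ∃ (b : B) (h : algebraMap B F b ∈ O), red ⟨_, h⟩ = algebraMap Bb Fb z
  int : ∀ (b : B) (h : algebraMap B F b ∈ O), ∃ z : Bb, algebraMap Bb Fb z = red ⟨_, h⟩
  resB : ∀ (P : HeightOneSpectrum B) (b : B), ∃ c : K₀, b - algebraMap K₀ B c ∈ P.asIdeal

/-- The prime `P` of `B` is centred at the prime `Q` of `Bb`: `red (P ∩ O) ⊆ Q`. -/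
def FA_S37_RED_Centre (P : HeightOneSpectrum B) (Q : HeightOneSpectrum Bb) : Prop :=
  ∀ (b : B) (h : algebraMap B F b ∈ O) (z : Bb), b ∈ P.asIdeal →
    algebraMap Bb Fb z = red ⟨_, h⟩ → z ∈ Q.asIdeal

/-- The fibre inequality (the only input from norms). -/
def FA_S37_RED_FI : Prop :=
  ∀ Q : HeightOneSpectrum Bb, ∃ Φ : Finset (HeightOneSpectrum Bb), Q ∈ Φ ∧
    ∀ (t : B) (h : algebraMap B F t ∈ O) (tb : Bb), algebraMap Bb Fb tb = red ⟨_, h⟩ → tb ≠ 0 →
      ∀ S : Finset (HeightOneSpectrum B),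
        (∀ P ∈ S, ∃ Q' ∈ Φ, FA_S37_RED_Centre O red B Bb P Q') →
        ∏ Q' ∈ Φ, Q'.intValuation tb ≤ ∏ P ∈ S, P.intValuation t

/-- Uniformizers of the discs: the form of the input used by the multiplicity formula. -/
def FA_S37_RED_Unif : Prop :=
  ∀ Q : HeightOneSpectrum Bb, ∃ tb : Bb, Q.intValuation tb = exp (-1 : ℤ) ∧
    ∀ P : HeightOneSpectrum B, FA_S37_RED_Centre O red B Bb P Q →
      ∃ (t : B) (ht : algebraMap B F t ∈ O), red ⟨_, ht⟩ = algebraMap Bb Fb tb ∧
        P.intValuation t = exp (-1 : ℤ) ∧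
        ∀ P' : HeightOneSpectrum B, FA_S37_RED_Centre O red B Bb P' Q → P' ≠ P →
          P'.intValuation t = 1

/-- The simple-zero form of the fibre inequality (tangent vector route). -/
def FA_S37_RED_FI1 : Prop :=
  ∀ (Q : HeightOneSpectrum Bb) (P P' : HeightOneSpectrum B),
    FA_S37_RED_Centre O red B Bb P Q → FA_S37_RED_Centre O red B Bb P' Q →
    ∀ (t : B) (h : algebraMap B F t ∈ O) (tb : Bb), algebraMap Bb Fb tb = red ⟨_, h⟩ →
      tb ∈ Q.asIdeal → tb ∉ Q.asIdeal ^ 2 → t ∈ P.asIdeal →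
        t ∉ P.asIdeal ^ 2 ∧ (t ∈ P'.asIdeal → P' = P)

variable {A π O red B Bb}

section lemmas

variable (H : FA_S37_RED_Hyp A π O red B Bb)
include H

/-- Values at a centred prime are integral. -/
theorem FA_S37_RED_value_mem {P : HeightOneSpectrum B} {Q : HeightOneSpectrum Bb}
    (hc : FA_S37_RED_Centre O red B Bb P Q) (b : B) (hb : algebraMap B F b ∈ O) (c : K₀)
    (hbc : b - algebraMap K₀ B c ∈ P.asIdeal) : c ∈ A := by
  by_contra hcA
  obtain ⟨hinv, hπ⟩ := H.pi_max c hcA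
  have hc0 : c ≠ 0 := fun h => hcA (h ▸ A.zero_mem)
  have hmem : algebraMap K₀ F c⁻¹ ∈ O := H.const_mem ⟨c⁻¹, hinv⟩
  have hb' : algebraMap B F (1 - algebraMap K₀ B c⁻¹ * b) ∈ O := by
    rw [map_sub, map_one, map_mul, ← IsScalarTower.algebraMap_apply]
    exact sub_mem O.one_mem (O.mul_mem _ _ hmem hb)
  have hP : 1 - algebraMap K₀ B c⁻¹ * b ∈ P.asIdeal := by
    have e : 1 - algebraMap K₀ B c⁻¹ * b = -(algebraMap K₀ B c⁻¹) * (b - algebraMap K₀ B c) := by
      have : algebraMap K₀ B c⁻¹ * algebraMap K₀ B c = 1 := by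
        rw [← map_mul, inv_mul_cancel₀ hc0, map_one]
      rw [neg_mul, mul_sub, this]
      ring
    rw [e]
    exact P.asIdeal.mul_mem_left _ hbc
  have hred : red ⟨_, hb'⟩ = 1 := by
    have e : (⟨_, hb'⟩ : O) = 1 - ⟨algebraMap K₀ F c⁻¹, hmem⟩ * ⟨algebraMap B F b, hb⟩ := by
      apply Subtype.ext
      simp only [map_sub, map_one, map_mul, ← IsScalarTower.algebraMap_apply]
      rfl
    rw [e, map_sub, map_one, map_mul, H.const_red ⟨c⁻¹, hinv⟩ hmem, hπ, map_zero, zero_mul,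
      sub_zero]
  have h1 : (1 : Bb) ∈ Q.asIdeal := hc _ hb' 1 hP (by rw [map_one, hred])
  exact Q.isPrime.ne_top ((Ideal.eq_top_iff_one _).mpr h1)

/-- Values at a centred prime reduce to values at the centre. -/
theorem FA_S37_RED_value_pi {P : HeightOneSpectrum B} {Q : HeightOneSpectrum Bb}
    (hc : FA_S37_RED_Centre O red B Bb P Q) (b : B) (hb : algebraMap B F b ∈ O) (c : A)
    (hbc : b - algebraMap K₀ B (c : K₀) ∈ P.asIdeal) (z : Bb)
    (hz : algebraMap Bb Fb z = red ⟨_, hb⟩) :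
    z - algebraMap k Bb (π c) ∈ Q.asIdeal := by
  have hmem : algebraMap K₀ F (c : K₀) ∈ O := H.const_mem c
  have hb' : algebraMap B F (b - algebraMap K₀ B (c : K₀)) ∈ O := by
    rw [map_sub, ← IsScalarTower.algebraMap_apply]
    exact sub_mem hb hmem
  refine hc _ hb' _ hbc ?_
  have e : (⟨_, hb'⟩ : O) = ⟨algebraMap B F b, hb⟩ - ⟨algebraMap K₀ F (c : K₀), hmem⟩ := by
    apply Subtype.ext
    simp only [map_sub, ← IsScalarTower.algebraMap_apply]
    rfl
  rw [e, map_sub, map_sub, H.const_red c hmem, hz, ← IsScalarTower.algebraMap_apply]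

end lemmas

section LR

/-- A non-centred prime gives a separating element. -/
theorem FA_S37_RED_exists_sep (P : HeightOneSpectrum B) (Q : HeightOneSpectrum Bb)
    (h : ¬ FA_S37_RED_Centre O red B Bb P Q) :
    ∃ (b : B) (hb : algebraMap B F b ∈ O) (z : Bb), b ∈ P.asIdeal ∧
      algebraMap Bb Fb z = red ⟨_, hb⟩ ∧ z ∉ Q.asIdeal := by
  unfold FA_S37_RED_Centre at h
  push Not at h
  obtain ⟨b, hb, z, hbP, hz, hzQ⟩ := h
  exact ⟨b, hb, z, hbP, hz, hzQ⟩

variable (H : FA_S37_RED_Hyp A π O red B Bb)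
include H

/-- Clearing the poles outside the disc of `Q`. -/
theorem FA_S37_RED_clear (Q : HeightOneSpectrum Bb) (w : F) (hw0 : w ≠ 0)
    (hreg : ∀ P : HeightOneSpectrum B, FA_S37_RED_Centre O red B Bb P Q →
      P.valuation F w ≤ 1) :
    ∃ (d : B) (hd : algebraMap B F d ∈ O) (zd : Bb),
      algebraMap Bb Fb zd = red ⟨_, hd⟩ ∧ zd ∉ Q.asIdeal ∧
        ∃ a : B, algebraMap B F a = algebraMap B F d * w := by
  classical
  have hfin := HeightOneSpectrum.Support.finite B w
  set T := hfin.toFinset with hTdef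
  have hT : ∀ P, P ∈ T ↔ 1 < P.valuation F w := by
    intro P
    rw [hTdef, Set.Finite.mem_toFinset]
    rfl
  have hsep : ∀ P : HeightOneSpectrum B, ∃ (b : B) (hb : algebraMap B F b ∈ O) (z : Bb),
      algebraMap Bb Fb z = red ⟨_, hb⟩ ∧ z ∉ Q.asIdeal ∧ (P ∈ T → b ∈ P.asIdeal) := by
    intro P
    by_cases hP : P ∈ T
    · have hnc : ¬ FA_S37_RED_Centre O red B Bb P Q :=
        fun hc => not_le.mpr ((hT P).1 hP) (hreg P hc)
      obtain ⟨b, hb, z, hbP, hz, hzQ⟩ := FA_S37_RED_exists_sep P Q hnc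
      exact ⟨b, hb, z, hz, hzQ, fun _ => hbP⟩
    · have h1 : algebraMap B F 1 ∈ O := by rw [map_one]; exact O.one_mem
      refine ⟨1, h1, 1, ?_, ?_, fun h => (hP h).elim⟩
      · have e : (⟨_, h1⟩ : O) = 1 := Subtype.ext (map_one _)
        rw [e, map_one, map_one]
      · intro h
        exact Q.isPrime.ne_top ((Ideal.eq_top_iff_one _).mpr h)
  choose b hb z hz hzQ hbP using hsep
  let m : HeightOneSpectrum B → ℕ := fun P => (log (P.valuation F w)).toNat
  have hdO : algebraMap B F (∏ P ∈ T, b P ^ m P) ∈ O := by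
    rw [map_prod]
    exact prod_mem (fun P _ => by rw [map_pow]; exact pow_mem (hb P) _)
  refine ⟨∏ P ∈ T, b P ^ m P, hdO, ∏ P ∈ T, z P ^ m P, ?_, ?_, ?_⟩
  · have e : (⟨_, hdO⟩ : O) = ∏ P ∈ T, (⟨_, hb P⟩ : O) ^ m P := by
      apply Subtype.ext
      have := map_prod O.subtype (fun P => (⟨_, hb P⟩ : O) ^ m P) T
      simp only [ValuationSubring.subtype_apply] at this
      rw [this]
      show algebraMap B F (∏ P ∈ T, b P ^ m P) = _
      rw [map_prod]
      refine Finset.prod_congr rfl fun P _ => ?_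
      rw [map_pow]
      rfl
    rw [e, map_prod, map_prod]
    refine Finset.prod_congr rfl fun P _ => ?_
    rw [map_pow, map_pow, hz P]
  · intro hmem
    rw [Ideal.IsPrime.prod_mem_iff] at hmem
    obtain ⟨P, _, hP⟩ := hmem
    exact hzQ P (Q.isPrime.mem_of_pow_mem _ hP)
  · have key : ∀ v : HeightOneSpectrum B,
        v.valuation F (algebraMap B F (∏ P ∈ T, b P ^ m P) * w) ≤ 1 := by
      intro v
      rw [map_mul, valuation_of_algebraMap]
      by_cases hv : v ∈ T
      · rw [← Finset.mul_prod_erase T _ hv, map_mul]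
        have h1 : v.intValuation (b v ^ m v) ≤ exp (-(m v : ℤ)) :=
          (intValuation_le_pow_iff_mem v _ (m v)).2 (Ideal.pow_mem_pow (hbP v hv) _)
        have h2 : v.intValuation (∏ P ∈ T.erase v, b P ^ m P) ≤ 1 := intValuation_le_one v _
        have hw1 : v.valuation F w ≠ 0 := (Valuation.ne_zero_iff _).2 hw0
        have h3 : v.valuation F w ≤ exp ((m v : ℤ)) := by
          rw [← exp_log hw1, exp_le_exp]
          exact Int.self_le_toNat _
        calc v.intValuation (b v ^ m v) * v.intValuation (∏ P ∈ T.erase v, b P ^ m P)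
              * v.valuation F w
            ≤ exp (-(m v : ℤ)) * 1 * exp ((m v : ℤ)) :=
              mul_le_mul' (mul_le_mul' h1 h2) h3
          _ = 1 := by
              rw [mul_one, ← exp_add, neg_add_cancel, exp_zero]
      · have h1 : v.valuation F w ≤ 1 := not_lt.mp (fun h => hv ((hT v).2 h))
        exact mul_le_one' (intValuation_le_one v _) h1
    obtain ⟨a, ha⟩ := mem_integers_of_valuation_le_one F _ key
    exact ⟨a, ha⟩

/-- **Local regularity**: an element of `O` without poles at the primes centred at `Q` has a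
reduction without pole at `Q`. -/
theorem FA_S37_RED_LR (Q : HeightOneSpectrum Bb) (w : F) (hw : w ∈ O)
    (hreg : ∀ P : HeightOneSpectrum B, FA_S37_RED_Centre O red B Bb P Q →
      P.valuation F w ≤ 1) :
    Q.valuation Fb (red ⟨w, hw⟩) ≤ 1 := by
  by_cases hw0 : w = 0
  · subst hw0
    have : (⟨0, hw⟩ : O) = 0 := rfl
    rw [this, map_zero, map_zero]
    exact zero_le_one
  obtain ⟨d, hd, zd, hzd, hzdQ, a, ha⟩ := FA_S37_RED_clear H Q w hw0 hreg
  have haO : algebraMap B F a ∈ O := by rw [ha]; exact O.mul_mem _ _ hd hw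
  obtain ⟨za, hza⟩ := H.int a haO
  have e : (⟨_, haO⟩ : O) = ⟨_, hd⟩ * ⟨w, hw⟩ := Subtype.ext ha
  rw [e, map_mul, ← hzd] at hza
  have h1 : Q.valuation Fb (algebraMap Bb Fb zd) = 1 := by
    rw [valuation_of_algebraMap]
    exact intValuation_eq_one_iff.2 hzdQ
  have h2 : Q.valuation Fb (algebraMap Bb Fb za) ≤ 1 := valuation_le_one Q za
  rw [hza, map_mul, h1, one_mul] at h2
  exact h2

end LR

section main

variable (H : FA_S37_RED_Hyp A π O red B Bb) (hFI : FA_S37_RED_FI O red B Bb)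
include H hFI

/-- Uniformizing elements in a disc. -/
theorem FA_S37_RED_unif : FA_S37_RED_Unif O red B Bb := by
  classical
  intro Q
  obtain ⟨Φ, hQΦ, hFIQ⟩ := hFI Q
  -- CRT
  obtain ⟨ϖ, hϖ⟩ := Q.intValuation_exists_uniformizer
  obtain ⟨tb, htb⟩ := IsDedekindDomain.exists_forall_sub_mem_ideal (s := Φ)
    (fun Q' : HeightOneSpectrum Bb => Q'.asIdeal) (fun Q' => if Q' = Q then 2 else 1)
    (fun Q' _ => Q'.prime) (fun Q' _ Q'' _ hne h => hne (HeightOneSpectrum.ext h))
    (fun i => if (i : HeightOneSpectrum Bb) = Q then ϖ else 1)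
  have htbQ : Q.intValuation tb = exp (-1 : ℤ) := by
    have h1 := htb Q hQΦ
    simp only [if_true] at h1
    have h2 : Q.intValuation (tb - ϖ) ≤ exp (-((2 : ℕ) : ℤ)) :=
      (intValuation_le_pow_iff_mem Q _ 2).2 h1
    have h3 : Q.intValuation (tb - ϖ) < Q.intValuation ϖ := by
      rw [hϖ]
      exact lt_of_le_of_lt h2 (by rw [exp_lt_exp]; norm_num)
    have e : tb = ϖ + (tb - ϖ) := by ring
    rw [e, Valuation.map_add_eq_of_lt_left _ h3, hϖ]
  have htbΦ : ∀ Q' ∈ Φ, Q' ≠ Q → Q'.intValuation tb = 1 := by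
    intro Q' hQ' hne
    have h1 := htb Q' hQ'
    simp only [if_neg hne, pow_one] at h1
    have h2 : Q'.intValuation (tb - 1) < 1 := (intValuation_lt_one_iff_mem Q' _).2 h1
    have e : tb = 1 + (tb - 1) := by ring
    rw [e, Valuation.map_add_eq_of_lt_left _ (by rw [map_one]; exact h2), map_one]
  have hprod : ∏ Q' ∈ Φ, Q'.intValuation tb = exp (-1 : ℤ) := by
    rw [Finset.prod_eq_single Q (fun Q' hQ' hne => htbΦ Q' hQ' hne) (fun h => (h hQΦ).elim),
      htbQ]
  have htb0 : tb ≠ 0 := by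
    intro h
    rw [h, map_zero] at htbQ
    exact exp_ne_zero htbQ.symm
  refine ⟨tb, htbQ, ?_⟩
  intro P hP
  obtain ⟨t₀, ht₀, hred₀⟩ := H.lift tb
  obtain ⟨c, hc⟩ := H.resB P t₀
  have hcA : c ∈ A := FA_S37_RED_value_mem H hP t₀ ht₀ c hc
  have hπc : π ⟨c, hcA⟩ = 0 := by
    have h1 := FA_S37_RED_value_pi H hP t₀ ht₀ ⟨c, hcA⟩ hc tb hred₀.symm
    have h2 : tb ∈ Q.asIdeal :=
      (intValuation_lt_one_iff_mem Q _).1 (by rw [htbQ, ← exp_zero, exp_lt_exp]; norm_num)
    have h3 : algebraMap k Bb (π ⟨c, hcA⟩) ∈ Q.asIdeal := by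
      have := Q.asIdeal.sub_mem h2 h1
      simpa using this
    by_contra hne
    have hu : IsUnit (algebraMap k Bb (π ⟨c, hcA⟩)) := (IsUnit.mk0 _ hne).map _
    exact Q.isPrime.ne_top (Ideal.eq_top_of_isUnit_mem _ h3 hu)
  have hmem : algebraMap K₀ F c ∈ O := H.const_mem ⟨c, hcA⟩
  have ht : algebraMap B F (t₀ - algebraMap K₀ B c) ∈ O := by
    rw [map_sub, ← IsScalarTower.algebraMap_apply]
    exact sub_mem ht₀ hmem
  have hredt : red ⟨_, ht⟩ = algebraMap Bb Fb tb := by
    have e : (⟨_, ht⟩ : O) = ⟨_, ht₀⟩ - ⟨algebraMap K₀ F c, hmem⟩ := by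
      apply Subtype.ext
      simp only [map_sub, ← IsScalarTower.algebraMap_apply]
      rfl
    rw [e, map_sub, H.const_red ⟨c, hcA⟩ hmem, hπc, map_zero, sub_zero, hred₀]
  have hvalP : P.intValuation (t₀ - algebraMap K₀ B c) = exp (-1 : ℤ) := by
    apply le_antisymm
    · have := (intValuation_le_pow_iff_mem P _ 1).2 (by rw [pow_one]; exact hc)
      simpa using this
    · have := hFIQ _ ht tb hredt.symm htb0 {P} (by
        intro P' hP'
        rw [Finset.mem_singleton] at hP'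
        subst hP'
        exact ⟨Q, hQΦ, hP⟩)
      rw [hprod, Finset.prod_singleton] at this
      exact this
  refine ⟨_, ht, hredt, hvalP, ?_⟩
  intro P' hP' hne
  have := hFIQ _ ht tb hredt.symm htb0 {P, P'} (by
    intro P'' hP''
    rw [Finset.mem_insert, Finset.mem_singleton] at hP''
    rcases hP'' with rfl | rfl
    · exact ⟨Q, hQΦ, hP⟩
    · exact ⟨Q, hQΦ, hP'⟩)
  rw [hprod, Finset.prod_pair hne.symm, hvalP] at this
  apply le_antisymm (intValuation_le_one P' _)
  have h0 : (0 : ℤᵐ⁰) < exp (-1 : ℤ) := zero_lt_iff.mpr exp_ne_zero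
  have h1 : exp (-1 : ℤ) * 1 ≤ exp (-1 : ℤ) * P'.intValuation (t₀ - algebraMap K₀ B c) := by
    rwa [mul_one]
  exact le_of_mul_le_mul_left h1 h0

end main

section unif1

variable (H : FA_S37_RED_Hyp A π O red B Bb) (hFI1 : FA_S37_RED_FI1 O red B Bb)
include H hFI1

/-- `FI₁` gives uniformizers of the discs. -/
theorem FA_S37_RED_unif_of_FI1 : FA_S37_RED_Unif O red B Bb := by
  intro Q
  obtain ⟨tb, htbQ⟩ := Q.intValuation_exists_uniformizer
  have h2 : tb ∈ Q.asIdeal :=
    (intValuation_lt_one_iff_mem Q _).1 (by rw [htbQ, ← exp_zero, exp_lt_exp]; norm_num)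
  have h2' : tb ∉ Q.asIdeal ^ 2 := by
    intro h
    have := (intValuation_le_pow_iff_mem Q _ 2).2 h
    rw [htbQ, exp_le_exp] at this
    norm_num at this
  refine ⟨tb, htbQ, ?_⟩
  intro P hP
  obtain ⟨t₀, ht₀, hred₀⟩ := H.lift tb
  obtain ⟨c, hc⟩ := H.resB P t₀
  have hcA : c ∈ A := FA_S37_RED_value_mem H hP t₀ ht₀ c hc
  have hπc : π ⟨c, hcA⟩ = 0 := by
    have h1 := FA_S37_RED_value_pi H hP t₀ ht₀ ⟨c, hcA⟩ hc tb hred₀.symm
    have h3 : algebraMap k Bb (π ⟨c, hcA⟩) ∈ Q.asIdeal := by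
      have := Q.asIdeal.sub_mem h2 h1
      simpa using this
    by_contra hne
    have hu : IsUnit (algebraMap k Bb (π ⟨c, hcA⟩)) := (IsUnit.mk0 _ hne).map _
    exact Q.isPrime.ne_top (Ideal.eq_top_of_isUnit_mem _ h3 hu)
  have hmem : algebraMap K₀ F c ∈ O := H.const_mem ⟨c, hcA⟩
  have ht : algebraMap B F (t₀ - algebraMap K₀ B c) ∈ O := by
    rw [map_sub, ← IsScalarTower.algebraMap_apply]
    exact sub_mem ht₀ hmem
  have hredt : red ⟨_, ht⟩ = algebraMap Bb Fb tb := by
    have e : (⟨_, ht⟩ : O) = ⟨_, ht₀⟩ - ⟨algebraMap K₀ F c, hmem⟩ := by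
      apply Subtype.ext
      simp only [map_sub, ← IsScalarTower.algebraMap_apply]
      rfl
    rw [e, map_sub, H.const_red ⟨c, hcA⟩ hmem, hπc, map_zero, sub_zero, hred₀]
  have key := hFI1 Q P
  refine ⟨_, ht, hredt, ?_, ?_⟩
  · apply le_antisymm
    · have := (intValuation_le_pow_iff_mem P _ 1).2 (by rw [pow_one]; exact hc)
      simpa using this
    · have h4 := (key P hP hP _ ht tb hredt.symm h2 h2' hc).1
      by_contra hlt
      rw [not_le] at hlt
      apply h4
      rw [← intValuation_le_pow_iff_mem]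
      by_cases h0 : P.intValuation (t₀ - algebraMap K₀ B c) = 0
      · rw [h0]
        exact zero_le'
      · rw [← exp_log h0, exp_lt_exp] at hlt
        rw [← exp_log h0, exp_le_exp]
        push_cast
        omega
  · intro P' hP' hne
    rw [intValuation_eq_one_iff]
    intro hmemP'
    exact hne ((key P' hP hP' _ ht tb hredt.symm h2 h2' hc).2 hmemP')

end unif1

section mult

omit [IsDedekindDomain B] [IsFractionRing B F] [Algebra K₀ B] [IsScalarTower K₀ B F] in
/-- Integral powers of a unit of `O`. -/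
theorem FA_S37_RED_zpow_mem (u : F) (hu : u ∈ O) (hu' : u⁻¹ ∈ O) (e : ℤ) : u ^ e ∈ O := by
  cases e with
  | ofNat n => simpa using pow_mem hu n
  | negSucc n =>
    rw [zpow_negSucc, ← inv_pow]
    exact pow_mem hu' _

/-- Reduction of a product of integral powers of units of `O` with the same reduction. -/
theorem FA_S37_RED_red_prod_zpow {ι : Type*} (S : Finset ι) (u : ι → F) (e : ι → ℤ) (c : Fb)
    (hc : c ≠ 0) (hu : ∀ i ∈ S, ∃ h : u i ∈ O, (u i)⁻¹ ∈ O ∧ red ⟨u i, h⟩ = c) :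
    ∃ W : O, (W : F) = ∏ i ∈ S, u i ^ e i ∧ (W : F)⁻¹ ∈ O ∧
      red W = c ^ (∑ i ∈ S, e i) := by
  classical
  have single : ∀ (v : F) (hv : v ∈ O) (hv' : v⁻¹ ∈ O), red ⟨v, hv⟩ = c → ∀ n : ℤ,
      ∃ W : O, (W : F) = v ^ n ∧ (W : F)⁻¹ ∈ O ∧ red W = c ^ n := by
    intro v hv hv' hvc n
    have hv0 : v ≠ 0 := by
      rintro rfl
      apply hc
      rw [← hvc]
      exact map_zero red
    have hinv : red ⟨v⁻¹, hv'⟩ = c⁻¹ := by
      have h1 : red ⟨v, hv⟩ * red ⟨v⁻¹, hv'⟩ = 1 := by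
        rw [← map_mul]
        have : (⟨v, hv⟩ : O) * ⟨v⁻¹, hv'⟩ = 1 := Subtype.ext (mul_inv_cancel₀ hv0)
        rw [this, map_one]
      rw [hvc] at h1
      exact eq_inv_of_mul_eq_one_right h1
    refine ⟨⟨v ^ n, FA_S37_RED_zpow_mem v hv hv' n⟩, rfl, ?_, ?_⟩
    · show (v ^ n)⁻¹ ∈ O
      rw [← inv_zpow]
      exact FA_S37_RED_zpow_mem v⁻¹ hv' (by rwa [inv_inv]) n
    · cases n with
      | ofNat m =>
        have : (⟨v ^ (Int.ofNat m), FA_S37_RED_zpow_mem v hv hv' _⟩ : O) = ⟨v, hv⟩ ^ m :=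
          Subtype.ext (by simp)
        rw [this, map_pow, hvc]
        simp
      | negSucc m =>
        have : (⟨v ^ (Int.negSucc m), FA_S37_RED_zpow_mem v hv hv' _⟩ : O)
            = ⟨v⁻¹, hv'⟩ ^ (m + 1) := Subtype.ext (by simp [zpow_negSucc, inv_pow])
        rw [this, map_pow, hinv, zpow_negSucc, inv_pow]
  induction S using Finset.induction_on with
  | empty =>
    refine ⟨1, by simp, by simp [O.one_mem], by simp⟩
  | insert i S hi ih =>
    obtain ⟨W, h1, h2, h3⟩ := ih (fun j hj => hu j (Finset.mem_insert_of_mem hj))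
    obtain ⟨hvi, hvi', hvc⟩ := hu i (Finset.mem_insert_self i S)
    obtain ⟨V, g1, g2, g3⟩ := single (u i) hvi hvi' hvc (e i)
    refine ⟨V * W, ?_, ?_, ?_⟩
    · rw [Finset.prod_insert hi, ← g1, ← h1]
      rfl
    · show ((V : F) * (W : F))⁻¹ ∈ O
      rw [mul_inv]
      exact O.mul_mem _ _ g2 h2
    · rw [map_mul, g3, h3, Finset.sum_insert hi, zpow_add₀ hc]

variable (H : FA_S37_RED_Hyp A π O red B Bb) (hU : FA_S37_RED_Unif O red B Bb)
include H hU

/-- **The multiplicity formula**: for `y ∈ O` with nonzero reduction and a prime `Q` of `Bb`,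
the product of the valuations of `y` at the primes centred at `Q` is the valuation of `red y`
at `Q`. -/
theorem FA_S37_RED_mult (y : F) (hy : y ∈ O) (hy0 : red ⟨y, hy⟩ ≠ 0)
    (Q : HeightOneSpectrum Bb) (S : Finset (HeightOneSpectrum B))
    (hSc : ∀ P ∈ S, FA_S37_RED_Centre O red B Bb P Q)
    (hS : ∀ P, FA_S37_RED_Centre O red B Bb P Q → P.valuation F y ≠ 1 → P ∈ S) :
    ∏ P ∈ S, P.valuation F y = Q.valuation Fb (red ⟨y, hy⟩) := by
  classical
  have hyne : y ≠ 0 := by
    rintro rfl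
    exact hy0 (map_zero red)
  obtain ⟨tb, htbQ, hU'⟩ := hU Q
  have htb0 : algebraMap Bb Fb tb ≠ 0 := by
    intro h
    have : Q.valuation Fb (algebraMap Bb Fb tb) = exp (-1 : ℤ) := by
      rw [valuation_of_algebraMap, htbQ]
    rw [h, map_zero] at this
    exact exp_ne_zero this.symm
  choose! t ht hredt hvalt hvalt' using hU'
  set e : HeightOneSpectrum B → ℤ := fun P => log (P.valuation F y) with he
  have hval_y : ∀ P : HeightOneSpectrum B, P.valuation F y = exp (e P) := fun P =>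
    (exp_log ((Valuation.ne_zero_iff _).2 hyne)).symm
  -- the units
  have hunit : ∀ P ∈ S, ∃ h : algebraMap B F (t P) ∈ O,
      (algebraMap B F (t P))⁻¹ ∈ O ∧ red ⟨algebraMap B F (t P), h⟩ = algebraMap Bb Fb tb := by
    intro P hP
    have hc := hSc P hP
    refine ⟨ht P hc, ?_, hredt P hc⟩
    by_contra hinv
    have := H.red_max ⟨_, ht P hc⟩ hinv
    rw [hredt P hc] at this
    exact htb0 this
  obtain ⟨W, hW, hWinv, hWred⟩ :=
    FA_S37_RED_red_prod_zpow (O := O) (red := red) S (fun P => algebraMap B F (t P)) e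
      (algebraMap Bb Fb tb) htb0 hunit
  have hW0 : (W : F) ≠ 0 := by
    intro h
    have hW' : W = 0 := Subtype.ext h
    rw [hW', map_zero] at hWred
    exact (zpow_ne_zero _ htb0) hWred.symm
  -- valuations of `W` at the centred primes
  have hWval : ∀ P' : HeightOneSpectrum B, FA_S37_RED_Centre O red B Bb P' Q →
      P'.valuation F (W : F) = (P'.valuation F y)⁻¹ := by
    intro P' hP'
    rw [hW, map_prod]
    by_cases hmem : P' ∈ S
    · rw [← Finset.mul_prod_erase S _ hmem, map_zpow₀, valuation_of_algebraMap,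
        hvalt P' hP', Finset.prod_eq_one, mul_one, hval_y, ← exp_zsmul, ← exp_neg]
      · congr 1
        simp
      · intro P hP
        have hne : P' ≠ P := (Finset.ne_of_mem_erase hP).symm
        rw [map_zpow₀, valuation_of_algebraMap,
          hvalt' P (hSc P (Finset.mem_of_mem_erase hP)) P' hP' hne, one_zpow]
    · rw [Finset.prod_eq_one]
      · have h1 : P'.valuation F y = 1 := by
          by_contra hne
          exact hmem (hS P' hP' hne)
        rw [h1, inv_one]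
      · intro P hP
        have hne : P' ≠ P := fun h => hmem (h ▸ hP)
        rw [map_zpow₀, valuation_of_algebraMap, hvalt' P (hSc P hP) P' hP' hne, one_zpow]
  have hyinv : y⁻¹ ∈ O := by
    by_contra hinv
    exact hy0 (H.red_max ⟨y, hy⟩ hinv)
  have hwO : y * (W : F) ∈ O := O.mul_mem _ _ hy W.2
  have hwO' : (y * (W : F))⁻¹ ∈ O := by
    rw [mul_inv]
    exact O.mul_mem _ _ hyinv hWinv
  have hval1 : ∀ P' : HeightOneSpectrum B, FA_S37_RED_Centre O red B Bb P' Q →
      P'.valuation F (y * (W : F)) = 1 := by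
    intro P' hP'
    rw [map_mul, hWval P' hP']
    exact mul_inv_cancel₀ ((Valuation.ne_zero_iff _).2 hyne)
  have h1 := FA_S37_RED_LR H Q (y * (W : F)) hwO (fun P' hP' => (hval1 P' hP').le)
  have h2 := FA_S37_RED_LR H Q (y * (W : F))⁻¹ hwO' (fun P' hP' => by
    rw [map_inv₀, hval1 P' hP', inv_one])
  have hmul : red ⟨_, hwO⟩ * red ⟨_, hwO'⟩ = 1 := by
    rw [← map_mul]
    have : (⟨_, hwO⟩ : O) * ⟨_, hwO'⟩ = 1 :=
      Subtype.ext (mul_inv_cancel₀ (mul_ne_zero hyne hW0))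
    rw [this, map_one]
  have hred_w : red ⟨_, hwO⟩ = red ⟨y, hy⟩ * red W := by
    rw [← map_mul]
    rfl
  have hvalw : Q.valuation Fb (red ⟨_, hwO⟩) = 1 := by
    apply le_antisymm h1
    have h3 : Q.valuation Fb (red ⟨_, hwO⟩) * Q.valuation Fb (red ⟨_, hwO'⟩) = 1 := by
      rw [← map_mul, hmul, map_one]
    have hne : Q.valuation Fb (red ⟨_, hwO⟩) ≠ 0 := left_ne_zero_of_mul_eq_one h3
    calc (1 : ℤᵐ⁰) = Q.valuation Fb (red ⟨_, hwO⟩) * Q.valuation Fb (red ⟨_, hwO'⟩) := h3.symm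
      _ ≤ Q.valuation Fb (red ⟨_, hwO⟩) * 1 := mul_le_mul_right h2 _
      _ = Q.valuation Fb (red ⟨_, hwO⟩) := mul_one _
  have hexp : ∀ T : Finset (HeightOneSpectrum B), exp (∑ P ∈ T, e P) = ∏ P ∈ T, exp (e P) := by
    intro T
    induction T using Finset.induction_on with
    | empty => simp
    | insert i T hi ih => rw [Finset.sum_insert hi, Finset.prod_insert hi, exp_add, ih]
  rw [hred_w, map_mul, hWred, map_zpow₀, valuation_of_algebraMap, htbQ, ← exp_zsmul] at hvalw
  have hfin : Q.valuation Fb (red ⟨y, hy⟩) = exp (∑ P ∈ S, e P) := by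
    have h4 : exp ((∑ P ∈ S, e P) • (-1 : ℤ)) = (exp (∑ P ∈ S, e P))⁻¹ := by
      rw [← exp_neg]
      congr 1
      simp
    rw [h4] at hvalw
    exact eq_of_mul_inv_eq_one hvalw
  rw [hfin, hexp]
  exact Finset.prod_congr rfl fun P _ => hval_y P

end mult

end Fermat.Agent.S37

end
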