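import Fermat.Agent.S37.MultFI
import Fermat.Agent.S37.RedCore

/-!
# S37, leaf A2 (file MultBridge): `FA_S37_RED_FI1` from finite generation

In the setting of `RedCore` (one chart), the simple-zero form `FA_S37_RED_FI1` of the fibre
inequality follows from

* `scale` : every nonzero `f ∈ F` is a constant times a unit of `O`;
* `fg` (FIN) : `B ∩ O` is generated as a ring by `A` and finitely many elements.

No norms are used.  `FA_S37_MU_mult` is the resulting multiplicity formula.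
-/

set_option autoImplicit false
set_option linter.unusedSectionVars false
set_option linter.unusedVariables false
set_option linter.style.haveILetI false

noncomputable section

namespace Fermat.Agent.S37

open IsLocalRing IsDedekindDomain

variable {K₀ k F Fb : Type*} [Field K₀] [Field k] [Field F] [Field Fb]
  [Algebra K₀ F] [Algebra k Fb]
variable {A : ValuationSubring K₀} {π : A →+* k} {O : ValuationSubring F} {red : O →+* Fb}
variable {B : Type*} [CommRing B] [IsDedekindDomain B] [Algebra B F] [IsFractionRing B F]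
  [Algebra K₀ B] [IsScalarTower K₀ B F]
variable {Bb : Type*} [CommRing Bb] [IsDedekindDomain Bb] [Algebra Bb Fb] [IsFractionRing Bb Fb]
  [Algebra k Bb] [IsScalarTower k Bb Fb]

/-- `R = B ∩ O`. -/
def FA_S37_MU_R (O : ValuationSubring F) (B : Type*) [CommRing B] [Algebra B F] : Subring B :=
  O.toSubring.comap (algebraMap B F)

theorem FA_S37_MU_mem_R {b : B} : b ∈ FA_S37_MU_R O B ↔ algebraMap B F b ∈ O := Iff.rfl

/-- `R → O`. -/
def FA_S37_MU_toO (O : ValuationSubring F) (B : Type*) [CommRing B] [Algebra B F] :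
    FA_S37_MU_R O B →+* O where
  toFun r := ⟨algebraMap B F r.1, r.2⟩
  map_one' := Subtype.ext (map_one _)
  map_mul' _ _ := Subtype.ext (map_mul _ _ _)
  map_zero' := Subtype.ext (map_zero _)
  map_add' _ _ := Subtype.ext (map_add _ _ _)

section bridge

variable (H : FA_S37_RED_Hyp A π O red B Bb)
include H

/-- The constants `A → R`. -/
def FA_S37_MU_RA : A →+* FA_S37_MU_R O B where
  toFun a := ⟨algebraMap K₀ B a, by
    rw [FA_S37_MU_mem_R, ← IsScalarTower.algebraMap_apply]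
    exact H.const_mem a⟩
  map_one' := Subtype.ext (map_one _)
  map_mul' _ _ := Subtype.ext (map_mul _ _ _)
  map_zero' := Subtype.ext (map_zero _)
  map_add' _ _ := Subtype.ext (map_add _ _ _)

theorem FA_S37_MU_redR_exists (r : FA_S37_MU_R O B) :
    ∃ z : Bb, algebraMap Bb Fb z = red (FA_S37_MU_toO O B r) := H.int r.1 r.2

/-- The reduction `R → Bb`. -/
def FA_S37_MU_redR : FA_S37_MU_R O B →+* Bb where
  toFun r := (FA_S37_MU_redR_exists H r).choose
  map_one' := by
    apply IsFractionRing.injective Bb Fb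
    rw [(FA_S37_MU_redR_exists H 1).choose_spec, map_one, map_one, map_one]
  map_mul' x y := by
    apply IsFractionRing.injective Bb Fb
    rw [(FA_S37_MU_redR_exists H (x * y)).choose_spec, map_mul, map_mul, map_mul,
      (FA_S37_MU_redR_exists H x).choose_spec, (FA_S37_MU_redR_exists H y).choose_spec]
  map_zero' := by
    apply IsFractionRing.injective Bb Fb
    rw [(FA_S37_MU_redR_exists H 0).choose_spec, map_zero, map_zero, map_zero]
  map_add' x y := by
    apply IsFractionRing.injective Bb Fb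
    rw [(FA_S37_MU_redR_exists H (x + y)).choose_spec, map_add, map_add, map_add,
      (FA_S37_MU_redR_exists H x).choose_spec, (FA_S37_MU_redR_exists H y).choose_spec]

theorem FA_S37_MU_redR_spec (r : FA_S37_MU_R O B) :
    algebraMap Bb Fb (FA_S37_MU_redR H r) = red (FA_S37_MU_toO O B r) :=
  (FA_S37_MU_redR_exists H r).choose_spec

theorem FA_S37_MU_redR_eq (r : FA_S37_MU_R O B) (z : Bb)
    (hz : algebraMap Bb Fb z = red ⟨algebraMap B F r.1, r.2⟩) : FA_S37_MU_redR H r = z := by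
  apply IsFractionRing.injective Bb Fb
  rw [FA_S37_MU_redR_spec, hz]
  rfl

/-- `π a = 0 ↔ a ∈ 𝔪`. -/
theorem FA_S37_MU_ker_pi (a : A) : π a = 0 ↔ a ∈ maximalIdeal A := by
  constructor
  · intro h
    rw [IsLocalRing.mem_maximalIdeal, mem_nonunits_iff]
    intro hu
    have := hu.map π
    rw [h] at this
    exact not_isUnit_zero this
  · intro h
    by_cases ha : (a : K₀) = 0
    · have : a = 0 := Subtype.ext ha
      rw [this, map_zero]
    · have hinv : (a : K₀)⁻¹ ∉ A := by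
        intro hmem
        rw [IsLocalRing.mem_maximalIdeal, mem_nonunits_iff] at h
        apply h
        refine ⟨⟨a, ⟨(a : K₀)⁻¹, hmem⟩, Subtype.ext (mul_inv_cancel₀ ha),
          Subtype.ext (inv_mul_cancel₀ ha)⟩, rfl⟩
      obtain ⟨h', hπ⟩ := H.pi_max _ hinv
      have : (⟨((a : K₀)⁻¹)⁻¹, h'⟩ : A) = a := Subtype.ext (inv_inv _)
      rwa [this] at hπ

/-- `O ∩ K₀ = A`. -/
theorem FA_S37_MU_const_mem_iff (c : K₀) : algebraMap K₀ F c ∈ O ↔ c ∈ A := by
  constructor
  · intro h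
    by_contra hc
    obtain ⟨h', hπ⟩ := H.pi_max c hc
    have hc0 : c ≠ 0 := fun h0 => hc (h0 ▸ A.zero_mem)
    have h1 := H.const_red ⟨c⁻¹, h'⟩ (H.const_mem ⟨c⁻¹, h'⟩)
    rw [hπ, map_zero] at h1
    have h2 : (⟨algebraMap K₀ F c, h⟩ : O) * ⟨algebraMap K₀ F c⁻¹, H.const_mem ⟨c⁻¹, h'⟩⟩ = 1 := by
      apply Subtype.ext
      show algebraMap K₀ F c * algebraMap K₀ F c⁻¹ = 1
      rw [← map_mul, mul_inv_cancel₀ hc0, map_one]
    have h3 := congrArg red h2
    rw [map_mul, h1, mul_zero, map_one] at h3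
    exact zero_ne_one h3
  · intro h
    exact H.const_mem ⟨c, h⟩

variable
  (hscale : ∀ f : F, f ≠ 0 → ∃ c : K₀, c ≠ 0 ∧ algebraMap K₀ F c * f ∈ O ∧
    (algebraMap K₀ F c * f)⁻¹ ∈ O)
include hscale

/-- The kernel of the reduction on `R` is `𝔪 R`. -/
theorem FA_S37_MU_ker (b : FA_S37_MU_R O B) (hb : FA_S37_MU_redR H b = 0) :
    ∃ (ϖ : A) (h : FA_S37_MU_R O B), ϖ ∈ maximalIdeal A ∧ b = FA_S37_MU_RA H ϖ * h := by
  by_cases hb0 : b = 0
  · exact ⟨0, 0, Ideal.zero_mem _, by rw [hb0, mul_zero]⟩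
  have hf0 : algebraMap B F b.1 ≠ 0 := by
    intro h
    apply hb0
    apply Subtype.ext
    exact (IsFractionRing.injective B F) (by rw [h]; exact (map_zero _).symm)
  obtain ⟨c, hc0, hu, hu'⟩ := hscale _ hf0
  have hredb : red ⟨algebraMap B F b.1, b.2⟩ = 0 := by
    have := FA_S37_MU_redR_spec H b
    rw [hb, map_zero] at this
    exact this.symm
  -- `c⁻¹ = f u⁻¹ ∈ O`
  have hcinvO : algebraMap K₀ F c⁻¹ ∈ O := by
    have : algebraMap K₀ F c⁻¹ = algebraMap B F b.1 * (algebraMap K₀ F c * algebraMap B F b.1)⁻¹ := by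
      rw [mul_inv, map_inv₀]
      field_simp
    rw [this]
    exact O.mul_mem _ _ b.2 hu'
  have hcinvA : c⁻¹ ∈ A := (FA_S37_MU_const_mem_iff H c⁻¹).mp hcinvO
  have hcm : (⟨c⁻¹, hcinvA⟩ : A) ∈ maximalIdeal A := by
    rw [← FA_S37_MU_ker_pi H]
    have h1 : (⟨algebraMap B F b.1, b.2⟩ : O)
        = ⟨algebraMap K₀ F c⁻¹, hcinvO⟩ * ⟨algebraMap K₀ F c * algebraMap B F b.1, hu⟩ := by
      apply Subtype.ext
      show algebraMap B F b.1 = algebraMap K₀ F c⁻¹ * (algebraMap K₀ F c * algebraMap B F b.1)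
      rw [← mul_assoc, ← map_mul, inv_mul_cancel₀ hc0, map_one, one_mul]
    have h2 := congrArg red h1
    rw [hredb, map_mul, H.const_red ⟨c⁻¹, hcinvA⟩ hcinvO] at h2
    have h3 : red ⟨algebraMap K₀ F c * algebraMap B F b.1, hu⟩ ≠ 0 := by
      intro h0
      have h4 : (⟨algebraMap K₀ F c * algebraMap B F b.1, hu⟩ : O)
          * ⟨(algebraMap K₀ F c * algebraMap B F b.1)⁻¹, hu'⟩ = 1 := by
        apply Subtype.ext
        exact mul_inv_cancel₀ (mul_ne_zero ((map_ne_zero _).mpr hc0) hf0)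
      have h5 := congrArg red h4
      rw [map_mul, h0, zero_mul, map_one] at h5
      exact zero_ne_one h5
    have h6 := (mul_eq_zero.mp h2.symm).resolve_right h3
    exact (map_eq_zero _).mp h6
  refine ⟨⟨c⁻¹, hcinvA⟩, ⟨algebraMap K₀ B c * b.1, ?_⟩, hcm, ?_⟩
  · rw [FA_S37_MU_mem_R, map_mul, ← IsScalarTower.algebraMap_apply]
    exact hu
  · apply Subtype.ext
    show b.1 = algebraMap K₀ B c⁻¹ * (algebraMap K₀ B c * b.1)
    rw [← mul_assoc, ← map_mul, inv_mul_cancel₀ hc0, map_one, one_mul]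

variable
  (hfg : ∃ G : Finset B, (∀ g ∈ G, algebraMap B F g ∈ O) ∧
    ∀ b : B, algebraMap B F b ∈ O →
      b ∈ Subring.closure ((algebraMap K₀ B) '' (A : Set K₀) ∪ (G : Set B)))
include hfg

/-- The hypotheses of `MultFI` hold for `R = B ∩ O`. -/
theorem FA_S37_MU_hyp :
    letI : Algebra A (FA_S37_MU_R O B) := (FA_S37_MU_RA H).toAlgebra
    FA_S37_MU_Hyp A π (FA_S37_MU_R O B).subtype (FA_S37_MU_redR H) := by
  classical
  letI : Algebra A (FA_S37_MU_R O B) := (FA_S37_MU_RA H).toAlgebra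
  refine
    { ker_pi := FA_S37_MU_ker_pi H
      incl_alg := fun a => rfl
      red_alg := fun a => ?_
      lift := fun z => ?_
      ker := fun b hb => ?_
      fg := ?_
      resB := H.resB
      scale := fun b => ?_ }
  · apply FA_S37_MU_redR_eq
    rw [← IsScalarTower.algebraMap_apply, ← H.const_red a (H.const_mem a)]
    congr 1
    apply Subtype.ext
    show algebraMap K₀ F a = algebraMap B F (algebraMap K₀ B a)
    exact IsScalarTower.algebraMap_apply K₀ B F a
  · obtain ⟨b, hb, hz⟩ := H.lift z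
    exact ⟨⟨b, hb⟩, FA_S37_MU_redR_eq H _ _ hz.symm⟩
  · obtain ⟨ϖ, h, hϖ, hbh⟩ := FA_S37_MU_ker H hscale b hb
    exact ⟨ϖ, h, hϖ, by rw [hbh, Algebra.smul_def]; rfl⟩
  · obtain ⟨G, hGO, hG⟩ := hfg
    refine ⟨G.attach.image (fun g => (⟨g.1, hGO g.1 g.2⟩ : FA_S37_MU_R O B)), ?_⟩
    rw [eq_top_iff]
    rintro ⟨b, hb⟩ -
    have key : ∀ b' ∈ Subring.closure ((algebraMap K₀ B) '' (A : Set K₀) ∪ (G : Set B)),
        ∃ h : b' ∈ FA_S37_MU_R O B, (⟨b', h⟩ : FA_S37_MU_R O B) ∈
          Algebra.adjoin A ((G.attach.image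
            (fun g => (⟨g.1, hGO g.1 g.2⟩ : FA_S37_MU_R O B)) : Finset _) : Set _) := by
      intro b' hb'
      induction hb' using Subring.closure_induction with
      | mem x hx =>
        rcases hx with ⟨c, hc, rfl⟩ | hx
        · refine ⟨(FA_S37_MU_RA H ⟨c, hc⟩).2, ?_⟩
          exact Subalgebra.algebraMap_mem _ (⟨c, hc⟩ : A)
        · refine ⟨hGO x hx, Algebra.subset_adjoin ?_⟩
          rw [Finset.coe_image]
          exact ⟨⟨x, hx⟩, by simp, rfl⟩
      | zero => exact ⟨Subring.zero_mem _, Subalgebra.zero_mem _⟩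
      | one => exact ⟨Subring.one_mem _, Subalgebra.one_mem _⟩
      | add x y _ _ hx hy =>
        obtain ⟨h1, h1'⟩ := hx
        obtain ⟨h2, h2'⟩ := hy
        exact ⟨Subring.add_mem _ h1 h2, Subalgebra.add_mem _ h1' h2'⟩
      | neg x _ hx =>
        obtain ⟨h1, h1'⟩ := hx
        exact ⟨Subring.neg_mem _ h1, Subalgebra.neg_mem _ h1'⟩
      | mul x y _ _ hx hy =>
        obtain ⟨h1, h1'⟩ := hx
        obtain ⟨h2, h2'⟩ := hy
        exact ⟨Subring.mul_mem _ h1 h2, Subalgebra.mul_mem _ h1' h2'⟩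
    obtain ⟨h, h'⟩ := key b (hG b hb)
    exact h'
  · by_cases hb0 : b = 0
    · exact ⟨1, 0, one_ne_zero, by rw [hb0, mul_zero]; rfl⟩
    have hf0 : algebraMap B F b ≠ 0 := by
      intro h
      exact hb0 ((IsFractionRing.injective B F) (by rw [h, map_zero]))
    obtain ⟨c, hc0, hu, -⟩ := hscale _ hf0
    refine ⟨c, ⟨algebraMap K₀ B c * b, ?_⟩, hc0, rfl⟩
    rw [FA_S37_MU_mem_R, map_mul, ← IsScalarTower.algebraMap_apply]
    exact hu

/-- **`FI₁` from finite generation** (no norms). -/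
theorem FA_S37_MU_FI1 : FA_S37_RED_FI1 O red B Bb := by
  classical
  letI : Algebra A (FA_S37_MU_R O B) := (FA_S37_MU_RA H).toAlgebra
  have HH := FA_S37_MU_hyp H hscale hfg
  intro Q P P' hP hP' t ht tb htb htbQ htbQ2 htP
  have hcen : ∀ P₀ : HeightOneSpectrum B, FA_S37_RED_Centre O red B Bb P₀ Q →
      FA_S37_MU_Centre (FA_S37_MU_R O B).subtype (FA_S37_MU_redR H) P₀ Q.asIdeal := by
    intro P₀ h₀ r hr
    exact h₀ r.1 r.2 _ hr (FA_S37_MU_redR_spec H r)
  have hred_t : FA_S37_MU_redR H ⟨t, ht⟩ = tb := FA_S37_MU_redR_eq H _ _ htb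
  haveI := Q.isPrime
  refine ⟨?_, fun htP' => ?_⟩
  · exact FA_S37_MU_simple HH P Q.asIdeal Q.ne_bot (hcen P hP) ⟨t, ht⟩
      (by rw [hred_t]; exact htbQ) (by rw [hred_t]; exact htbQ2)
  · exact FA_S37_MU_inj HH P' P Q.asIdeal Q.ne_bot (hcen P' hP') (hcen P hP) ⟨t, ht⟩
      (by rw [hred_t]; exact htbQ) (by rw [hred_t]; exact htbQ2) htP' htP

/-- **The multiplicity formula from finite generation** (no norms). -/
theorem FA_S37_MU_mult (y : F) (hy : y ∈ O) (hy0 : red ⟨y, hy⟩ ≠ 0)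
    (Q : HeightOneSpectrum Bb) (S : Finset (HeightOneSpectrum B))
    (hSc : ∀ P ∈ S, FA_S37_RED_Centre O red B Bb P Q)
    (hS : ∀ P, FA_S37_RED_Centre O red B Bb P Q → P.valuation F y ≠ 1 → P ∈ S) :
    ∏ P ∈ S, P.valuation F y = Q.valuation Fb (red ⟨y, hy⟩) :=
  FA_S37_RED_mult H (FA_S37_RED_unif_of_FI1 H (FA_S37_MU_FI1 H hscale hfg)) y hy hy0 Q S hSc hS

end bridge

end Fermat.Agent.S37

end
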