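import Fermat.Agent.S37.MultTV

/-!
# S37, leaf A2 (file MultFI): FI₁ — a function whose reduction has a simple zero at `Q` has at most
one zero centred at `Q`, and it is simple

Abstract setting (one chart):

* `A` a valuation ring of `K`, `π : A → k` with kernel `𝔪`;
* `B` a Dedekind domain and `K`-algebra all of whose residue fields are `K` (`resB`);
* `Bb` a Dedekind domain and `k`-algebra;
* `R` (`= B ∩ O`) an `A`-algebra with `incl : R → B` and a surjective reduction `red : R → Bb`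
  with kernel `𝔪 R`; `R` is a finitely generated `A`-algebra (FIN); every element of `B` has a
  nonzero `K`-multiple in `R` (`scale`).

`Centre P Q` means `∀ r, incl r ∈ P → red r ∈ Q`.

* `FA_S37_MU_inj` : `P`, `P'` centred at `Q`, `red t ∈ Q ∖ Q²`, `incl t ∈ P ∩ P'` ⟹ `P = P'`;
* `FA_S37_MU_simple` : `P` centred at `Q`, `red t ∈ Q ∖ Q²` ⟹ `incl t ∉ P²`.
-/

set_option autoImplicit false
set_option linter.unusedSectionVars false
set_option linter.unusedVariables false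

noncomputable section

namespace Fermat.Agent.S37

open IsLocalRing IsDedekindDomain

section evK

variable {K : Type*} [Field K] {B : Type*} [CommRing B] [IsDedekindDomain B] [Algebra K B]

/-- The value at `P` of an element of `B`, when the residue field of `P` is `K`. -/
def FA_S37_MU_evK (P : HeightOneSpectrum B)
    (hres : ∀ b : B, ∃ c : K, b - algebraMap K B c ∈ P.asIdeal) : B →+* K :=
  haveI : Nontrivial (B ⧸ P.asIdeal) := Ideal.Quotient.nontrivial_iff.mpr P.isPrime.ne_top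
  ((RingEquiv.ofBijective (algebraMap K (B ⧸ P.asIdeal))
    ⟨(algebraMap K (B ⧸ P.asIdeal)).injective, fun y => by
      obtain ⟨b, rfl⟩ := Ideal.Quotient.mk_surjective y
      obtain ⟨c, hc⟩ := hres b
      refine ⟨c, ?_⟩
      rw [IsScalarTower.algebraMap_apply K B (B ⧸ P.asIdeal), Ideal.Quotient.algebraMap_eq]
      exact (Ideal.Quotient.eq.mpr hc).symm⟩).symm : (B ⧸ P.asIdeal) →+* K).comp
    (Ideal.Quotient.mk P.asIdeal)

variable (P : HeightOneSpectrum B)
  (hres : ∀ b : B, ∃ c : K, b - algebraMap K B c ∈ P.asIdeal)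

theorem FA_S37_MU_evK_spec (b : B) :
    b - algebraMap K B (FA_S37_MU_evK P hres b) ∈ P.asIdeal := by
  haveI : Nontrivial (B ⧸ P.asIdeal) := Ideal.Quotient.nontrivial_iff.mpr P.isPrime.ne_top
  rw [← Ideal.Quotient.eq]
  have h := (RingEquiv.ofBijective (algebraMap K (B ⧸ P.asIdeal))
    ⟨(algebraMap K (B ⧸ P.asIdeal)).injective, fun y => by
      obtain ⟨b, rfl⟩ := Ideal.Quotient.mk_surjective y
      obtain ⟨c, hc⟩ := hres b
      refine ⟨c, ?_⟩
      rw [IsScalarTower.algebraMap_apply K B (B ⧸ P.asIdeal), Ideal.Quotient.algebraMap_eq]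
      exact (Ideal.Quotient.eq.mpr hc).symm⟩).apply_symm_apply (Ideal.Quotient.mk P.asIdeal b)
  rw [RingEquiv.ofBijective_apply] at h
  rw [← Ideal.Quotient.algebraMap_eq, ← IsScalarTower.algebraMap_apply K B (B ⧸ P.asIdeal)]
  exact h.symm

theorem FA_S37_MU_const_mem {c : K} (h : algebraMap K B c ∈ P.asIdeal) : c = 0 := by
  by_contra hne
  apply P.isPrime.ne_top
  rw [Ideal.eq_top_iff_one]
  have := P.asIdeal.mul_mem_left (algebraMap K B c⁻¹) h
  rwa [← map_mul, inv_mul_cancel₀ hne, map_one] at this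

theorem FA_S37_MU_evK_eq {b : B} {c : K} (h : b - algebraMap K B c ∈ P.asIdeal) :
    FA_S37_MU_evK P hres b = c := by
  have h1 := FA_S37_MU_evK_spec P hres b
  have h2 : algebraMap K B (c - FA_S37_MU_evK P hres b) ∈ P.asIdeal := by
    have := P.asIdeal.sub_mem h1 h
    rw [map_sub]
    convert this using 1
    ring
  have := FA_S37_MU_const_mem P h2
  exact (sub_eq_zero.mp this).symm

theorem FA_S37_MU_evK_const (c : K) : FA_S37_MU_evK P hres (algebraMap K B c) = c :=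
  FA_S37_MU_evK_eq P hres (by rw [sub_self]; exact P.asIdeal.zero_mem)

theorem FA_S37_MU_evK_eq_zero_iff (b : B) : FA_S37_MU_evK P hres b = 0 ↔ b ∈ P.asIdeal := by
  constructor
  · intro h
    have := FA_S37_MU_evK_spec P hres b
    rwa [h, map_zero, sub_zero] at this
  · intro h
    exact FA_S37_MU_evK_eq P hres (by rwa [map_zero, sub_zero])

end evK

section dK

variable {K : Type*} [Field K] {B : Type*} [CommRing B] [IsDedekindDomain B] [Algebra K B]
  (P : HeightOneSpectrum B)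
  (hres : ∀ b : B, ∃ c : K, b - algebraMap K B c ∈ P.asIdeal)
  (τ : B) (hτ : τ ∈ P.asIdeal) (hτ2 : τ ∉ P.asIdeal ^ 2)
include hτ hτ2

theorem FA_S37_MU_dK_exists (b : B) :
    ∃ c : K, b - algebraMap K B (FA_S37_MU_evK P hres b) - algebraMap K B c * τ
      ∈ P.asIdeal ^ 2 := by
  haveI := P.isPrime
  have h1 := FA_S37_MU_evK_spec P hres b
  rw [← FA_S37_MU_sup_sq P.asIdeal P.ne_bot hτ hτ2] at h1
  obtain ⟨y, hy, z, hz, hyz⟩ := Submodule.mem_sup.mp h1
  obtain ⟨a, ha⟩ := Ideal.mem_span_singleton'.mp hy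
  refine ⟨FA_S37_MU_evK P hres a, ?_⟩
  have h2 := FA_S37_MU_evK_spec P hres a
  have h3 : (a - algebraMap K B (FA_S37_MU_evK P hres a)) * τ ∈ P.asIdeal ^ 2 := by
    rw [pow_two]
    exact Ideal.mul_mem_mul h2 hτ
  have : b - algebraMap K B (FA_S37_MU_evK P hres b) - algebraMap K B (FA_S37_MU_evK P hres a) * τ
      = (a - algebraMap K B (FA_S37_MU_evK P hres a)) * τ + z := by
    rw [← hyz, ← ha]; ring
  rw [this]
  exact Ideal.add_mem _ h3 hz

theorem FA_S37_MU_dK_unique {c : K} (h : algebraMap K B c * τ ∈ P.asIdeal ^ 2) : c = 0 := by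
  by_contra hne
  apply hτ2
  have := (P.asIdeal ^ 2).mul_mem_left (algebraMap K B c⁻¹) h
  rwa [← mul_assoc, ← map_mul, inv_mul_cancel₀ hne, map_one, one_mul] at this

/-- The derivative at `P` with respect to the uniformizer `τ`. -/
def FA_S37_MU_dK (b : B) : K := (FA_S37_MU_dK_exists P hres τ hτ hτ2 b).choose

theorem FA_S37_MU_dK_spec (b : B) :
    b - algebraMap K B (FA_S37_MU_evK P hres b)
      - algebraMap K B (FA_S37_MU_dK P hres τ hτ hτ2 b) * τ ∈ P.asIdeal ^ 2 :=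
  (FA_S37_MU_dK_exists P hres τ hτ hτ2 b).choose_spec

theorem FA_S37_MU_dK_eq {b : B} {c : K}
    (h : b - algebraMap K B (FA_S37_MU_evK P hres b) - algebraMap K B c * τ ∈ P.asIdeal ^ 2) :
    FA_S37_MU_dK P hres τ hτ hτ2 b = c := by
  have h1 := FA_S37_MU_dK_spec P hres τ hτ hτ2 b
  have h2 : algebraMap K B (c - FA_S37_MU_dK P hres τ hτ hτ2 b) * τ ∈ P.asIdeal ^ 2 := by
    have := (P.asIdeal ^ 2).sub_mem h1 h
    rw [map_sub]
    convert this using 1
    ring
  exact (sub_eq_zero.mp (FA_S37_MU_dK_unique P τ hτ hτ2 h2)).symm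

theorem FA_S37_MU_dK_add (b b' : B) :
    FA_S37_MU_dK P hres τ hτ hτ2 (b + b')
      = FA_S37_MU_dK P hres τ hτ hτ2 b + FA_S37_MU_dK P hres τ hτ hτ2 b' := by
  apply FA_S37_MU_dK_eq
  have h1 := FA_S37_MU_dK_spec P hres τ hτ hτ2 b
  have h2 := FA_S37_MU_dK_spec P hres τ hτ hτ2 b'
  have := (P.asIdeal ^ 2).add_mem h1 h2
  rw [map_add, map_add, map_add]
  convert this using 1
  ring

theorem FA_S37_MU_dK_mul (b b' : B) :
    FA_S37_MU_dK P hres τ hτ hτ2 (b * b')
      = FA_S37_MU_evK P hres b * FA_S37_MU_dK P hres τ hτ hτ2 b'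
        + FA_S37_MU_evK P hres b' * FA_S37_MU_dK P hres τ hτ hτ2 b := by
  apply FA_S37_MU_dK_eq
  have h1 := FA_S37_MU_dK_spec P hres τ hτ hτ2 b
  have h2 := FA_S37_MU_dK_spec P hres τ hτ hτ2 b'
  have e1 := FA_S37_MU_evK_spec P hres b
  have e2 := FA_S37_MU_evK_spec P hres b'
  have h3 : (b - algebraMap K B (FA_S37_MU_evK P hres b))
      * (b' - algebraMap K B (FA_S37_MU_evK P hres b')) ∈ P.asIdeal ^ 2 := by
    rw [pow_two]
    exact Ideal.mul_mem_mul e1 e2
  have h4 := (P.asIdeal ^ 2).mul_mem_left (algebraMap K B (FA_S37_MU_evK P hres b)) h2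
  have h5 := (P.asIdeal ^ 2).mul_mem_left (algebraMap K B (FA_S37_MU_evK P hres b')) h1
  have := (P.asIdeal ^ 2).add_mem (Ideal.add_mem _ h3 h4) h5
  rw [map_mul, map_add, map_mul, map_mul, map_mul]
  convert this using 1
  ring

theorem FA_S37_MU_dK_const (c : K) :
    FA_S37_MU_dK P hres τ hτ hτ2 (algebraMap K B c) = 0 := by
  apply FA_S37_MU_dK_eq
  rw [FA_S37_MU_evK_const, sub_self, map_zero, zero_mul, sub_zero]
  exact Ideal.zero_mem _

theorem FA_S37_MU_dK_of_mem_sq {b : B} (hb : b ∈ P.asIdeal ^ 2) :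
    FA_S37_MU_dK P hres τ hτ hτ2 b = 0 := by
  apply FA_S37_MU_dK_eq
  have : FA_S37_MU_evK P hres b = 0 :=
    (FA_S37_MU_evK_eq_zero_iff P hres b).mpr (Ideal.pow_le_self two_ne_zero hb)
  rw [this, map_zero, sub_zero, zero_mul, sub_zero]
  exact hb

theorem FA_S37_MU_dK_smul_tau (c : K) :
    FA_S37_MU_dK P hres τ hτ hτ2 (algebraMap K B c * τ) = c := by
  apply FA_S37_MU_dK_eq
  have : FA_S37_MU_evK P hres (algebraMap K B c * τ) = 0 :=
    (FA_S37_MU_evK_eq_zero_iff P hres _).mpr (P.asIdeal.mul_mem_left _ hτ)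
  rw [this, map_zero, sub_zero, sub_self]
  exact Ideal.zero_mem _

end dK

section main

variable {K : Type*} [Field K] (A : ValuationSubring K) {k : Type*} [Field k] (π : A →+* k)
  {R : Type*} [CommRing R] [Algebra A R]
  {B : Type*} [CommRing B] [IsDedekindDomain B] [Algebra K B]
  {Bb : Type*} [CommRing Bb] [IsDedekindDomain Bb] [Algebra k Bb]
  (incl : R →+* B) (red : R →+* Bb)

/-- The hypotheses of one chart. -/
structure FA_S37_MU_Hyp : Prop where
  ker_pi : ∀ a : A, π a = 0 ↔ a ∈ maximalIdeal A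
  incl_alg : ∀ a : A, incl (algebraMap A R a) = algebraMap K B (a : K)
  red_alg : ∀ a : A, red (algebraMap A R a) = algebraMap k Bb (π a)
  lift : Function.Surjective red
  ker : ∀ b : R, red b = 0 → ∃ (ϖ : A) (h : R), ϖ ∈ maximalIdeal A ∧ b = ϖ • h
  fg : ∃ G : Finset R, Algebra.adjoin A (G : Set R) = ⊤
  resB : ∀ (P : HeightOneSpectrum B) (b : B), ∃ c : K, b - algebraMap K B c ∈ P.asIdeal
  scale : ∀ b : B, ∃ (c : K) (r : R), c ≠ 0 ∧ incl r = algebraMap K B c * b

/-- `P` is centred at `Q`. -/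
def FA_S37_MU_Centre (P : HeightOneSpectrum B) (Q : Ideal Bb) : Prop :=
  ∀ r : R, incl r ∈ P.asIdeal → red r ∈ Q

variable {A π incl red}
variable (H : FA_S37_MU_Hyp A π incl red)
include H

/-- The values at a centred point lie in `A`. -/
theorem FA_S37_MU_val_mem (P : HeightOneSpectrum B) (Q : Ideal Bb) (hQ : Q ≠ ⊤)
    (hC : FA_S37_MU_Centre incl red P Q) (r : R) :
    FA_S37_MU_evK P (H.resB P) (incl r) ∈ A := by
  by_contra hcon
  set c := FA_S37_MU_evK P (H.resB P) (incl r) with hc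
  have hc0 : c ≠ 0 := fun h => hcon (h ▸ A.zero_mem)
  have hinv : c⁻¹ ∈ A := (A.mem_or_inv_mem c).resolve_left hcon
  have hm : (⟨c⁻¹, hinv⟩ : A) ∈ maximalIdeal A := by
    rw [IsLocalRing.mem_maximalIdeal, mem_nonunits_iff]
    intro hu
    obtain ⟨u, hu⟩ := hu
    apply hcon
    have h1 : ((u⁻¹ : Aˣ) : A) * (⟨c⁻¹, hinv⟩ : A) = 1 := by rw [← hu]; exact u.inv_mul
    have h2 : (((u⁻¹ : Aˣ) : A) : K) * c⁻¹ = 1 := congrArg Subtype.val h1
    have h3 : (((u⁻¹ : Aˣ) : A) : K) = c := by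
      field_simp at h2
      exact h2
    rw [← h3]
    exact ((u⁻¹ : Aˣ) : A).2
  set r' : R := 1 - (⟨c⁻¹, hinv⟩ : A) • r with hr'
  have h1 : incl r' ∈ P.asIdeal := by
    have hs := FA_S37_MU_evK_spec P (H.resB P) (incl r)
    have : incl r' = - (algebraMap K B c⁻¹ * (incl r - algebraMap K B c)) := by
      rw [hr', map_sub, map_one, Algebra.smul_def, map_mul, H.incl_alg, mul_sub, ← map_mul,
        inv_mul_cancel₀ hc0, map_one]
      ring
    rw [this]
    exact P.asIdeal.neg_mem (P.asIdeal.mul_mem_left _ hs)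
  have h2 := hC r' h1
  have h3 : red r' = 1 := by
    rw [hr', map_sub, map_one, Algebra.smul_def, map_mul, H.red_alg, (H.ker_pi _).mpr hm,
      map_zero, zero_mul, sub_zero]
  rw [h3] at h2
  exact hQ ((Ideal.eq_top_iff_one Q).mpr h2)

/-- The evaluation `R → A` at a centred point. -/
def FA_S37_MU_ev (P : HeightOneSpectrum B) (Q : Ideal Bb) (hQ : Q ≠ ⊤)
    (hC : FA_S37_MU_Centre incl red P Q) : R →+* A :=
  ((FA_S37_MU_evK P (H.resB P)).comp incl).codRestrict A.toSubring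
    (fun r => FA_S37_MU_val_mem H P Q hQ hC r)

theorem FA_S37_MU_ev_coe (P : HeightOneSpectrum B) (Q : Ideal Bb) (hQ : Q ≠ ⊤)
    (hC : FA_S37_MU_Centre incl red P Q) (r : R) :
    ((FA_S37_MU_ev H P Q hQ hC r : A) : K) = FA_S37_MU_evK P (H.resB P) (incl r) := rfl

theorem FA_S37_MU_ev_alg (P : HeightOneSpectrum B) (Q : Ideal Bb) (hQ : Q ≠ ⊤)
    (hC : FA_S37_MU_Centre incl red P Q) (a : A) :
    FA_S37_MU_ev H P Q hQ hC (algebraMap A R a) = a := by
  apply Subtype.ext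
  rw [FA_S37_MU_ev_coe, H.incl_alg, FA_S37_MU_evK_const]

theorem FA_S37_MU_ev_centre (P : HeightOneSpectrum B) (Q : Ideal Bb) (hQ : Q ≠ ⊤)
    (hC : FA_S37_MU_Centre incl red P Q) (b : R) :
    red b - algebraMap k Bb (π (FA_S37_MU_ev H P Q hQ hC b)) ∈ Q := by
  have h1 : incl (b - algebraMap A R (FA_S37_MU_ev H P Q hQ hC b)) ∈ P.asIdeal := by
    rw [map_sub, H.incl_alg, FA_S37_MU_ev_coe]
    exact FA_S37_MU_evK_spec P (H.resB P) (incl b)
  have := hC _ h1
  rwa [map_sub, H.red_alg] at this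

theorem FA_S37_MU_ev_eq_zero_iff (P : HeightOneSpectrum B) (Q : Ideal Bb) (hQ : Q ≠ ⊤)
    (hC : FA_S37_MU_Centre incl red P Q) (b : R) :
    FA_S37_MU_ev H P Q hQ hC b = 0 ↔ incl b ∈ P.asIdeal := by
  rw [← FA_S37_MU_evK_eq_zero_iff P (H.resB P), ← FA_S37_MU_ev_coe H P Q hQ hC]
  constructor
  · intro h; rw [h]; rfl
  · intro h; exact Subtype.ext h

/-- **FI₁ (a)**: two points centred at `Q` which are both zeros of `t`, where `red t` has a
simple zero at `Q`, are equal. -/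
theorem FA_S37_MU_inj (P P' : HeightOneSpectrum B) (Q : Ideal Bb) [hQ : Q.IsPrime] (hQ0 : Q ≠ ⊥)
    (hC : FA_S37_MU_Centre incl red P Q) (hC' : FA_S37_MU_Centre incl red P' Q)
    (t : R) (htQ : red t ∈ Q) (htQ2 : red t ∉ Q ^ 2)
    (htP : incl t ∈ P.asIdeal) (htP' : incl t ∈ P'.asIdeal) : P = P' := by
  classical
  obtain ⟨G, hG⟩ := H.fg
  set e₁ := FA_S37_MU_ev H P' Q hQ.ne_top hC' with he₁
  set e₂ := FA_S37_MU_ev H P Q hQ.ne_top hC with he₂
  let δ : R →+ K :=
    (A.subtype.toAddMonoidHom.comp e₁.toAddMonoidHom)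
      - (A.subtype.toAddMonoidHom.comp e₂.toAddMonoidHom)
  have hδapp : ∀ b, δ b = ((e₁ b : A) : K) - ((e₂ b : A) : K) := fun b => rfl
  have key := FA_S37_MU_tv A π H.ker_pi red H.red_alg H.lift H.ker Q hQ0 G hG e₁ e₂
    (FA_S37_MU_ev_alg H P' Q hQ.ne_top hC') (FA_S37_MU_ev_alg H P Q hQ.ne_top hC)
    (FA_S37_MU_ev_centre H P' Q hQ.ne_top hC') (FA_S37_MU_ev_centre H P Q hQ.ne_top hC)
    δ (fun b b' => by
      rw [hδapp, hδapp, hδapp, map_mul, map_mul]
      push_cast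
      ring)
    (fun a => by
      rw [hδapp, he₁, he₂, FA_S37_MU_ev_alg, FA_S37_MU_ev_alg, sub_self])
    t htQ htQ2 (by
      rw [hδapp, (FA_S37_MU_ev_eq_zero_iff H P' Q hQ.ne_top hC' t).mpr htP',
        (FA_S37_MU_ev_eq_zero_iff H P Q hQ.ne_top hC t).mpr htP]
      simp)
  have hle : P.asIdeal ≤ P'.asIdeal := by
    intro b hb
    obtain ⟨c, r, hc, hr⟩ := H.scale b
    have h1 : incl r ∈ P.asIdeal := by rw [hr]; exact P.asIdeal.mul_mem_left _ hb
    have h2 : e₂ r = 0 := (FA_S37_MU_ev_eq_zero_iff H P Q hQ.ne_top hC r).mpr h1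
    have h3 : e₁ r = 0 := by
      apply Subtype.ext
      have := key r
      rw [hδapp, h2] at this
      simpa using this
    have h4 : incl r ∈ P'.asIdeal := (FA_S37_MU_ev_eq_zero_iff H P' Q hQ.ne_top hC' r).mp h3
    rw [hr] at h4
    have := P'.asIdeal.mul_mem_left (algebraMap K B c⁻¹) h4
    rwa [← mul_assoc, ← map_mul, inv_mul_cancel₀ hc, map_one, one_mul] at this
  have := P.isMaximal.eq_of_le P'.isPrime.ne_top hle
  exact HeightOneSpectrum.ext this

/-- **FI₁ (b)**: a zero centred at `Q` of `t`, where `red t` has a simple zero at `Q`, is simple. -/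
theorem FA_S37_MU_simple (P : HeightOneSpectrum B) (Q : Ideal Bb) [hQ : Q.IsPrime] (hQ0 : Q ≠ ⊥)
    (hC : FA_S37_MU_Centre incl red P Q)
    (t : R) (htQ : red t ∈ Q) (htQ2 : red t ∉ Q ^ 2) : incl t ∉ P.asIdeal ^ 2 := by
  classical
  intro htP
  obtain ⟨G, hG⟩ := H.fg
  obtain ⟨τ, hτ, hτ2⟩ := Ideal.exists_mem_pow_notMem_pow_succ P.asIdeal P.ne_bot
    P.isPrime.ne_top 1
  rw [pow_one] at hτ
  set e := FA_S37_MU_ev H P Q hQ.ne_top hC with he
  let δ : R →+ K :=
    { toFun := fun r => FA_S37_MU_dK P (H.resB P) τ hτ hτ2 (incl r)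
      map_zero' := by
        rw [map_zero]
        have := FA_S37_MU_dK_const P (H.resB P) τ hτ hτ2 (0 : K)
        rwa [map_zero] at this
      map_add' := fun r r' => by
        rw [map_add]
        exact FA_S37_MU_dK_add P (H.resB P) τ hτ hτ2 _ _ }
  have hδapp : ∀ b, δ b = FA_S37_MU_dK P (H.resB P) τ hτ hτ2 (incl b) := fun b => rfl
  have key := FA_S37_MU_tv A π H.ker_pi red H.red_alg H.lift H.ker Q hQ0 G hG e e
    (FA_S37_MU_ev_alg H P Q hQ.ne_top hC) (FA_S37_MU_ev_alg H P Q hQ.ne_top hC)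
    (FA_S37_MU_ev_centre H P Q hQ.ne_top hC) (FA_S37_MU_ev_centre H P Q hQ.ne_top hC)
    δ (fun b b' => by
      rw [hδapp, hδapp, hδapp, map_mul, FA_S37_MU_dK_mul, he, FA_S37_MU_ev_coe,
        FA_S37_MU_ev_coe])
    (fun a => by
      rw [hδapp, H.incl_alg]
      exact FA_S37_MU_dK_const P (H.resB P) τ hτ hτ2 _)
    t htQ htQ2 (by
      rw [hδapp]
      exact FA_S37_MU_dK_of_mem_sq P (H.resB P) τ hτ hτ2 htP)
  obtain ⟨c, r, hc, hr⟩ := H.scale τ
  have h1 := key r
  rw [hδapp, hr, FA_S37_MU_dK_smul_tau] at h1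
  exact hc h1

end main

end Fermat.Agent.S37

end
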