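import Fermat.Agent.S37.FinInf
import Fermat.Agent.S37.MultBridge
import Fermat.Agent.Lib.RR.ChartX

/-!
# S37, leaf A2 (file MultInst): the hypothesis `hfg` of `FA_S37_MU_FI1` at level `n`, both charts

* `FA_S37_MU_hfg_chart` (generic): FIN in the form "`y = ∑ aᵢ(x) eᵢ` with `aᵢ ∈ A[X]`" gives the
  hypothesis `hfg` of `FA_S37_MU_FI1` for `B = chartRing K₀ x`.
* `FA_S37_MU_hfg_fin`, `FA_S37_MU_hfg_inf` : the instances at level `n` for `x = j` and
  `x = j⁻¹` (from `FA_S37_FINF_fg_fin`, `FA_S37_FINF_fg_inf`), for any valuation subring `O` of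
  `F_n` with the same elements as the Gauss ring `FA_S18_I_O A n`.
-/

set_option autoImplicit false
set_option linter.unusedSectionVars false
set_option linter.unusedVariables false
set_option linter.style.haveILetI false

noncomputable section

namespace Fermat.Agent.S37

open FA_RR Polynomial ModularCurve Fermat.Agent.S18

section generic

variable {K₀ F : Type*} [Field K₀] [Field F] [Algebra K₀ F]
  (A : ValuationSubring K₀) (O : ValuationSubring F) (x : F)

/-- FIN ⟹ `hfg` for the chart ring at `x`. -/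
theorem FA_S37_MU_hfg_chart (hx : x ∈ O)
    (r : ℕ) (e : Fin r → F) (he : ∀ i, e i ∈ O ∧ e i ∈ chartRing K₀ x)
    (hgen : ∀ y ∈ O, y ∈ chartRing K₀ x → ∃ a : Fin r → A[X],
      y = ∑ i, (a i).eval₂ ((algebraMap K₀ F).comp A.subtype) x * e i) :
    ∃ G : Finset (chartRing K₀ x), (∀ g ∈ G, algebraMap (chartRing K₀ x) F g ∈ O) ∧
      ∀ b : chartRing K₀ x, algebraMap (chartRing K₀ x) F b ∈ O →
        b ∈ Subring.closure ((algebraMap K₀ (chartRing K₀ x)) '' (A : Set K₀) ∪
          (G : Set (chartRing K₀ x))) := by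
  classical
  set xB : chartRing K₀ x := ⟨x, x_mem_chartRing x⟩ with hxB
  set eB : Fin r → chartRing K₀ x := fun i => ⟨e i, (he i).2⟩ with heB
  refine ⟨insert xB (Finset.univ.image eB), ?_, ?_⟩
  · intro g hg
    rw [Finset.mem_insert, Finset.mem_image] at hg
    rcases hg with rfl | ⟨i, -, rfl⟩
    · exact hx
    · exact (he i).1
  · intro b hb
    obtain ⟨a, ha⟩ := hgen (algebraMap (chartRing K₀ x) F b) hb b.2
    set T : Subring (chartRing K₀ x) :=
      Subring.closure ((algebraMap K₀ (chartRing K₀ x)) '' (A : Set K₀) ∪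
        ((insert xB (Finset.univ.image eB) : Finset _) : Set (chartRing K₀ x))) with hT
    have hA : ∀ c : A, algebraMap K₀ (chartRing K₀ x) c ∈ T := fun c =>
      Subring.subset_closure (Or.inl ⟨c, c.2, rfl⟩)
    have hxT : xB ∈ T := Subring.subset_closure (Or.inr (by simp))
    have heT : ∀ i, eB i ∈ T := fun i => Subring.subset_closure (Or.inr (by simp))
    have hpoly : ∀ p : A[X],
        p.eval₂ ((algebraMap K₀ (chartRing K₀ x)).comp A.subtype) xB ∈ T := by
      intro p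
      rw [Polynomial.eval₂_eq_sum_range]
      refine Subring.sum_mem _ fun i _ => ?_
      exact Subring.mul_mem _ (hA _) (Subring.pow_mem _ hxT _)
    have hb' : b = ∑ i, (a i).eval₂ ((algebraMap K₀ (chartRing K₀ x)).comp A.subtype) xB
        * eB i := by
      apply Subtype.ext
      have h1 : ((∑ i, (a i).eval₂ ((algebraMap K₀ (chartRing K₀ x)).comp A.subtype) xB
          * eB i : chartRing K₀ x) : F)
          = ∑ i, (a i).eval₂ ((algebraMap K₀ F).comp A.subtype) x * e i := by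
        rw [← Subalgebra.coe_val, map_sum]
        refine Finset.sum_congr rfl fun i _ => ?_
        rw [map_mul]
        congr 1
        exact (Polynomial.hom_eval₂ (a i) _ (chartRing K₀ x).val.toRingHom xB).trans rfl
      rw [h1]
      exact ha
    rw [hb']
    exact Subring.sum_mem _ fun i _ => Subring.mul_mem _ (hpoly _) (heT i)

end generic

section inst

variable (A : ValuationSubring (AlgebraicClosure ℚ)) (n : ℕ) [NeZero n]

/-- `hfg` at level `n`, finite chart `x = j`. -/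
theorem FA_S37_MU_hfg_fin {ℓ : ℕ} (hℓ : ℓ.Prime) (hA : A.LiesOverPrime ℓ) (hn : ¬ ℓ ∣ n)
    (h : FA_S18_I_Range A n) (O : ValuationSubring ↥(modularFunctionFieldBar n))
    (hO : ∀ y : ↥(modularFunctionFieldBar n), y ∈ O ↔ y ∈ FA_S18_I_O A n) :
    ∃ G : Finset (chartRing (AlgebraicClosure ℚ) (FA_S18_A_jbar n)),
      (∀ g ∈ G, algebraMap (chartRing (AlgebraicClosure ℚ) (FA_S18_A_jbar n))
        ↥(modularFunctionFieldBar n) g ∈ O) ∧
      ∀ b : chartRing (AlgebraicClosure ℚ) (FA_S18_A_jbar n),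
        algebraMap (chartRing (AlgebraicClosure ℚ) (FA_S18_A_jbar n))
          ↥(modularFunctionFieldBar n) b ∈ O →
        b ∈ Subring.closure ((algebraMap (AlgebraicClosure ℚ)
            (chartRing (AlgebraicClosure ℚ) (FA_S18_A_jbar n))) '' (A : Set (AlgebraicClosure ℚ)) ∪
          (G : Set (chartRing (AlgebraicClosure ℚ) (FA_S18_A_jbar n)))) := by
  obtain ⟨r, e, he, hgen⟩ := FA_S37_FINF_fg_fin A n hℓ hA hn h
  refine FA_S37_MU_hfg_chart A O (FA_S18_A_jbar n) ((hO _).mpr (FA_S18_I_j A n).2) r e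
    (fun i => ⟨(hO _).mpr (he i).1, (he i).2⟩) ?_
  intro y hy hyB
  obtain ⟨a, ha⟩ := hgen y ((hO _).mp hy) hyB
  exact ⟨a, ha⟩

/-- `hfg` at level `n`, chart at infinity `x = j⁻¹`. -/
theorem FA_S37_MU_hfg_inf {ℓ : ℕ} (hℓ : ℓ.Prime) (hA : A.LiesOverPrime ℓ) (hn : ¬ ℓ ∣ n)
    (h : FA_S18_I_Range A n) (O : ValuationSubring ↥(modularFunctionFieldBar n))
    (hO : ∀ y : ↥(modularFunctionFieldBar n), y ∈ O ↔ y ∈ FA_S18_I_O A n) :
    ∃ G : Finset (chartRing (AlgebraicClosure ℚ) (FA_S18_A_jbar n)⁻¹),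
      (∀ g ∈ G, algebraMap (chartRing (AlgebraicClosure ℚ) (FA_S18_A_jbar n)⁻¹)
        ↥(modularFunctionFieldBar n) g ∈ O) ∧
      ∀ b : chartRing (AlgebraicClosure ℚ) (FA_S18_A_jbar n)⁻¹,
        algebraMap (chartRing (AlgebraicClosure ℚ) (FA_S18_A_jbar n)⁻¹)
          ↥(modularFunctionFieldBar n) b ∈ O →
        b ∈ Subring.closure ((algebraMap (AlgebraicClosure ℚ)
            (chartRing (AlgebraicClosure ℚ) (FA_S18_A_jbar n)⁻¹)) ''
              (A : Set (AlgebraicClosure ℚ)) ∪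
          (G : Set (chartRing (AlgebraicClosure ℚ) (FA_S18_A_jbar n)⁻¹))) := by
  obtain ⟨r, e, he, hgen⟩ := FA_S37_FINF_fg_inf A n hℓ hA hn h
  refine FA_S37_MU_hfg_chart A O (FA_S18_A_jbar n)⁻¹ ((hO _).mpr (FA_S18_I_jinv A n).2) r e
    (fun i => ⟨(hO _).mpr (he i).1, (he i).2⟩) ?_
  intro y hy hyB
  obtain ⟨a, ha⟩ := hgen y ((hO _).mp hy) hyB
  exact ⟨a, ha⟩

end inst

end Fermat.Agent.S37

end
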