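import Mathlib

/-!
# S37, leaf A2 (file MultTV): the tangent-vector lemma

Abstract setting: `A` a valuation ring of `K` with residue map `π : A → k`, `R` a finitely generated
`A`-algebra with a surjective reduction `red : R → Bb` onto a Dedekind domain, `ker red = 𝔪 R`,
`Q` a nonzero prime of `Bb`, `e₁ e₂ : R → A` two "evaluations centred at `Q`" and
`δ : R → K` an additive map with `δ (b b') = e₁ b · δ b' + e₂ b' · δ b`, `δ (A) = 0`
(`δ = e₁ - e₂`, or the derivative at a point).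

`FA_S37_MU_tv` : if `δ t = 0` for one `t` with `red t ∈ Q ∖ Q²`, then `δ = 0`.

This gives, without norms: two distinct points of the generic fibre centred at the same point `Q`
of the special fibre cannot both be zeros of a function whose reduction has a simple zero at `Q`,
and such a zero is simple.
-/

set_option autoImplicit false
set_option linter.unusedSectionVars false
set_option linter.unusedVariables false

noncomputable section

namespace Fermat.Agent.S37

open IsLocalRing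

/-- In a Dedekind domain, `Q = (z) + Q²` for `z ∈ Q ∖ Q²`. -/
theorem FA_S37_MU_sup_sq {Bb : Type*} [CommRing Bb] [IsDedekindDomain Bb]
    (Q : Ideal Bb) [hQ : Q.IsPrime] (hQ0 : Q ≠ ⊥) {z : Bb} (hz : z ∈ Q) (hz2 : z ∉ Q ^ 2) :
    Ideal.span {z} ⊔ Q ^ 2 = Q := by
  have hle : Ideal.span {z} ⊔ Q ^ 2 ≤ Q ^ 1 := by
    rw [pow_one]
    refine sup_le ?_ (Ideal.pow_le_self two_ne_zero)
    rw [Ideal.span_le]
    intro y hy
    rw [Set.mem_singleton_iff.mp hy]
    exact hz
  have hlt : Q ^ (1 + 1) < Ideal.span {z} ⊔ Q ^ 2 := by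
    refine lt_of_le_of_ne le_sup_right ?_
    intro h
    apply hz2
    have : z ∈ Ideal.span {z} ⊔ Q ^ 2 :=
      (le_sup_left : Ideal.span {z} ≤ _) (Ideal.mem_span_singleton_self z)
    rw [← h] at this
    exact this
  have := Ideal.eq_prime_pow_of_succ_lt_of_le hQ0 hlt hle
  rw [this, pow_one]

variable {K : Type*} [Field K] (A : ValuationSubring K)
  {k : Type*} [Field k] (π : A →+* k)
  {R : Type*} [CommRing R] [Algebra A R]
  {Bb : Type*} [CommRing Bb] [IsDedekindDomain Bb] [Algebra k Bb]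

/-- **Tangent-vector lemma.** -/
theorem FA_S37_MU_tv
    (hπ : ∀ a : A, π a = 0 ↔ a ∈ maximalIdeal A)
    (red : R →+* Bb) (hred : ∀ a : A, red (algebraMap A R a) = algebraMap k Bb (π a))
    (hlift : Function.Surjective red)
    (hker : ∀ b : R, red b = 0 → ∃ (ϖ : A) (h : R), ϖ ∈ maximalIdeal A ∧ b = ϖ • h)
    (Q : Ideal Bb) [hQ : Q.IsPrime] (hQ0 : Q ≠ ⊥)
    (G : Finset R) (hG : Algebra.adjoin A (G : Set R) = ⊤)
    (e₁ e₂ : R →+* A) (he₁ : ∀ a, e₁ (algebraMap A R a) = a) (he₂ : ∀ a, e₂ (algebraMap A R a) = a)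
    (hc₁ : ∀ b, red b - algebraMap k Bb (π (e₁ b)) ∈ Q)
    (hc₂ : ∀ b, red b - algebraMap k Bb (π (e₂ b)) ∈ Q)
    (δ : R →+ K) (hδ : ∀ b b', δ (b * b') = (e₁ b : K) * δ b' + (e₂ b' : K) * δ b)
    (hδA : ∀ a, δ (algebraMap A R a) = 0)
    (t : R) (htQ : red t ∈ Q) (htQ2 : red t ∉ Q ^ 2) (hδt : δ t = 0) :
    ∀ b, δ b = 0 := by
  classical
  by_contra hcon
  rw [not_forall] at hcon
  obtain ⟨b₁, hb₁⟩ := hcon
  set v := A.valuation with hv
  -- values in `𝔪` at elements reducing into `Q`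
  have hQtop : (1 : Bb) ∉ Q := fun h => hQ.ne_top ((Ideal.eq_top_iff_one Q).mpr h)
  have hm : ∀ (e : R →+* A), (∀ b, red b - algebraMap k Bb (π (e b)) ∈ Q) →
      ∀ b, red b ∈ Q → v ((e b : A) : K) < 1 := by
    intro e hc b hb
    have h1 : algebraMap k Bb (π (e b)) ∈ Q := by
      have := Q.sub_mem hb (hc b)
      simpa using this
    have h2 : π (e b) = 0 := by
      by_contra hne
      apply hQtop
      have : algebraMap k Bb (π (e b))⁻¹ * algebraMap k Bb (π (e b)) ∈ Q := Q.mul_mem_left _ h1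
      rwa [← map_mul, inv_mul_cancel₀ hne, map_one] at this
    exact (A.valuation_lt_one_iff (e b)).mp ((hπ _).mp h2)
  -- the span argument
  have hspan : ∀ M : Submodule A K, (∀ g ∈ G, δ g ∈ M) → ∀ b, δ b ∈ M := by
    intro M hM b
    have hb : b ∈ Algebra.adjoin A (G : Set R) := by rw [hG]; trivial
    induction hb using Algebra.adjoin_induction with
    | mem x hx => exact hM x hx
    | algebraMap a => rw [hδA]; exact M.zero_mem
    | add x y _ _ hx hy => rw [map_add]; exact M.add_mem hx hy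
    | mul x y _ _ hx hy =>
      rw [hδ]
      exact M.add_mem (M.smul_mem (e₁ x) hy) (M.smul_mem (e₂ y) hx)
  -- some generator has `δ g ≠ 0`
  have hex : ∃ g ∈ G, δ g ≠ 0 := by
    by_contra h
    push Not at h
    apply hb₁
    have := hspan ⊥ (fun g hg => by rw [h g hg]; exact Submodule.zero_mem _) b₁
    simpa using this
  obtain ⟨g₁, hg₁, hg₁0⟩ := hex
  obtain ⟨g₀, hg₀, hmax⟩ := Finset.exists_max_image G (fun g => v (δ g)) ⟨g₁, hg₁⟩
  have hg₀0 : δ g₀ ≠ 0 := by
    intro h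
    have h1 := hmax g₁ hg₁
    rw [h, map_zero] at h1
    exact hg₁0 ((map_eq_zero v).mp (le_antisymm h1 zero_le))
  set γ := v (δ g₀) with hγ
  have hγ0 : γ ≠ 0 := (map_ne_zero v).mpr hg₀0
  -- all values of `δ` have valuation `≤ γ`
  have hle : ∀ b, v (δ b) ≤ γ := by
    intro b
    let M : Submodule A K :=
      { carrier := {y | v y ≤ γ}
        add_mem' := fun {x y} hx hy => by
          show v (x + y) ≤ γ
          exact (v.map_add x y).trans (max_le hx hy)
        zero_mem' := by simp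
        smul_mem' := fun a x hx => by
          show v (a • x) ≤ γ
          rw [Algebra.smul_def, map_mul]
          have ha : v ((a : A) : K) ≤ 1 := (A.valuation_le_one_iff _).mpr a.2
          calc v ((a : A) : K) * v x ≤ 1 * γ := mul_le_mul' ha hx
            _ = γ := one_mul _ }
    exact hspan M (fun g hg => hmax g hg) b
  -- small elements
  have hsmall_mul : ∀ (a : K) (y : K), v a < 1 → v y ≤ γ → v (a * y) < γ := by
    intro a y ha hy
    rw [map_mul]
    rcases eq_or_ne (v y) 0 with h0 | h0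
    · rw [h0, mul_zero]; exact zero_lt_iff.mpr hγ0
    · calc v a * v y < 1 * v y := by
            exact mul_lt_mul_of_pos_right ha (zero_lt_iff.mpr h0)
        _ = v y := one_mul _
        _ ≤ γ := hy
  have hprod : ∀ q q' : R, red q ∈ Q → red q' ∈ Q → v (δ (q * q')) < γ := by
    intro q q' hq hq'
    rw [hδ]
    refine lt_of_le_of_lt (v.map_add _ _) (max_lt ?_ ?_)
    · exact hsmall_mul _ _ (hm e₁ hc₁ q hq) (hle q')
    · exact hsmall_mul _ _ (hm e₂ hc₂ q' hq') (hle q)
  have hsq : ∀ z ∈ Q ^ 2, ∃ r : R, red r = z ∧ v (δ r) < γ := by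
    intro z hz
    rw [pow_two] at hz
    refine Submodule.mul_induction_on hz ?_ ?_
    · intro m hm' n hn
      obtain ⟨q, rfl⟩ := hlift m
      obtain ⟨q', rfl⟩ := hlift n
      exact ⟨q * q', by simp, hprod q q' hm' hn⟩
    · rintro x y ⟨r, hr, hr'⟩ ⟨r', hr₂, hr₂'⟩
      refine ⟨r + r', by rw [map_add, hr, hr₂], ?_⟩
      rw [map_add]
      exact lt_of_le_of_lt (v.map_add _ _) (max_lt hr' hr₂')
  -- the element `b₀`
  set b₀ : R := g₀ - algebraMap A R (e₂ g₀) with hb₀
  have hδb₀ : δ b₀ = δ g₀ := by rw [hb₀, map_sub, hδA, sub_zero]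
  have hb₀Q : red b₀ ∈ Q := by
    rw [hb₀, map_sub, hred]
    exact hc₂ g₀
  have hdec := FA_S37_MU_sup_sq Q hQ0 htQ htQ2
  rw [← hdec] at hb₀Q
  obtain ⟨y, hy, z, hz, hyz⟩ := Submodule.mem_sup.mp hb₀Q
  obtain ⟨a', ha'⟩ := Ideal.mem_span_singleton'.mp hy
  obtain ⟨a, rfl⟩ := hlift a'
  obtain ⟨r₂, hr₂, hr₂'⟩ := hsq z hz
  have hk : red (b₀ - (a * t + r₂)) = 0 := by
    rw [map_sub, map_add, map_mul, hr₂, ha', hyz, sub_self]
  obtain ⟨ϖ, h, hϖ, hϖh⟩ := hker _ hk
  have hb₀eq : b₀ = a * t + r₂ + ϖ • h := by rw [← hϖh]; ring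
  have h1 : v (δ (a * t)) < γ := by
    rw [hδ, hδt, mul_zero, zero_add]
    exact hsmall_mul _ _ (hm e₂ hc₂ t htQ) (hle a)
  have h2 : v (δ (ϖ • h)) < γ := by
    rw [Algebra.smul_def, hδ, hδA, mul_zero, add_zero, he₁]
    exact hsmall_mul _ _ ((A.valuation_lt_one_iff ϖ).mp hϖ) (hle h)
  have h3 : v (δ b₀) < γ := by
    have hsplit : δ (a * t + r₂ + ϖ • h) = δ (a * t) + δ r₂ + δ (ϖ • h) := by
      rw [map_add, map_add]
    rw [hb₀eq, hsplit]
    refine lt_of_le_of_lt (v.map_add _ _) (max_lt ?_ h2)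
    exact lt_of_le_of_lt (v.map_add _ _) (max_lt h1 hr₂')
  rw [hδb₀] at h3
  exact lt_irrefl _ h3

end Fermat.Agent.S37

end
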