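import Mathlib
import Fermat.Agent.S18.Unimod

/-!
# S37, leaf A2a: norms, traces and characteristic polynomials commute with reduction

Setting (no noetherian hypothesis, no separability):

* `K ⊂ K'` finite, `κ ⊂ κ'` of the same degree `d = card ι`;
* `O` a valuation subring of `K`, `O'` a subring of `K'` containing `O`; `red : O → κ`,
  `red' : O' → κ'` compatible ring homomorphisms, `red` kills the non-units of `O`;
* `b i ∈ O'` whose reductions `cb i` form a `κ`-basis of `κ'`.

Then `b` is a `K`-basis of `K'`, `O' = ⊕ O b i`, the matrix of the multiplication by `z ∈ O'`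
has entries in `O` and reduces to the matrix of the multiplication by `red' z`.  Hence

* `FA_S37_NR.Hyp.norm_mem_O`, `FA_S37_NR.Hyp.red_norm` : `red (N_{K'/K} z) = N_{κ'/κ} (red' z)`;
* `FA_S37_NR.Hyp.trace_mem_O`, `FA_S37_NR.Hyp.red_trace` : the same for traces;
* `FA_S37_NR.Hyp.charpolyO`, `_charpolyO_map_subtype`, `_charpolyO_map_red` : the characteristic
  polynomial of `z` over `K` has coefficients in `O` and reduces to the one of `red' z`.
-/

set_option autoImplicit false
set_option linter.unusedSectionVars false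

noncomputable section

namespace FA_S37_NR

open Module

variable {K K' κ κ' ι : Type*} [Field K] [Field K'] [Algebra K K'] [FiniteDimensional K K']
  [Field κ] [Field κ'] [Algebra κ κ'] [Fintype ι] [DecidableEq ι]

/-- The hypotheses: a lift `b` of a basis `cb` of the residue extension, of the right size. -/
structure Hyp (O : ValuationSubring K) (O' : Subring K') (red : O →+* κ)
    (red' : O' →+* κ') (cb : Basis ι κ κ') (b : ι → O') : Prop where
  card : Fintype.card ι = Module.finrank K K'
  red_max : ∀ a : O, (a : K)⁻¹ ∉ O → red a = 0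
  incl : ∀ a : O, algebraMap K K' a ∈ O'
  compat : ∀ (a : O) (y : O'), (y : K') = algebraMap K K' a → red' y = algebraMap κ κ' (red a)
  b_red : ∀ i, red' (b i) = cb i

variable {O : ValuationSubring K} {O' : Subring K'} {red : O →+* κ} {red' : O' →+* κ'}
  {cb : Basis ι κ κ'} {b : ι → O'}

namespace Hyp

variable (H : Hyp O O' red red' cb b)
include H

/-- `red' (a • y) = red a • red' y`. -/
theorem red_smul (a : O) (y : O') (z : O') (hz : (z : K') = algebraMap K K' a * y) :
    red' z = algebraMap κ κ' (red a) * red' y := by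
  have : z = ⟨algebraMap K K' a, H.incl a⟩ * y := Subtype.ext hz
  rw [this, map_mul, H.compat a ⟨algebraMap K K' a, H.incl a⟩ rfl]

/-- A linear combination of the `b i` with coefficients in `O` lies in `O'` and reduces to the
combination of the reductions. -/
theorem red_sum (a : ι → O) :
    ∃ z : O', (z : K') = ∑ i, algebraMap K K' (a i) * (b i : K') ∧
      red' z = ∑ i, algebraMap κ κ' (red (a i)) * cb i := by
  refine ⟨∑ i, ⟨algebraMap K K' (a i), H.incl (a i)⟩ * b i, ?_, ?_⟩
  · simp
  · rw [map_sum]
    refine Finset.sum_congr rfl fun i _ => ?_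
    rw [map_mul, H.compat (a i) ⟨algebraMap K K' (a i), H.incl (a i)⟩ rfl, H.b_red]

/-- If a combination `∑ a i • b i` with `a i ∈ K` lies in `O'`, then all `a i` lie in `O`. -/
theorem coeff_mem (a : ι → K) (hy : ∑ i, algebraMap K K' (a i) * (b i : K') ∈ O') :
    ∀ i, a i ∈ O := by
  classical
  by_contra hcon
  rw [not_forall] at hcon
  obtain ⟨i₁, hi₁⟩ := hcon
  have hne : ∃ i, a i ≠ 0 := ⟨i₁, fun h => hi₁ (h ▸ O.zero_mem)⟩
  obtain ⟨i₀, h0, hall⟩ := FA_S18.FA_S18_U_pivot O a hne
  have hi₀ : a i₀ ∉ O := by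
    intro h
    apply hi₁
    have : a i₁ = (a i₁ * (a i₀)⁻¹) * a i₀ := by field_simp
    rw [this]
    exact O.mul_mem _ _ (hall i₁) h
  have hinv : (a i₀)⁻¹ ∈ O := (O.mem_or_inv_mem (a i₀)).resolve_left hi₀
  set c : O := ⟨(a i₀)⁻¹, hinv⟩ with hc
  have hc0 : red c = 0 := H.red_max c (by simpa [hc] using hi₀)
  obtain ⟨z, hz, hzred⟩ := H.red_sum (fun i => (⟨a i * (a i₀)⁻¹, hall i⟩ : O))
  have hz2 : (z : K') = algebraMap K K' c * (⟨_, hy⟩ : O') := by
    rw [hz]
    simp only [hc]
    rw [Finset.mul_sum]
    refine Finset.sum_congr rfl fun i _ => ?_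
    rw [map_mul]
    ring
  have h1 := H.red_smul c ⟨_, hy⟩ z hz2
  rw [hc0, map_zero, zero_mul, hzred] at h1
  have h2 : ∑ i, (red (⟨a i * (a i₀)⁻¹, hall i⟩ : O)) • cb i = 0 := by
    simpa [Algebra.smul_def] using h1
  have h3 := (Fintype.linearIndependent_iff.mp cb.linearIndependent) _ h2 i₀
  have h4 : (⟨a i₀ * (a i₀)⁻¹, hall i₀⟩ : O) = 1 := by
    apply Subtype.ext
    show a i₀ * (a i₀)⁻¹ = 1
    exact mul_inv_cancel₀ h0
  rw [h4, map_one] at h3
  exact one_ne_zero h3

/-- The `b i` are linearly independent over `K`. -/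
theorem linearIndependent : LinearIndependent K (fun i => (b i : K')) := by
  classical
  rw [Fintype.linearIndependent_iff]
  intro a ha
  by_contra hcon
  rw [not_forall] at hcon
  obtain ⟨i₁, hi₁⟩ := hcon
  obtain ⟨i₀, h0, hall⟩ := FA_S18.FA_S18_U_pivot O a ⟨i₁, hi₁⟩
  obtain ⟨z, hz, hzred⟩ := H.red_sum (fun i => (⟨a i * (a i₀)⁻¹, hall i⟩ : O))
  have hz0 : (z : K') = 0 := by
    rw [hz]
    have : ∑ i, algebraMap K K' (a i * (a i₀)⁻¹) * (b i : K')
        = algebraMap K K' (a i₀)⁻¹ * ∑ i, a i • (b i : K') := by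
      rw [Finset.mul_sum]
      refine Finset.sum_congr rfl fun i _ => ?_
      rw [map_mul, Algebra.smul_def]
      ring
    rw [this, ha, mul_zero]
  have hz00 : z = 0 := Subtype.ext hz0
  rw [hz00, map_zero] at hzred
  have h2 : ∑ i, (red (⟨a i * (a i₀)⁻¹, hall i⟩ : O)) • cb i = 0 := by
    simpa [Algebra.smul_def] using hzred.symm
  have h3 := (Fintype.linearIndependent_iff.mp cb.linearIndependent) _ h2 i₀
  have h4 : (⟨a i₀ * (a i₀)⁻¹, hall i₀⟩ : O) = 1 := by
    apply Subtype.ext
    show a i₀ * (a i₀)⁻¹ = 1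
    exact mul_inv_cancel₀ h0
  rw [h4, map_one] at h3
  exact one_ne_zero h3

/-- The `K`-basis of `K'` given by the `b i`. -/
def basis : Basis ι K K' :=
  basisOfLinearIndependentOfCardEqFinrank' _ H.linearIndependent H.card

theorem basis_apply (i : ι) : H.basis i = (b i : K') := by
  simp [basis]

theorem sum_repr (y : K') : ∑ i, algebraMap K K' (H.basis.repr y i) * (b i : K') = y := by
  conv_rhs => rw [← H.basis.sum_repr y]
  refine Finset.sum_congr rfl fun i _ => ?_
  rw [Algebra.smul_def, H.basis_apply]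

/-- Coordinates of elements of `O'` lie in `O`: `O' = ⊕ O b i`. -/
theorem repr_mem_O (y : K') (hy : y ∈ O') (i : ι) : H.basis.repr y i ∈ O := by
  apply H.coeff_mem (fun i => H.basis.repr y i)
  rw [H.sum_repr]
  exact hy

/-- Reduction of coordinates. -/
theorem red_repr (y : O') (i : ι) :
    red ⟨H.basis.repr (y : K') i, H.repr_mem_O y y.2 i⟩ = cb.repr (red' y) i := by
  obtain ⟨z, hz, hzred⟩ := H.red_sum (fun i => ⟨H.basis.repr (y : K') i, H.repr_mem_O y y.2 i⟩)
  have hzy : z = y := by
    apply Subtype.ext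
    rw [hz]
    exact H.sum_repr y
  rw [hzy] at hzred
  rw [hzred]
  have : ∑ i, algebraMap κ κ' (red ⟨H.basis.repr (y : K') i, H.repr_mem_O y y.2 i⟩) * cb i
      = ∑ i, (red ⟨H.basis.repr (y : K') i, H.repr_mem_O y y.2 i⟩) • cb i := by
    refine Finset.sum_congr rfl fun i _ => ?_
    rw [Algebra.smul_def]
  rw [this, cb.repr_sum_self]

/-! ### The matrix of the multiplication by `z ∈ O'` -/

/-- The matrix of the multiplication by `z ∈ O'` in the basis `b`, with entries in `O`. -/
def matO (z : O') : Matrix ι ι O := fun i j =>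
  ⟨H.basis.repr ((z * b j : O') : K') i, H.repr_mem_O _ (z * b j).2 i⟩

theorem matO_map_subtype (z : O') :
    (H.matO z).map O.subtype = Algebra.leftMulMatrix H.basis (z : K') := by
  ext i j
  rw [Matrix.map_apply, Algebra.leftMulMatrix_eq_repr_mul, H.basis_apply]
  rfl

theorem matO_map_red (z : O') :
    (H.matO z).map red = Algebra.leftMulMatrix cb (red' z) := by
  ext i j
  rw [Matrix.map_apply, Algebra.leftMulMatrix_eq_repr_mul]
  show red ⟨H.basis.repr ((z * b j : O') : K') i, H.repr_mem_O _ (z * b j).2 i⟩ = _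
  rw [H.red_repr (z * b j) i, map_mul, H.b_red]

/-! ### Norms -/

theorem norm_eq (z : O') : Algebra.norm K (z : K') = ((H.matO z).det : K) := by
  rw [Algebra.norm_eq_matrix_det H.basis, ← H.matO_map_subtype z]
  exact (RingHom.map_det O.subtype (H.matO z)).symm

theorem norm_mem_O (z : O') : Algebra.norm K (z : K') ∈ O := by
  rw [H.norm_eq z]
  exact (H.matO z).det.2

/-- **Norms commute with reduction.** -/
theorem red_norm (z : O') :
    red ⟨Algebra.norm K (z : K'), H.norm_mem_O z⟩ = Algebra.norm κ (red' z) := by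
  have e : (⟨Algebra.norm K (z : K'), H.norm_mem_O z⟩ : O) = (H.matO z).det :=
    Subtype.ext (H.norm_eq z)
  rw [e, Algebra.norm_eq_matrix_det cb, ← H.matO_map_red z]
  exact RingHom.map_det red (H.matO z)

/-! ### Traces -/

theorem trace_eq (z : O') : Algebra.trace K K' (z : K') = ((H.matO z).trace : K) := by
  rw [Algebra.trace_eq_matrix_trace H.basis, ← H.matO_map_subtype z]
  exact (AddMonoidHom.map_trace O.subtype.toAddMonoidHom (H.matO z)).symm

theorem trace_mem_O (z : O') : Algebra.trace K K' (z : K') ∈ O := by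
  rw [H.trace_eq z]
  exact (H.matO z).trace.2

/-- **Traces commute with reduction.** -/
theorem red_trace (z : O') :
    red ⟨Algebra.trace K K' (z : K'), H.trace_mem_O z⟩ = Algebra.trace κ κ' (red' z) := by
  have e : (⟨Algebra.trace K K' (z : K'), H.trace_mem_O z⟩ : O) = (H.matO z).trace :=
    Subtype.ext (H.trace_eq z)
  rw [e, Algebra.trace_eq_matrix_trace cb, ← H.matO_map_red z]
  exact AddMonoidHom.map_trace red.toAddMonoidHom (H.matO z)

/-! ### Characteristic polynomials -/

/-- The characteristic polynomial of the multiplication by `z ∈ O'`, over `O`. -/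
def charpolyO (z : O') : Polynomial O := (H.matO z).charpoly

theorem charpolyO_monic (z : O') : (H.charpolyO z).Monic := Matrix.charpoly_monic _

theorem charpolyO_natDegree [Nontrivial O] (z : O') :
    (H.charpolyO z).natDegree = Fintype.card ι := Matrix.charpoly_natDegree_eq_dim _

/-- Over `K` it is the characteristic polynomial of `z`. -/
theorem charpolyO_map_subtype (z : O') :
    (H.charpolyO z).map O.subtype = (Algebra.leftMulMatrix H.basis (z : K')).charpoly := by
  rw [charpolyO, ← Matrix.charpoly_map, H.matO_map_subtype]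

/-- **Characteristic polynomials commute with reduction.** -/
theorem charpolyO_map_red (z : O') :
    (H.charpolyO z).map red = (Algebra.leftMulMatrix cb (red' z)).charpoly := by
  rw [charpolyO, ← Matrix.charpoly_map, H.matO_map_red]

/-- `z` is a root of its characteristic polynomial. -/
theorem aeval_charpolyO (z : O') :
    Polynomial.aeval (z : K') ((H.charpolyO z).map O.subtype) = 0 := by
  rw [H.charpolyO_map_subtype]
  have h := Matrix.aeval_self_charpoly (Algebra.leftMulMatrix H.basis (z : K'))
  rw [Polynomial.aeval_algHom_apply] at h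
  exact Algebra.leftMulMatrix_injective H.basis (h.trans (map_zero _).symm)

end Hyp

end FA_S37_NR
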