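import Mathlib.RingTheory.Ideal.Norm.RelNorm
import Mathlib.RingTheory.RamificationInertia.Basic
import Mathlib.RingTheory.DedekindDomain.AdicValuation

/-!
# S37, leaf N2: the norm–valuation formula (pure Mathlib)

`R ⊆ S` Dedekind domains, `S` a finite torsion-free `R`-module, `𝔭` a height one prime of `R`
such that all primes of `S` over `𝔭` have residue degree one.  Then for every `s : S`

  `𝔭.intValuation (Algebra.intNorm R S s) = ∏ P ∈ Φ, P.intValuation s`,

`Φ` the finite set of primes of `S` over `𝔭`.  No separability / perfectness is used.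
-/

set_option linter.style.haveILetI false

namespace Fermat.Agent.S37

open IsDedekindDomain Ideal Module UniqueFactorizationMonoid

section N2

/-- Residue degree one from surjectivity of `R → S ⧸ Q`. -/
theorem FA_S37_N2_inertiaDeg_eq_one {R S : Type*} [CommRing R] [CommRing S] [Algebra R S]
    (p : Ideal R) [p.IsMaximal] (Q : Ideal S) [Q.IsMaximal] [Q.LiesOver p]
    (h : ∀ b : S, ∃ r : R, b - algebraMap R S r ∈ Q) : Q.inertiaDeg R = 1 := by
  rw [Ideal.inertiaDeg_eq_of_isMaximal p Q]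
  letI : Field (R ⧸ p) := Ideal.Quotient.field p
  letI : Field (S ⧸ Q) := Ideal.Quotient.field Q
  rw [finrank_eq_one_iff_of_nonzero' (1 : S ⧸ Q) one_ne_zero]
  intro w
  obtain ⟨b, rfl⟩ := Ideal.Quotient.mk_surjective w
  obtain ⟨r, hr⟩ := h b
  refine ⟨Ideal.Quotient.mk p r, ?_⟩
  rw [Algebra.smul_def, mul_one, Ideal.Quotient.algebraMap_mk_of_liesOver]
  exact ((Ideal.Quotient.mk_eq_mk_iff_sub_mem _ _).mpr hr).symm

/-- count of a prime ideal in the factors of a prime ideal. -/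
theorem FA_S37_N2_count_prime {T : Type*} [CommRing T] [IsDedekindDomain T] (P q : Ideal T)
    (hq : q.IsPrime) (hq0 : q ≠ ⊥) :
    Multiset.count P (normalizedFactors q) = if P = q then 1 else 0 := by
  classical
  rw [normalizedFactors_irreducible (Ideal.prime_of_isPrime hq0 hq).irreducible, normalize_eq,
    Multiset.count_singleton]

/-- valuation in terms of `normalizedFactors`. -/
theorem FA_S37_N2_val_eq {T : Type*} [CommRing T] [IsDedekindDomain T] (v : HeightOneSpectrum T)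
    {r : T} (hr : r ≠ 0) :
    v.intValuation r =
      WithZero.exp (-(Multiset.count v.asIdeal (normalizedFactors (Ideal.span {r})) : ℤ)) := by
  have hsr : Ideal.span {r} ≠ (0 : Ideal T) := Submodule.span_singleton_eq_bot.mp.mt hr
  rw [v.intValuation_if_neg hr, Ideal.count_associates_factors_eq hsr v.isPrime v.ne_bot]

theorem FA_S37_N2_exp_sum {ι : Type*} (Φ : Finset ι) (f : ι → ℤ) :
    WithZero.exp (∑ i ∈ Φ, f i) = ∏ i ∈ Φ, (WithZero.exp (f i) : WithZero (Multiplicative ℤ)) := by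
  classical
  induction Φ using Finset.induction_on with
  | empty => simp
  | insert a s ha ih => rw [Finset.sum_insert ha, Finset.prod_insert ha, WithZero.exp_add, ih]

variable {R S : Type*} [CommRing R] [IsDedekindDomain R] [CommRing S] [IsDedekindDomain S]
  [Algebra R S] [Module.Finite R S] [IsTorsionFree R S]

/-- The relative norm of a prime `Q` over a maximal ideal `p` is a positive power of `p`. -/
theorem FA_S37_N2_relNorm_pow (p : Ideal R) [p.IsMaximal] (Q : Ideal S)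
    (hQ : Q ∈ p.primesOver S) : ∃ s : ℕ, relNorm R Q = p ^ s ∧ 1 ≤ s := by
  haveI := hQ.1
  haveI : Q.LiesOver p := hQ.2
  obtain ⟨s, hs⟩ := exists_relNorm_eq_pow_of_isPrime Q p
  refine ⟨s, hs, ?_⟩
  by_contra h
  have h0 : s = 0 := by omega
  subst h0
  rw [pow_zero, Ideal.one_eq_top] at hs
  have h1 := relNorm_le_comap R Q
  rw [hs, top_le_iff, Ideal.comap_eq_top_iff] at h1
  exact hQ.1.ne_top h1

theorem FA_S37_N2_pow_inj (p : Ideal R) [p.IsMaximal] (hp : p ≠ ⊥) :
    Function.Injective (fun n : ℕ => p ^ n) :=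
  (IsLeftCancelMulZero.mul_left_cancel_of_ne_zero hp).pow_injective
    (by rw [one_eq_top]; exact IsMaximal.ne_top inferInstance)

/-- If all primes of `S` over the maximal ideal `p ≠ ⊥` have residue degree one, the relative
norm of each of them is `p`. -/
theorem FA_S37_N2_relNorm_eq (p : Ideal R) [p.IsMaximal] (hp : p ≠ ⊥)
    (hf : ∀ Q ∈ p.primesOver S, Q.inertiaDeg R = 1)
    (P : Ideal S) (hP : P ∈ p.primesOver S) : relNorm R P = p := by
  classical
  choose! s hs hs1 using FA_S37_N2_relNorm_pow (S := S) p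
  have h1 : relNorm R (p.map (algebraMap R S)) = p ^ finrank R S := relNorm_algebraMap S p
  rw [Ideal.map_algebraMap_eq_finsetProd_pow hp, map_prod] at h1
  have h2 : ∀ Q ∈ (p.primesOver S).toFinset,
      relNorm R (Q ^ Q.ramificationIdx R) = p ^ (Q.ramificationIdx R * s Q) := by
    intro Q hQ
    rw [map_pow, hs Q (Set.mem_toFinset.mp hQ), ← pow_mul, mul_comm]
  rw [Finset.prod_congr rfl h2, Finset.prod_pow_eq_pow_sum] at h1
  have h3 : ∑ Q ∈ (p.primesOver S).toFinset, Q.ramificationIdx R * s Q = finrank R S :=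
    FA_S37_N2_pow_inj p hp h1
  have h4 := Ideal.sum_ramification_inertia_eq_finrank p S
  rw [Finset.sum_set_coe (s := p.primesOver S)
    (f := fun q => q.ramificationIdx R * q.inertiaDeg R)] at h4
  have h5 : ∑ Q ∈ (p.primesOver S).toFinset, Q.ramificationIdx R * Q.inertiaDeg R =
      ∑ Q ∈ (p.primesOver S).toFinset, Q.ramificationIdx R * 1 :=
    Finset.sum_congr rfl fun Q hQ => by rw [hf Q (Set.mem_toFinset.mp hQ)]
  rw [h5, ← h3] at h4
  have h6 : ∀ Q ∈ (p.primesOver S).toFinset,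
      Q.ramificationIdx R * 1 ≤ Q.ramificationIdx R * s Q := fun Q hQ =>
    Nat.mul_le_mul_left _ (hs1 Q (Set.mem_toFinset.mp hQ))
  have h7 := (Finset.sum_eq_sum_iff_of_le h6).mp h4 P (Set.mem_toFinset.mpr hP)
  haveI := hP.1
  have h8 : 0 < P.ramificationIdx R := Ideal.ramificationIdx_pos P R
  have h9 : s P = 1 := (Nat.eq_of_mul_eq_mul_left h8 h7).symm
  rw [hs P hP, h9, pow_one]

/-- The multiplicity of `𝔭` in the relative norm of an ideal `I` is the sum of the
multiplicities in `I` of the primes over `𝔭`, when these all have residue degree one. -/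
theorem FA_S37_N2_count (𝔭 : HeightOneSpectrum R)
    (hf : ∀ Q ∈ 𝔭.asIdeal.primesOver S, Q.inertiaDeg R = 1)
    (Φ : Finset (HeightOneSpectrum S)) (hΦ : ∀ P, P ∈ Φ ↔ P.asIdeal.under R = 𝔭.asIdeal)
    (I : Ideal S) (hI : I ≠ ⊥) :
    Multiset.count 𝔭.asIdeal (normalizedFactors (relNorm R I)) =
      ∑ P ∈ Φ, Multiset.count P.asIdeal (normalizedFactors I) := by
  classical
  revert hI
  refine UniqueFactorizationMonoid.induction_on_prime I ?_ ?_ ?_
  · intro h; exact absurd rfl h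
  · intro x hx _
    rw [Ideal.isUnit_iff] at hx
    subst hx
    rw [relNorm_top, ← Ideal.one_eq_top, ← Ideal.one_eq_top, normalizedFactors_one,
      normalizedFactors_one]
    simp
  · intro a q ha hq ih _
    have hq0 : q ≠ ⊥ := hq.ne_zero
    have hqP : q.IsPrime := Ideal.isPrime_of_prime hq
    have hna : relNorm R a ≠ 0 := by
      rw [Ne, Ideal.zero_eq_bot, relNorm_eq_bot_iff]; exact ha
    have hnq : relNorm R q ≠ 0 := by
      rw [Ne, Ideal.zero_eq_bot, relNorm_eq_bot_iff]; exact hq0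
    rw [map_mul, normalizedFactors_mul hnq hna, normalizedFactors_mul hq0 ha,
      Multiset.count_add, ih ha]
    simp only [Multiset.count_add, Finset.sum_add_distrib]
    congr 1
    simp only [FA_S37_N2_count_prime _ q hqP hq0]
    by_cases hqo : q.under R = 𝔭.asIdeal
    · have hmem : q ∈ 𝔭.asIdeal.primesOver S := ⟨hqP, ⟨hqo.symm⟩⟩
      haveI : 𝔭.asIdeal.IsMaximal := 𝔭.isMaximal
      rw [FA_S37_N2_relNorm_eq 𝔭.asIdeal 𝔭.ne_bot hf q hmem,
        FA_S37_N2_count_prime _ _ 𝔭.isPrime 𝔭.ne_bot, if_pos rfl]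
      have hP0 : (⟨q, hqP, hq0⟩ : HeightOneSpectrum S) ∈ Φ := (hΦ _).mpr hqo
      rw [Finset.sum_eq_single_of_mem _ hP0, if_pos rfl]
      intro P _ hne
      rw [if_neg]
      intro h
      exact hne (HeightOneSpectrum.ext h)
    · haveI : q.LiesOver (q.under R) := ⟨rfl⟩
      haveI : (q.under R).IsPrime := Ideal.IsPrime.under R q
      obtain ⟨s, hs⟩ := exists_relNorm_eq_pow_of_isPrime q (q.under R)
      rw [hs, normalizedFactors_pow, Multiset.count_nsmul]
      have h0 : Multiset.count 𝔭.asIdeal (normalizedFactors (q.under R)) = 0 := by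
        by_cases hb : q.under R = ⊥
        · rw [hb, ← Ideal.zero_eq_bot, normalizedFactors_zero]; simp
        · rw [FA_S37_N2_count_prime _ _ inferInstance hb, if_neg (Ne.symm hqo)]
      rw [h0, mul_zero]
      symm
      refine Finset.sum_eq_zero fun P hP => ?_
      rw [if_neg]
      intro h
      apply hqo
      rw [← h]
      exact (hΦ P).mp hP

/-- The set of primes over `𝔭` as a (nonempty) `Finset` of height one primes. -/
theorem FA_S37_N2_exists_finset (𝔭 : HeightOneSpectrum R) :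
    ∃ Φ : Finset (HeightOneSpectrum S), Φ.Nonempty ∧
      ∀ P, P ∈ Φ ↔ P.asIdeal.under R = 𝔭.asIdeal := by
  classical
  haveI : 𝔭.asIdeal.IsMaximal := 𝔭.isMaximal
  have hfin : (𝔭.asIdeal.primesOver S).Finite := IsDedekindDomain.primesOver_finite 𝔭.asIdeal S
  have hinj : Function.Injective (HeightOneSpectrum.asIdeal (R := S)) :=
    fun _ _ h => HeightOneSpectrum.ext h
  have hfin' : {P : HeightOneSpectrum S | P.asIdeal.under R = 𝔭.asIdeal}.Finite := by
    refine Set.Finite.of_finite_image (hfin.subset ?_) hinj.injOn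
    rintro _ ⟨P, hP, rfl⟩
    exact ⟨P.isPrime, ⟨(hP : _ = _).symm⟩⟩
  refine ⟨hfin'.toFinset, ?_, fun P => by simp⟩
  obtain ⟨Q, hQm, hQ⟩ := exists_maximal_ideal_liesOver_of_isIntegral (S := S) 𝔭.asIdeal
  have hQ0 : Q ≠ ⊥ := Ideal.ne_bot_of_liesOver_of_ne_bot 𝔭.ne_bot Q
  exact ⟨⟨Q, hQm.isPrime, hQ0⟩, by simpa using hQ.over.symm⟩

/-- **N2**: the norm–valuation formula when all residue degrees over `𝔭` are one. -/
theorem FA_S37_N2_norm_val (𝔭 : HeightOneSpectrum R)
    (hf : ∀ Q ∈ 𝔭.asIdeal.primesOver S, Q.inertiaDeg R = 1)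
    (Φ : Finset (HeightOneSpectrum S)) (hΦ : ∀ P, P ∈ Φ ↔ P.asIdeal.under R = 𝔭.asIdeal)
    (s : S) :
    𝔭.intValuation (Algebra.intNorm R S s) = ∏ P ∈ Φ, P.intValuation s := by
  classical
  by_cases hs : s = 0
  · subst hs
    obtain ⟨Φ', ⟨P, hP⟩, hΦ'⟩ := FA_S37_N2_exists_finset (S := S) 𝔭
    have hPΦ : P ∈ Φ := (hΦ P).mpr ((hΦ' P).mp hP)
    rw [Algebra.intNorm_zero, map_zero]
    exact (Finset.prod_eq_zero hPΦ (map_zero _)).symm
  · have hn : Algebra.intNorm R S s ≠ 0 := Algebra.intNorm_ne_zero.mpr hs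
    have hI : Ideal.span {s} ≠ (⊥ : Ideal S) := Submodule.span_singleton_eq_bot.mp.mt hs
    rw [FA_S37_N2_val_eq 𝔭 hn, ← relNorm_singleton, FA_S37_N2_count 𝔭 hf Φ hΦ _ hI]
    rw [Finset.prod_congr rfl fun P _ => FA_S37_N2_val_eq P hs]
    push_cast
    rw [← Finset.sum_neg_distrib, FA_S37_N2_exp_sum]

/-- Residue degree one for all primes over `𝔭`, from surjectivity of `R → S ⧸ P`. -/
theorem FA_S37_N2_hf_of_surj (𝔭 : HeightOneSpectrum R)
    (hres : ∀ P : HeightOneSpectrum S, P.asIdeal.under R = 𝔭.asIdeal →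
      ∀ b : S, ∃ r : R, b - algebraMap R S r ∈ P.asIdeal) :
    ∀ Q ∈ 𝔭.asIdeal.primesOver S, Q.inertiaDeg R = 1 := by
  intro Q hQ
  haveI : 𝔭.asIdeal.IsMaximal := 𝔭.isMaximal
  haveI := hQ.1
  haveI : Q.LiesOver 𝔭.asIdeal := hQ.2
  haveI : Q.IsMaximal := Ideal.IsMaximal.of_liesOver_isMaximal Q 𝔭.asIdeal
  have hQ0 : Q ≠ ⊥ := Ideal.ne_bot_of_liesOver_of_ne_bot 𝔭.ne_bot Q
  exact FA_S37_N2_inertiaDeg_eq_one 𝔭.asIdeal Q
    (hres ⟨Q, hQ.1, hQ0⟩ hQ.2.over.symm)

/-- **N2**, surjectivity form: if `R → S ⧸ P` is onto for all `P` over `𝔭`. -/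
theorem FA_S37_N2_norm_val_of_surj (𝔭 : HeightOneSpectrum R)
    (hres : ∀ P : HeightOneSpectrum S, P.asIdeal.under R = 𝔭.asIdeal →
      ∀ b : S, ∃ r : R, b - algebraMap R S r ∈ P.asIdeal)
    (Φ : Finset (HeightOneSpectrum S)) (hΦ : ∀ P, P ∈ Φ ↔ P.asIdeal.under R = 𝔭.asIdeal)
    (s : S) :
    𝔭.intValuation (Algebra.intNorm R S s) = ∏ P ∈ Φ, P.intValuation s :=
  FA_S37_N2_norm_val 𝔭 (FA_S37_N2_hf_of_surj 𝔭 hres) Φ hΦ s

/-- **N2**, inequality form for an arbitrary finite set `T` of primes over `𝔭`. -/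
theorem FA_S37_N2_norm_val_le (𝔭 : HeightOneSpectrum R)
    (hf : ∀ Q ∈ 𝔭.asIdeal.primesOver S, Q.inertiaDeg R = 1)
    (T : Finset (HeightOneSpectrum S)) (hT : ∀ P ∈ T, P.asIdeal.under R = 𝔭.asIdeal)
    (s : S) :
    𝔭.intValuation (Algebra.intNorm R S s) ≤ ∏ P ∈ T, P.intValuation s := by
  classical
  obtain ⟨Φ, -, hΦ⟩ := FA_S37_N2_exists_finset (S := S) 𝔭
  rw [FA_S37_N2_norm_val 𝔭 hf Φ hΦ s]
  exact Finset.prod_le_prod_of_subset_of_le_one' (fun P hP => (hΦ P).mpr (hT P hP))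
    (fun P _ _ => P.intValuation_le_one s)

/-- **N2**, inequality form for finitely many primes `𝔭 ∈ Ψ` of `R` and a finite set `T` of
primes of `S` lying over primes in `Ψ`. -/
theorem FA_S37_N2_norm_val_le_finset (Ψ : Finset (HeightOneSpectrum R))
    (hf : ∀ 𝔭 ∈ Ψ, ∀ Q ∈ 𝔭.asIdeal.primesOver S, Q.inertiaDeg R = 1)
    (T : Finset (HeightOneSpectrum S))
    (hT : ∀ P ∈ T, ∃ 𝔭 ∈ Ψ, P.asIdeal.under R = 𝔭.asIdeal) (s : S) :
    ∏ 𝔭 ∈ Ψ, 𝔭.intValuation (Algebra.intNorm R S s) ≤ ∏ P ∈ T, P.intValuation s := by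
  classical
  have hg : ∀ P ∈ T, HeightOneSpectrum.under R P ∈ Ψ := by
    intro P hP
    obtain ⟨𝔭, h𝔭, h⟩ := hT P hP
    have : HeightOneSpectrum.under R P = 𝔭 := HeightOneSpectrum.ext h
    rwa [this]
  rw [← Finset.prod_fiberwise_of_maps_to hg]
  refine Finset.prod_le_prod' fun 𝔭 h𝔭 => ?_
  refine FA_S37_N2_norm_val_le 𝔭 (hf 𝔭 h𝔭) _ (fun P hP => ?_) s
  have := (Finset.mem_filter.mp hP).2
  rw [← this]
  rfl

end N2

end Fermat.Agent.S37
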