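import Mathlib
import Fermat.Agent.S37.HeckeInFI

/-!
# S37, leaf BND: boundedness of `ρ = r_* ∘ φ^*` and of `ρ ∘ T`

Generic setting: `K` algebraically closed of characteristic zero, `F`, `F'` function fields
over `K`, `φ : F →ₐ[K] F'` an (integral) embedding, `r : Place K F' → β` ANY map.

* `FA_S37_GEN_sum_ramificationIndexAlong` : `Σ_{W | P} e_W = finrankAlong K φ`;
* `FA_S37_GEN_mapDomain_pullback_single` : `r_* φ^* [P] = Σ_{W | P} e_W [r W]` in coordinates;
* `FA_S37_GEN_bound` : `|r_* φ^* [P] (Q)| ≤ finrankAlong K φ`;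
* `FA_S37_GEN_abs_le_of_effective` : `|ρ E (Q)| ≤ deg E · C` for effective `E`, if
  `|ρ [P] (Q)| ≤ C` for all `P`;
* `FA_S37_GEN_bound_correspondence` : `|ρ (T [P]) (Q)| ≤ finrankAlong K φ · C` for the
  correspondence `T = ψ_* φ^*`.
-/

set_option autoImplicit false
set_option linter.unusedSectionVars false
set_option linter.style.haveILetI false

noncomputable section

namespace Fermat.Agent.S37

open AlgebraicCurve FA_RR

section Generic

variable {K F F' : Type*} [Field K] [Field F] [Field F'] [Algebra K F] [Algebra K F']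
  [IsAlgClosed K] [CharZero K]

/-- The fundamental identity along `φ`, ramification-index form. -/
theorem FA_S37_GEN_sum_ramificationIndexAlong (hF : FA_RR_IsFF K F) (hF' : FA_RR_IsFF K F')
    [HasPrincipalDivisors K F'] (φ : F →ₐ[K] F') (hφ : φ.toRingHom.IsIntegral)
    (P : Place K F) :
    ∑ W ∈ Place.fiberAlong φ hφ P, (W.ramificationIndexAlong φ : ℤ) = (finrankAlong K φ : ℤ) := by
  letI := algebraAlong φ
  haveI := isScalarTower_along φ
  haveI := isIntegral_along φ hφ
  exact FA_S37_HI_sum_ramificationIndex hF hF' P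

/-- `r_* φ^* [P]` in coordinates. -/
theorem FA_S37_GEN_mapDomain_pullback_single [HasPrincipalDivisors K F'] (φ : F →ₐ[K] F')
    (hφ : φ.toRingHom.IsIntegral) {β : Type*} [DecidableEq β] (r : Place K F' → β)
    (P : Place K F) (Q : β) :
    Finsupp.mapDomain r (Divisor.pullbackAlong φ hφ (Finsupp.single P 1)) Q
      = ∑ W ∈ Place.fiberAlong φ hφ P,
          if r W = Q then (W.ramificationIndexAlong φ : ℤ) else 0 := by
  classical
  rw [Divisor.pullbackAlong_single, Finsupp.mapDomain_finset_sum, Finsupp.finset_sum_apply]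
  refine Finset.sum_congr rfl fun W _ => ?_
  rw [Finsupp.mapDomain_single, Finsupp.single_apply, one_mul]

/-- **BND**: the coefficients of `r_* φ^* [P]` are bounded by `[F' : φ F]`. -/
theorem FA_S37_GEN_bound (hF : FA_RR_IsFF K F) (hF' : FA_RR_IsFF K F')
    [HasPrincipalDivisors K F'] (φ : F →ₐ[K] F') (hφ : φ.toRingHom.IsIntegral)
    {β : Type*} (r : Place K F' → β) (P : Place K F) (Q : β) :
    |Finsupp.mapDomain r (Divisor.pullbackAlong φ hφ (Finsupp.single P 1)) Q|
      ≤ (finrankAlong K φ : ℤ) := by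
  classical
  rw [FA_S37_GEN_mapDomain_pullback_single, ← FA_S37_GEN_sum_ramificationIndexAlong hF hF' φ hφ P]
  have h0 : 0 ≤ ∑ W ∈ Place.fiberAlong φ hφ P,
      if r W = Q then (W.ramificationIndexAlong φ : ℤ) else 0 := by
    apply Finset.sum_nonneg
    intro W _
    split_ifs
    · exact Int.natCast_nonneg _
    · exact le_refl _
  rw [abs_of_nonneg h0]
  apply Finset.sum_le_sum
  intro W _
  split_ifs
  · exact le_refl _
  · exact Int.natCast_nonneg _

/-- The same for `r = id` : the coefficients of `φ^* [P]` are bounded by `[F' : φ F]`. -/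
theorem FA_S37_GEN_bound_pullback (hF : FA_RR_IsFF K F) (hF' : FA_RR_IsFF K F')
    [HasPrincipalDivisors K F'] (φ : F →ₐ[K] F') (hφ : φ.toRingHom.IsIntegral)
    (P : Place K F) (W : Place K F') :
    |Divisor.pullbackAlong φ hφ (Finsupp.single P 1) W| ≤ (finrankAlong K φ : ℤ) := by
  have h := FA_S37_GEN_bound hF hF' φ hφ (fun W : Place K F' => W) P W
  have h1 : Finsupp.mapDomain (fun W : Place K F' => W)
      (Divisor.pullbackAlong φ hφ (Finsupp.single P 1))
      = Divisor.pullbackAlong φ hφ (Finsupp.single P 1) := Finsupp.mapDomain_id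
  rwa [h1] at h

end Generic

section Effective

variable {K F : Type*} [Field K] [Field F] [Algebra K F]
variable {M : Type*} [AddCommGroup M]

/-- A bound on `ρ [P]` gives a bound on `ρ E`, coordinatewise, for any additive functional. -/
theorem FA_S37_GEN_abs_le_sum (ρ : Divisor K F →+ ℤ) (C : ℤ)
    (hC : ∀ P : Place K F, |ρ (Finsupp.single P 1)| ≤ C) (E : Divisor K F) :
    |ρ E| ≤ (∑ P ∈ E.support, |E P|) * C := by
  classical
  have hE : E = ∑ P ∈ E.support, E P • Finsupp.single P (1 : ℤ) := by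
    conv_lhs => rw [← Finsupp.sum_single E]
    rw [Finsupp.sum]
    refine Finset.sum_congr rfl fun P _ => ?_
    rw [Finsupp.smul_single, smul_eq_mul, mul_one]
  conv_lhs => rw [hE]
  rw [map_sum, Finset.sum_mul]
  refine (Finset.abs_sum_le_sum_abs _ _).trans ?_
  apply Finset.sum_le_sum
  intro P _
  rw [map_zsmul, smul_eq_mul, abs_mul]
  exact mul_le_mul_of_nonneg_left (hC P) (abs_nonneg _)

/-- For an effective divisor all of whose places have degree one, `Σ |E P| = deg E`. -/
theorem FA_S37_GEN_sum_abs_eq_degree (hdeg : ∀ P : Place K F, P.deg = 1) (E : Divisor K F)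
    (hE : ∀ P, 0 ≤ E P) : (∑ P ∈ E.support, |E P|) = Divisor.degree E := by
  classical
  have h1 : Divisor.degree E = ∑ P ∈ E.support, E P := by
    conv_lhs => rw [← Finsupp.sum_single E]
    rw [Finsupp.sum, map_sum]
    refine Finset.sum_congr rfl fun P _ => ?_
    rw [Divisor.degree_single, hdeg P, Nat.cast_one, mul_one]
  rw [h1]
  refine Finset.sum_congr rfl fun P _ => ?_
  exact abs_of_nonneg (hE P)

end Effective

section Corr

variable {K F F' : Type*} [Field K] [Field F] [Field F'] [Algebra K F] [Algebra K F']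
  [IsAlgClosed K] [CharZero K]

/-- The correspondence `T = ψ_* φ^*` maps effective divisors to effective divisors. -/
theorem FA_S37_GEN_correspondence_nonneg [HasPrincipalDivisors K F'] (φ ψ : F →ₐ[K] F')
    (hφ : φ.toRingHom.IsIntegral) (hψ : ψ.toRingHom.IsIntegral)
    (E : Divisor K F) (hE : ∀ P, 0 ≤ E P) (P : Place K F) :
    0 ≤ Divisor.correspondence φ ψ hφ hψ E P := by
  classical
  rw [Divisor.correspondence_apply]
  have h1 : ∀ W, 0 ≤ Divisor.pullbackAlong φ hφ E W := by
    intro W
    rw [Divisor.pullbackAlong_apply]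
    exact mul_nonneg (Int.natCast_nonneg _) (hE _)
  letI := algebraAlong ψ
  haveI := isScalarTower_along ψ
  haveI := isIntegral_along ψ hψ
  show 0 ≤ Divisor.pushforward F (Divisor.pullbackAlong φ hφ E) P
  rw [Divisor.pushforward_apply]
  apply Finset.sum_nonneg
  intro W _
  split_ifs
  · exact mul_nonneg (h1 W) (Int.natCast_nonneg _)
  · exact le_refl _

/-- **BND for `ρ ∘ T`**: if `|ρ [P] (Q)| ≤ C` for all `P`, then
`|ρ (T [P]) (Q)| ≤ [F' : φ F] · C` for the correspondence `T = ψ_* φ^*`. -/
theorem FA_S37_GEN_bound_correspondence (hF : FA_RR_IsFF K F) (hF' : FA_RR_IsFF K F')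
    [HasPrincipalDivisors K F'] (φ ψ : F →ₐ[K] F')
    (hφ : φ.toRingHom.IsIntegral) (hψ : ψ.toRingHom.IsIntegral)
    {β : Type*} (ρ : Divisor K F →+ (β →₀ ℤ)) (C : ℤ)
    (hC : ∀ (P : Place K F) (Q : β), |ρ (Finsupp.single P 1) Q| ≤ C)
    (P : Place K F) (Q : β) :
    |ρ (Divisor.correspondence φ ψ hφ hψ (Finsupp.single P 1)) Q|
      ≤ (finrankAlong K φ : ℤ) * C := by
  classical
  have hFI : FundamentalIdentityAlong K φ hφ := by
    letI := algebraAlong φ
    haveI := isScalarTower_along φ
    haveI := isIntegral_along φ hφ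
    exact FA_S37_HI_fundamentalIdentity hF hF'
  set E := Divisor.correspondence φ ψ hφ hψ (Finsupp.single P 1) with hEdef
  have hE0 : ∀ P', 0 ≤ E P' := by
    intro P'
    refine FA_S37_GEN_correspondence_nonneg φ ψ hφ hψ _ ?_ P'
    intro P''
    rw [Finsupp.single_apply]
    split_ifs
    · exact zero_le_one
    · exact le_refl _
  have hdeg : Divisor.degree E = (finrankAlong K φ : ℤ) := by
    rw [hEdef, Divisor.degree_correspondence φ ψ hφ hψ hFI, Divisor.degree_single,
      deg_eq_one hF P, Nat.cast_one, mul_one, mul_one]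
  have h1 := FA_S37_GEN_abs_le_sum ((Finsupp.applyAddHom Q).comp ρ) C (fun P' => hC P' Q) E
  rw [FA_S37_GEN_sum_abs_eq_degree (deg_eq_one hF) E hE0, hdeg] at h1
  exact h1

end Corr

end Fermat.Agent.S37
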