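import Fermat.Agent.S37.RedCore

/-!
# S37, leaf A1 (core, part 2): existence and uniqueness of the centre

* `FA_S37_RED_centre_unique` : a prime of `B` has at most one centre.
* `FA_S37_RED_exists_centre` : a prime of `B` at which all elements of `B ∩ O` take values in `A`
  has a centre.
-/

set_option autoImplicit false
set_option linter.unusedSectionVars false
set_option linter.unusedVariables false

noncomputable section

open IsDedekindDomain IsDedekindDomain.HeightOneSpectrum WithZero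

namespace Fermat.Agent.S37

variable {K₀ k F Fb : Type*} [Field K₀] [Field k] [Field F] [Field Fb]
  [Algebra K₀ F] [Algebra k Fb]
variable {A : ValuationSubring K₀} {π : A →+* k} {O : ValuationSubring F} {red : O →+* Fb}
variable {B : Type*} [CommRing B] [IsDedekindDomain B] [Algebra B F] [IsFractionRing B F]
  [Algebra K₀ B] [IsScalarTower K₀ B F]
variable {Bb : Type*} [CommRing Bb] [IsDedekindDomain Bb] [Algebra Bb Fb] [IsFractionRing Bb Fb]
  [Algebra k Bb] [IsScalarTower k Bb Fb]

variable (H : FA_S37_RED_Hyp A π O red B Bb)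
include H

/-- A constant in a prime of `Bb` is zero. -/
theorem FA_S37_RED_const_mem (Q : HeightOneSpectrum Bb) (c : k)
    (h : algebraMap k Bb c ∈ Q.asIdeal) : c = 0 := by
  by_contra hne
  have hu : IsUnit (algebraMap k Bb c) := (IsUnit.mk0 _ hne).map _
  exact Q.isPrime.ne_top (Ideal.eq_top_of_isUnit_mem _ h hu)

/-- **Uniqueness of the centre.** -/
theorem FA_S37_RED_centre_unique {P : HeightOneSpectrum B} {Q Q' : HeightOneSpectrum Bb}
    (hc : FA_S37_RED_Centre O red B Bb P Q) (hc' : FA_S37_RED_Centre O red B Bb P Q') :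
    Q = Q' := by
  have key : ∀ {Q₁ Q₂ : HeightOneSpectrum Bb}, FA_S37_RED_Centre O red B Bb P Q₁ →
      FA_S37_RED_Centre O red B Bb P Q₂ → Q₁.asIdeal ≤ Q₂.asIdeal := by
    intro Q₁ Q₂ h₁ h₂ z hz
    obtain ⟨b, hb, hred⟩ := H.lift z
    obtain ⟨c, hcP⟩ := H.resB P b
    have hcA : c ∈ A := FA_S37_RED_value_mem H h₁ b hb c hcP
    have e₁ := FA_S37_RED_value_pi H h₁ b hb ⟨c, hcA⟩ hcP z hred.symm
    have e₂ := FA_S37_RED_value_pi H h₂ b hb ⟨c, hcA⟩ hcP z hred.symm
    have h3 : algebraMap k Bb (π ⟨c, hcA⟩) ∈ Q₁.asIdeal := by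
      have := Q₁.asIdeal.sub_mem hz e₁
      simpa using this
    have h4 := FA_S37_RED_const_mem H Q₁ _ h3
    rw [h4, map_zero, sub_zero] at e₂
    exact e₂
  apply HeightOneSpectrum.ext
  exact le_antisymm (key hc hc') (key hc' hc)

/-- **Existence of the centre** at an integral prime. -/
theorem FA_S37_RED_exists_centre
    (hker : ∀ f : O, red f = 0 → ∃ (ε : A) (g : O), π ε = 0 ∧
      (f : F) = algebraMap K₀ F (ε : K₀) * (g : F))
    (hnf : ¬ IsField Bb) (P : HeightOneSpectrum B)
    (hint : ∀ (b : B), algebraMap B F b ∈ O → ∀ c : K₀, b - algebraMap K₀ B c ∈ P.asIdeal →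
      c ∈ A) :
    ∃ Q : HeightOneSpectrum Bb, FA_S37_RED_Centre O red B Bb P Q := by
  classical
  have hinjB : Function.Injective (algebraMap B F) := IsFractionRing.injective B F
  have hinjBb : Function.Injective (algebraMap Bb Fb) := IsFractionRing.injective Bb Fb
  -- elements of `B ∩ O` with zero reduction have values in the kernel of `π`
  have hval0 : ∀ (b : B) (hb : algebraMap B F b ∈ O), red ⟨_, hb⟩ = 0 → ∀ c : K₀,
      b - algebraMap K₀ B c ∈ P.asIdeal → ∃ hc : c ∈ A, π ⟨c, hc⟩ = 0 := by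
    intro b hb hred c hcP
    obtain ⟨ε, g, hε, hfg⟩ := hker ⟨_, hb⟩ hred
    by_cases hε0 : (ε : K₀) = 0
    · -- `b = 0`
      have hb0 : b = 0 := by
        apply hinjB
        rw [map_zero]
        have : algebraMap B F b = algebraMap K₀ F (ε : K₀) * (g : F) := hfg
        rw [this, hε0, map_zero, zero_mul]
      rw [hb0, zero_sub, neg_mem_iff] at hcP
      have hc0 : c = 0 := by
        by_contra hne
        have hu : IsUnit (algebraMap K₀ B c) := (IsUnit.mk0 _ hne).map _
        exact P.isPrime.ne_top (Ideal.eq_top_of_isUnit_mem _ hcP hu)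
      subst hc0
      refine ⟨A.zero_mem, ?_⟩
      exact map_zero π
    · -- `g = ε⁻¹ b ∈ B ∩ O`
      have hgB : algebraMap B F (algebraMap K₀ B (ε : K₀)⁻¹ * b) = (g : F) := by
        have : algebraMap B F b = algebraMap K₀ F (ε : K₀) * (g : F) := hfg
        rw [map_mul, ← IsScalarTower.algebraMap_apply, this, ← mul_assoc, ← map_mul,
          inv_mul_cancel₀ hε0, map_one, one_mul]
      have hgO : algebraMap B F (algebraMap K₀ B (ε : K₀)⁻¹ * b) ∈ O := by
        rw [hgB]
        exact g.2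
      have hgP : algebraMap K₀ B (ε : K₀)⁻¹ * b - algebraMap K₀ B ((ε : K₀)⁻¹ * c)
          ∈ P.asIdeal := by
        rw [map_mul, ← mul_sub]
        exact P.asIdeal.mul_mem_left _ hcP
      have hgA := hint _ hgO _ hgP
      have hcε : c = (ε : K₀) * ((ε : K₀)⁻¹ * c) := by
        rw [← mul_assoc, mul_inv_cancel₀ hε0, one_mul]
      have hcA : c ∈ A := by
        rw [hcε]
        exact A.mul_mem _ _ ε.2 hgA
      refine ⟨hcA, ?_⟩
      have : (⟨c, hcA⟩ : A) = ε * ⟨_, hgA⟩ := Subtype.ext hcε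
      rw [this, map_mul, hε, zero_mul]
  -- the ideal `red (P ∩ O)`
  let I : Ideal Bb :=
    { carrier := {z | ∃ (b : B) (hb : algebraMap B F b ∈ O), b ∈ P.asIdeal ∧
        red ⟨_, hb⟩ = algebraMap Bb Fb z}
      add_mem' := by
        rintro z z' ⟨b, hb, hbP, hz⟩ ⟨b', hb', hbP', hz'⟩
        refine ⟨b + b', by rw [map_add]; exact add_mem hb hb', P.asIdeal.add_mem hbP hbP', ?_⟩
        have e : (⟨algebraMap B F (b + b'), by rw [map_add]; exact add_mem hb hb'⟩ : O)
            = ⟨_, hb⟩ + ⟨_, hb'⟩ := Subtype.ext (map_add _ _ _)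
        rw [e, map_add, map_add, hz, hz']
      zero_mem' := by
        refine ⟨0, by rw [map_zero]; exact O.zero_mem, P.asIdeal.zero_mem, ?_⟩
        have e : (⟨algebraMap B F 0, by rw [map_zero]; exact O.zero_mem⟩ : O) = 0 :=
          Subtype.ext (map_zero _)
        rw [e, map_zero, map_zero]
      smul_mem' := by
        rintro c z ⟨b, hb, hbP, hz⟩
        obtain ⟨b', hb', hred'⟩ := H.lift c
        refine ⟨b' * b, by rw [map_mul]; exact O.mul_mem _ _ hb' hb,
          P.asIdeal.mul_mem_left _ hbP, ?_⟩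
        have e : (⟨algebraMap B F (b' * b), by rw [map_mul]; exact O.mul_mem _ _ hb' hb⟩ : O)
            = ⟨_, hb'⟩ * ⟨_, hb⟩ := Subtype.ext (map_mul _ _ _)
        rw [e, map_mul, hred', hz, smul_eq_mul, map_mul] }
  have hI : I ≠ ⊤ := by
    intro htop
    have h1 : (1 : Bb) ∈ I := by rw [htop]; exact Submodule.mem_top
    obtain ⟨b, hb, hbP, hz⟩ := h1
    rw [map_one] at hz
    -- `b - 1` has zero reduction and value `-1`
    have hb1 : algebraMap B F (b - 1) ∈ O := by
      rw [map_sub, map_one]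
      exact sub_mem hb O.one_mem
    have hred1 : red ⟨_, hb1⟩ = 0 := by
      have e : (⟨_, hb1⟩ : O) = ⟨_, hb⟩ - 1 := Subtype.ext (by simp)
      rw [e, map_sub, map_one, hz, sub_self]
    have hP1 : b - 1 - algebraMap K₀ B (-1) ∈ P.asIdeal := by
      have : b - 1 - algebraMap K₀ B (-1) = b := by rw [map_neg, map_one]; ring
      rw [this]
      exact hbP
    obtain ⟨hc, hπ⟩ := hval0 (b - 1) hb1 hred1 (-1) hP1
    have e : (⟨-1, hc⟩ : A) = -1 := rfl
    rw [e, map_neg, map_one] at hπ
    exact one_ne_zero (neg_eq_zero.mp hπ)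
  obtain ⟨M, hM, hIM⟩ := Ideal.exists_le_maximal I hI
  have hM0 : M ≠ ⊥ := Ring.ne_bot_of_isMaximal_of_not_isField hM hnf
  refine ⟨⟨M, hM.isPrime, hM0⟩, ?_⟩
  intro b hb z hbP hz
  exact hIM ⟨b, hb, hbP, hz.symm⟩

end Fermat.Agent.S37

end
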