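import Mathlib

/-!
# S37 leaf A1b: LEMMA SN (soft normality from `p`-th roots), Mathlib only

`k` algebraically closed, `Fb ⊇ k` a field, `p` a prime invertible in `k`, `Bb` a `k`-subalgebra of
`Fb`, `u ∈ Bb`.  If `Bb` is closed under `p`-th roots and every element integral over `k[u]` lies in
`Bb` after multiplication by a power of `u`, then `Bb` contains the integral closure of `k[u]`.
-/

set_option autoImplicit false

open Polynomial

namespace FA_S37_SN

variable {k Fb : Type*} [Field k] [Field Fb] [Algebra k Fb]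

theorem adjoin_le_of_mem (Bb : Subalgebra k Fb) (u : Fb) (hu : u ∈ Bb) :
    Algebra.adjoin k {u} ≤ Bb :=
  Algebra.adjoin_le (Set.singleton_subset_iff.mpr hu)

/-- Closure under `p`-th roots gives closure under `p^s`-th roots. -/
theorem root_pow (p : ℕ) (Bb : Subalgebra k Fb) (hroot : ∀ t : Fb, t ^ p ∈ Bb → t ∈ Bb) :
    ∀ (s : ℕ) (t : Fb), t ^ (p ^ s) ∈ Bb → t ∈ Bb := by
  intro s
  induction s with
  | zero =>
    intro t ht
    simpa using ht
  | succ s ih =>
    intro t ht
    apply ih
    apply hroot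
    rw [← pow_mul, ← pow_succ]
    exact ht

/-- A uniform power of `u` clears denominators on `k[u][w, z]`. -/
theorem unif (Bb : Subalgebra k Fb) (u : Fb) (hu : u ∈ Bb)
    (hloc : ∀ z : Fb, IsIntegral (Algebra.adjoin k {u}) z → ∃ m : ℕ, u ^ m * z ∈ Bb)
    (w z : Fb) (hw : IsIntegral (Algebra.adjoin k {u}) w)
    (hz : IsIntegral (Algebra.adjoin k {u}) z) :
    ∃ m : ℕ, ∀ y ∈ Algebra.adjoin (Algebra.adjoin k {u}) {w, z}, u ^ m * y ∈ Bb := by
  classical
  have hR : Algebra.adjoin k {u} ≤ Bb := adjoin_le_of_mem Bb u hu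
  have hfg : (Algebra.adjoin (Algebra.adjoin k {u}) {w, z}).toSubmodule.FG :=
    fg_adjoin_of_finite (Set.toFinite _) (by
      intro x hx
      rcases hx with rfl | rfl
      · exact hw
      · exact hz)
  obtain ⟨T, hT⟩ := hfg
  have hTint : ∀ t ∈ T, IsIntegral (Algebra.adjoin k {u}) t := by
    intro t ht
    refine IsIntegral.of_mem_of_fg _ ⟨T, hT⟩ t ?_
    have : t ∈ Submodule.span (Algebra.adjoin k {u}) (T : Set Fb) := Submodule.subset_span ht
    rw [hT] at this
    exact this
  let f : Fb → ℕ := fun t =>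
    if h : IsIntegral (Algebra.adjoin k {u}) t then (hloc t h).choose else 0
  have hf : ∀ t ∈ T, u ^ f t * t ∈ Bb := by
    intro t ht
    simp only [f, dif_pos (hTint t ht)]
    exact (hloc t (hTint t ht)).choose_spec
  have key : ∀ y ∈ Submodule.span (Algebra.adjoin k {u}) (T : Set Fb),
      u ^ T.sup f * y ∈ Bb := by
    intro y hy'
    induction hy' using Submodule.span_induction with
    | mem t ht =>
      have hle : f t ≤ T.sup f := Finset.le_sup ht
      obtain ⟨d, hd⟩ := Nat.exists_eq_add_of_le hle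
      rw [hd, pow_add, mul_comm (u ^ f t), mul_assoc]
      exact Bb.mul_mem (Bb.pow_mem hu d) (hf t ht)
    | zero =>
      rw [mul_zero]
      exact Bb.zero_mem
    | add a b _ _ ha hb =>
      rw [mul_add]
      exact Bb.add_mem ha hb
    | smul c a _ ha =>
      have : u ^ T.sup f * (c • a) = (c : Fb) * (u ^ T.sup f * a) := by
        rw [Algebra.smul_def]
        show u ^ T.sup f * ((c : Fb) * a) = _
        ring
      rw [this]
      exact Bb.mul_mem (hR c.2) ha
  refine ⟨T.sup f, ?_⟩
  intro y hy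
  apply key
  rw [hT]
  exact hy

/-- Elements of the "radical of `u`" lie in `Bb`. -/
theorem mem_of_pow_eq (p : ℕ) (hp : 1 < p) (Bb : Subalgebra k Fb) (u : Fb) (hu : u ∈ Bb)
    (hroot : ∀ t : Fb, t ^ p ∈ Bb → t ∈ Bb)
    (hloc : ∀ z : Fb, IsIntegral (Algebra.adjoin k {u}) z → ∃ m : ℕ, u ^ m * z ∈ Bb)
    (z w : Fb) (hz : IsIntegral (Algebra.adjoin k {u}) z)
    (hw : IsIntegral (Algebra.adjoin k {u}) w) (e : ℕ) (he : 0 < e) (h : z ^ e = u * w) :
    z ∈ Bb := by
  obtain ⟨m, hm⟩ := unif Bb u hu hloc w z hw hz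
  -- choose `s` with `e * (m + 1) ≤ p ^ s`
  have hs : e * (m + 1) < p ^ (e * (m + 1)) := Nat.lt_pow_self hp
  apply root_pow p Bb hroot (e * (m + 1))
  set N := p ^ (e * (m + 1)) with hN
  have hdiv : N = e * (N / e) + N % e := (Nat.div_add_mod N e).symm
  have hq : m ≤ N / e := by
    have h1 : m + 1 ≤ N / e := by
      rw [Nat.le_div_iff_mul_le he]
      rw [mul_comm]
      exact hs.le
    omega
  obtain ⟨d, hd⟩ := Nat.exists_eq_add_of_le hq
  generalize N / e = q at hdiv hd
  generalize N % e = r at hdiv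
  subst hd
  have hmem : w ^ (m + d) * z ^ r ∈ Algebra.adjoin (Algebra.adjoin k {u}) {w, z} := by
    apply Subalgebra.mul_mem
    · exact Subalgebra.pow_mem _ (Algebra.subset_adjoin (by simp)) _
    · exact Subalgebra.pow_mem _ (Algebra.subset_adjoin (by simp)) _
  have hkey : z ^ N = u ^ d * (u ^ m * (w ^ (m + d) * z ^ r)) := by
    rw [hdiv, pow_add, pow_mul, h, mul_pow]
    ring
  rw [hkey]
  exact Bb.mul_mem (Bb.pow_mem hu d) (hm _ hmem)

/-- Polynomial expressions in an integral element with coefficients in `k` are integral. -/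
theorem isIntegral_aeval (u z : Fb) (hz : IsIntegral (Algebra.adjoin k {u}) z) (f : k[X]) :
    IsIntegral (Algebra.adjoin k {u}) (aeval z f) := by
  have h1 : aeval z f ∈ Algebra.adjoin k {z} := Polynomial.aeval_mem_adjoin_singleton k z
  have h2 : Algebra.adjoin k {z} ≤
      (integralClosure (Algebra.adjoin k {u}) Fb).restrictScalars k := by
    apply Algebra.adjoin_le
    intro x hx
    rw [Set.mem_singleton_iff] at hx
    subst hx
    exact hz
  exact h2 h1

/-- Elements of `k[u]` are integral over `k[u]`. -/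
theorem isIntegral_aeval_u (u : Fb) (f : k[X]) :
    IsIntegral (Algebra.adjoin k {u}) (aeval u f) := by
  have h1 : aeval u f ∈ Algebra.adjoin k {u} := Polynomial.aeval_mem_adjoin_singleton k u
  exact isIntegral_algebraMap (R := Algebra.adjoin k {u}) (x := ⟨aeval u f, h1⟩)

/-- A lifted integral equation: a monic polynomial over `k[X]` killing `z` along `X ↦ u`. -/
theorem exists_monic_lift (u z : Fb) (hz : IsIntegral (Algebra.adjoin k {u}) z) :
    ∃ q : Polynomial (Polynomial k), q.Monic ∧
      Polynomial.eval₂ ((Polynomial.aeval u : k[X] →ₐ[k] Fb) : k[X] →+* Fb) z q = 0 := by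
  obtain ⟨P, hPm, hP⟩ := hz
  let u' : Algebra.adjoin k {u} := ⟨u, Algebra.self_mem_adjoin_singleton k u⟩
  let φ : k[X] →+* Algebra.adjoin k {u} := ((Polynomial.aeval u' : k[X] →ₐ[k] _) : k[X] →+* _)
  have hφ : Function.Surjective φ := by
    intro c
    have hc : (c : Fb) ∈ (Polynomial.aeval u : k[X] →ₐ[k] Fb).range := by
      rw [← Algebra.adjoin_singleton_eq_range_aeval]
      exact c.2
    obtain ⟨f, hf⟩ := hc
    refine ⟨f, Subtype.ext ?_⟩
    show ((Polynomial.aeval u' f : Algebra.adjoin k {u}) : Fb) = c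
    rw [Polynomial.aeval_subalgebra_coe]
    exact hf
  have hlift : P ∈ Polynomial.lifts φ := by
    obtain ⟨q, hq⟩ := Polynomial.map_surjective φ hφ P
    exact (Polynomial.mem_lifts P).mpr ⟨q, hq⟩
  obtain ⟨q, hq, -, hqm⟩ := Polynomial.lifts_and_natDegree_eq_and_monic hlift hPm
  refine ⟨q, hqm, ?_⟩
  have hcomp : ((Polynomial.aeval u : k[X] →ₐ[k] Fb) : k[X] →+* Fb) =
      (algebraMap (Algebra.adjoin k {u}) Fb).comp φ := by
    ext f
    · simp [φ]
    · simp [φ, u']
  rw [hcomp, ← Polynomial.eval₂_map, hq]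
  exact hP

/-- Reduction of the integral equation at `u = 0`: `G(z) = u * w` with `w` integral. -/
theorem exists_reduced_equation (u z : Fb) (hz : IsIntegral (Algebra.adjoin k {u}) z) :
    ∃ G : k[X], G.Monic ∧ ∃ w : Fb, IsIntegral (Algebra.adjoin k {u}) w ∧ aeval z G = u * w := by
  obtain ⟨q, hqm, hq⟩ := exists_monic_lift u z hz
  refine ⟨q.map Polynomial.constantCoeff, hqm.map _, ?_⟩
  set ψ : k[X] →+* Fb := ((Polynomial.aeval u : k[X] →ₐ[k] Fb) : k[X] →+* Fb) with hψ
  refine ⟨-∑ i ∈ Finset.range (q.natDegree + 1), ψ (Polynomial.divX (q.coeff i)) * z ^ i, ?_, ?_⟩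
  · apply IsIntegral.neg
    apply IsIntegral.sum
    intro i _
    apply IsIntegral.mul
    · exact isIntegral_aeval_u u _
    · exact hz.pow i
  · have hdeg : (q.map Polynomial.constantCoeff).natDegree < q.natDegree + 1 :=
      Nat.lt_succ_of_le (Polynomial.natDegree_map_le)
    have h1 : aeval z (q.map Polynomial.constantCoeff) =
        ∑ i ∈ Finset.range (q.natDegree + 1),
          algebraMap k Fb ((q.coeff i).coeff 0) * z ^ i := by
      rw [Polynomial.aeval_def, Polynomial.eval₂_eq_sum_range' _ hdeg]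
      apply Finset.sum_congr rfl
      intro i _
      rw [Polynomial.coeff_map]
      rfl
    have h2 : ∑ i ∈ Finset.range (q.natDegree + 1), ψ (q.coeff i) * z ^ i = 0 := by
      rw [← Polynomial.eval₂_eq_sum_range]
      exact hq
    have h3 : ∀ c : k[X], ψ c = u * ψ (Polynomial.divX c) + algebraMap k Fb (c.coeff 0) := by
      intro c
      conv_lhs => rw [← Polynomial.X_mul_divX_add c]
      rw [map_add, map_mul]
      simp [hψ]
    rw [h1, mul_neg, Finset.mul_sum, eq_neg_iff_add_eq_zero, ← Finset.sum_add_distrib, ← h2]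
    apply Finset.sum_congr rfl
    intro i _
    rw [h3 (q.coeff i)]
    ring

/-- A monic split polynomial divides a power of its radical. -/
theorem dvd_nodal_pow [IsAlgClosed k] [DecidableEq k] (G : k[X]) (hG : G.Monic) :
    G ∣ (∏ a ∈ G.roots.toFinset, (X - C a)) ^ (Multiset.card G.roots + 1) := by
  have h1 : G = (G.roots.map (X - C ·)).prod :=
    (IsAlgClosed.splits G).eq_prod_roots_of_monic hG
  have h2 : (G.roots.map (X - C ·)).prod =
      ∏ a ∈ G.roots.toFinset, (X - C a) ^ (G.roots.count a) :=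
    Finset.prod_multiset_map_count G.roots (fun a => X - C a)
  rw [← Finset.prod_pow]
  conv_lhs => rw [h1, h2]
  apply Finset.prod_dvd_prod_of_dvd
  intro a _
  apply pow_dvd_pow
  exact (Multiset.count_le_card a G.roots).trans (Nat.le_succ _)

/-- A polynomial vanishing on a finite set is divisible by the nodal polynomial. -/
theorem nodal_dvd (S : Finset k) (f : k[X]) (hf : ∀ a ∈ S, f.eval a = 0) :
    (∏ a ∈ S, (X - C a)) ∣ f := by
  apply Finset.prod_dvd_of_coprime
  · intro a _ b _ hab
    exact Polynomial.pairwise_coprime_X_sub_C (s := (id : k → k)) Function.injective_id hab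
  · intro a ha
    exact Polynomial.dvd_iff_isRoot.mpr (hf a ha)

/-- **LEMMA SN** (soft normality from `p`-th roots). -/
theorem main [IsAlgClosed k] (p : ℕ) (hp : p.Prime) (hpk : (p : k) ≠ 0)
    (Bb : Subalgebra k Fb) (u : Fb) (hu : u ∈ Bb)
    (hroot : ∀ t : Fb, t ^ p ∈ Bb → t ∈ Bb)
    (hloc : ∀ z : Fb, IsIntegral (Algebra.adjoin k {u}) z → ∃ m : ℕ, u ^ m * z ∈ Bb)
    (z : Fb) (hz : IsIntegral (Algebra.adjoin k {u}) z) : z ∈ Bb := by
  classical
  obtain ⟨G, hGm, w, hw, hGz⟩ := exists_reduced_equation u z hz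
  set S : Finset k := G.roots.toFinset with hS
  set g : k[X] := ∏ a ∈ S, (X - C a) with hg
  set e : ℕ := Multiset.card G.roots + 1 with he
  obtain ⟨h, hh⟩ : G ∣ g ^ e := dvd_nodal_pow G hGm
  -- Lemma A: every multiple of `g`, evaluated at `z`, lies in `Bb`
  have hA : ∀ c : k[X], aeval z (g * c) ∈ Bb := by
    intro c
    refine mem_of_pow_eq p hp.one_lt Bb u hu hroot hloc (aeval z (g * c))
      (w * aeval z (h * c ^ e)) (isIntegral_aeval u z hz _)
      (hw.mul (isIntegral_aeval u z hz _)) e (Nat.succ_pos _) ?_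
    rw [← map_pow, mul_pow, hh, mul_assoc, map_mul, hGz, mul_assoc]
  have hB : ∀ f : k[X], (∀ a ∈ S, f.eval a = 0) → aeval z f ∈ Bb := by
    intro f hf
    obtain ⟨c, rfl⟩ := nodal_dvd S f hf
    exact hA c
  -- a primitive `p`-th root of unity
  have : NeZero (p : k) := ⟨hpk⟩
  obtain ⟨ζ, hζ⟩ := HasEnoughRootsOfUnity.exists_primitiveRoot k p
  have hζ1 : ζ - 1 ≠ 0 := sub_ne_zero.mpr (hζ.ne_one hp.one_lt)
  have hζp : ζ ^ p = 1 := hζ.pow_eq_one
  -- the Lagrange idempotents lie in `Bb`
  have hinj : Set.InjOn (id : k → k) S := Function.injective_id.injOn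
  have hL : ∀ a ∈ S, aeval z (Lagrange.basis S id a) ∈ Bb := by
    intro a ha
    have hvan : ∀ b ∈ S, ((1 + C (ζ - 1) * Lagrange.basis S id a) ^ p - 1).eval b = 0 := by
      intro b hb
      by_cases hab : a = b
      · subst hab
        have := Lagrange.eval_basis_self hinj ha
        simp only [id] at this
        simp [this, hζp]
      · have := Lagrange.eval_basis_of_ne (v := id) hab hb
        simp only [id] at this
        simp [this]
    have h1 := hB _ hvan
    have h2 : (1 + algebraMap k Fb (ζ - 1) * aeval z (Lagrange.basis S id a)) ^ p ∈ Bb := by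
      have : (1 + algebraMap k Fb (ζ - 1) * aeval z (Lagrange.basis S id a)) ^ p =
          aeval z ((1 + C (ζ - 1) * Lagrange.basis S id a) ^ p - 1) + 1 := by
        simp [Polynomial.aeval_C]
      rw [this]
      exact Bb.add_mem h1 Bb.one_mem
    have h3 := hroot _ h2
    have h4 : algebraMap k Fb (ζ - 1) * aeval z (Lagrange.basis S id a) ∈ Bb := by
      have := Bb.sub_mem h3 Bb.one_mem
      simpa using this
    have h5 : aeval z (Lagrange.basis S id a) =
        algebraMap k Fb (ζ - 1)⁻¹ * (algebraMap k Fb (ζ - 1) * aeval z (Lagrange.basis S id a)) := by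
      rw [← mul_assoc, ← map_mul, inv_mul_cancel₀ hζ1, map_one, one_mul]
    rw [h5]
    exact Bb.mul_mem (Bb.algebraMap_mem _) h4
  -- `z - Σ a ε_a` lies in `Bb`
  have hD : aeval z (X - ∑ a ∈ S, C a * Lagrange.basis S id a) ∈ Bb := by
    apply hB
    intro b hb
    rw [Polynomial.eval_sub, Polynomial.eval_X, Polynomial.eval_finsetSum,
      Finset.sum_eq_single b]
    · have := Lagrange.eval_basis_self hinj hb
      simp only [id] at this
      simp [this]
    · intro a _ hab
      have := Lagrange.eval_basis_of_ne (v := id) hab hb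
      simp only [id] at this
      simp [this]
    · intro hb'
      exact absurd hb hb'
  have hsum : ∑ a ∈ S, algebraMap k Fb a * aeval z (Lagrange.basis S id a) ∈ Bb :=
    Bb.sum_mem fun a ha => Bb.mul_mem (Bb.algebraMap_mem _) (hL a ha)
  have hz' : z = aeval z (X - ∑ a ∈ S, C a * Lagrange.basis S id a) +
      ∑ a ∈ S, algebraMap k Fb a * aeval z (Lagrange.basis S id a) := by
    simp [Polynomial.aeval_C]
  rw [hz']
  exact Bb.add_mem hD hsum

end FA_S37_SN
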