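import Mathlib
import Fermat.Agent.S37.SoftNormal

/-!
# S37 leaf A1d (abstract part): normality of the chart at infinity from the finite chart + SN

`k` algebraically closed, `Fb ⊇ k` a field, `jb ∈ Fb` nonzero, `Bf`, `Bi` two `k`-subalgebras
(`Bf` = reduced finite chart, `Bi` = reduced chart at infinity).  If `Bf` contains the integral
closure of `k[jb]`, every element of `Bf` lies in `Bi` after multiplication by a power of `jb⁻¹`,
and `Bi` is closed under `p`-th roots, then `Bi` contains the integral closure of `k[jb⁻¹]`.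
-/

set_option autoImplicit false

open Polynomial

namespace FA_S37_RCA

variable {k Fb : Type*} [Field k] [Field Fb] [Algebra k Fb]

/-- `c(1/j) · j^E ∈ k[j]` when `deg c ≤ E`. -/
theorem aeval_inv_mul_pow_mem (jb : Fb) (hjb : jb ≠ 0) (c : k[X]) (E : ℕ)
    (hE : c.natDegree ≤ E) : aeval jb⁻¹ c * jb ^ E ∈ Algebra.adjoin k {jb} := by
  rw [Polynomial.aeval_eq_sum_range, Finset.sum_mul]
  apply Subalgebra.sum_mem
  intro t ht
  have htE : t ≤ E := (Nat.lt_succ_iff.mp (Finset.mem_range.mp ht)).trans hE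
  obtain ⟨r, hr⟩ := Nat.exists_eq_add_of_le htE
  have : c.coeff t • jb⁻¹ ^ t * jb ^ E = algebraMap k Fb (c.coeff t) * jb ^ r := by
    rw [Algebra.smul_def, hr, pow_add, mul_assoc, ← mul_assoc (jb⁻¹ ^ t), ← mul_pow,
      inv_mul_cancel₀ hjb, one_pow, one_mul]
  rw [this]
  exact Subalgebra.mul_mem _ (Subalgebra.algebraMap_mem _ _)
    (Subalgebra.pow_mem _ (Algebra.self_mem_adjoin_singleton k jb) r)

/-- A root of a monic polynomial whose coefficients lie in a subalgebra is integral over it. -/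
theorem isIntegral_of_coeff_mem (R : Subalgebra k Fb) (P : Fb[X]) (hP : P.Monic)
    (hc : ∀ i, P.coeff i ∈ R) (y : Fb) (hy : P.eval y = 0) : IsIntegral R y := by
  have hl : P ∈ Polynomial.lifts (algebraMap R Fb) := by
    rw [Polynomial.lifts_iff_coeff_lifts]
    intro i
    exact ⟨⟨P.coeff i, hc i⟩, rfl⟩
  obtain ⟨Q, hQ, -, hQm⟩ := Polynomial.lifts_and_natDegree_eq_and_monic hl hP
  refine ⟨Q, hQm, ?_⟩
  rw [← Polynomial.eval_map, hQ]
  exact hy

/-- If `z` is integral over `k[1/j]` then `j^D z` is integral over `k[j]` for some `D`. -/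
theorem exists_pow_mul_isIntegral (jb : Fb) (hjb : jb ≠ 0) (z : Fb)
    (hz : IsIntegral (Algebra.adjoin k {jb⁻¹}) z) :
    ∃ D : ℕ, IsIntegral (Algebra.adjoin k {jb}) (jb ^ D * z) := by
  obtain ⟨q, hqm, hq⟩ := FA_S37_SN.exists_monic_lift jb⁻¹ z hz
  set ψ : k[X] →+* Fb := ((Polynomial.aeval jb⁻¹ : k[X] →ₐ[k] Fb) : k[X] →+* Fb) with hψ
  set D : ℕ := (Finset.range (q.natDegree + 1)).sup (fun i => (q.coeff i).natDegree) with hD
  refine ⟨D, ?_⟩
  have hpm : (q.map ψ).Monic := hqm.map ψ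
  have hdeg : (q.map ψ).natDegree = q.natDegree := hqm.natDegree_map ψ
  refine isIntegral_of_coeff_mem (Algebra.adjoin k {jb}) (Polynomial.scaleRoots (q.map ψ) (jb ^ D))
    ((Polynomial.monic_scaleRoots_iff _).mpr hpm) ?_ (jb ^ D * z) ?_
  · intro i
    rw [Polynomial.coeff_scaleRoots, hdeg, Polynomial.coeff_map]
    rcases lt_trichotomy i q.natDegree with hi | hi | hi
    · have h1 : (q.coeff i).natDegree ≤ D * (q.natDegree - i) := by
        have h2 : (q.coeff i).natDegree ≤ D :=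
          Finset.le_sup (f := fun i => (q.coeff i).natDegree)
            (Finset.mem_range.mpr (Nat.lt_succ_of_lt hi))
        have h3 : 1 ≤ q.natDegree - i := by omega
        calc (q.coeff i).natDegree ≤ D * 1 := by rw [mul_one]; exact h2
          _ ≤ D * (q.natDegree - i) := Nat.mul_le_mul_left D h3
      rw [← pow_mul]
      exact aeval_inv_mul_pow_mem jb hjb (q.coeff i) _ h1
    · subst hi
      have : q.coeff q.natDegree = 1 := hqm.coeff_natDegree
      rw [this, Nat.sub_self, pow_zero, map_one, mul_one]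
      exact Subalgebra.one_mem _
    · rw [Polynomial.coeff_eq_zero_of_natDegree_lt hi, map_zero, zero_mul]
      exact Subalgebra.zero_mem _
  · rw [Polynomial.scaleRoots_eval_mul, Polynomial.eval_map, hq, mul_zero]

/-- (loc) for the chart at infinity. -/
theorem loc_inf (jb : Fb) (hjb : jb ≠ 0) (Bf Bi : Subalgebra k Fb)
    (hub : jb⁻¹ ∈ Bi)
    (hfinN : ∀ z : Fb, IsIntegral (Algebra.adjoin k {jb}) z → z ∈ Bf)
    (htr : ∀ y ∈ Bf, ∃ m : ℕ, y * jb⁻¹ ^ m ∈ Bi)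
    (z : Fb) (hz : IsIntegral (Algebra.adjoin k {jb⁻¹}) z) :
    ∃ m : ℕ, jb⁻¹ ^ m * z ∈ Bi := by
  obtain ⟨D, hD⟩ := exists_pow_mul_isIntegral jb hjb z hz
  obtain ⟨m, hm⟩ := htr _ (hfinN _ hD)
  refine ⟨m, ?_⟩
  have h1 : jb⁻¹ ^ m * z = jb⁻¹ ^ D * (jb ^ D * z * jb⁻¹ ^ m) := by
    have : jb⁻¹ ^ D * jb ^ D = 1 := by
      rw [← mul_pow, inv_mul_cancel₀ hjb, one_pow]
    calc jb⁻¹ ^ m * z = (jb⁻¹ ^ D * jb ^ D) * (z * jb⁻¹ ^ m) := by rw [this, one_mul, mul_comm]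
      _ = jb⁻¹ ^ D * (jb ^ D * z * jb⁻¹ ^ m) := by ring
  rw [h1]
  exact Bi.mul_mem (Bi.pow_mem hub D) hm

/-- **A1d, abstract form**: the chart at infinity contains the integral closure of `k[1/j]`. -/
theorem normal_inf [IsAlgClosed k] (p : ℕ) (hp : p.Prime) (hpk : (p : k) ≠ 0)
    (jb : Fb) (hjb : jb ≠ 0) (Bf Bi : Subalgebra k Fb)
    (hub : jb⁻¹ ∈ Bi)
    (hfinN : ∀ z : Fb, IsIntegral (Algebra.adjoin k {jb}) z → z ∈ Bf)
    (htr : ∀ y ∈ Bf, ∃ m : ℕ, y * jb⁻¹ ^ m ∈ Bi)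
    (hroot : ∀ t : Fb, t ^ p ∈ Bi → t ∈ Bi)
    (z : Fb) (hz : IsIntegral (Algebra.adjoin k {jb⁻¹}) z) : z ∈ Bi :=
  FA_S37_SN.main p hp hpk Bi jb⁻¹ hub hroot
    (fun z hz => loc_inf jb hjb Bf Bi hub hfinN htr z hz) z hz

end FA_S37_RCA
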