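import Fermat.Agent.S37.RedCentre
import Fermat.Agent.Lib.RR.Chart

/-!
# S37, leaf A1/A2: the divisor formula on one chart, in terms of places

`FA_S37_RED_fibre` : let `r : Place K₀ F → Place k Fb` be any map whose fibre over the place of a
prime `Q` of the reduced chart `Bb` consists of the places of the primes of `B` centred at `Q`.
Then `Finsupp.mapDomain r (div y) Q = ord_Q (red y)` for all `y ∈ O` with `red y ≠ 0`.
-/

set_option autoImplicit false
set_option linter.unusedSectionVars false
set_option linter.unusedVariables false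

noncomputable section

open IsDedekindDomain IsDedekindDomain.HeightOneSpectrum WithZero AlgebraicCurve FA_RR

namespace Fermat.Agent.S37

/-- The coefficient of `Finsupp.mapDomain r D` at `b` is the sum of `D` over the fibre. -/
theorem FA_S37_RED_mapDomain_apply {α β : Type*} (r : α → β) (D : α →₀ ℤ) (b : β)
    [DecidablePred fun a => r a = b] :
    Finsupp.mapDomain r D b = ∑ a ∈ D.support.filter (fun a => r a = b), D a := by
  classical
  rw [Finsupp.mapDomain, Finsupp.sum_apply, Finsupp.sum, Finset.sum_filter]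
  refine Finset.sum_congr rfl fun a _ => ?_
  rw [Finsupp.single_apply]

/-- `log` of a product of nonzero elements. -/
theorem FA_S37_RED_log_prod {ι : Type*} (S : Finset ι) (f : ι → ℤᵐ⁰) (hf : ∀ i ∈ S, f i ≠ 0) :
    log (∏ i ∈ S, f i) = ∑ i ∈ S, log (f i) := by
  classical
  induction S using Finset.induction_on with
  | empty => simp
  | insert i S hi ih =>
    rw [Finset.prod_insert hi, Finset.sum_insert hi,
      log_mul (hf i (Finset.mem_insert_self i S))
        (Finset.prod_ne_zero_iff.mpr fun j hj => hf j (Finset.mem_insert_of_mem hj)),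
      ih fun j hj => hf j (Finset.mem_insert_of_mem hj)]

variable {K₀ k F Fb : Type*} [Field K₀] [Field k] [Field F] [Field Fb]
  [Algebra K₀ F] [Algebra k Fb]
variable {A : ValuationSubring K₀} {π : A →+* k} {O : ValuationSubring F} {red : O →+* Fb}
variable {B : Type*} [CommRing B] [IsDedekindDomain B] [Algebra B F] [IsFractionRing B F]
  [Algebra K₀ B] [IsScalarTower K₀ B F]
variable {Bb : Type*} [CommRing Bb] [IsDedekindDomain Bb] [Algebra Bb Fb] [IsFractionRing Bb Fb]
  [Algebra k Bb] [IsScalarTower k Bb Fb]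

/-- **The divisor formula on one chart.** -/
theorem FA_S37_RED_fibre (H : FA_S37_RED_Hyp A π O red B Bb)
    (hU : FA_S37_RED_Unif O red B Bb)
    (r : Place K₀ F → Place k Fb) (Q : HeightOneSpectrum Bb)
    (hfib : ∀ P : Place K₀ F, r P = Place.ofHeightOneSpectrum (K := k) (F := Fb) Q ↔
      ∃ w : HeightOneSpectrum B, Place.ofHeightOneSpectrum (K := K₀) (F := F) w = P ∧
        FA_S37_RED_Centre O red B Bb w Q)
    (y : F) (hy : y ∈ O) (hy0 : red ⟨y, hy⟩ ≠ 0)
    (D : Divisor K₀ F) (hD : ∀ P, D P = P.ord y) :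
    Finsupp.mapDomain r D (Place.ofHeightOneSpectrum (K := k) (F := Fb) Q)
      = (Place.ofHeightOneSpectrum (K := k) (F := Fb) Q).ord (red ⟨y, hy⟩) := by
  classical
  have hyne : y ≠ 0 := by
    rintro rfl
    exact hy0 (map_zero red)
  set Q₀ := Place.ofHeightOneSpectrum (K := k) (F := Fb) Q with hQ₀
  have hinj : Function.Injective (Place.ofHeightOneSpectrum (K := K₀) (F := F) (R := B)) :=
    ofHeightOneSpectrum_injective
  rw [FA_S37_RED_mapDomain_apply]
  set T := D.support.filter (fun P => r P = Q₀) with hT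
  set S : Finset (HeightOneSpectrum B) :=
    T.preimage (Place.ofHeightOneSpectrum (K := K₀) (F := F) (R := B)) hinj.injOn with hSdef
  have hsum : ∑ w ∈ S, D (Place.ofHeightOneSpectrum (K := K₀) (F := F) w) = ∑ P ∈ T, D P := by
    rw [hSdef]
    apply Finset.sum_preimage
    intro P hP hnr
    exfalso
    rw [hT, Finset.mem_filter] at hP
    obtain ⟨w, hw, -⟩ := (hfib P).1 hP.2
    exact hnr ⟨w, hw⟩
  rw [← hsum]
  have hSc : ∀ w ∈ S, FA_S37_RED_Centre O red B Bb w Q := by
    intro w hw
    rw [hSdef, Finset.mem_preimage, hT, Finset.mem_filter] at hw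
    obtain ⟨w', hw', hc⟩ := (hfib _).1 hw.2
    rw [hinj hw'] at hc
    exact hc
  have hvne : ∀ w : HeightOneSpectrum B, w.valuation F y ≠ 0 := fun w =>
    (Valuation.ne_zero_iff _).2 hyne
  have hS : ∀ w : HeightOneSpectrum B, FA_S37_RED_Centre O red B Bb w Q →
      w.valuation F y ≠ 1 → w ∈ S := by
    intro w hc hne
    rw [hSdef, Finset.mem_preimage, hT, Finset.mem_filter, Finsupp.mem_support_iff]
    refine ⟨?_, (hfib _).2 ⟨w, rfl, hc⟩⟩
    rw [hD, ord_ofHeightOneSpectrum]
    intro h0
    apply hne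
    rw [neg_eq_zero] at h0
    rw [← exp_log (hvne w), h0, exp_zero]
  have hmult := FA_S37_RED_mult H hU y hy hy0 Q S hSc hS
  rw [ord_ofHeightOneSpectrum, ← hmult, FA_S37_RED_log_prod S _ (fun w _ => hvne w),
    ← Finset.sum_neg_distrib]
  refine Finset.sum_congr rfl fun w _ => ?_
  rw [hD, ord_ofHeightOneSpectrum]

end Fermat.Agent.S37

end
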