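import Fermat.Agent.S37.RedCusp
import Fermat.Agent.S37.RedLift

/-!
# S37 leaves A1c + A1d combined: BOTH reduced charts are normal (lift form), unconditionally

Level `n` with `M ∣ n`, `M ∈ {4, 9}`, `ℓ ∤ n`, `2 ≤ n`:

* `FA_S37_RNO_fin` : `z` integral over `k[red j]`     ⟹ `z ∈ redAlg (Bf n)`  (= `FA_S37_RED_lift_fin`);
* `FA_S37_RNO_inf` : `z` integral over `k[red (j⁻¹)]` ⟹ `z ∈ redAlg (Bi n)`.
-/

set_option autoImplicit false
set_option linter.unusedSectionVars false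
set_option synthInstance.maxHeartbeats 400000
set_option maxHeartbeats 1000000

noncomputable section

namespace Fermat.Agent.S37

open ModularCurve FA_S18 Fermat.Agent.S18

variable (A : ValuationSubring (AlgebraicClosure ℚ)) (M n : ℕ) [NeZero M] [NeZero n]

/-- Normality (lift form) of the reduced finite chart. -/
theorem FA_S37_RNO_fin (hMn : M ∣ n) (h49 : M = 4 ∨ M = 9) {ℓ : ℕ} (hℓ : ℓ.Prime)
    (hA : A.LiesOverPrime ℓ) (hn : ¬ ℓ ∣ n) (h : FA_S18_I_Range A n)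
    (z : ↥(modularFunctionFieldFullC (IsLocalRing.ResidueField ↥A) n))
    (hz : IsIntegral (Algebra.adjoin (IsLocalRing.ResidueField ↥A)
      {FA_S18_I_red A n h (FA_S18_I_j A n)}) z) :
    z ∈ FA_S18_I_redAlg A n h (FA_S18_H2_Bf n) :=
  FA_S37_RED_lift_fin A M n hMn h49 hℓ hA hn h z hz

/-- Normality (lift form) of the reduced chart at infinity. -/
theorem FA_S37_RNO_inf (hMn : M ∣ n) (h49 : M = 4 ∨ M = 9) {ℓ : ℕ} (hℓ : ℓ.Prime)
    (hA : A.LiesOverPrime ℓ) (hn : ¬ ℓ ∣ n) (hn2 : 2 ≤ n) (h : FA_S18_I_Range A n)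
    (z : ↥(modularFunctionFieldFullC (IsLocalRing.ResidueField ↥A) n))
    (hz : IsIntegral (Algebra.adjoin (IsLocalRing.ResidueField ↥A)
      {FA_S18_I_red A n h (FA_S18_I_jinv A n)}) z) :
    z ∈ FA_S18_I_redAlg A n h (FA_S18_H2_Bi n) :=
  FA_S37_RCU_normal_inf' A n M hMn h49 hℓ hA hn hn2 h
    (fun z hz => FA_S37_RED_lift_fin A M n hMn h49 hℓ hA hn h z hz) z hz

end Fermat.Agent.S37
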