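import Fermat.Agent.S37.RedSmall
import Fermat.Agent.S37.RedInst
import Fermat.Agent.S37.MultFinal
import Fermat.Agent.S37.RedHint
import Fermat.Agent.S37.RedCover
import Fermat.Agent.S37.RedFinal

/-!
# S37, leaf RED (file RedTwoFull): the two-chart datum `FA_S37_RED_Two` at level `n`, and `ReductionInputsModL A n`
-/

set_option autoImplicit false
set_option linter.unusedSectionVars false
set_option linter.style.haveILetI false
set_option synthInstance.maxHeartbeats 400000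
set_option maxHeartbeats 4000000

noncomputable section

namespace Fermat.Agent.S37

open ModularCurve AlgebraicCurve IntermediateField FA_RR FA_S18 Fermat.Agent.S18
open IsDedekindDomain

variable (A : ValuationSubring (AlgebraicClosure ℚ)) (n : ℕ) [NeZero n]

/-- **Partial constructor** of `FA_S37_RED_Two` at level `n`: the small fields are filled in;
the remaining ones (`H`, `U`, `hint`, `hcov`) are hypotheses. -/
theorem FA_S37_TF_two_of {ℓ : ℕ} (hℓ : ℓ.Prime) (hA : A.LiesOverPrime ℓ) (hn : ¬ ℓ ∣ n)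
    (h : FA_S18_I_Range A n) :
    haveI := FA_S37_RI_dd_fin n
    haveI := FA_S37_RI_dd_inf n
    haveI := FA_S37_RI_ddb_fin A n hℓ hA hn h
    haveI := FA_S37_RI_ddb_inf A n hℓ hA hn h
    haveI := FA_S37_RI_fr_fin n
    haveI := FA_S37_RI_fr_inf n
    haveI := FA_S37_RI_frb_fin A n hℓ hA hn h
    haveI := FA_S37_RI_frb_inf A n hℓ hA hn h
    ∀ (H₁ : FA_S37_RED_Hyp A (IsLocalRing.residue ↥A) (FA_S37_RI_O A n hℓ hA hn)
        (FA_S37_RI_red A n hℓ hA hn h)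
        ↥(chartRing (AlgebraicClosure ℚ) (FA_S18_A_jbar n))
        ↥(chartRing (IsLocalRing.ResidueField ↥A) (FA_S18_BASE_jb A n h)))
      (H₂ : FA_S37_RED_Hyp A (IsLocalRing.residue ↥A) (FA_S37_RI_O A n hℓ hA hn)
        (FA_S37_RI_red A n hℓ hA hn h)
        ↥(chartRing (AlgebraicClosure ℚ) (FA_S18_A_jbar n)⁻¹)
        ↥(chartRing (IsLocalRing.ResidueField ↥A) (FA_S18_BASE_jb A n h)⁻¹))
      (U₁ : FA_S37_RED_Unif (FA_S37_RI_O A n hℓ hA hn) (FA_S37_RI_red A n hℓ hA hn h)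
        ↥(chartRing (AlgebraicClosure ℚ) (FA_S18_A_jbar n))
        ↥(chartRing (IsLocalRing.ResidueField ↥A) (FA_S18_BASE_jb A n h)))
      (U₂ : FA_S37_RED_Unif (FA_S37_RI_O A n hℓ hA hn) (FA_S37_RI_red A n hℓ hA hn h)
        ↥(chartRing (AlgebraicClosure ℚ) (FA_S18_A_jbar n)⁻¹)
        ↥(chartRing (IsLocalRing.ResidueField ↥A) (FA_S18_BASE_jb A n h)⁻¹))
      (hint₁ : ∀ (w : HeightOneSpectrum ↥(chartRing (AlgebraicClosure ℚ) (FA_S18_A_jbar n)))
        (a : A),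
        (⟨FA_S18_A_jbar n, x_mem_chartRing _⟩ :
            ↥(chartRing (AlgebraicClosure ℚ) (FA_S18_A_jbar n)))
          - algebraMap (AlgebraicClosure ℚ) ↥(chartRing (AlgebraicClosure ℚ) (FA_S18_A_jbar n))
              (a : AlgebraicClosure ℚ) ∈ w.asIdeal →
        ∀ b : ↥(chartRing (AlgebraicClosure ℚ) (FA_S18_A_jbar n)),
          algebraMap ↥(chartRing (AlgebraicClosure ℚ) (FA_S18_A_jbar n))
            ↥(modularFunctionFieldBar n) b ∈ FA_S37_RI_O A n hℓ hA hn →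
          ∀ c : AlgebraicClosure ℚ,
            b - algebraMap (AlgebraicClosure ℚ)
              ↥(chartRing (AlgebraicClosure ℚ) (FA_S18_A_jbar n)) c ∈ w.asIdeal → c ∈ A)
      (hint₂ : ∀ (w : HeightOneSpectrum ↥(chartRing (AlgebraicClosure ℚ) (FA_S18_A_jbar n)⁻¹))
        (a : A),
        (⟨(FA_S18_A_jbar n)⁻¹, x_mem_chartRing _⟩ :
            ↥(chartRing (AlgebraicClosure ℚ) (FA_S18_A_jbar n)⁻¹))
          - algebraMap (AlgebraicClosure ℚ)
              ↥(chartRing (AlgebraicClosure ℚ) (FA_S18_A_jbar n)⁻¹)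
              (a : AlgebraicClosure ℚ) ∈ w.asIdeal →
        ∀ b : ↥(chartRing (AlgebraicClosure ℚ) (FA_S18_A_jbar n)⁻¹),
          algebraMap ↥(chartRing (AlgebraicClosure ℚ) (FA_S18_A_jbar n)⁻¹)
            ↥(modularFunctionFieldBar n) b ∈ FA_S37_RI_O A n hℓ hA hn →
          ∀ c : AlgebraicClosure ℚ,
            b - algebraMap (AlgebraicClosure ℚ)
              ↥(chartRing (AlgebraicClosure ℚ) (FA_S18_A_jbar n)⁻¹) c ∈ w.asIdeal → c ∈ A)
      (hcov₁ : ∀ P : Place (AlgebraicClosure ℚ) ↥(modularFunctionFieldBar n),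
        FA_S18_A_jbar n ∈ P.toValuationSubring →
        ∃ w : HeightOneSpectrum ↥(chartRing (AlgebraicClosure ℚ) (FA_S18_A_jbar n)),
          Place.ofHeightOneSpectrum (K := AlgebraicClosure ℚ)
            (F := ↥(modularFunctionFieldBar n)) w = P)
      (hcov₂ : ∀ P : Place (AlgebraicClosure ℚ) ↥(modularFunctionFieldBar n),
        (FA_S18_A_jbar n)⁻¹ ∈ P.toValuationSubring →
        ∃ w : HeightOneSpectrum ↥(chartRing (AlgebraicClosure ℚ) (FA_S18_A_jbar n)⁻¹),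
          Place.ofHeightOneSpectrum (K := AlgebraicClosure ℚ)
            (F := ↥(modularFunctionFieldBar n)) w = P)
      (hcovb₁ : ∀ Q : Place (IsLocalRing.ResidueField ↥A)
          ↥(modularFunctionFieldFullC (IsLocalRing.ResidueField ↥A) n),
        FA_S18_BASE_jb A n h ∈ Q.toValuationSubring →
        ∃ w : HeightOneSpectrum
            ↥(chartRing (IsLocalRing.ResidueField ↥A) (FA_S18_BASE_jb A n h)),
          Place.ofHeightOneSpectrum (K := IsLocalRing.ResidueField ↥A)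
            (F := ↥(modularFunctionFieldFullC (IsLocalRing.ResidueField ↥A) n)) w = Q)
      (hcovb₂ : ∀ Q : Place (IsLocalRing.ResidueField ↥A)
          ↥(modularFunctionFieldFullC (IsLocalRing.ResidueField ↥A) n),
        (FA_S18_BASE_jb A n h)⁻¹ ∈ Q.toValuationSubring →
        ∃ w : HeightOneSpectrum
            ↥(chartRing (IsLocalRing.ResidueField ↥A) (FA_S18_BASE_jb A n h)⁻¹),
          Place.ofHeightOneSpectrum (K := IsLocalRing.ResidueField ↥A)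
            (F := ↥(modularFunctionFieldFullC (IsLocalRing.ResidueField ↥A) n)) w = Q),
      FA_S37_RED_Two A (IsLocalRing.residue ↥A) (FA_S37_RI_O A n hℓ hA hn)
        (FA_S37_RI_red A n hℓ hA hn h)
        ↥(chartRing (AlgebraicClosure ℚ) (FA_S18_A_jbar n))
        ↥(chartRing (IsLocalRing.ResidueField ↥A) (FA_S18_BASE_jb A n h))
        ↥(chartRing (AlgebraicClosure ℚ) (FA_S18_A_jbar n)⁻¹)
        ↥(chartRing (IsLocalRing.ResidueField ↥A) (FA_S18_BASE_jb A n h)⁻¹)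
        (FA_S18_A_jbar n) (FA_S18_BASE_jb A n h)
        ⟨FA_S18_A_jbar n, x_mem_chartRing _⟩ ⟨(FA_S18_A_jbar n)⁻¹, x_mem_chartRing _⟩
        ⟨FA_S18_BASE_jb A n h, x_mem_chartRing _⟩
        ⟨(FA_S18_BASE_jb A n h)⁻¹, x_mem_chartRing _⟩ := by
  haveI := FA_S37_RI_dd_fin n
  haveI := FA_S37_RI_dd_inf n
  haveI := FA_S37_RI_ddb_fin A n hℓ hA hn h
  haveI := FA_S37_RI_ddb_inf A n hℓ hA hn h
  haveI := FA_S37_RI_fr_fin n
  haveI := FA_S37_RI_fr_inf n
  haveI := FA_S37_RI_frb_fin A n hℓ hA hn h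
  haveI := FA_S37_RI_frb_inf A n hℓ hA hn h
  intro H₁ H₂ U₁ U₂ hint₁ hint₂ hcov₁ hcov₂ hcovb₁ hcovb₂
  refine
    { H₁ := H₁
      H₂ := H₂
      U₁ := U₁
      U₂ := U₂
      hker := ?_
      hnf₁ := ?_
      hnf₂ := ?_
      hx₁ := ?_
      hu₂ := ?_
      hxb₁ := ?_
      hub₂ := ?_
      hxO := ?_
      hredx := ?_
      hxb0 := ?_
      hint₁ := hint₁
      hint₂ := hint₂
      hcov₁ := hcov₁
      hcov₂ := hcov₂
      hcovb₁ := hcovb₁
      hcovb₂ := hcovb₂ }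
  · exact FA_S37_SM_hker A n hℓ hA hn h
  · exact FA_S37_SM_hnf₁ A n h
  · exact FA_S37_SM_hnf₂ A n h
  · exact FA_S37_SM_hx₁ n
  · exact FA_S37_SM_hu₂ n
  · exact FA_S37_SM_hxb₁ A n h
  · exact FA_S37_SM_hub₂ A n h
  · exact FA_S37_SM_hxO A n hℓ hA hn
  · exact FA_S37_SM_hredx A n hℓ hA hn h
  · exact FA_S37_SM_hxb0 A n h

/-- **The two-chart datum at level `n`** (`n` divisible by `M ∈ {4, 9}`). -/
theorem FA_S37_TF_two (M : ℕ) [NeZero M] (hMn : M ∣ n) (h49 : M = 4 ∨ M = 9) {ℓ : ℕ}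
    (hℓ : ℓ.Prime) (hA : A.LiesOverPrime ℓ) (hn : ¬ ℓ ∣ n) (h : FA_S18_I_Range A n) :
    haveI := FA_S37_RI_dd_fin n
    haveI := FA_S37_RI_dd_inf n
    haveI := FA_S37_RI_ddb_fin A n hℓ hA hn h
    haveI := FA_S37_RI_ddb_inf A n hℓ hA hn h
    haveI := FA_S37_RI_fr_fin n
    haveI := FA_S37_RI_fr_inf n
    haveI := FA_S37_RI_frb_fin A n hℓ hA hn h
    haveI := FA_S37_RI_frb_inf A n hℓ hA hn h
    FA_S37_RED_Two A (IsLocalRing.residue ↥A) (FA_S37_RI_O A n hℓ hA hn)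
        (FA_S37_RI_red A n hℓ hA hn h)
        ↥(chartRing (AlgebraicClosure ℚ) (FA_S18_A_jbar n))
        ↥(chartRing (IsLocalRing.ResidueField ↥A) (FA_S18_BASE_jb A n h))
        ↥(chartRing (AlgebraicClosure ℚ) (FA_S18_A_jbar n)⁻¹)
        ↥(chartRing (IsLocalRing.ResidueField ↥A) (FA_S18_BASE_jb A n h)⁻¹)
        (FA_S18_A_jbar n) (FA_S18_BASE_jb A n h)
        ⟨FA_S18_A_jbar n, x_mem_chartRing _⟩ ⟨(FA_S18_A_jbar n)⁻¹, x_mem_chartRing _⟩
        ⟨FA_S18_BASE_jb A n h, x_mem_chartRing _⟩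
        ⟨(FA_S18_BASE_jb A n h)⁻¹, x_mem_chartRing _⟩ := by
  haveI := FA_S37_RI_dd_fin n
  haveI := FA_S37_RI_dd_inf n
  haveI := FA_S37_RI_ddb_fin A n hℓ hA hn h
  haveI := FA_S37_RI_ddb_inf A n hℓ hA hn h
  haveI := FA_S37_RI_fr_fin n
  haveI := FA_S37_RI_fr_inf n
  haveI := FA_S37_RI_frb_fin A n hℓ hA hn h
  haveI := FA_S37_RI_frb_inf A n hℓ hA hn h
  have H₁ := FA_S37_RI_hyp_fin' A n M hMn h49 hℓ hA hn h
  have H₂ := FA_S37_RI_hyp_inf' A n M hMn h49 hℓ hA hn h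
  exact FA_S37_TF_two_of A n hℓ hA hn h H₁ H₂
    (FA_S37_MU_unif_fin A n hℓ hA hn h H₁) (FA_S37_MU_unif_inf A n hℓ hA hn h H₂)
    (FA_S37_HT_fin A n hℓ hA hn (FA_S37_RI_O A n hℓ hA hn) (fun _ => Iff.rfl))
    (FA_S37_HT_inf A n hℓ hA hn (FA_S37_RI_O A n hℓ hA hn) (fun _ => Iff.rfl))
    (FA_S37_COV_fin n) (FA_S37_COV_inf n)
    (FA_S37_COV_finb A n hℓ hA hn h) (FA_S37_COV_infb A n hℓ hA hn h)

/-- **`ReductionInputsModL A n`** at a level `n` divisible by `M ∈ {4, 9}`, `ℓ ∤ n`. -/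
theorem FA_S37_TF_inputs (M : ℕ) [NeZero M] (hMn : M ∣ n) (h49 : M = 4 ∨ M = 9) {ℓ : ℕ}
    (hℓ : ℓ.Prime) (hA : A.LiesOverPrime ℓ) (hn : ¬ ℓ ∣ n) (h : FA_S18_I_Range A n) :
    ReductionInputsModL A n := by
  haveI := FA_S37_RI_dd_fin n
  haveI := FA_S37_RI_dd_inf n
  haveI := FA_S37_RI_ddb_fin A n hℓ hA hn h
  haveI := FA_S37_RI_ddb_inf A n hℓ hA hn h
  haveI := FA_S37_RI_fr_fin n
  haveI := FA_S37_RI_fr_inf n
  haveI := FA_S37_RI_frb_fin A n hℓ hA hn h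
  haveI := FA_S37_RI_frb_inf A n hℓ hA hn h
  exact FA_S37_REDF_of_two A n hℓ hA hn h (FA_S37_TF_two A n M hMn h49 hℓ hA hn h)

end Fermat.Agent.S37
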